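import Fermat.Agent.MLT.Two.ModuleGroupRing

/-!
# The module with diamond coefficients

`g : (ℤ/L)ˣ → G` is a character to a finite abelian `p`-group, `O[G]` its group ring and
`AuxModule` the cohomology of `Γ₀(L)` with the tautological nebentype, localised at the residual
character `θ` of the operators at the primes of `Pr`.  It is finite free over `O[G]` and its
coinvariants are the localised cohomology at level `L` with trivial nebentype.

With `G = Δ × Δ'` and `g = (δ, 1)` this is `M''`; `twistPoly` substitutes `δ'(l) T_l` for `T_l`.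
-/

set_option autoImplicit false

noncomputable section

open scoped MatrixGroups
open CongruenceSubgroup IsLocalRing

namespace FermatLib.MLT

variable {A : Type} [CommRing A] {L : ℕ} {χ χ' : (ZMod L)ˣ →* Aˣ} {V : Type} [AddCommGroup V]
  [Module A V] {S S' : Submonoid (BettiHeckeAlg A)}

/-- Transport along equalities of the character and of the multiplicative set. -/
def BettiLoc.congrData (hχ : χ = χ') (hS : S = S') :
    BettiLoc L χ V S ≃ₗ[BettiHeckeAlg A] BettiLoc L χ' V S' := by
  subst hχ hS; exact LinearEquiv.refl _ _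

theorem heckeDegree_one (hl : Nat.Primes) (hlL : ¬ (hl : ℕ) ∣ L) :
    heckeDegree (1 : (ZMod L)ˣ →* Aˣ) hl = ((hl : ℕ) : A) + 1 := by
  have : ∀ x, heckeWeight (1 : (ZMod L)ˣ →* Aˣ) hl x = 1 := fun x => by simp [heckeWeight]
  rw [heckeDegree, Finset.sum_congr rfl fun x _ => this x, Finset.sum_const, Finset.card_univ,
    Fintype.card_congr (Equiv.subtypeUnivEquiv fun x _ => hlL), Fintype.card_option,
    Fintype.card_fin]
  simp

namespace Two

variable (O : Type) [CommRing O] {G : Type} [CommGroup G] {L : ℕ} {k : Type} [Field k]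

/-- The tautological nebentype. -/
def auxChar (g : (ZMod L)ˣ →* G) : (ZMod L)ˣ →* (MonoidAlgebra O G)ˣ :=
  (groupUnit O G).comp g

variable {O}

/-- The residual character after augmentation. -/
def auxTheta (θ : BettiHeckeAlg O →+* k) : BettiHeckeAlg (MonoidAlgebra O G) →+* k :=
  θ.comp (MvPolynomial.map (groupAug (O := O) (G := G)).toRingHom)

/-- The localised module. -/
abbrev AuxModule (g : (ZMod L)ˣ →* G) (Pr : Set Nat.Primes) (θ : BettiHeckeAlg O →+* k) : Type :=
  BettiLoc L (auxChar O g) (MonoidAlgebra O G) (bettiResidualSubmonoid Pr (auxTheta θ))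

/-- The level-`L` module with trivial nebentype. -/
abbrev LevelModule (L : ℕ) (Pr : Set Nat.Primes) (θ : BettiHeckeAlg O →+* k) : Type :=
  BettiLoc L (1 : (ZMod L)ˣ →* Oˣ) O (bettiResidualSubmonoid Pr θ)

theorem groupAug_auxChar (g : (ZMod L)ˣ →* G) (u : (ZMod L)ˣ) :
    groupAug (auxChar O g u : MonoidAlgebra O G) = 1 := by
  simp [auxChar, groupAug_single]

theorem bettiBaseChar_auxChar (g : (ZMod L)ˣ →* G) :
    letI := (groupAug (O := O) (G := G)).toRingHom.toAlgebra
    bettiBaseChar O (auxChar O g) = (1 : (ZMod L)ˣ →* Oˣ) := by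
  letI := (groupAug (O := O) (G := G)).toRingHom.toAlgebra
  exact MonoidHom.ext fun u => Units.ext (groupAug_auxChar g u)

/-- Reduction to level `L` with trivial nebentype. -/
def auxReduce (g : (ZMod L)ˣ →* G) (Pr : Set Nat.Primes) (θ : BettiHeckeAlg O →+* k) :
    AuxModule g Pr θ →+ LevelModule L Pr θ :=
  letI := (groupAug (O := O) (G := G)).toRingHom.toAlgebra
  (BettiLoc.congrData (bettiBaseChar_auxChar g)
      (bettiResidualSubmonoid_map (A := MonoidAlgebra O G) (B := O) (groupAug_surjective O G)
        Pr θ)).toAddMonoidHom.comp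
    (bettiLocReduce O (auxChar O g) (bettiResidualSubmonoid Pr (auxTheta θ))).toAddMonoidHom

/-- The hypotheses on level, group and residual character. -/
structure AuxHyp (g : (ZMod L)ˣ →* G) (Pr : Set Nat.Primes) (θ : BettiHeckeAlg O →+* k)
    [IsLocalRing O] : Prop where
  neg_one : g (-1) = 1
  residual : ∀ a ∈ maximalIdeal O, θ (MvPolynomial.C a) = 0
  noTwo : NoEllipticTwo O L
  noThree : NoEllipticThree O L
  nonEisenstein : ∃ l : Nat.Primes, l ∈ Pr ∧ ¬ (l : ℕ) ∣ L ∧
    θ (MvPolynomial.X l) ≠ θ (MvPolynomial.C (((l : ℕ) : O) + 1))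
  isPGroup : ∃ p : ℕ, p.Prime ∧ (p : O) ∈ maximalIdeal O ∧ IsPGroup p G

variable [IsLocalRing O] {g : (ZMod L)ˣ →* G} {Pr : Set Nat.Primes} {θ : BettiHeckeAlg O →+* k}

theorem auxChar_neg_one (h : AuxHyp g Pr θ) : auxChar O g (-1) = 1 := by
  rw [auxChar, MonoidHom.comp_apply, h.neg_one, map_one]

theorem AuxHyp.isLocalRing [Finite G] (h : AuxHyp g Pr θ) :
    IsLocalRing (MonoidAlgebra O G) := by
  obtain ⟨p, hp, hpO, hG⟩ := h.isPGroup
  have : Fact p.Prime := ⟨hp⟩
  exact isLocalRing_groupRing O G hpO hG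

theorem AuxHyp.bettiNonEisenstein (h : AuxHyp g Pr θ) :
    BettiNonEisenstein L (auxChar O g) (bettiResidualSubmonoid Pr (auxTheta θ)) := by
  obtain ⟨l, hl, hlL, hne⟩ := h.nonEisenstein
  refine bettiNonEisenstein_residual _ _ l hl ?_
  have hdeg : groupAug (heckeDegree (auxChar O g) l) = ((l : ℕ) : O) + 1 := by
    rw [← heckeDegree_one (A := O) l hlL, heckeDegree, heckeDegree, map_sum]
    exact Finset.sum_congr rfl fun x _ => by simp [heckeWeight, groupAug_auxChar]
  simpa [auxTheta, hdeg] using hne

theorem AuxHyp.ellipticHarmless (h : AuxHyp g Pr θ) :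
    EllipticHarmless L Pr (auxTheta (G := G) θ) := by
  refine Or.inl ⟨h.noTwo.imp_left fun hu => ?_, h.noThree.imp_left fun hu => ?_⟩
  · simpa only [map_ofNat] using hu.map (algebraMap O (MonoidAlgebra O G))
  · simpa only [map_ofNat] using hu.map (algebraMap O (MonoidAlgebra O G))

theorem AuxHyp.bettiRightExact [NeZero L] (h : AuxHyp g Pr θ) :
    BettiRightExact L (auxChar O g) (bettiResidualSubmonoid Pr (auxTheta θ)) :=
  bettiRightExact_residual _ (auxChar_neg_one h) _ h.ellipticHarmless

theorem AuxHyp.auxTheta_C [IsLocalRing (MonoidAlgebra O G)] (h : AuxHyp g Pr θ) :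
    ∀ a ∈ maximalIdeal (MonoidAlgebra O G), auxTheta θ (MvPolynomial.C a) = 0 := fun a ha => by
  rw [auxTheta, RingHom.comp_apply, MvPolynomial.map_C]
  exact h.residual _ (groupAug_mem_maximalIdeal O G ha)

variable [NeZero L] [Finite G] [IsNoetherianRing O] [IsAdicComplete (maximalIdeal O) O]

theorem AuxHyp.auxModule_finite (h : AuxHyp g Pr θ) :
    Module.Finite (MonoidAlgebra O G) (AuxModule g Pr θ) := by
  have := h.isLocalRing
  have := isAdicComplete_groupRing O G
  exact bettiLoc_finite _ _ Pr _ h.auxTheta_C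

/-- The module is free over the group ring. -/
theorem AuxHyp.auxModule_free (h : AuxHyp g Pr θ) :
    Module.Free (MonoidAlgebra O G) (AuxModule g Pr θ) := by
  have := h.isLocalRing
  have := isAdicComplete_groupRing O G
  have := h.auxModule_finite
  exact bettiLoc_free (auxChar_neg_one h) h.bettiNonEisenstein h.bettiRightExact

omit [IsNoetherianRing O] [IsAdicComplete (maximalIdeal O) O] [Finite G] in
theorem AuxHyp.auxReduce_surjective (h : AuxHyp g Pr θ) :
    Function.Surjective (auxReduce g Pr θ) := by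
  letI := (groupAug (O := O) (G := G)).toRingHom.toAlgebra
  show Function.Surjective (BettiLoc.congrData _ _ ∘ bettiLocReduce O _ _)
  exact (LinearEquiv.surjective _).comp
    (bettiLocReduce_surjective (groupAug_surjective O G) h.bettiRightExact)

omit [IsNoetherianRing O] [IsAdicComplete (maximalIdeal O) O] [Finite G] in
theorem AuxHyp.auxModule_nontrivial (h : AuxHyp g Pr θ) [Nontrivial (LevelModule L Pr θ)] :
    Nontrivial (AuxModule g Pr θ) :=
  h.auxReduce_surjective.nontrivial

end Two

end FermatLib.MLT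

end
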