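import Fermat.Agent.MLT.Two.Defs
import Mathlib.Tactic.LinearCombination

/-!
# The cube root of unity of an anchor
-/

set_option autoImplicit false

namespace FermatLib.MLT.Two

variable {k : Type} [Field k] (a : Anchor k)

/-- `ω` is a cube root of unity. -/
theorem Anchor.omega_cube : a.ω ^ 3 = 1 := by linear_combination (a.ω - 1) * a.omega_rel

theorem Anchor.omega_ne_zero : a.ω ≠ 0 := fun h => by
  have := a.omega_rel
  simp [h] at this

theorem Anchor.omega_ne_one : a.ω ≠ 1 := fun h => by
  have := a.omega_rel
  rw [h] at this
  exact one_ne_zero (α := k) (by linear_combination this - a.two_eq_zero)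

end FermatLib.MLT.Two
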