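import Fermat.Agent.MLT.Two.Defs
import Mathlib.RingTheory.Nilpotent.Defs

/-!
# What the Betti side provides at an auxiliary level

`M` is the twisted module `H¹(Γ₀(N ∏ q), O[Δ])_m ⊗ O[Δ']` and `H` its Hecke algebra, with the
twisted operators.  `xi i j` are the two characters of inertia at the `i`-th place, evaluated at
the element `tau i`.
-/

set_option autoImplicit false

noncomputable section

namespace FermatLib.MLT.Two

local notation "Qbar" => AlgebraicClosure ℚ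
local notation "Γℚ" => (AlgebraicClosure ℚ ≃ₐ[ℚ] AlgebraicClosure ℚ)

variable {O : Type} [CommRing O] {k : Type} [Field k] (S : System O k)

/-- The Hecke module of depth `n` at the places `P`, relative to a level polynomial. -/
structure AuxHecke {ι : Type} [Fintype ι] [DecidableEq ι] (n : ℕ) (P : ι → AuxPlace) (pol : MvPolynomial ℕ ℤ) :
    Type 1 where
  H : Type
  [instRing : CommRing H]
  [instAlgebra : Algebra O H]
  [instLocal : IsLocalRing H]
  [instFinite : Module.Finite O H]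
  [instReduced : IsReduced H]
  M : Type
  [instGroup : AddCommGroup M]
  [instModule : Module H M]
  [instModuleO : Module O M]
  [instTower : IsScalarTower O H M]
  torsionFree : ∀ (c : O) (z : H), c • z = 0 → c = 0 ∨ z = 0
  red : H →+* k
  red_algebraMap : ∀ c : O, red (algebraMap O H c) = S.red c
  ker_red : RingHom.ker red = IsLocalRing.maximalIdeal H
  /-- The twisted `T ℓ`. -/
  t : ℕ → H
  /-- The twisted determinant at `ℓ`. -/
  dd : ℕ → H
  ρP : ∀ I : Ideal H, Γℚ →* Matrix (Fin 2) (Fin 2) (H ⧸ I)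
  /-- The properties of the representation at every characteristic zero point. -/
  points : ∀ I : Ideal H, I.IsPrime → (∀ c : O, algebraMap O H c ∈ I → c = 0) →
    (∀ g, ∃ M' : Matrix (Fin 2) (Fin 2) H,
      M'.map (Ideal.Quotient.mk I) = ρP I g ∧ M'.map red = S.anchor.ρ g) ∧
    (∀ m : ℕ, GaloisFactorsThroughFiniteLevel
      ((Ideal.Quotient.mk (Ideal.span {(2 : H ⧸ I) ^ m})).mapMatrix.toMonoidHom.comp (ρP I))) ∧
    (∀ m : ℕ, FermatLib.Galois.FlatModel.HasModelAt 2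
      (Fin 2 → (H ⧸ I) ⧸ Ideal.span {(2 : H ⧸ I) ^ m}) fun g v =>
        ((ρP I g).map (Ideal.Quotient.mk (Ideal.span {(2 : H ⧸ I) ^ m}))).mulVec v) ∧
    (∀ q : ℕ, q.Prime → q ≠ 2 → ¬ q ∣ S.anchor.N → (∀ i, (P i).q ≠ q) →
      ∀ A : ValuationSubring Qbar, A.LiesOverPrime q → ∀ τ ∈ A.inertiaSubgroupIn ℚ,
        ρP I τ = 1) ∧
    (∀ q : ℕ, q.Prime → q ∣ S.anchor.N → ∀ A : ValuationSubring Qbar, A.LiesOverPrime q →
      ∀ τ ∈ A.inertiaSubgroupIn ℚ, ∀ τ' ∈ A.inertiaSubgroupIn ℚ,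
        (ρP I τ - 1) * (ρP I τ' - 1) = 0) ∧
    ∀ ℓ : ℕ, ℓ.Prime → ¬ ℓ ∣ 2 * S.anchor.N → (∀ i, (P i).q ≠ ℓ) →
      ∀ A : ValuationSubring Qbar, A.LiesOverPrime ℓ → ∀ F : Γℚ, A.IsFrobeniusAt F ℓ →
        (ρP I F).trace = Ideal.Quotient.mk I (t ℓ) ∧ (ρP I F).det = Ideal.Quotient.mk I (dd ℓ)
  tau : ι → Γℚ
  tau_mem : ∀ i, tau i ∈ (P i).A.inertiaSubgroupIn ℚ
  xi : ι → Fin 2 → H
  xi_pow : ∀ i j, xi i j ^ 2 ^ n = 1
  inertia : ∀ I : Ideal H, I.IsPrime → (∀ c : O, algebraMap O H c ∈ I → c = 0) → ∀ i,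
    (ρP I (tau i)).trace = Ideal.Quotient.mk I (xi i 0 + xi i 1) ∧
    (ρP I (tau i)).det = Ideal.Quotient.mk I (xi i 0 * xi i 1)
  d : ℕ
  d_pos : 0 < d
  gen : Fin d → M
  free : Function.Bijective fun c : Fin d → (ι → Fin 2 → Fin (2 ^ n)) → O =>
    ∑ l, ∑ e : ι → Fin 2 → Fin (2 ^ n),
      c l e • ((∏ i, ∏ j, xi i j ^ (e i j : ℕ)) • gen l)
  /-- The level polynomial, times the factors killing forms new at the places, vanishes on the
  untwisted quotient. -/
  kills : ∀ u : ι → H, (∀ I : Ideal H, I.IsPrime → (∀ c : O, algebraMap O H c ∈ I → c = 0) →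
      ∀ i, Ideal.Quotient.mk I (u i) = (ρP I (P i).F).trace) →
    ∀ v : M, ((∏ i, (u i ^ 2 - (((P i).q + 1 : ℕ) : H) ^ 2)) * MvPolynomial.aeval t pol) • v ∈
      Ideal.span (Set.range fun p : ι × Fin 2 => xi p.1 p.2 - 1) • (⊤ : Submodule H M)

attribute [instance] AuxHecke.instRing AuxHecke.instAlgebra AuxHecke.instLocal
  AuxHecke.instFinite AuxHecke.instReduced AuxHecke.instGroup AuxHecke.instModule
  AuxHecke.instModuleO AuxHecke.instTower

end FermatLib.MLT.Two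

end
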