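import Fermat.Agent.MLT.Two.AuxRingRep

/-!
# A finite flat model for the trace algebra modulo a power of 2

Some quotient of the trace algebra by an ideal inside `2` embeds, with its representation, into
the product of the levels of the points and of the curve, all of which have models.
-/

set_option autoImplicit false

noncomputable section

open IsLocalRing Matrix

namespace FermatLib.MLT.Two

open FermatLib.Galois.FlatModel (HasModel)

local notation "Qbar" => AlgebraicClosure ℚ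
local notation "Γℚ" => (AlgebraicClosure ℚ ≃ₐ[ℚ] AlgebraicClosure ℚ)
local notation "M₂" R:max => Matrix (Fin 2) (Fin 2) R

section equivariance

variable {R C T : Type} [CommRing R] [CommRing C] [CommRing T] {J : Ideal R}

/-- A change of frame intertwines the reductions of two conjugate matrices. -/
theorem frame_mulVec (f : R →+* C) (u : C →+* T) (g : R ⧸ J →+* T)
    (hg : g.comp (Ideal.Quotient.mk J) = u.comp f) (Q : M₂ C) {X : M₂ C} {Y : M₂ R}
    (h : X * Q = Q * Y.map f) (v : Fin 2 → R ⧸ J) :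
    Q.map u *ᵥ (fun i => g ((Y.map (Ideal.Quotient.mk J) *ᵥ v) i)) =
      X.map u *ᵥ (Q.map u *ᵥ fun i => g (v i)) := by
  have e : (fun i => g ((Y.map (Ideal.Quotient.mk J) *ᵥ v) i)) =
      (Y.map f).map u *ᵥ fun i => g (v i) := by
    funext i
    rw [RingHom.map_mulVec, Matrix.map_map, Matrix.map_map, ← RingHom.coe_comp, hg]
    rfl
  rw [e, Matrix.mulVec_mulVec, Matrix.mulVec_mulVec, ← Matrix.map_mul, ← Matrix.map_mul, h]

/-- Vectors in a frame, componentwise reduced. -/
def frameHom (g : R ⧸ J →+* T) (M : M₂ T) : (Fin 2 → R ⧸ J) →+ (Fin 2 → T) :=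
  AddMonoidHom.mk' (fun v => M *ᵥ fun i => g (v i)) fun v w =>
    (congrArg _ (funext fun i => map_add g (v i) (w i))).trans (Matrix.mulVec_add _ _ _)

/-- An invertible frame sees all components. -/
theorem eq_of_frameHom_eq (g : R ⧸ J →+* T) (u : C →+* T) (Q : (M₂ C)ˣ) {v w : Fin 2 → R ⧸ J}
    (h : frameHom g (Q.1.map u) v = frameHom g (Q.1.map u) w) (i : Fin 2) : g (v i) = g (w i) :=
  congrFun (Matrix.mulVec_injective_of_isUnit ((Q.isUnit.map u.mapMatrix :))
    (show Q.1.map u *ᵥ (fun i => g (v i)) = Q.1.map u *ᵥ fun i => g (w i) from h)) i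

end equivariance

namespace AuxHecke

variable {O : Type} [CommRing O] [IsNoetherianRing O] [IsLocalRing O]
  [IsAdicComplete (maximalIdeal O) O] {k : Type} [Field k]
  {S : System O k} {ι : Type} [Fintype ι] [DecidableEq ι] {n : ℕ} {P : ι → AuxPlace}
  {pol : MvPolynomial ℕ ℤ} (D : AuxHecke S n P pol) [IsLocalRing D.traceAlg]
  {π : D.traceAlg →ₐ[O] ResidueField O} {ρR : Γℚ →* M₂ D.traceAlg}
  (hres : ∀ g, (ρR g).map π = S.resRep g) (htr : ∀ g, (ρR g).trace = D.tR g)

/-- All components, modulo `2 ^ m`. -/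
def compMod (m : ℕ) : D.traceAlg →+*
    (∀ p : D.Point, (D.H ⧸ p.1) ⧸ Ideal.span {(2 : D.H ⧸ p.1) ^ m}) ×
      (O ⧸ Ideal.span {(2 : O) ^ m}) :=
  RingHom.prod (RingHom.pi fun p => (Ideal.Quotient.mk _).comp (D.compPoint p))
    ((Ideal.Quotient.mk _).comp D.compCurve)

omit [IsAdicComplete (maximalIdeal O) O] [IsLocalRing D.traceAlg] in
theorem exists_ker_compMod_le :
    ∃ m : ℕ, RingHom.ker (D.compMod m) ≤ Ideal.span {(2 : D.traceAlg)} := by
  obtain ⟨c, hc⟩ := exists_dvd_shift D.embComp.toLinearMap D.embComp_injective (2 : O)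
  refine ⟨1 + c, fun x hx => ?_⟩
  rw [RingHom.mem_ker] at hx
  have h1 : ∀ p : D.Point, D.compPoint p x ∈ Ideal.span {(2 : D.H ⧸ p.1) ^ (1 + c)} := fun p =>
    Ideal.Quotient.eq_zero_iff_mem.mp (congrFun (congrArg Prod.fst hx) p)
  have h2 : D.compCurve x ∈ Ideal.span {(2 : O) ^ (1 + c)} :=
    Ideal.Quotient.eq_zero_iff_mem.mp (congrArg Prod.snd hx :)
  choose y hy using fun p => Ideal.mem_span_singleton'.mp (h1 p)
  obtain ⟨y', hy'⟩ := Ideal.mem_span_singleton'.mp h2
  obtain ⟨z, rfl⟩ := hc 1 x ⟨(y, y'), Prod.ext (funext fun p => by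
      rw [Prod.smul_fst, Pi.smul_apply, Algebra.smul_def, map_pow, map_ofNat, mul_comm, hy p]
      rfl) (by
      rw [Prod.smul_snd, smul_eq_mul, mul_comm, hy']
      rfl)⟩
  rw [Algebra.smul_def, map_pow, map_ofNat, pow_one]
  exact Ideal.mul_mem_right _ _ (Ideal.mem_span_singleton_self _)

include hres htr in
/-- **Flatness of the trace algebra at 2.** -/
theorem exists_model_traceAlg : ∃ J : Ideal D.traceAlg, J ≤ Ideal.span {(2 : D.traceAlg)} ∧
    FermatLib.Galois.FlatModel.HasModelAt 2 (Fin 2 → D.traceAlg ⧸ J)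
      fun g v => ((ρR g).map (Ideal.Quotient.mk J)).mulVec v := by
  classical
  have := Fintype.ofFinite D.Point
  obtain ⟨m, hm⟩ := D.exists_ker_compMod_le
  refine ⟨_, hm, ?_⟩
  choose Q hQ using fun p => D.exists_conj_point hres htr p
  obtain ⟨Q', hQ'⟩ := D.exists_conj_curve hres htr
  have hQm : ∀ p g, D.ρP p.1 g * (Q p).1 = (Q p).1 * (ρR g).map (D.compPoint p) := fun p g => by
    rw [hQ p g, mul_assoc, Units.inv_mul, mul_one]
  have hQm' : ∀ g, S.ρ g * Q'.1 = Q'.1 * (ρR g).map D.compCurve := fun g => by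
    rw [hQ' g, mul_assoc, Units.inv_mul, mul_one]
  let F := RingHom.kerLift (D.compMod m)
  let fp : ∀ p : D.Point, D.traceAlg ⧸ RingHom.ker (D.compMod m) →+*
      (D.H ⧸ p.1) ⧸ Ideal.span {(2 : D.H ⧸ p.1) ^ m} := fun p =>
    ((Pi.evalRingHom _ p).comp (RingHom.fst _ _)).comp F
  let fO : D.traceAlg ⧸ RingHom.ker (D.compMod m) →+* O ⧸ Ideal.span {(2 : O) ^ m} :=
    (RingHom.snd _ _).comp F
  let Φ : (Fin 2 → D.traceAlg ⧸ RingHom.ker (D.compMod m)) →+
      (∀ p : D.Point, Fin 2 → (D.H ⧸ p.1) ⧸ Ideal.span {(2 : D.H ⧸ p.1) ^ m}) ×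
        (Fin 2 → O ⧸ Ideal.span {(2 : O) ^ m}) :=
    (AddMonoidHom.pi fun p => frameHom (fp p) ((Q p).1.map (Ideal.Quotient.mk _))).prod
      (frameHom fO (Q'.1.map (Ideal.Quotient.mk _)))
  refine (HasModel.prod (hasModelAt_pi (p := 2) _ fun p : D.Point =>
    (D.points p.1 p.2.1 p.2.2).2.2.1 m) (S.flat m)).of_injective Φ ?_ fun σ v => ?_
  · intro v w hvw
    funext i
    refine RingHom.kerLift_injective (D.compMod m) (Prod.ext (funext fun p => ?_) ?_)
    · have e : frameHom (fp p) ((Q p).1.map (Ideal.Quotient.mk _)) v =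
          frameHom (fp p) ((Q p).1.map (Ideal.Quotient.mk _)) w :=
        congrFun (congrArg Prod.fst hvw) p
      exact eq_of_frameHom_eq _ _ _ e i
    · have e : frameHom fO (Q'.1.map (Ideal.Quotient.mk _)) v =
          frameHom fO (Q'.1.map (Ideal.Quotient.mk _)) w := congrArg Prod.snd hvw
      exact eq_of_frameHom_eq _ _ _ e i
  · refine Prod.ext (funext fun p => ?_) ?_
    · exact frame_mulVec (D.compPoint p) _ (fp p) (RingHom.ext fun x => rfl) _ (hQm p σ) v
    · exact frame_mulVec D.compCurve _ fO (RingHom.ext fun x => rfl) _ (hQm' σ) v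

end AuxHecke

end FermatLib.MLT.Two

end
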