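import Fermat.Agent.MLT.Two.RingCocycle
import Fermat.Agent.Galois.RepDescentAdic
import Fermat.Prelude.Thm_IsLocalRing_isAdicComplete_of_module_finite
import Mathlib.RingTheory.Filtration

/-!
# The ring generated by traces and its representation

Inside a finite algebra `A` over a complete discrete valuation ring `𝒪`, the subalgebra generated by
the values of a trace function (and finitely many further elements), all congruent to constants
modulo every maximal ideal, is a complete local ring.  The trace function is the trace of a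
continuous representation over it with a prescribed residual representation.
-/

set_option autoImplicit false

noncomputable section

open IsLocalRing Matrix
open FermatLib.Galois.Deform (GQ MatCont)

namespace FermatLib.MLT.Two

variable {𝒪 : Type} [CommRing 𝒪] [IsLocalRing 𝒪]
variable {A : Type} [CommRing A] [Algebra 𝒪 A]

local notation "M₂" S:max => Matrix (Fin 2) (Fin 2) S

/-- `x` is congruent to `c` modulo every maximal ideal. -/
def ResConst (x : A) (c : 𝒪) : Prop :=
  ∀ I : Ideal A, I.IsMaximal → x - algebraMap 𝒪 A c ∈ I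

variable [Module.Finite 𝒪 A]

lemma comap_maximal_eq (I : Ideal A) [I.IsMaximal] :
    I.comap (algebraMap 𝒪 A) = maximalIdeal 𝒪 :=
  haveI : Algebra.IsIntegral 𝒪 A := Algebra.IsIntegral.of_finite 𝒪 A
  IsLocalRing.eq_maximalIdeal (Ideal.isMaximal_comap_of_isIntegral_of_isMaximal I)

variable [Nontrivial A]

lemma ResConst.residue_eq {x : A} {c c' : 𝒪} (h : ResConst x c) (h' : ResConst x c') :
    residue 𝒪 c = residue 𝒪 c' := by
  obtain ⟨I, hI⟩ := Ideal.exists_maximal A
  have := I.sub_mem (h' I hI) (h I hI)
  rw [sub_sub_sub_cancel_left, ← map_sub, ← Ideal.mem_comap, comap_maximal_eq I,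
    ← residue_eq_zero_iff, map_sub, sub_eq_zero] at this
  exact this

/-- A subalgebra generated by elements congruent to constants is a local ring with residue field
that of `𝒪`. -/
theorem exists_residue_of_resConst (s : Set A) (hs : ∀ a ∈ s, ∃ c : 𝒪, ResConst a c) :
    ∃ (_ : IsLocalRing (Algebra.adjoin 𝒪 s)) (π : Algebra.adjoin 𝒪 s →ₐ[𝒪] ResidueField 𝒪),
      ∀ (x : Algebra.adjoin 𝒪 s) (c : 𝒪), ResConst (x : A) c → π x = residue 𝒪 c := by
  set S := Algebra.adjoin 𝒪 s
  have hall : ∀ x : S, ∃ c : 𝒪, ResConst (x : A) c := by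
    rintro ⟨x, hx⟩
    induction hx using Algebra.adjoin_induction with
    | mem a ha => exact hs a ha
    | algebraMap c => exact ⟨c, fun I _ => by simp⟩
    | add a b _ _ ha hb =>
      obtain ⟨c, hc⟩ := ha; obtain ⟨d, hd⟩ := hb
      refine ⟨c + d, fun I hI => ?_⟩
      have := I.add_mem (hc I hI) (hd I hI)
      rwa [map_add, add_sub_add_comm]
    | mul a b _ _ ha hb =>
      obtain ⟨c, hc⟩ := ha; obtain ⟨d, hd⟩ := hb
      refine ⟨c * d, fun I hI => ?_⟩
      have := I.add_mem (I.mul_mem_right b (hc I hI)) (I.mul_mem_left (algebraMap 𝒪 A c) (hd I hI))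
      convert this using 1
      simp only [map_mul]
      ring
  choose c hc using hall
  have huniq : ∀ (x : S) (d : 𝒪), ResConst (x : A) d → residue 𝒪 (c x) = residue 𝒪 d :=
    fun x d hd => (hc x).residue_eq hd
  let π : S →ₐ[𝒪] ResidueField 𝒪 :=
    { toFun := fun x => residue 𝒪 (c x)
      map_one' := (huniq 1 1 fun I _ => by simp).trans (map_one _)
      map_zero' := (huniq 0 0 fun I _ => by simp).trans (map_zero _)
      map_add' := fun x y => by
        rw [← map_add]
        refine huniq _ _ fun I hI => ?_
        rw [Subalgebra.coe_add, map_add, add_sub_add_comm]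
        exact I.add_mem (hc x I hI) (hc y I hI)
      map_mul' := fun x y => by
        rw [← map_mul]
        refine huniq _ _ fun I hI => ?_
        have := I.add_mem (I.mul_mem_right (y : A) (hc x I hI))
          (I.mul_mem_left (algebraMap 𝒪 A (c x)) (hc y I hI))
        convert this using 1
        simp only [Subalgebra.coe_mul, map_mul]
        ring
      commutes' := fun d => huniq _ d fun I _ => by simp }
  have hint : Algebra.IsIntegral 𝒪 A := Algebra.IsIntegral.of_finite 𝒪 A
  haveI : Algebra.IsIntegral S A := Algebra.IsIntegral.tower_top 𝒪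
  have hunit : ∀ x : S, π x ≠ 0 → IsUnit x := by
    intro x hx
    have hxA : IsUnit (x : A) := by
      by_contra hnu
      obtain ⟨I, hI, hxI⟩ := exists_max_ideal_of_mem_nonunits hnu
      have := I.sub_mem hxI (hc x I hI)
      rw [sub_sub_cancel, ← Ideal.mem_comap, comap_maximal_eq I, ← residue_eq_zero_iff] at this
      exact hx this
    haveI : IsLocalHom (algebraMap S A) :=
      (algebraMap_isIntegral_iff.mpr inferInstance).isLocalHom
        (fun a b h => Subtype.ext h)
    exact isUnit_of_map_unit (algebraMap S A) x hxA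
  haveI : Nontrivial S := π.toRingHom.domain_nontrivial
  refine ⟨IsLocalRing.of_isUnit_or_isUnit_one_sub_self fun x => ?_, π, huniq⟩
  by_cases h : π x = 0
  · exact Or.inr (hunit _ (by rw [map_sub, map_one, h, sub_zero]; exact one_ne_zero))
  · exact Or.inl (hunit _ h)

omit [Nontrivial A] in
lemma isLocalHom_of_residue {S : Type} [CommRing S] [Algebra 𝒪 S]
    (π : S →ₐ[𝒪] ResidueField 𝒪) : IsLocalHom (algebraMap 𝒪 S) := by
  refine ⟨fun c hc => ?_⟩
  have := hc.map π
  rw [AlgHom.commutes, ResidueField.algebraMap_eq] at this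
  exact isUnit_of_map_unit (residue 𝒪) c this

section Complete

variable [IsNoetherianRing 𝒪] [IsAdicComplete (maximalIdeal 𝒪) 𝒪]

omit [Nontrivial A] in
/-- A local subalgebra with residue field that of `𝒪` is complete noetherian, finite over `𝒪`. -/
theorem isAdicComplete_subalgebra (S : Subalgebra 𝒪 A) [IsLocalRing S]
    (π : S →ₐ[𝒪] ResidueField 𝒪) :
    Module.Finite 𝒪 S ∧ IsNoetherianRing S ∧ IsAdicComplete (maximalIdeal S) S ∧
      IsLocalHom (algebraMap 𝒪 S) := by
  haveI hf : Module.Finite 𝒪 S := Module.Finite.of_injective S.val.toLinearMap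
    (fun a b h => Subtype.ext h)
  haveI hl : IsLocalHom (algebraMap 𝒪 S) := isLocalHom_of_residue π
  exact ⟨hf, IsNoetherianRing.of_finite 𝒪 S, IsLocalRing.isAdicComplete_of_module_finite (𝒪 := 𝒪), hl⟩

end Complete

end FermatLib.MLT.Two

end
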