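import Fermat.Agent.MLT.Two.AuxRingPoints
import Fermat.Agent.MLT.Two.RingTrace

/-!
# The algebra of traces inside `H × O`

The traces and determinants of the points and of the curve generate a subalgebra of `H × O`;
all of them are congruent to constants lifting those of the residual representation.
-/

set_option autoImplicit false

noncomputable section

open IsLocalRing Matrix

namespace FermatLib.MLT.Two

local notation "Qbar" => AlgebraicClosure ℚ
local notation "Γℚ" => (AlgebraicClosure ℚ ≃ₐ[ℚ] AlgebraicClosure ℚ)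

section CoefficientSystem

variable {O : Type} [CommRing O] [IsLocalRing O] {k : Type} [Field k] (S : System O k)

include S in
theorem System.maximalIdeal_eq : maximalIdeal O = Ideal.span {(2 : O)} := by
  rw [← S.ker_red]
  exact (IsLocalRing.eq_maximalIdeal
    (RingHom.ker_isMaximal_of_surjective _ S.red_surjective)).symm

theorem System.ker_red_eq : RingHom.ker S.red = maximalIdeal O :=
  IsLocalRing.eq_maximalIdeal (RingHom.ker_isMaximal_of_surjective _ S.red_surjective)

/-- The reduction, on the residue field. -/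
def System.kappaHom : ResidueField O →+* k :=
  Ideal.Quotient.lift (maximalIdeal O) S.red fun a ha => by
    rwa [← RingHom.mem_ker, S.ker_red_eq]

/-- The residue field of the coefficients is `k`. -/
def System.kappa : ResidueField O ≃+* k :=
  RingEquiv.ofBijective S.kappaHom ⟨S.kappaHom.injective, fun x =>
    (S.red_surjective x).elim fun c hc => ⟨residue O c, hc⟩⟩

theorem System.kappa_residue (c : O) : S.kappa (residue O c) = S.red c := rfl

include S in
theorem System.finite_residueField [Finite k] : Finite (ResidueField O) :=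
  Finite.of_equiv k S.kappa.symm.toEquiv

/-- The anchor representation over the residue field of the coefficients. -/
def System.resRep : Γℚ →* Matrix (Fin 2) (Fin 2) (ResidueField O) :=
  FermatLib.Galois.repMap S.kappa.symm.toRingHom S.anchor.ρ

theorem System.resRep_map (g : Γℚ) : (S.resRep g).map S.kappa = S.anchor.ρ g := by
  ext i j
  exact S.kappa.apply_symm_apply _

theorem System.map_residue_rho (g : Γℚ) : (S.ρ g).map (residue O) = S.resRep g := by
  ext i j
  refine S.kappa.injective ?_
  rw [Matrix.map_apply, kappa_residue, ← Matrix.map_apply (f := S.red), S.map_eq, ← resRep_map]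
  rfl

/-- The residual representation is absolutely irreducible. -/
theorem System.hasFullSpan_resRep : FermatLib.Galois.HasFullSpan S.resRep := by
  obtain ⟨a, ha⟩ := S.anchor.exists_rot
  obtain ⟨b, hb⟩ := S.anchor.exists_swap
  refine FermatLib.Galois.HasFullSpan.repMap ⟨![1, a, b, a * b], ?_⟩ _
  have h2 := S.anchor.two_eq_zero
  have hω := S.anchor.omega_rel
  refine Matrix.isUnit_det_of_right_inverse
    (B := !![1, -1, 0, 0; -1, 0, 0, 0; 0, 0, 0, -1; 0, 0, -1, 0]) ?_
  ext i j
  fin_cases i <;> fin_cases j <;>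
    simp [FermatLib.Galois.repGram, Matrix.mul_apply, Fin.sum_univ_four, Matrix.trace_fin_two,
      map_mul, ha, hb, rotMat, swapMat] <;>
    grind

end CoefficientSystem

namespace AuxHecke

variable {O : Type} [CommRing O] [IsNoetherianRing O] [IsLocalRing O] {k : Type} [Field k]
  {S : System O k} {ι : Type} [Fintype ι] [DecidableEq ι] {n : ℕ} {P : ι → AuxPlace}
  {pol : MvPolynomial ℕ ℤ} (D : AuxHecke S n P pol)

/-- The trace, in `H × O`. -/
def tauA (g : Γℚ) : D.H × O := (D.traceH g, (S.ρ g).trace)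

/-- The determinant, in `H × O`. -/
def deltaA (g : Γℚ) : D.H × O := (D.detH g, (S.ρ g).det)

omit [IsNoetherianRing O] in
theorem resConst_of_red {x : D.H × O} {c : O} (h1 : D.red x.1 = S.red c)
    (h2 : residue O x.2 = residue O c) : ResConst x c := by
  intro I hI
  have hx1 : x.1 - algebraMap O D.H c ∈ maximalIdeal D.H := by
    rw [← D.ker_red, RingHom.mem_ker, map_sub, D.red_algebraMap, h1, sub_self]
  have hx2 : x.2 - c ∈ maximalIdeal O := by
    rw [← residue_eq_zero_iff, map_sub, h2, sub_self]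
  rcases (Ideal.ideal_prod_prime I).mp hI.isPrime with ⟨p, hp, rfl⟩ | ⟨p, hp, rfl⟩
  · have hne : Ideal.prod (maximalIdeal D.H) (⊤ : Ideal O) ≠ ⊤ := fun htop =>
      (maximalIdeal.isMaximal D.H).ne_top ((Ideal.eq_top_iff_one _).mpr
        ((Ideal.mem_prod _ _).mp ((Ideal.eq_top_iff_one _).mp htop)).1)
    rw [hI.eq_of_le hne fun y hy => (Ideal.mem_prod _ _).mpr
      ⟨IsLocalRing.le_maximalIdeal hp.ne_top ((Ideal.mem_prod _ _).mp hy).1, Submodule.mem_top⟩]
    exact (Ideal.mem_prod _ _).mpr ⟨hx1, Submodule.mem_top⟩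
  · have hne : Ideal.prod (⊤ : Ideal D.H) (maximalIdeal O) ≠ ⊤ := fun htop =>
      (maximalIdeal.isMaximal O).ne_top ((Ideal.eq_top_iff_one _).mpr
        ((Ideal.mem_prod _ _).mp ((Ideal.eq_top_iff_one _).mp htop)).2)
    rw [hI.eq_of_le hne fun y hy => (Ideal.mem_prod _ _).mpr
      ⟨Submodule.mem_top, IsLocalRing.le_maximalIdeal hp.ne_top ((Ideal.mem_prod _ _).mp hy).2⟩]
    exact (Ideal.mem_prod _ _).mpr ⟨Submodule.mem_top, hx2⟩

theorem resConst_tauA (g : Γℚ) {c : O} (hc : residue O c = (S.resRep g).trace) :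
    ResConst (D.tauA g) c := by
  refine D.resConst_of_red ?_ ?_
  · rw [show (D.tauA g).1 = D.traceH g from rfl, red_traceH, ← S.kappa_residue, hc,
      ← S.resRep_map g]
    exact (map_trace_fin_two S.kappa.toRingHom _).symm
  · rw [show (D.tauA g).2 = (S.ρ g).trace from rfl, map_trace_fin_two, S.map_residue_rho, hc]

theorem resConst_deltaA (g : Γℚ) {c : O} (hc : residue O c = (S.resRep g).det) :
    ResConst (D.deltaA g) c := by
  refine D.resConst_of_red ?_ ?_
  · rw [show (D.deltaA g).1 = D.detH g from rfl, red_detH, ← S.kappa_residue, hc,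
      ← S.resRep_map g]
    exact (RingHom.map_det S.kappa.toRingHom _).symm
  · rw [show (D.deltaA g).2 = (S.ρ g).det from rfl, RingHom.map_det]
    exact (congrArg Matrix.det (S.map_residue_rho g)).trans hc.symm

/-- The algebra generated by traces and determinants. -/
abbrev traceAlg : Subalgebra O (D.H × O) :=
  Algebra.adjoin O (Set.range D.tauA ∪ Set.range D.deltaA)

/-- The trace, in the trace algebra. -/
def tR (g : Γℚ) : D.traceAlg := ⟨D.tauA g, Algebra.subset_adjoin (Or.inl ⟨g, rfl⟩)⟩

/-- The determinant, in the trace algebra. -/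
def dR (g : Γℚ) : D.traceAlg := ⟨D.deltaA g, Algebra.subset_adjoin (Or.inr ⟨g, rfl⟩)⟩

theorem exists_residue_traceAlg :
    ∃ (_ : IsLocalRing D.traceAlg) (π : D.traceAlg →ₐ[O] ResidueField O),
      (∀ g, π (D.tR g) = (S.resRep g).trace) ∧ ∀ g, π (D.dR g) = (S.resRep g).det := by
  obtain ⟨hloc, π, hπ⟩ := exists_residue_of_resConst (Set.range D.tauA ∪ Set.range D.deltaA) (by
    rintro _ (⟨g, rfl⟩ | ⟨g, rfl⟩)
    · obtain ⟨c, hc⟩ := residue_surjective (S.resRep g).trace
      exact ⟨c, D.resConst_tauA g hc⟩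
    · obtain ⟨c, hc⟩ := residue_surjective (S.resRep g).det
      exact ⟨c, D.resConst_deltaA g hc⟩)
  refine ⟨hloc, π, fun g => ?_, fun g => ?_⟩
  · obtain ⟨c, hc⟩ := residue_surjective (S.resRep g).trace
    rw [hπ (D.tR g) c (D.resConst_tauA g hc), hc]
  · obtain ⟨c, hc⟩ := residue_surjective (S.resRep g).det
    rw [hπ (D.dR g) c (D.resConst_deltaA g hc), hc]

/-- The components of the trace algebra at all points and at the curve. -/
def embComp : D.traceAlg →ₐ[O] (∀ p : D.Point, D.H ⧸ p.1) × O :=
  ((D.evalPoints.comp (AlgHom.fst O D.H O)).prod (AlgHom.snd O D.H O)).comp D.traceAlg.val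

theorem embComp_injective : Function.Injective D.embComp := fun _ _ h =>
  Subtype.ext (Prod.ext (D.evalPoints_injective (congrArg Prod.fst h)) (congrArg Prod.snd h :))

/-- All representations at once. -/
def repComp : Γℚ →* Matrix (Fin 2) (Fin 2) ((∀ p : D.Point, D.H ⧸ p.1) × O) where
  toFun g := Matrix.of fun i j => (fun p => D.ρP p.1 g i j, S.ρ g i j)
  map_one' := by
    ext i j <;> fin_cases i <;> fin_cases j <;> simp
  map_mul' g h := by
    ext i j <;> simp [Matrix.mul_apply, Fin.sum_univ_two]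

theorem embComp_tR (g : Γℚ) : D.embComp (D.tR g) = (D.repComp g).trace := by
  refine Prod.ext (funext fun p => ?_) ?_
  · show Ideal.Quotient.mk p.1 (D.traceH g) = _
    rw [mk_traceH]
    simp [repComp, Matrix.trace_fin_two]
  · show (S.ρ g).trace = _
    simp [repComp, Matrix.trace_fin_two]

theorem embComp_dR (g : Γℚ) : D.embComp (D.dR g) = (D.repComp g).det := by
  refine Prod.ext (funext fun p => ?_) ?_
  · show Ideal.Quotient.mk p.1 (D.detH g) = _
    rw [mk_detH]
    simp [repComp, Matrix.det_fin_two]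
  · show (S.ρ g).det = _
    simp [repComp, Matrix.det_fin_two]

/-- The traces are congruent along finite levels, inside the trace algebra. -/
theorem exists_level_tR (m : ℕ) :
    ∃ L : IntermediateField ℚ Qbar, FiniteDimensional ℚ L ∧ ∀ σ : Γℚ, (∀ x ∈ L, σ x = x) →
      ∀ g, D.tR (g * σ) - D.tR g ∈ Ideal.span {(2 : D.traceAlg) ^ m} := by
  obtain ⟨c, hc⟩ := exists_dvd_shift D.traceAlg.val.toLinearMap Subtype.val_injective (2 : O)
  obtain ⟨L, hL, h⟩ := D.exists_level_traceH (m + c)
  obtain ⟨L', hL', h'⟩ := S.finiteLevel (m + c)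
  refine ⟨L ⊔ L', inferInstance, fun σ hσ g => ?_⟩
  obtain ⟨⟨z, hz⟩, -⟩ := h σ (fun x hx => hσ x (le_sup_left (α := IntermediateField ℚ Qbar) hx)) g
  have h1 : (Ideal.Quotient.mk (Ideal.span {(2 : O) ^ (m + c)})).mapMatrix (S.ρ σ) = 1 :=
    h' σ fun x hx => hσ x (le_sup_right (α := IntermediateField ℚ Qbar) hx)
  have h2 : (S.ρ (g * σ)).map (Ideal.Quotient.mk (Ideal.span {(2 : O) ^ (m + c)})) =
      (S.ρ g).map (Ideal.Quotient.mk (Ideal.span {(2 : O) ^ (m + c)})) := by
    show (Ideal.Quotient.mk _).mapMatrix _ = (Ideal.Quotient.mk _).mapMatrix _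
    rw [map_mul, map_mul, h1, mul_one]
  obtain ⟨z', hz'⟩ := Ideal.mem_span_singleton'.mp (trace_sub_mem_of_map_eq _ h2)
  obtain ⟨w, hw⟩ := hc m (D.tR (g * σ) - D.tR g) ⟨(z, z'), Prod.ext hz (by
    show (S.ρ (g * σ)).trace - (S.ρ g).trace = _
    rw [← hz', Prod.smul_snd, smul_eq_mul, mul_comm])⟩
  rw [hw, Algebra.smul_def, map_pow, map_ofNat]
  exact Ideal.mul_mem_right _ _ (Ideal.mem_span_singleton_self _)

end AuxHecke

end FermatLib.MLT.Two

end
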