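import Fermat.Agent.MLT.Two.Level
import Fermat.Agent.MLT.Two.AuxRingTraces

/-!
# Tangent vectors of a ring of traces as tangent lifts

A representation with the properties of the trace algebra turns tangent vectors into classes
satisfying `IsTangentLift`, injectively modulo coboundaries, so a bound on these classes bounds
the number of generators of the maximal ideal.
-/

set_option autoImplicit false

noncomputable section

open IsLocalRing Matrix

namespace FermatLib.MLT.Two

local notation "Qbar" => AlgebraicClosure ℚ
local notation "Γℚ" => (AlgebraicClosure ℚ ≃ₐ[ℚ] AlgebraicClosure ℚ)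
local notation "M₂" R:max => Matrix (Fin 2) (Fin 2) R

variable {O : Type} [CommRing O] [IsLocalRing O] {k : Type} [Field k] (S : System O k)
variable {R : Type} [CommRing R] [Algebra O R] [IsLocalRing R] {π : R →ₐ[O] ResidueField O}

/-- A tangent vector as a homomorphism to the dual numbers of `k`. -/
def dualPush {l : R → ResidueField O} (hl : l ∈ fullTangent π) : R →+* DualNumber k where
  toFun r := TrivSqZeroExt.inl (S.kappa (π r)) + TrivSqZeroExt.inr (S.kappa (l r))
  map_one' := by ext <;> simp [tangent_one hl]
  map_zero' := by ext <;> simp [tangent_zero hl]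
  map_add' x y := by ext <;> simp [tangent_add hl]
  map_mul' x y := by
    ext
    · simp
    · simp [tangent_mul hl]

variable {ρ : Γℚ →* M₂ R}

/-- The class of a tangent vector, over `k`. -/
def tangentClass (ρ : Γℚ →* M₂ R) (v : R → k) (g : Γℚ) : M₂ k := (ρ g).map v * S.anchor.ρ g⁻¹

omit [IsLocalRing R] [Algebra O R] in
theorem tangentClass_mul_rho (v : R → k) (g : Γℚ) :
    tangentClass S ρ v g * S.anchor.ρ g = (ρ g).map v := by
  rw [tangentClass, mul_assoc, ← map_mul, inv_mul_cancel, map_one, mul_one]

omit [IsLocalRing R] [Algebra O R] in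
theorem tangentClass_eq (l : R → ResidueField O) (g : Γℚ) :
    tangentClass S ρ (fun r => S.kappa (l r)) g = (tangentCocycle l ρ S.resRep g).map S.kappa := by
  rw [tangentClass, tangentCocycle, Matrix.map_mul, S.resRep_map]
  rfl

variable (hres : ∀ g, (ρ g).map π = S.resRep g)
include hres

theorem liftMat_tangentClass {l : R → ResidueField O} (hl : l ∈ fullTangent π) (g : Γℚ) :
    liftMat S.anchor (tangentClass S ρ fun r => S.kappa (l r)) g =
      (ρ g).map (dualPush S hl) := by
  rw [liftMat, tangentClass_mul_rho, ← S.resRep_map g, ← hres g]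
  rfl

variable (hcongr : ∀ m : ℕ, ∃ L : IntermediateField ℚ Qbar, FiniteDimensional ℚ L ∧
  ∀ σ : Γℚ, (∀ x ∈ L, σ x = x) → ∀ i j, (ρ σ - 1) i j ∈ Ideal.span {(2 : R) ^ m})

include hcongr in
theorem isAdCocycle_tangentClass {l : R → ResidueField O} (hl : l ∈ fullTangent π) :
    IsAdCocycle S.anchor (tangentClass S ρ fun r => S.kappa (l r)) := by
  refine ⟨fun g h => ?_, ?_⟩
  · rw [tangentClass_eq, tangentClass_eq, tangentClass_eq, tangentCocycle_mul hl hres,
      Matrix.map_add _ (map_add S.kappa), Matrix.map_mul, Matrix.map_mul, S.resRep_map,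
      S.resRep_map]
  · obtain ⟨L, hL, h⟩ := hcongr 2
    refine ⟨L, hL, fun g hg => ?_⟩
    have h2 : (2 : R) ∈ maximalIdeal R := by
      rw [← FermatLib.Galois.Deform.res_eq_zero_iff π, map_ofNat]
      exact S.kappa.injective (by rw [map_ofNat, map_zero, S.anchor.two_eq_zero])
    rw [tangentClass_eq, tangentCocycle_eq_zero_of_congr hl hres fun i j =>
      (Ideal.span_singleton_le_iff_mem _).mpr (Ideal.pow_mem_pow h2 2) (h g hg i j)]
    exact Matrix.map_zero _ (map_zero _)

omit hres in
theorem eps_mul_dual (x : DualNumber k) :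
    DualNumber.eps * x = TrivSqZeroExt.inr x.fst := by
  ext <;> simp

/-- A model of a quotient by an ideal inside `2 R` makes the lift flat. -/
theorem isFlatLift_tangentClass {J : Ideal R} (hJ : J ≤ Ideal.span {(2 : R)})
    (hmodel : FermatLib.Galois.FlatModel.HasModelAt 2 (Fin 2 → R ⧸ J)
      fun g v => ((ρ g).map (Ideal.Quotient.mk J)).mulVec v)
    {l : R → ResidueField O} (hl : l ∈ fullTangent π) :
    IsFlatLift S.anchor (tangentClass S ρ fun r => S.kappa (l r)) := by
  have h2 : dualPush S hl 2 = 0 := by
    rw [map_ofNat]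
    refine TrivSqZeroExt.ext ?_ ?_
    · exact S.anchor.two_eq_zero
    · rfl
  let ψ : R ⧸ J →+* DualNumber k := Ideal.Quotient.lift J (dualPush S hl) fun a ha => by
    obtain ⟨b, rfl⟩ := Ideal.mem_span_singleton'.mp (hJ ha)
    rw [map_mul, h2, mul_zero]
  let Φ : (Fin 2 → R ⧸ J) × (Fin 2 → R ⧸ J) →+ (Fin 2 → DualNumber k) :=
    AddMonoidHom.mk' (fun vw => (fun i => ψ (vw.1 i)) +
        (DualNumber.eps : DualNumber k) • fun i => ψ (vw.2 i)) fun a b => by
      funext i
      simp [mul_add]
      abel
  refine (hmodel.prod hmodel).of_surjective Φ (fun x => ?_) fun σ vw => ?_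
  · choose r hr using fun i => FermatLib.Galois.Deform.res_surjective π (S.kappa.symm (x i).fst)
    choose w hw using fun i =>
      FermatLib.Galois.Deform.res_surjective π (S.kappa.symm ((x i).snd - S.kappa (l (r i))))
    refine ⟨(fun i => Ideal.Quotient.mk J (r i), fun i => Ideal.Quotient.mk J (w i)), ?_⟩
    funext i
    show dualPush S hl (r i) + DualNumber.eps * dualPush S hl (w i) = x i
    rw [eps_mul_dual]
    refine TrivSqZeroExt.ext ?_ ?_ <;> simp [dualPush, hr, hw]
  · show (fun i => ψ (((ρ σ).map (Ideal.Quotient.mk J) *ᵥ vw.1) i)) +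
        (DualNumber.eps : DualNumber k) • (fun i => ψ (((ρ σ).map (Ideal.Quotient.mk J) *ᵥ vw.2) i)) =
      liftMat S.anchor _ σ *ᵥ _
    have e : ((ρ σ).map (Ideal.Quotient.mk J)).map ψ = (ρ σ).map (dualPush S hl) := by
      ext1 i j; rfl
    have h : ∀ v : Fin 2 → R ⧸ J, (fun i => ψ (((ρ σ).map (Ideal.Quotient.mk J) *ᵥ v) i)) =
        (ρ σ).map (dualPush S hl) *ᵥ fun i => ψ (v i) := fun v => by
      funext i
      rw [RingHom.map_mulVec, e]
      rfl
    rw [liftMat_tangentClass S hres hl, h, h]
    exact ((Matrix.mulVec_add _ _ _).trans (by rw [Matrix.mulVec_smul])).symm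

variable [Module.Finite O R] [IsNoetherianRing R] [Finite k] {ι : Type}
  {P : ι → AuxPlace}

include hcongr in
/-- **Few generators**: a bound on tangent lifts bounds the generators of the maximal ideal. -/
theorem exists_generators_of_hasBound
    (hgen : Algebra.adjoin O
      (Set.range (fun g => (ρ g).trace) ∪ Set.range fun g => (ρ g).det) = ⊤)
    (hunr : ∀ q : ℕ, q.Prime → q ≠ 2 → ¬ q ∣ S.anchor.N → (∀ i, (P i).q ≠ q) →
      ∀ A : ValuationSubring Qbar, A.LiesOverPrime q → ∀ τ ∈ A.inertiaSubgroupIn ℚ, ρ τ = 1)
    (hlevel : ∀ q : ℕ, q.Prime → q ∣ S.anchor.N → ∀ A : ValuationSubring Qbar,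
      A.LiesOverPrime q → ∀ τ ∈ A.inertiaSubgroupIn ℚ, ∀ τ' ∈ A.inertiaSubgroupIn ℚ,
        (ρ τ - 1) * (ρ τ' - 1) = 0)
    {J : Ideal R} (hJ : J ≤ Ideal.span {(2 : R)})
    (hmodel : FermatLib.Galois.FlatModel.HasModelAt 2 (Fin 2 → R ⧸ J)
      fun g v => ((ρ g).map (Ideal.Quotient.mk J)).mulVec v)
    {g : ℕ} (hbound : HasBound S.anchor (IsTangentLift S.anchor P) g) :
    ∃ b : Fin g → R, maximalIdeal R = Ideal.span (Set.range b) ⊔ Ideal.span {(2 : R)} := by
  classical
  have hfin := S.finite_residueField
  let V : Submodule k (R → k) :=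
    { carrier := {v | (fun r => S.kappa.symm (v r)) ∈ fullTangent π}
      zero_mem' := by
        show (fun r => S.kappa.symm ((0 : R → k) r)) ∈ fullTangent π
        simp only [Pi.zero_apply, map_zero]
        exact zero_mem (fullTangent π)
      add_mem' := fun {v w} hv hw => by
        show (fun r => S.kappa.symm ((v + w) r)) ∈ fullTangent π
        simp only [Pi.add_apply, map_add]
        exact add_mem (s := fullTangent π) hv hw
      smul_mem' := fun c v hv => by
        show (fun r => S.kappa.symm ((c • v) r)) ∈ fullTangent π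
        simp only [Pi.smul_apply, smul_eq_mul, map_mul]
        exact Submodule.smul_mem (fullTangent π) (S.kappa.symm c) hv }
  have hVT : ∀ v : V, (fun r => S.kappa.symm (v.1 r)) ∈ fullTangent π := fun v => v.2
  obtain ⟨s, hs⟩ := Module.Finite.fg_top (R := O) (M := R)
  have hfinV : Finite V := by
    refine Finite.of_injective (fun (v : V) (x : s) => v.1 x.1) fun v w hvw => ?_
    refine Subtype.ext (funext fun r => S.kappa.symm.injective ?_)
    have hr : r ∈ Submodule.span O (s : Set R) := hs ▸ Submodule.mem_top
    induction hr using Submodule.span_induction with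
    | mem x hx => exact congrArg S.kappa.symm (congrFun hvw ⟨x, hx⟩)
    | zero => exact (tangent_zero (hVT v)).trans (tangent_zero (hVT w)).symm
    | add x y _ _ hx hy =>
      exact (tangent_add (hVT v) x y).trans
        ((congrArg₂ (· + ·) hx hy).trans (tangent_add (hVT w) x y).symm)
    | smul a x _ hx =>
      have e : ∀ u : V, S.kappa.symm (u.1 (a • x)) = residue O a * S.kappa.symm (u.1 x) :=
        fun u => by
          have := tangent_mul (hVT u) (algebraMap O R a) x
          rw [tangent_algebraMap (hVT u), zero_mul, add_zero, AlgHom.commutes,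
            ResidueField.algebraMap_eq] at this
          rw [Algebra.smul_def]
          exact this
      rw [e, e, hx]
  have : Module.Finite k V := Module.Finite.of_finite
  let c : V →ₗ[k] (Γℚ → M₂ k) :=
    { toFun := fun v => tangentClass S ρ v.1
      map_add' := fun v w => funext fun σ => by
        show (ρ σ).map (v.1 + w.1) * _ = (ρ σ).map v.1 * _ + (ρ σ).map w.1 * _
        rw [← add_mul]
        rfl
      map_smul' := fun x v => funext fun σ => by
        show (ρ σ).map (x • v.1) * _ = x • ((ρ σ).map v.1 * _)
        rw [← smul_mul_assoc]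
        rfl }
  have hv_eq : ∀ v : V, v.1 = fun r => S.kappa (S.kappa.symm (v.1 r)) := fun v =>
    funext fun r => (S.kappa.apply_symm_apply _).symm
  have hlift : ∀ v, IsTangentLift S.anchor P (c v) := fun v => by
    show IsTangentLift S.anchor P (tangentClass S ρ v.1)
    rw [hv_eq v]
    refine ⟨isAdCocycle_tangentClass S hres hcongr (hVT v), ?_, ?_, ?_⟩
    · intro q hq hq2 hN hP A hA τ hτ
      rw [tangentClass_eq, tangentCocycle_eq_zero_of_congr (hVT v) hres fun i j => by
        rw [hunr q hq hq2 hN hP A hA τ hτ, sub_self]; exact Submodule.zero_mem _]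
      exact Matrix.map_zero _ (map_zero _)
    · refine isLevelLocal_of_unipotent S.anchor (isAdCocycle_tangentClass S hres hcongr (hVT v))
        fun q hq hN A hA τ hτ τ' hτ' => ?_
      rw [liftMat_tangentClass S hres (hVT v), liftMat_tangentClass S hres (hVT v)]
      show ((dualPush S (hVT v)).mapMatrix (ρ τ) - 1) * ((dualPush S (hVT v)).mapMatrix (ρ τ') - 1) = 0
      rw [← map_one ((dualPush S (hVT v)).mapMatrix (m := Fin 2)), ← map_sub, ← map_sub, ← map_mul,
        hlevel q hq hN A hA τ hτ τ' hτ', map_zero]
    · exact isFlatLift_tangentClass S hres hJ hmodel (hVT v)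
  have hinj : ∀ v, IsAdCobdry S.anchor (c v) → v = 0 := fun v hv => by
    obtain ⟨X, hX⟩ := hv
    set l : R → ResidueField O := fun r => S.kappa.symm (v.1 r) with hldef
    have hl : l ∈ fullTangent π := hVT v
    have hcl : ∀ σ, (tangentCocycle l ρ S.resRep σ).map S.kappa = adCobdry S.anchor X σ :=
      fun σ => by
        rw [← hX σ, ← tangentClass_eq]
        show _ = tangentClass S ρ v.1 σ
        rw [hv_eq v]
    have htc : ∀ σ, (tangentCocycle l ρ S.resRep σ).trace = 0 := fun σ => by
      refine S.kappa.injective ?_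
      rw [map_zero]
      refine (map_trace_fin_two S.kappa.toRingHom _).trans ?_
      show ((tangentCocycle l ρ S.resRep σ).map S.kappa).trace = 0
      rw [hcl, adCobdry, Matrix.trace_sub, Matrix.trace_mul_cycle, ← map_mul, inv_mul_cancel,
        map_one, one_mul, sub_self]
    have hz : (⟨l, hl⟩ : fullTangent π) = 0 := by
      refine eq_zero_of_tangentData_mem_range (ρbar := S.resRep) hres
        (u := fun σ => (ρ σ).det) hgen _ ⟨X.map S.kappa.symm, Prod.ext (funext fun σ => ?_)
          (funext fun σ => ?_)⟩
      · refine Matrix.map_injective S.kappa.injective ?_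
        show _ = (tangentCocycle l ρ S.resRep σ).map S.kappa
        rw [hcl, adCobdry]
        show (S.kappa.toRingHom.mapMatrix
          (S.resRep σ * X.map S.kappa.symm * S.resRep σ⁻¹ - X.map S.kappa.symm)) = _
        rw [map_sub, map_mul, map_mul]
        show (S.resRep σ).map S.kappa * (X.map S.kappa.symm).map S.kappa * (S.resRep σ⁻¹).map
          S.kappa - (X.map S.kappa.symm).map S.kappa = _
        rw [S.resRep_map, S.resRep_map,
          show (X.map S.kappa.symm).map S.kappa = X by ext i j; simp]
      · show (0 : ResidueField O) = l (ρ σ).det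
        rw [tangent_det_rep hl hres, htc, mul_zero]
    refine Subtype.ext (funext fun r => ?_)
    show v.1 r = 0
    rw [← S.kappa.apply_symm_apply (v.1 r)]
    have := congrFun (congrArg Subtype.val hz) r
    rw [show S.kappa.symm (v.1 r) = (0 : ResidueField O) from this, map_zero]
  have hrank : Module.finrank k V ≤ g := hbound V c hlift hinj
  let e : fullTangent π ≃ V :=
    { toFun := fun l => ⟨fun r => S.kappa (l.1 r), by
        show (fun r => S.kappa.symm (S.kappa (l.1 r))) ∈ fullTangent π
        simp only [RingEquiv.symm_apply_apply]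
        exact l.2⟩
      invFun := fun v => ⟨_, hVT v⟩
      left_inv := fun l => Subtype.ext (funext fun r => S.kappa.symm_apply_apply _)
      right_inv := fun v => Subtype.ext (funext fun r => S.kappa.apply_symm_apply _) }
  have : Finite (fullTangent π) := Finite.of_equiv V e.symm
  have : FiniteDimensional (ResidueField O) (fullTangent π) := Module.Finite.of_finite
  have hrank' : Module.finrank (ResidueField O) (fullTangent π) ≤ g := by
    have hcard : Nat.card (ResidueField O) = Nat.card k := Nat.card_congr S.kappa.toEquiv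
    have h := Nat.card_congr e
    rw [Module.natCard_eq_pow_finrank (K := ResidueField O),
      Module.natCard_eq_pow_finrank (K := k) (V := V), hcard] at h
    rw [Nat.pow_right_injective Finite.one_lt_card h]
    exact hrank
  obtain ⟨b, hb, hbot⟩ := exists_extension π (Fin.elim0 : Fin 0 → R) hrank'
  have hmax := maximalIdeal_eq_of_tangentSpace_eq_bot π (Sum.elim (Fin.elim0 : Fin 0 → R) b)
    (fun i => by rcases i with j | j; exacts [j.elim0, hb j]) hbot
  refine ⟨b, ?_⟩
  rw [hmax, S.maximalIdeal_eq, Ideal.map_span, Set.image_singleton, map_ofNat, Set.Sum.elim_range,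
    Set.range_eq_empty (Fin.elim0 : Fin 0 → R), Set.empty_union, sup_comm]

end FermatLib.MLT.Two

end
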