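import Fermat.Agent.MLT.Two.GenusBound
import Fermat.Agent.Mazur.GunitKummerRam
import Fermat.Agent.MLT.SwitchChain

/-!
# The quadratic field of an anchor at two
-/

set_option autoImplicit false

open WeierstrassCurve

namespace FermatLib.MLT.Genus

local notation "Qbar" => AlgebraicClosure ℚ
local notation "Γℚ" => (AlgebraicClosure ℚ ≃ₐ[ℚ] AlgebraicClosure ℚ)

/-- Automorphisms fixing `δ`. -/
noncomputable def sqrtSubgroup (δ : Qbar) : Subgroup Γℚ := MulAction.stabilizer Γℚ δ

theorem mem_sqrtSubgroup {δ : Qbar} {σ : Γℚ} : σ ∈ sqrtSubgroup δ ↔ σ δ = δ :=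
  MulAction.mem_stabilizer_iff

variable {W : WeierstrassCurve ℤ}

/-- Complex conjugation moves a square root of a negative integer. -/
theorem complexConjugation_sqrt_ne {d : ℤ} (hd : d < 0) {δ : Qbar} (hδ : δ ^ 2 = (d : Qbar)) :
    complexConjugation δ ≠ δ := by
  intro h
  have h1 := complexEmbedding_complexConjugation δ
  rw [h] at h1
  obtain ⟨r, hr⟩ := Complex.conj_eq_iff_real.mp h1.symm
  have h2 := congrArg complexEmbedding hδ
  rw [map_pow, map_intCast, hr] at h2
  have h3 : r ^ 2 = (d : ℝ) := by exact_mod_cast h2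
  have h4 : (d : ℝ) < 0 := by exact_mod_cast hd
  nlinarith [sq_nonneg r]

end FermatLib.MLT.Genus
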