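import Fermat.Agent.MLT.Two.Level
import Fermat.Agent.MLT.Two.GenusField
import Fermat.Agent.Galois.FrobeniusElement
import Fermat.Agent.Basic.FrobeniusExists

/-!
# V4-Genus: the diagonal bound

A diagonal class is determined by the upper left entry `b` of its restriction to the index two
subgroup. One coordinate at each auxiliary place leaves classes whose trace is a character of
`Gal(ℚ̄/ℚ)` killed by the Legendre pattern, so that `b` is then a genus character.
-/

set_option autoImplicit false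

noncomputable section

namespace FermatLib.MLT.Two

local notation "Qbar" => AlgebraicClosure ℚ
local notation "Γℚ" => (AlgebraicClosure ℚ ≃ₐ[ℚ] AlgebraicClosure ℚ)

namespace DiagBound

variable {k : Type} [Field k] (a : Anchor k)

theorem omega_ne_zero : a.ω ≠ 0 := fun h => by simpa [h] using a.omega_rel

theorem omega_ne_one : a.ω ≠ 1 := fun h => by
  have := a.omega_rel
  rw [h] at this
  apply one_ne_zero (α := k)
  linear_combination this - a.two_eq_zero

theorem charP_two (a : Anchor k) : CharP k 2 :=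
  (CharP.charP_iff_prime_eq_zero Nat.prime_two).mpr (by exact_mod_cast a.two_eq_zero)

theorem rho_mul_inv (g : Γℚ) : a.ρ g * a.ρ g⁻¹ = 1 := by rw [← map_mul, mul_inv_cancel, map_one]

/-- A square root of `-N`. -/
def sqrtNeg : Qbar := (IsAlgClosed.exists_pow_nat_eq (-(a.N : Qbar)) two_pos).choose

theorem sqrtNeg_sq : sqrtNeg a ^ 2 = -(a.N : Qbar) :=
  (IsAlgClosed.exists_pow_nat_eq (-(a.N : Qbar)) two_pos).choose_spec

theorem mem_iff {g : Γℚ} : g ∈ Genus.sqrtSubgroup (sqrtNeg a) ↔ a.ρ g 0 1 = 0 := by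
  rw [Genus.mem_sqrtSubgroup, a.diag_iff]
  refine ⟨fun h x hx => ?_, fun h => h _ (by rw [← pow_two, sqrtNeg_sq])⟩
  rw [← pow_two, ← sqrtNeg_sq a] at hx
  rcases sq_eq_sq_iff_eq_or_eq_neg.mp hx with rfl | rfl
  · exact h
  · rw [map_neg, h]

theorem shape (g : Γℚ) :
    (g ∈ Genus.sqrtSubgroup (sqrtNeg a) ∧ ∃ i, a.ρ g = rotMat a.ω i) ∨
      (g ∉ Genus.sqrtSubgroup (sqrtNeg a) ∧ ∃ i, a.ρ g = swapMat a.ω i) := by
  obtain ⟨i, h | h⟩ := a.range_eq g
  · exact Or.inl ⟨(mem_iff a).mpr (by simp [h, rotMat]), i, h⟩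
  · refine Or.inr ⟨fun hg => ?_, i, h⟩
    have := (mem_iff a).mp hg
    rw [h] at this
    simp [swapMat, omega_ne_zero a] at this

/-- Conjugation by `ρ g` fixes or exchanges the diagonal entries. -/
theorem conj_diag (g : Γℚ) (M : Matrix (Fin 2) (Fin 2) k) :
    (g ∈ Genus.sqrtSubgroup (sqrtNeg a) → (a.ρ g * M * a.ρ g⁻¹) 0 0 = M 0 0 ∧
      (a.ρ g * M * a.ρ g⁻¹) 1 1 = M 1 1) ∧
    (g ∉ Genus.sqrtSubgroup (sqrtNeg a) → (a.ρ g * M * a.ρ g⁻¹) 0 0 = M 1 1 ∧
      (a.ρ g * M * a.ρ g⁻¹) 1 1 = M 0 0) := by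
  have h00 := congrFun (congrFun (rho_mul_inv a g) 0) 0
  have h11 := congrFun (congrFun (rho_mul_inv a g) 1) 1
  constructor <;> intro hg
  · obtain ⟨-, i, hi⟩ := (shape a g).resolve_right fun h => h.1 hg
    obtain ⟨-, j, hj⟩ := (shape a g⁻¹).resolve_right fun h => h.1 (inv_mem hg)
    rw [hi, hj] at h00 h11 ⊢
    simp [rotMat, Matrix.mul_apply, Fin.sum_univ_two] at h00 h11
    constructor <;> simp [rotMat, Matrix.mul_apply, Matrix.vecMul, dotProduct, Fin.sum_univ_two]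
    · linear_combination M 0 0 * h00
    · linear_combination M 1 1 * h11
  · obtain ⟨-, i, hi⟩ := (shape a g).resolve_left fun h => hg h.1
    obtain ⟨-, j, hj⟩ := (shape a g⁻¹).resolve_left fun h => hg (inv_mem_iff.mp h.1)
    rw [hi, hj] at h00 h11 ⊢
    simp [swapMat, Matrix.mul_apply, Fin.sum_univ_two] at h00 h11
    constructor <;> simp [swapMat, Matrix.mul_apply, Matrix.vecMul, dotProduct, Fin.sum_univ_two]
    · linear_combination M 1 1 * h00
    · linear_combination M 0 0 * h11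

/-- Genus data for `ℚ(√-N)`. -/
theorem quadData : Genus.QuadData (Genus.sqrtSubgroup (sqrtNeg a)) a.N.primeFactors where
  isOpen := by
    have : Algebra.IsAlgebraic ℚ Qbar := AlgebraicClosure.isAlgebraic ℚ
    have : Algebra.IsIntegral ℚ Qbar := Algebra.IsAlgebraic.isIntegral
    exact stabilizer_isOpen_of_isIntegral (sqrtNeg a)
  conj_notMem h := by
    have h0 : a.N ≠ 0 := fun h => by simpa [h] using a.level_mod
    refine Genus.complexConjugation_sqrt_ne (d := -(a.N : ℤ)) (by omega) ?_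
      (Genus.mem_sqrtSubgroup.mp h)
    rw [sqrtNeg_sq]
    push_cast
    rfl
  mul_mem σ τ hσ hτ := by
    have hs : ∀ g : Γℚ, g ∉ Genus.sqrtSubgroup (sqrtNeg a) → g (sqrtNeg a) = -sqrtNeg a :=
      fun g hg => (sq_eq_sq_iff_eq_or_eq_neg.mp (by
        rw [← map_pow, sqrtNeg_sq, map_neg, map_natCast])).resolve_left
        fun h => hg (Genus.mem_sqrtSubgroup.mpr h)
    rw [Genus.mem_sqrtSubgroup, AlgEquiv.mul_apply, hs τ hτ, map_neg, hs σ hσ, neg_neg]
  prime q hq := Nat.prime_of_mem_primeFactors hq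
  unramified ℓ hℓ hℓS A hA σ hσ := by
    rw [mem_iff]
    have h0 : a.N ≠ 0 := fun h => by simpa [h] using a.level_mod
    by_cases h2 : ℓ = 2
    · subst h2
      exact (a.two_inertia A hA).1 σ hσ
    · rw [a.unramified ℓ hℓ h2 (fun h => hℓS (Nat.mem_primeFactors.mpr ⟨hℓ, h, h0⟩)) A hA σ hσ]
      simp
  ramified q hq := by
    obtain ⟨hqp, hqd, -⟩ := Nat.mem_primeFactors.mp hq
    obtain ⟨A, hA⟩ := FermatLib.Basic.exists_liesOverPrime hqp
    obtain ⟨⟨τ, hτ, hne⟩, hsq⟩ := a.level_transvection q hqp hqd A hA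
    refine ⟨A, hA, τ, hτ, fun hmem => hne ?_⟩
    obtain ⟨-, i, hi⟩ := (shape a τ).resolve_right fun h => h.1 hmem
    have h := hsq τ hτ τ hτ
    have h00 := congrFun (congrFun h 0) 0
    have h11 := congrFun (congrFun h 1) 1
    simp [hi, rotMat, Matrix.mul_apply, Fin.sum_univ_two, sub_eq_zero] at h00 h11
    rw [hi]
    ext m n
    fin_cases m <;> fin_cases n <;> simp [rotMat, h00, h11]

variable {a} {c : Γℚ → Matrix (Fin 2) (Fin 2) k}

theorem cocycle_one (hc : IsAdCocycle a c) : c 1 = 0 := by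
  simpa using hc.map_mul 1 1

theorem apply_mul (hc : IsAdCocycle a c) (g h : Γℚ) :
    (g ∈ Genus.sqrtSubgroup (sqrtNeg a) →
      c (g * h) 0 0 = c g 0 0 + c h 0 0 ∧ c (g * h) 1 1 = c g 1 1 + c h 1 1) ∧
    (g ∉ Genus.sqrtSubgroup (sqrtNeg a) →
      c (g * h) 0 0 = c g 0 0 + c h 1 1 ∧ c (g * h) 1 1 = c g 1 1 + c h 0 0) := by
  rw [hc.map_mul, Matrix.add_apply, Matrix.add_apply]
  refine ⟨fun hg => ?_, fun hg => ?_⟩
  · obtain ⟨e0, e1⟩ := (conj_diag a g (c h)).1 hg
    exact ⟨by rw [e0], by rw [e1]⟩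
  · obtain ⟨e0, e1⟩ := (conj_diag a g (c h)).2 hg
    exact ⟨by rw [e0], by rw [e1]⟩

theorem trace_mul (hc : IsAdCocycle a c) (g h : Γℚ) :
    c (g * h) 0 0 + c (g * h) 1 1 = (c g 0 0 + c g 1 1) + (c h 0 0 + c h 1 1) := by
  by_cases hg : g ∈ Genus.sqrtSubgroup (sqrtNeg a)
  · obtain ⟨e0, e1⟩ := (apply_mul hc g h).1 hg
    rw [e0, e1]; ring
  · obtain ⟨e0, e1⟩ := (apply_mul hc g h).2 hg
    rw [e0, e1]; ring

/-- Conjugating an element where `ρ` is trivial. -/
theorem conj_apply (hc : IsAdCocycle a c) {g τ : Γℚ} (hτ : a.ρ τ = 1) :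
    c (g * τ * g⁻¹) = a.ρ g * c τ * a.ρ g⁻¹ := by
  have hτ' : a.ρ τ⁻¹ = 1 := by simpa [hτ] using rho_mul_inv a τ
  have h1 := hc.map_mul g g⁻¹
  rw [mul_inv_cancel, cocycle_one hc] at h1
  rw [hc.map_mul, hc.map_mul, map_mul, mul_inv_rev, map_mul, hτ, hτ', mul_one, one_mul]
  rw [add_right_comm, ← h1, zero_add]

/-- Vanishing on one inertia group with trivial image gives vanishing on all. -/
theorem inertia_eq_zero (hc : IsAdCocycle a c) {q : ℕ} (hq : q.Prime)
    {A A' : ValuationSubring Qbar} (hA : A.LiesOverPrime q) (hA' : A'.LiesOverPrime q)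
    (hρ : ∀ τ ∈ A.inertiaSubgroupIn ℚ, a.ρ τ = 1) (h : ∀ τ ∈ A.inertiaSubgroupIn ℚ, c τ = 0)
    {σ : Γℚ} (hσ : σ ∈ A'.inertiaSubgroupIn ℚ) : c σ = 0 := by
  obtain ⟨g, hg⟩ := FermatLib.EC.exists_conj_mem_inertia hq A A' hA hA'
  have e : σ = g * (g⁻¹ * σ * g) * g⁻¹ := by group
  rw [e, conj_apply hc (hρ _ (hg σ hσ)), h _ (hg σ hσ), mul_zero, zero_mul]

/-- At a prime of the level the trace vanishes at a Frobenius element. -/
theorem exists_frobenius_trace (hc : IsAdCocycle a c) (hl : IsLevelLocal a c) {q : ℕ}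
    (hq : q.Prime) (hqN : q ∣ a.N) :
    ∃ A : ValuationSubring Qbar, A.LiesOverPrime q ∧
      ∃ F : Γℚ, A.IsFrobeniusAt F q ∧ c F 0 0 + c F 1 1 = 0 := by
  obtain ⟨A, hA⟩ := FermatLib.Basic.exists_liesOverPrime hq
  obtain ⟨F₀, hF₀⟩ := FermatLib.Basic.exists_isFrobeniusAt hq A hA
  have hH := quadData a
  have hqS : q ∈ a.N.primeFactors :=
    Nat.mem_primeFactors.mpr ⟨hq, hqN, fun h => by simpa [h] using a.level_mod⟩
  obtain ⟨⟨τ, hτ, hne⟩, hsq⟩ := a.level_transvection q hq hqN A hA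
  have hτH : τ ∉ Genus.sqrtSubgroup (sqrtNeg a) := fun hmem => hne (by
    obtain ⟨-, i, hi⟩ := (shape a τ).resolve_right fun h => h.1 hmem
    have h := hsq τ hτ τ hτ
    have h00 := congrFun (congrFun h 0) 0
    have h11 := congrFun (congrFun h 1) 1
    simp [hi, rotMat, Matrix.mul_apply, Fin.sum_univ_two, sub_eq_zero] at h00 h11
    rw [hi]
    ext m n
    fin_cases m <;> fin_cases n <;> simp [rotMat, h00, h11])
  obtain ⟨F, hF, hFH⟩ : ∃ F, A.IsFrobeniusAt F q ∧ F ∈ Genus.sqrtSubgroup (sqrtNeg a) := by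
    by_cases h : F₀ ∈ Genus.sqrtSubgroup (sqrtNeg a)
    · exact ⟨F₀, hF₀, h⟩
    · exact ⟨F₀ * τ, Galois.isFrobeniusAt_mul_inertia hF₀ hτ, hH.mul_mem _ _ h hτH⟩
  refine ⟨A, hA, F, hF, ?_⟩
  obtain ⟨M, hM⟩ := hl q hq hqN A hA
  set τ' := F * τ * F⁻¹ with hτ'
  have hτ'I : τ' ∈ A.inertiaSubgroupIn ℚ :=
    Galois.conj_mem_inertia_of_mem_decomposition hF.mem_decompositionSubgroup hτ
  have hτ'H : τ' ∉ Genus.sqrtSubgroup (sqrtNeg a) := fun h => hτH <| by
    have h1 := mul_mem (mul_mem (inv_mem hFH) h) hFH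
    rwa [hτ', show F⁻¹ * (F * τ * F⁻¹) * F = τ by group] at h1
  have e := ((apply_mul hc τ' F).2 hτ'H).1
  rw [hτ', inv_mul_cancel_right, ((apply_mul hc F τ).1 hFH).1, ← hτ'] at e
  have hu : ∀ x ∈ A.inertiaSubgroupIn ℚ, x ∉ Genus.sqrtSubgroup (sqrtNeg a) →
      c x 0 0 = M 1 1 - M 0 0 := fun x hx hxH => by
    rw [hM x hx, adCobdry, Matrix.sub_apply, ((conj_diag a x M).2 hxH).1]
  rw [hu τ hτ hτH, hu τ' hτ'I hτ'H] at e
  linear_combination e + c F 1 1 * a.two_eq_zero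

/-- A space of functions each taking only multiples of one value is a line at most. -/
theorem finrank_le_one_of_cyclic (a : Anchor k) {X : Type*} (W : Submodule k (X → k))
    (h : ∀ w ∈ W, ∃ x₀ : X, ∀ x, ∃ m : ℕ, w x = (m : k) * w x₀) :
    FiniteDimensional k W ∧ Module.finrank k W ≤ 1 := by
  rcases eq_or_ne W ⊥ with rfl | hW
  · exact ⟨inferInstance, by simp⟩
  obtain ⟨b, hb, hb0⟩ := Submodule.exists_mem_ne_zero_of_ne_bot hW
  obtain ⟨x₀, hx₀⟩ := h b hb
  have hval : ∀ x, b x = 0 ∨ b x = b x₀ := fun x => by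
    obtain ⟨m, hm⟩ := hx₀ x
    rw [hm]
    obtain ⟨n, rfl | rfl⟩ := Nat.even_or_odd' m
    · left; push_cast; rw [a.two_eq_zero]; ring
    · right; push_cast; rw [a.two_eq_zero]; ring
  have hb0' : b x₀ ≠ 0 := fun h0 => hb0 (funext fun x => by
    rcases hval x with h | h
    · exact h
    · rw [h, h0]; rfl)
  have hle : W ≤ k ∙ b := by
    intro w hw
    refine Submodule.mem_span_singleton.mpr ⟨w x₀ / b x₀, ?_⟩
    set w' := w - (w x₀ / b x₀) • b with hw'
    have hw'W : w' ∈ W := W.sub_mem hw (W.smul_mem _ hb)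
    suffices w' = 0 by rw [hw', sub_eq_zero] at this; exact this.symm
    have h0 : w' x₀ = 0 := by simp [hw', hb0']
    funext x₁
    by_contra hne
    simp only [Pi.zero_apply] at hne
    -- a combination with two distinct nonzero values
    set l := a.ω * w' x₁ / b x₀ with hl
    have hl0 : l * b x₀ = a.ω * w' x₁ := div_mul_cancel₀ _ hb0'
    set u := l • b + w' with hu
    obtain ⟨y, hy⟩ := h u (W.add_mem (W.smul_mem _ hb) hw'W)
    have hu0 : u x₀ = a.ω * w' x₁ := by simp [hu, h0, hl0]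
    have hu0' : u x₀ ≠ 0 := hu0 ▸ mul_ne_zero (omega_ne_zero a) hne
    have hval' : ∀ x, u x = 0 ∨ u x = u x₀ := by
      have hy0 : ∀ x, u x = 0 ∨ u x = u y := fun x => by
        obtain ⟨m, hm⟩ := hy x
        rw [hm]
        obtain ⟨n, rfl | rfl⟩ := Nat.even_or_odd' m
        · left; push_cast; rw [a.two_eq_zero]; ring
        · right; push_cast; rw [a.two_eq_zero]; ring
      intro x
      rw [(hy0 x₀).resolve_left hu0']
      exact hy0 x
    have h1 : u x₁ = l * b x₁ + w' x₁ := by simp [hu]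
    rcases hval x₁ with e | e <;> rw [e] at h1 <;> rcases hval' x₁ with e' | e' <;>
      rw [h1] at e'
    · exact hne (by linear_combination e')
    · exact omega_ne_one a (mul_right_cancel₀ hne (by linear_combination hu0.symm - e'))
    · rw [hl0] at e'
      have : (a.ω + 1) * w' x₁ = 0 := by linear_combination e'
      refine omega_ne_one a ?_
      have h1 := (mul_eq_zero.mp this).resolve_right hne
      linear_combination h1 - a.two_eq_zero
    · rw [hl0, hu0] at e'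
      exact hne (by linear_combination e')
  exact ⟨Submodule.finiteDimensional_of_le hle,
    (Submodule.finrank_mono hle).trans (finrank_span_singleton hb0).le⟩

/-- A diagonal class whose upper left entry vanishes on the index two subgroup, and which is
invariant there, is a coboundary. -/
theorem isAdCobdry_of_forall (hc : IsAdCocycle a c) (hd : ∀ g, c g 0 1 = 0 ∧ c g 1 0 = 0)
    (h : ∀ g ∈ Genus.sqrtSubgroup (sqrtNeg a), c g 0 0 = 0 ∧ c g 1 1 = 0) :
    IsAdCobdry a c := by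
  have hH := quadData a
  obtain ⟨s, hs⟩ : ∃ s, s ∉ Genus.sqrtSubgroup (sqrtNeg a) := ⟨_, hH.conj_notMem⟩
  refine ⟨!![0, 0; 0, c s 0 0], fun g => ?_⟩
  have hoff : ∀ g' m n, m ≠ n → (a.ρ g' * !![0, 0; 0, c s 0 0] * a.ρ g'⁻¹) m n = 0 := by
    intro g' m n hmn
    obtain ⟨i, hi⟩ := a.range_eq g'
    obtain ⟨j, hj⟩ := a.range_eq g'⁻¹
    have h01 := congrFun (congrFun (rho_mul_inv a g') m) n
    rw [Matrix.one_apply_ne hmn] at h01
    rcases hi with hi | hi <;> rcases hj with hj | hj <;> rw [hi, hj] at h01 ⊢ <;>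
      fin_cases m <;> fin_cases n <;>
      simp_all [rotMat, swapMat, Matrix.mul_apply, Fin.sum_univ_two,
        omega_ne_zero a]
  have key : c g 0 0 = adCobdry a !![0, 0; 0, c s 0 0] g 0 0 ∧
      c g 1 1 = adCobdry a !![0, 0; 0, c s 0 0] g 1 1 := by
    by_cases hg : g ∈ Genus.sqrtSubgroup (sqrtNeg a)
    · obtain ⟨e0, e1⟩ := (conj_diag a g !![0, 0; 0, c s 0 0]).1 hg
      obtain ⟨z0, z1⟩ := h g hg
      simp only [adCobdry, Matrix.sub_apply, e0, e1, z0, z1, sub_self, and_self]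
    · obtain ⟨e0, e1⟩ := (conj_diag a g !![0, 0; 0, c s 0 0]).2 hg
      obtain ⟨f0, f1⟩ := (apply_mul hc g s).2 hg
      obtain ⟨g0, g1⟩ := (apply_mul hc s s).2 hs
      obtain ⟨z0, z1⟩ := h _ (hH.mul_mem g s hg hs)
      obtain ⟨w0, -⟩ := h _ (hH.mul_mem s s hs hs)
      rw [z0] at f0
      rw [z1] at f1
      rw [w0] at g0
      simp only [adCobdry, Matrix.sub_apply, e0, e1]
      simp
      exact ⟨by linear_combination g0 - f0, by linear_combination -f1⟩
  ext m n
  fin_cases m <;> fin_cases n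
  · exact key.1
  · show c g 0 1 = adCobdry a _ g 0 1
    rw [(hd g).1, adCobdry, Matrix.sub_apply, hoff g 0 1 (by decide)]
    simp
  · show c g 1 0 = adCobdry a _ g 1 0
    rw [(hd g).2, adCobdry, Matrix.sub_apply, hoff g 1 0 (by decide)]
    simp
  · exact key.2

variable [Finite k]

/-- Two diagonal classes with zero coordinates: zero trace and a genus character. -/
theorem isGenusChar_of_coord_zero {s : ℕ} {Q : Fin s → AuxPlace} {qs : Fin (a.r₀ + 1) → ℕ}
    {C : Fin a.r₀ → AuxPlace} (hQ : ∀ j, IsSwapPlace a (Q j)) (hC : IsLegendreSet a qs C)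
    (hc : IsDiagClass a (Sum.elim Q C) c)
    (h0 : ∀ i, ∀ τ ∈ (Sum.elim Q C i).A.inertiaSubgroupIn ℚ, c τ 0 0 = 0) :
    (∀ g, c g 0 0 + c g 1 1 = 0) ∧
      Genus.IsGenusChar (Genus.sqrtSubgroup (sqrtNeg a))
        (fun h : Genus.sqrtSubgroup (sqrtNeg a) => c h 0 0) := by
  classical
  have := charP_two a
  have hH := quadData a
  have hρ : ∀ (P : AuxPlace), ¬ P.q ∣ 2 * a.N → ∀ A : ValuationSubring Qbar,
      A.LiesOverPrime P.q → ∀ τ ∈ A.inertiaSubgroupIn ℚ, a.ρ τ = 1 := fun P hP =>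
    a.unramified P.q P.hq (fun h => hP (h ▸ dvd_mul_right 2 a.N))
      (fun h => hP (dvd_mul_of_dvd_right h 2))
  -- at a swap place the two entries agree
  have hswap : ∀ j, ∀ τ ∈ (Q j).A.inertiaSubgroupIn ℚ, c τ = 0 := by
    intro j τ hτ
    obtain ⟨τ₀, hτ₀, hcomm, hgen⟩ :=
      inertia_values_of_aux a (hQ j).prime_to (hQ j).one_mod hc.cocycle
    obtain ⟨m, hm⟩ := hgen τ hτ
    have hFH : (Q j).F ∉ Genus.sqrtSubgroup (sqrtNeg a) := fun h =>
      (hQ j).frob ((mem_iff a).mp h)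
    have e : c τ₀ 0 0 = c τ₀ 1 1 := by
      have h2 : a.ρ (Q j).F * c τ₀ * a.ρ (Q j).F⁻¹ = c τ₀ := by
        rw [hcomm, mul_assoc, rho_mul_inv, mul_one]
      have := ((conj_diag a (Q j).F (c τ₀)).2 hFH).1
      rw [h2] at this
      exact this
    have z : c τ₀ 0 0 = 0 := h0 (Sum.inl j) τ₀ hτ₀
    rw [hm]
    ext u v
    fin_cases u <;> fin_cases v
    · simp [z]
    · simp [(hc.diag τ₀).1]
    · simp [(hc.diag τ₀).2]
    · simp [← e, z]
  obtain ⟨L, hL, hL0⟩ := hc.cocycle.finiteLevel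
  have hlevel : ∀ {q : ℕ}, q.Prime → q ∣ a.N → ∀ {A : ValuationSubring Qbar},
      A.LiesOverPrime q → ∀ τ ∈ A.inertiaSubgroupIn ℚ, c τ 0 0 + c τ 1 1 = 0 ∧
        (τ ∈ Genus.sqrtSubgroup (sqrtNeg a) → c τ 0 0 = 0) := by
    intro q hq hqN A hA τ hτ
    obtain ⟨M, hM⟩ := hc.level q hq hqN A hA
    rw [hM τ hτ, adCobdry, Matrix.sub_apply, Matrix.sub_apply]
    by_cases h : τ ∈ Genus.sqrtSubgroup (sqrtNeg a)
    · obtain ⟨e0, e1⟩ := (conj_diag a τ M).1 h
      rw [e0, e1]; simp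
    · obtain ⟨e0, e1⟩ := (conj_diag a τ M).2 h
      rw [e0, e1]
      exact ⟨by ring, fun h' => absurd h' h⟩
  -- the trace is a character ramified only at the rotation places
  have ht : ∀ σ, c σ 0 0 + c σ 1 1 = 0 := by
    refine Genus.addChar_eq_zero_of_legendre_dual (fun j => (C j).q) (fun i => qs i.castSucc)
      (fun j => (C j).hq) (fun j h => (hC.rot j).prime_to (h ▸ dvd_mul_right 2 a.N))
      (fun i => ?_) (fun i j h => (hC.rot j).prime_to ?_) (fun i j => ?_)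
      (fun σ => c σ 0 0 + c σ 1 1) (trace_mul hc.cocycle) L (fun σ hσ => ?_) (fun ℓ hℓ hℓC => ?_)
      (fun i => ?_)
    · have : qs i.castSucc ∈ (↑a.N.primeFactors : Set ℕ) := hC.qs_range ▸ Set.mem_range_self _
      exact Nat.prime_of_mem_primeFactors this
    · have : qs i.castSucc ∈ (↑a.N.primeFactors : Set ℕ) := hC.qs_range ▸ Set.mem_range_self _
      exact h ▸ dvd_mul_of_dvd_right (Nat.dvd_of_mem_primeFactors this) 2
    · refine (hC.legendre j i).trans ?_
      by_cases h : i = j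
      · rw [if_pos h, if_pos h.symm]
      · rw [if_neg h, if_neg (Ne.symm h)]
    · have h := hL0 σ ((IntermediateField.mem_fixingSubgroup_iff L σ).mp hσ)
      simp [h]
    · obtain ⟨A, hA⟩ := FermatLib.Basic.exists_liesOverPrime hℓ
      refine ⟨A, hA, fun σ hσ => ?_⟩
      by_cases h2 : ℓ = 2
      · subst h2; simp [hc.two A hA σ hσ]
      by_cases hN : ℓ ∣ a.N
      · exact (hlevel hℓ hN hA σ hσ).1
      by_cases hQℓ : ∃ j, (Q j).q = ℓ
      · obtain ⟨j, rfl⟩ := hQℓ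
        simp [inertia_eq_zero hc.cocycle hℓ (Q j).hA hA (hρ _ (hQ j).prime_to _ (Q j).hA)
          (hswap j) hσ]
      · have h' : ∀ i, (Sum.elim Q C i).q ≠ ℓ := by
          rintro (j | j) e
          · exact hQℓ ⟨j, e⟩
          · exact hℓC j e.symm
        simp [hc.unramified ℓ hℓ h2 hN h' A hA σ hσ]
    · have hmem : qs i.castSucc ∈ (↑a.N.primeFactors : Set ℕ) :=
        hC.qs_range ▸ Set.mem_range_self _
      exact exists_frobenius_trace hc.cocycle hc.level (Nat.prime_of_mem_primeFactors hmem)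
        (Nat.dvd_of_mem_primeFactors hmem)
  refine ⟨ht, fun g h => ((apply_mul hc.cocycle g h).1 g.2).1,
    ⟨L, hL, fun g hg => by
      show c g 0 0 = 0
      rw [hL0 g ((IntermediateField.mem_fixingSubgroup_iff L (g : Γℚ)).mp hg)]; rfl⟩, ?_, ?_⟩
  · intro g h hgh
    show c h 0 0 = c g 0 0
    set s' : Γℚ := complexConjugation with hs'
    have hs : s' ∉ Genus.sqrtSubgroup (sqrtNeg a) := hH.conj_notMem
    rw [hgh, mul_assoc, ((apply_mul hc.cocycle s' _).2 hs).1,
      ((apply_mul hc.cocycle (g : Γℚ) s').1 g.2).2]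
    have e := ((apply_mul hc.cocycle s' s').2 hs).1
    rw [show s' * s' = 1 from complexConjugation_mul_self, cocycle_one hc.cocycle] at e
    simp only [Matrix.zero_apply] at e
    linear_combination ht (g : Γℚ) - e - c g 0 0 * a.two_eq_zero
  · intro ℓ hℓ A hA g hg
    show c g 0 0 = 0
    by_cases h2 : ℓ = 2
    · subst h2; simp [hc.two A hA _ hg]
    by_cases hN : ℓ ∣ a.N
    · exact (hlevel hℓ hN hA _ hg).2 g.2
    by_cases hPℓ : ∃ i, (Sum.elim Q C i).q = ℓ
    · obtain ⟨j | j, rfl⟩ := hPℓ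
      · simp [inertia_eq_zero hc.cocycle hℓ (Q j).hA hA (hρ _ (hQ j).prime_to _ (Q j).hA)
          (hswap j) hg]
      · have hz : ∀ τ ∈ (C j).A.inertiaSubgroupIn ℚ, c τ = 0 := fun τ hτ => by
          have z : c τ 0 0 = 0 := h0 (Sum.inr j) τ hτ
          ext u v
          fin_cases u <;> fin_cases v
          · exact z
          · exact (hc.diag τ).1
          · exact (hc.diag τ).2
          · simpa [z] using ht τ
        simp [inertia_eq_zero hc.cocycle hℓ (C j).hA hA (hρ _ (hC.rot j).prime_to _ (C j).hA)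
          hz hg]
    · push Not at hPℓ
      simp [hc.unramified ℓ hℓ h2 hN hPℓ A hA _ hg]

end DiagBound

open DiagBound

variable {k : Type} [Field k] [Finite k] (a : Anchor k)

/-- Diagonal classes: one coordinate for each swap place, two for each Legendre place. -/
theorem hasBound_diagClass {s : ℕ} {Q : Fin s → AuxPlace} {qs : Fin (a.r₀ + 1) → ℕ}
    {C : Fin a.r₀ → AuxPlace}
    (hinj : Function.Injective fun i => (Sum.elim Q C i).q) (hQ : ∀ j, IsSwapPlace a (Q j))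
    (hC : IsLegendreSet a qs C) :
    HasBound a (IsDiagClass a (Sum.elim Q C)) (s + 2 * a.r₀) := by
  have _ := hinj
  classical
  intro V _ _ _ c hc hinjc
  have := charP_two a
  let φ : ∀ i : Fin s ⊕ Fin a.r₀, V →ₗ[k] ((Sum.elim Q C i).A.inertiaSubgroupIn ℚ → k) :=
    fun i =>
      { toFun := fun v τ => c v τ 0 0
        map_add' := fun v w => by funext τ; simp
        map_smul' := fun x v => by funext τ; simp }
  have haux : ∀ i, ¬ (Sum.elim Q C i).q ∣ 2 * a.N ∧ 4 ∣ (Sum.elim Q C i).q - 1 := by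
    rintro (j | j)
    · exact ⟨(hQ j).prime_to, (hQ j).one_mod⟩
    · exact ⟨(hC.rot j).prime_to, (hC.rot j).one_mod⟩
  have hW : ∀ i, FiniteDimensional k (LinearMap.range (φ i)) ∧
      Module.finrank k (LinearMap.range (φ i)) ≤ 1 := fun i => by
    refine finrank_le_one_of_cyclic a _ ?_
    rintro _ ⟨v, rfl⟩
    obtain ⟨τ₀, hτ₀, -, hgen⟩ := inertia_values_of_aux a (haux i).1 (haux i).2 (hc v).cocycle
    refine ⟨⟨τ₀, hτ₀⟩, fun τ => ?_⟩
    obtain ⟨m, hm⟩ := hgen τ τ.2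
    exact ⟨m, by simp [φ, hm]⟩
  have : ∀ i, FiniteDimensional k (LinearMap.range (φ i)) := fun i => (hW i).1
  let Ψ : V →ₗ[k] ((i : Fin s ⊕ Fin a.r₀) → LinearMap.range (φ i)) :=
    LinearMap.pi fun i => (φ i).rangeRestrict
  have h1 := LinearMap.finrank_range_add_finrank_ker Ψ
  have h2 : Module.finrank k (LinearMap.range Ψ) ≤ s + a.r₀ := by
    refine (Submodule.finrank_le _).trans ?_
    rw [Module.finrank_pi_fintype]
    refine (Finset.sum_le_card_nsmul _ _ 1 fun i _ => (hW i).2).trans ?_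
    simp
  have hz : ∀ v : LinearMap.ker Ψ, ∀ i, ∀ τ ∈ (Sum.elim Q C i).A.inertiaSubgroupIn ℚ,
      c v.1 τ 0 0 = 0 := fun v i τ hτ =>
    congrFun (congrArg Subtype.val (congrFun (LinearMap.mem_ker.mp v.2) i)) ⟨τ, hτ⟩
  let G : LinearMap.ker Ψ →ₗ[k] Genus.genusSpace k (Genus.sqrtSubgroup (sqrtNeg a)) :=
    { toFun := fun v => ⟨fun h => c v.1 (h : Γℚ) 0 0,
        (isGenusChar_of_coord_zero hQ hC (hc v.1) (hz v)).2⟩
      map_add' := fun v w => by ext h; simp
      map_smul' := fun x v => by ext h; simp }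
  have hG : Function.Injective G := by
    rw [injective_iff_map_eq_zero]
    intro v hv
    refine Subtype.ext (hinjc v.1 (isAdCobdry_of_forall (hc v.1).cocycle (hc v.1).diag
      fun g hg => ?_))
    have e : c v.1 g 0 0 = 0 := congrFun (congrArg Subtype.val hv) ⟨g, hg⟩
    have t := (isGenusChar_of_coord_zero hQ hC (hc v.1) (hz v)).1 g
    exact ⟨e, by simpa [e] using t⟩
  obtain ⟨hfin, hgenus⟩ := Genus.finrank_genusSpace_lt (k := k) (quadData a)
  have h3 := LinearMap.finrank_le_finrank_of_injective hG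
  have hr : a.r₀ = a.N.primeFactors.card - 1 := rfl
  omega

end FermatLib.MLT.Two

end
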