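import Fermat.Agent.MLT.Two.Selmer
import Fermat.Agent.MLT.Two.Genus

/-!
# The tangent bound: antidiagonal and diagonal parts
-/

set_option autoImplicit false

noncomputable section

namespace FermatLib.MLT.Two

local notation "Qbar" => AlgebraicClosure ℚ
local notation "Γℚ" => (AlgebraicClosure ℚ ≃ₐ[ℚ] AlgebraicClosure ℚ)

variable {k : Type} [Field k] [Finite k] (a : Anchor k)

/-- The antidiagonal part as a linear map. -/
def offDiagL : Matrix (Fin 2) (Fin 2) k →ₗ[k] Matrix (Fin 2) (Fin 2) k where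
  toFun := offDiag
  map_add' M M' := by ext i j; fin_cases i <;> fin_cases j <;> simp [offDiag]
  map_smul' x M := by ext i j; fin_cases i <;> fin_cases j <;> simp [offDiag]

theorem offDiag_idem (M : Matrix (Fin 2) (Fin 2) k) : offDiag (offDiag M) = offDiag M := by
  ext i j; fin_cases i <;> fin_cases j <;> simp [offDiag]

/-- Coboundary as a linear map. -/
def adCobdryL : Matrix (Fin 2) (Fin 2) k →ₗ[k] (Γℚ → Matrix (Fin 2) (Fin 2) k) where
  toFun M g := adCobdry a M g
  map_add' M M' := by funext g; simp [adCobdry, mul_add, add_mul]; abel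
  map_smul' x M := by funext g; simp [adCobdry, smul_sub]

/-- Conjugation by monomial matrices commutes with taking the antidiagonal part. -/
theorem offDiag_conj_rho (g : Γℚ) (M : Matrix (Fin 2) (Fin 2) k) :
    offDiag (a.ρ g * M * a.ρ g⁻¹) = a.ρ g * offDiag M * a.ρ g⁻¹ := by
  obtain ⟨i, hi⟩ := a.range_eq g
  obtain ⟨j, hj⟩ := a.range_eq g⁻¹
  have h1 : a.ρ g * a.ρ g⁻¹ = 1 := by rw [← map_mul, mul_inv_cancel, map_one]
  have hω : a.ω ≠ 0 := fun h => by simpa [h] using a.omega_rel
  have h00 := congrFun (congrFun h1 0) 0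
  rcases hi with hi | hi <;> rcases hj with hj | hj <;> rw [hi, hj] at h00 ⊢
  all_goals first
    | (exfalso; simp [rotMat, swapMat, Matrix.mul_apply, Fin.sum_univ_two] at h00; done)
    | (ext p q; fin_cases p <;> fin_cases q <;>
        simp [offDiag, rotMat, swapMat, Matrix.mul_apply, Matrix.vecMul, dotProduct,
          Fin.sum_univ_two])

theorem offDiag_adCobdry_rho (M : Matrix (Fin 2) (Fin 2) k) (g : Γℚ) :
    offDiag (adCobdry a M g) = adCobdry a (offDiag M) g := by
  unfold adCobdry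
  rw [← offDiag_conj_rho]
  exact map_sub offDiagL _ _

theorem isAdCocycle_offDiag {c : Γℚ → Matrix (Fin 2) (Fin 2) k} (hc : IsAdCocycle a c) :
    IsAdCocycle a fun g => offDiag (c g) := by
  refine ⟨fun g h => ?_, ?_⟩
  · show offDiagL (c (g * h)) = _
    rw [hc.map_mul, map_add]
    exact congrArg (offDiag (c g) + ·) (offDiag_conj_rho a g (c h))
  · obtain ⟨L, hL, h⟩ := hc.finiteLevel
    exact ⟨L, hL, fun g hg => (congrArg offDiag (h g hg)).trans (map_zero offDiagL)⟩

theorem isAdCocycle_sub {c c' : Γℚ → Matrix (Fin 2) (Fin 2) k} (hc : IsAdCocycle a c)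
    (hc' : IsAdCocycle a c') : IsAdCocycle a (c - c') := by
  refine ⟨fun g h => ?_, ?_⟩
  · simp only [Pi.sub_apply, hc.map_mul, hc'.map_mul, mul_sub, sub_mul]
    abel
  · obtain ⟨L, hL, h⟩ := hc.finiteLevel
    obtain ⟨L', hL', h'⟩ := hc'.finiteLevel
    refine ⟨L ⊔ L', inferInstance, fun g hg => ?_⟩
    rw [Pi.sub_apply, h g fun x hx => hg x (le_sup_left (α := IntermediateField ℚ Qbar) hx),
      h' g fun x hx => hg x (le_sup_right (α := IntermediateField ℚ Qbar) hx), sub_zero]

theorem isAdCocycle_adCobdry (M : Matrix (Fin 2) (Fin 2) k) : IsAdCocycle a (adCobdryL a M) := by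
  refine ⟨fun g h => ?_, ?_⟩
  · show adCobdry a M (g * h) = adCobdry a M g + _ * adCobdry a M h * _
    simp only [adCobdry, map_mul, mul_inv_rev, mul_sub, sub_mul, Matrix.mul_assoc]
    abel
  · obtain ⟨L, hL, h⟩ := a.finiteLevel
    refine ⟨L, hL, fun g hg => ?_⟩
    show adCobdry a M g = 0
    have hg' : ∀ x ∈ L, g⁻¹ x = x := fun x hx => by
      conv_lhs => rw [← hg x hx]
      exact g.symm_apply_apply x
    simp [adCobdry, h g hg, h g⁻¹ hg']

theorem adCobdry_eq_zero_of_rho_eq_one (M : Matrix (Fin 2) (Fin 2) k) {g : Γℚ} (h : a.ρ g = 1) :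
    adCobdry a M g = 0 := by
  have hi : a.ρ g⁻¹ = 1 := by
    have := congrArg (a.ρ g⁻¹ * ·) h
    simp only [← map_mul, inv_mul_cancel, map_one, mul_one] at this
    exact this.symm
  simp [adCobdry, h, hi]

/-- Subtracting an antidiagonal coboundary from a tangent lift with trivial antidiagonal part
gives a diagonal class. -/
theorem isDiagClass_sub_adCobdry {ι : Type} {P : ι → AuxPlace}
    (hflat : ∀ c : Γℚ → Matrix (Fin 2) (Fin 2) k, IsAdCocycle a c → IsFlatLift a c →
      ∀ A : ValuationSubring Qbar, A.LiesOverPrime 2 → ∀ τ ∈ A.inertiaSubgroupIn ℚ,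
        c τ 0 0 = 0 ∧ c τ 1 1 = 0)
    {c : Γℚ → Matrix (Fin 2) (Fin 2) k} (hc : IsTangentLift a P c)
    {M : Matrix (Fin 2) (Fin 2) k} (hM : ∀ g, offDiag (c g) = adCobdry a M g) :
    IsDiagClass a P (c - adCobdryL a (offDiag M)) := by
  have hoff : ∀ g, offDiag ((c - adCobdryL a (offDiag M)) g) = 0 := fun g => by
    show offDiagL (c g - adCobdry a (offDiag M) g) = 0
    rw [map_sub]
    show offDiag (c g) - offDiag (adCobdry a (offDiag M) g) = 0
    rw [offDiag_adCobdry_rho, offDiag_idem, ← offDiag_adCobdry_rho, ← hM, offDiag_idem, sub_self]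
  have hd : ∀ g, (c - adCobdryL a (offDiag M)) g 0 1 = 0 ∧
      (c - adCobdryL a (offDiag M)) g 1 0 = 0 := fun g => by
    have h := hoff g
    exact ⟨by simpa [offDiag] using congrFun (congrFun h 0) 1,
      by simpa [offDiag] using congrFun (congrFun h 1) 0⟩
  refine ⟨isAdCocycle_sub a hc.cocycle (isAdCocycle_adCobdry a _), hd, ?_, ?_, ?_⟩
  · intro q hq hq2 hqN hP A hA τ hτ
    show c τ - adCobdry a (offDiag M) τ = 0
    rw [hc.unramified q hq hq2 hqN hP A hA τ hτ,
      adCobdry_eq_zero_of_rho_eq_one a _ (a.unramified q hq hq2 hqN A hA τ hτ), sub_zero]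
  · intro q hq hqN A hA
    obtain ⟨M', hM'⟩ := hc.level q hq hqN A hA
    refine ⟨M' - offDiag M, fun τ hτ => ?_⟩
    show c τ - adCobdryL a (offDiag M) τ = adCobdryL a (M' - offDiag M) τ
    rw [map_sub, hM' τ hτ]
    rfl
  · intro A hA τ hτ
    obtain ⟨h0, h1⟩ := hflat c hc.cocycle hc.flat A hA τ hτ
    have hdiag : a.ρ τ 0 1 = 0 := (a.two_inertia A hA).1 τ hτ
    have hz : ∀ N : Matrix (Fin 2) (Fin 2) k, ∀ i, offDiag N i i = 0 := fun N i => by
      fin_cases i <;> simp [offDiag]
    have hcob : ∀ i, adCobdry a (offDiag M) τ i i = 0 := fun i => by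
      rw [show adCobdry a (offDiag M) τ = offDiag (adCobdry a M τ) from
        (offDiag_adCobdry_rho a M τ).symm]
      exact hz _ i
    ext i j
    show (c τ - adCobdry a (offDiag M) τ) i j = 0
    fin_cases i <;> fin_cases j
    · simp [h0, hcob 0]
    · exact (hd τ).1
    · exact (hd τ).2
    · simp [h1, hcob 1]

/-- **The tangent bound.** -/
theorem hasBound_tangentLift {s : ℕ} {Q : Fin s → AuxPlace} {qs : Fin (a.r₀ + 1) → ℕ}
    {C : Fin a.r₀ → AuxPlace}
    (hinj : Function.Injective fun i => (Sum.elim Q C i).q) (hQ : ∀ j, IsSwapPlace a (Q j))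
    (hC : IsLegendreSet a qs C) (hkill : KillsDual a Q) :
    HasBound a (IsTangentLift a (Sum.elim Q C)) (2 * Fintype.card (Fin s ⊕ Fin a.r₀)) := by
  intro V _ _ _ c hc hinjc
  classical
  let co : V →ₗ[k] (Γℚ → Matrix (Fin 2) (Fin 2) k) :=
    { toFun := fun v g => offDiag (c v g)
      map_add' := fun v w => by funext g; simp [map_add]; exact map_add offDiagL _ _
      map_smul' := fun x v => by funext g; simp [map_smul]; exact map_smul offDiagL x _ }
  -- kernel: classes with trivial antidiagonal part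
  let V₀ : Submodule k V := (LinearMap.range (adCobdryL a)).comap co
  obtain ⟨π, hπ⟩ := V₀.exists_isCompl
  have h1 : Module.finrank k π ≤ s := by
    refine hasBound_antiClass a hinj hQ hC.rot hkill π (co.comp π.subtype) (fun v => ?_) ?_
    · refine ⟨isAdCocycle_offDiag a (hc v.1).cocycle, fun g => (offDiag_idem _).symm, ?_, ?_, ?_⟩
      · intro q hq hq2 hqN hP A hA τ hτ
        show offDiag (c v.1 τ) = 0
        rw [(hc v.1).unramified q hq hq2 hqN hP A hA τ hτ]
        exact map_zero offDiagL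
      · intro q hq hqN A hA
        obtain ⟨M, hM⟩ := (hc v.1).level q hq hqN A hA
        exact ⟨offDiag M, fun τ hτ =>
          (congrArg offDiag (hM τ hτ)).trans (offDiag_adCobdry_rho a M τ)⟩
      · intro A hA
        refine ⟨1, fun _ => c v.1, fun _ => 1, 0, fun _ => ⟨(hc v.1).cocycle, (hc v.1).flat⟩,
          fun g _ => ?_⟩
        simp [adCobdry, co, show offDiag (0 : Matrix (Fin 2) (Fin 2) k) = 0 from map_zero offDiagL]
    · rintro ⟨v, hv⟩ ⟨M, hM⟩
      have hv0 : v ∈ V₀ := ⟨M, funext fun g => (hM g).symm⟩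
      exact Subtype.ext (Submodule.disjoint_def.mp hπ.disjoint v hv0 hv)
  have h2 : Module.finrank k V₀ ≤ s + 2 * a.r₀ := by
    obtain ⟨L, hL⟩ := LinearMap.exists_rightInverse_of_surjective
      (LinearMap.rangeRestrict (adCobdryL a)) (LinearMap.range_rangeRestrict _)
    let corr : V₀ →ₗ[k] Matrix (Fin 2) (Fin 2) k :=
      L.comp ((co.comp V₀.subtype).codRestrict _ fun v => v.2)
    have hcorr : ∀ v : V₀, ∀ g, offDiag (c v.1 g) = adCobdry a (corr v) g := fun v g => by
      have := congrArg (fun f => (f ⟨co v.1, v.2⟩ : Γℚ → Matrix (Fin 2) (Fin 2) k) g)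
        (congrArg (fun l => Subtype.val ∘ DFunLike.coe l) hL)
      exact this.symm
    let c₀ : V₀ →ₗ[k] (Γℚ → Matrix (Fin 2) (Fin 2) k) :=
      c.comp V₀.subtype - (adCobdryL a).comp (offDiagL.comp corr)
    refine hasBound_diagClass a hinj hQ hC V₀ c₀ (fun v => ?_) (fun v hv => ?_)
    · exact isDiagClass_sub_adCobdry a
        (fun c' h h' A hA τ hτ => diag_eq_zero_of_isFlatLift a h h' hA hτ) (hc v.1) (hcorr v)
    · obtain ⟨M, hM⟩ := hv
      refine Subtype.ext (hinjc v.1 ⟨M + offDiag (corr v), fun g => ?_⟩)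
      have h : adCobdryL a M g + adCobdryL a (offDiag (corr v)) g = c v.1 g := by
        show adCobdry a M g + _ = _
        rw [← hM g]
        exact sub_add_cancel _ _
      rw [← h, ← Pi.add_apply, ← map_add]
      rfl
  have h3 := Submodule.finrank_add_eq_of_isCompl hπ
  simp only [Fintype.card_sum, Fintype.card_fin]
  omega

end FermatLib.MLT.Two

end
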