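import Fermat.Agent.MLT.Two.AuxHecke
import Fermat.Agent.MLT.Two.Tangent
import Fermat.Agent.MLT.Two.AuxRingTangent
import Fermat.Agent.MLT.Two.AuxRingFlat

/-!
# V4-Ring: the ring generated by the twisted module and the curve
-/

set_option autoImplicit false

noncomputable section

namespace FermatLib.MLT.Two

local notation "Qbar" => AlgebraicClosure ℚ
local notation "Γℚ" => (AlgebraicClosure ℚ ≃ₐ[ℚ] AlgebraicClosure ℚ)

variable {O : Type} [CommRing O] [IsDomain O] [IsDiscreteValuationRing O]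
  [IsAdicComplete (IsLocalRing.maximalIdeal O) O] [CharZero O]
  {k : Type} [Field k] [Finite k] (S : System O k)
variable {ι : Type} [Fintype ι] [DecidableEq ι] {n : ℕ} {P : ι → AuxPlace} {pol : MvPolynomial ℕ ℤ}

/-- A local ring acting through `H`, with the point of the curve, the two coordinates at each
place and few generators of the maximal ideal. -/
structure AuxRing (D : AuxHecke S n P pol) : Type 1 where
  R : Type
  [instRing : CommRing R]
  [instAlgebra : Algebra O R]
  [instLocal : IsLocalRing R]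
  [instFinite : Module.Finite O R]
  toH : R →ₐ[O] D.H
  point : R →ₐ[O] O
  residue_surjective : ∀ x : R, ∃ c : O, x - algebraMap O R c ∈ IsLocalRing.maximalIdeal R
  e : ι → Fin 2 → R
  toH_zero : ∀ i, toH (e i 0) = D.xi i 0 + D.xi i 1 - 2
  toH_one : ∀ i, toH (e i 1) = (D.xi i 0 - 1) * (D.xi i 1 - 1)
  point_e : ∀ i j, point (e i j) = 0
  /-- The element killing the untwisted quotient. -/
  r : R
  toH_r : ∀ v : D.M, toH r • v ∈
    Ideal.span (Set.range fun p : ι × Fin 2 => D.xi p.1 p.2 - 1) • (⊤ : Submodule D.H D.M)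
  point_r : point r = (∏ i, ((S.ρ (P i).F).trace ^ 2 - (((P i).q + 1 : ℕ) : O) ^ 2)) *
    ((MvPolynomial.eval S.ap pol : ℤ) : O)
  y : ι → Fin 2 → R
  span_y : IsLocalRing.maximalIdeal R =
    Ideal.span (Set.range fun p : ι × Fin 2 => y p.1 p.2) ⊔ Ideal.span {(2 : R)}

attribute [instance] AuxRing.instRing AuxRing.instAlgebra AuxRing.instLocal AuxRing.instFinite

omit [IsDomain O] [IsDiscreteValuationRing O]
  [IsAdicComplete (IsLocalRing.maximalIdeal O) O] [CharZero O] in
/-- Values of a polynomial through a homomorphism, on its variables only. -/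
theorem map_aeval_of_vars {A B : Type} [CommRing A] [CommRing B] (φ : A →+* B)
    (p : MvPolynomial ℕ ℤ) (g : ℕ → A) (h : ℕ → B) (heq : ∀ ℓ ∈ p.vars, φ (g ℓ) = h ℓ) :
    φ (MvPolynomial.aeval g p) = MvPolynomial.aeval h p := by
  rw [MvPolynomial.aeval_def, MvPolynomial.eval₂_comp_left, MvPolynomial.aeval_def]
  exact MvPolynomial.eval₂Hom_congr' (RingHom.ext_int _ _) (fun i hi _ => heq i hi) rfl

/-- The ring exists as soon as the tangent lifts are at most twice the places. -/
theorem nonempty_auxRing (hP : IsDepth S n P) (hn : 2 ≤ n)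
    (hbound : HasBound S.anchor (IsTangentLift S.anchor P) (2 * Fintype.card ι))
    (hpol : ∀ ℓ ∈ pol.vars, ℓ.Prime ∧ ¬ ℓ ∣ 2 * S.anchor.N ∧ ∀ i, (P i).q ≠ ℓ)
    (D : AuxHecke S n P pol) : Nonempty (AuxRing S D) := by
  classical
  obtain ⟨hloc, π, hπt, hπd⟩ := D.exists_residue_traceAlg
  obtain ⟨ρR, hres, htr, hdet, hcongr⟩ := D.exists_traceAlgRep π hπt hπd
  obtain ⟨hfin, hnoeth, -, -⟩ := isAdicComplete_subalgebra D.traceAlg π
  have hgen : Algebra.adjoin O
      (Set.range (fun g => (ρR g).trace) ∪ Set.range fun g => (ρR g).det) = ⊤ := by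
    simp only [htr, hdet]
    apply Subalgebra.map_injective (f := D.traceAlg.val) Subtype.val_injective
    rw [AlgHom.map_adjoin, Algebra.map_top, Subalgebra.range_val, Set.image_union,
      ← Set.range_comp, ← Set.range_comp]
    rfl
  obtain ⟨J, hJ, hmodel⟩ := D.exists_model_traceAlg hres htr
  obtain ⟨b, hb⟩ := exists_generators_of_hasBound S hres hcongr hgen
    (P := P) (fun q hq hq2 hN hPq A hA τ hτ =>
      D.traceAlgRep_unramified hres htr hq hq2 hN hPq hA hτ)
    (fun q hq hN A hA τ hτ τ' hτ' => D.traceAlgRep_level hres htr hq hN hA hτ hτ')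
    hJ hmodel hbound
  have hplace : ∀ ℓ : ℕ, ∃ σ : Γℚ, ℓ.Prime → ∃ A : ValuationSubring Qbar,
      A.LiesOverPrime ℓ ∧ A.IsFrobeniusAt σ ℓ := fun ℓ => by
    by_cases hℓ : ℓ.Prime
    · obtain ⟨A, hA⟩ := FermatLib.Basic.exists_liesOverPrime hℓ
      obtain ⟨σ, hσ⟩ := FermatLib.Basic.exists_isFrobeniusAt hℓ A hA
      exact ⟨σ, fun _ => ⟨A, hA, hσ⟩⟩
    · exact ⟨1, fun h => absurd h hℓ⟩
  choose σf hσf using hplace
  let e : ι × Fin 2 ≃ Fin (2 * Fintype.card ι) :=
    Fintype.equivFinOfCardEq (by simp [mul_comm])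
  let point : D.traceAlg →ₐ[O] O := (AlgHom.snd O D.H O).comp D.traceAlg.val
  let toH : D.traceAlg →ₐ[O] D.H := (AlgHom.fst O D.H O).comp D.traceAlg.val
  have hH : ∀ g, toH (D.tR g) = D.traceH g ∧ toH (D.dR g) = D.detH g := fun g => ⟨rfl, rfl⟩
  have hO : ∀ g, point (D.tR g) = (S.ρ g).trace ∧ point (D.dR g) = (S.ρ g).det :=
    fun g => ⟨rfl, rfl⟩
  have htau : ∀ i, S.ρ (D.tau i) = 1 := fun i =>
    S.unramified (P i).q (P i).hq
      (fun h => hP.prime_to i (by rw [h]; exact dvd_mul_right 2 _))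
      (fun h => hP.prime_to i (dvd_mul_of_dvd_right h 2)) (P i).A (P i).hA _ (D.tau_mem i)
  refine ⟨{
    R := D.traceAlg
    toH := toH
    point := point
    residue_surjective := fun x => ?_
    e := fun i => ![D.tR (D.tau i) - 2, D.dR (D.tau i) - 1 - (D.tR (D.tau i) - 2)]
    toH_zero := fun i => ?_
    toH_one := fun i => ?_
    point_e := fun i j => ?_
    r := (∏ i, (D.tR (P i).F ^ 2 - (((P i).q + 1 : ℕ) : D.traceAlg) ^ 2)) *
      MvPolynomial.aeval (fun ℓ => D.tR (σf ℓ)) pol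
    toH_r := fun v => ?_
    point_r := ?_
    y := fun i j => b (e (i, j))
    span_y := ?_ }⟩
  · obtain ⟨c, hc⟩ := IsLocalRing.residue_surjective (π x)
    refine ⟨c, (FermatLib.Galois.Deform.res_eq_zero_iff π _).mp ?_⟩
    rw [map_sub, AlgHom.commutes, IsLocalRing.ResidueField.algebraMap_eq, hc, sub_self]
  · show toH (D.tR (D.tau i) - 2) = _
    rw [map_sub, map_ofNat, (hH _).1, D.traceH_tau]
  · show toH (D.dR (D.tau i) - 1 - (D.tR (D.tau i) - 2)) = _
    rw [map_sub, map_sub, map_sub, map_ofNat, map_one, (hH _).1, (hH _).2, D.traceH_tau,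
      D.detH_tau]
    ring
  · fin_cases j
    · show point (D.tR (D.tau i) - 2) = 0
      rw [map_sub, map_ofNat, (hO _).1, htau]
      simp
    · show point (D.dR (D.tau i) - 1 - (D.tR (D.tau i) - 2)) = 0
      rw [map_sub, map_sub, map_sub, map_ofNat, map_one, (hO _).1, (hO _).2, htau]
      simp
  · have h := D.kills (fun i => D.traceH (P i).F)
      (fun I hI hI' i => D.mk_traceH (P i).F ⟨I, hI, hI'⟩) v
    convert h using 2
    rw [map_mul, map_prod]
    refine congrArg₂ (· * ·) (Finset.prod_congr rfl fun i _ => ?_) ?_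
    · rw [map_sub, map_pow, map_pow, map_natCast, (hH _).1]
    · refine map_aeval_of_vars (toH : D.traceAlg →+* D.H) pol _ _ fun ℓ hℓ => ?_
      obtain ⟨hp, hN, hq⟩ := hpol ℓ hℓ
      obtain ⟨A, hA, hF⟩ := hσf ℓ hp
      exact (hH _).1.trans (D.traceH_frob hp hN hq hA hF)
  · rw [map_mul, map_prod]
    refine congrArg₂ (· * ·) (Finset.prod_congr rfl fun i _ => ?_) ?_
    · rw [map_sub, map_pow, map_pow, map_natCast, (hO _).1]
    · refine (map_aeval_of_vars (point : D.traceAlg →+* O) pol _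
        (fun ℓ => (S.ap ℓ : O)) fun ℓ hℓ => ?_).trans ?_
      · obtain ⟨hp, hN, -⟩ := hpol ℓ hℓ
        obtain ⟨A, hA, hF⟩ := hσf ℓ hp
        exact (hO _).1.trans (S.frobenius ℓ hp (fun h => hN (by rw [h]; exact dvd_mul_right 2 _))
          (fun h => hN (dvd_mul_of_dvd_right h 2)) A hA _ hF).1
      · rw [← MvPolynomial.aeval_eq_eval]
        exact (map_aeval_of_vars (Int.castRingHom O) pol S.ap _ fun _ _ => rfl).symm
  · rw [hb]
    congr 2
    exact (EquivLike.range_comp b e).symm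

end FermatLib.MLT.Two

end
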