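import Fermat.Agent.Galois.FlatModelRat
import Mathlib.RingTheory.Filtration
import Mathlib.RingTheory.Ideal.MinimalPrime.Basic
import Mathlib.RingTheory.Ideal.MinimalPrime.Noetherian
import Mathlib.RingTheory.Ideal.Pointwise
import Mathlib.RingTheory.IntegralClosure.IsIntegralClosure.Basic

/-!
# Commutative algebra for the ring of traces

Approximation and Artin–Rees shift for finite modules over a local noetherian ring, the
characteristic zero points of a finite torsion free reduced algebra, and finite products of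
modules with finite flat models.
-/

set_option autoImplicit false

noncomputable section

open IsLocalRing
open scoped Pointwise

namespace FermatLib.MLT.Two

section Approx

variable {O M M' : Type} [CommRing O] [IsNoetherianRing O] [AddCommGroup M] [Module O M]
  [AddCommGroup M'] [Module O M'] [Module.Finite O M'] (f : M →ₗ[O] M')

/-- Artin–Rees along an injective linear map. -/
theorem exists_dvd_shift (hf : Function.Injective f) (r : O) :
    ∃ c : ℕ, ∀ (m : ℕ) (x : M), (∃ y, f x = r ^ (m + c) • y) → ∃ z, x = r ^ m • z := by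
  obtain ⟨c, hc⟩ := (Ideal.span {r}).exists_pow_inf_eq_pow_smul (LinearMap.range f)
  refine ⟨c, fun m x ⟨y, hy⟩ => ?_⟩
  have h1 : f x ∈ Ideal.span {r} ^ (m + c) • (⊤ : Submodule O M') ⊓ LinearMap.range f :=
    ⟨hy ▸ Submodule.smul_mem_smul (Ideal.pow_mem_pow (Ideal.mem_span_singleton_self r) _)
      Submodule.mem_top, x, rfl⟩
  rw [hc _ (Nat.le_add_left c m), Nat.add_sub_cancel] at h1
  have h2 : f x ∈ Ideal.span {r ^ m} • LinearMap.range f := by
    rw [← Ideal.span_singleton_pow]
    exact (Submodule.smul_mono le_rfl inf_le_right : _ ≤ Ideal.span {r} ^ m • LinearMap.range f) h1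
  rw [Submodule.ideal_span_singleton_smul, Submodule.mem_smul_pointwise_iff_exists] at h2
  obtain ⟨_, ⟨w, rfl⟩, hw⟩ := h2
  exact ⟨w, hf (by rw [map_smul, hw])⟩

/-- The image of a finite module is closed. -/
theorem mem_range_of_forall_approx [IsLocalRing O] {r : O} (hr : r ∈ maximalIdeal O) (x : M')
    (h : ∀ m : ℕ, ∃ w y, x - f w = r ^ m • y) : x ∈ LinearMap.range f := by
  rw [← Submodule.Quotient.mk_eq_zero, ← Submodule.mem_bot O,
    ← Ideal.iInf_pow_smul_eq_bot_of_isLocalRing (maximalIdeal O)
      (IsLocalRing.maximalIdeal.isMaximal O).ne_top, Submodule.mem_iInf]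
  intro m
  obtain ⟨w, y, hy⟩ := h m
  have hx : (Submodule.Quotient.mk x : M' ⧸ LinearMap.range f) =
      r ^ m • Submodule.Quotient.mk y := by
    rw [← Submodule.Quotient.mk_smul, Submodule.Quotient.eq, ← hy, sub_sub_cancel]
    exact ⟨w, rfl⟩
  rw [hx]
  exact Submodule.smul_mem_smul (Ideal.pow_mem_pow hr _) Submodule.mem_top

end Approx

section CharZeroPoints

variable {O H : Type} [CommRing O] [CommRing H] [Algebra O H]

variable (O) in
/-- The primes of `H` meeting the constants in zero only. -/
def IsZeroPoint (I : Ideal H) : Prop := I.IsPrime ∧ ∀ c : O, algebraMap O H c ∈ I → c = 0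

theorem isZeroPoint_of_mem_minimalPrimes (htf : ∀ (c : O) (z : H), c • z = 0 → c = 0 ∨ z = 0)
    {I : Ideal H} (hI : I ∈ minimalPrimes H) : IsZeroPoint O I := by
  refine ⟨hI.1.1, fun c hc => by_contra fun hne => ?_⟩
  have hreg : algebraMap O H c ∈ nonZeroDivisors H :=
    mem_nonZeroDivisors_iff_right.mpr fun z hz =>
      (htf c z (by rw [Algebra.smul_def, mul_comm, hz])).resolve_left hne
  exact Set.disjoint_left.mp (Ideal.disjoint_nonZeroDivisors_of_mem_minimalPrimes hI) hc hreg

theorem mem_minimalPrimes_of_isZeroPoint [Nontrivial O] [Algebra.IsIntegral O H] {I : Ideal H}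
    (hI : IsZeroPoint O I) : I ∈ minimalPrimes H := by
  refine ⟨⟨hI.1, bot_le⟩, fun J hJ hJI => ?_⟩
  have := hJ.1
  have hb : I.map (Ideal.Quotient.mk J) = ⊥ := by
    refine Ideal.eq_bot_of_comap_eq_bot (R := O) (eq_bot_iff.mpr fun c hc => ?_)
    rw [Ideal.mem_comap, IsScalarTower.algebraMap_apply O H (H ⧸ J),
      Ideal.Quotient.algebraMap_eq] at hc
    rw [Ideal.mem_bot]
    refine hI.2 c ?_
    have h2 : algebraMap O H c ∈ (I.map (Ideal.Quotient.mk J)).comap (Ideal.Quotient.mk J) := hc
    rwa [Ideal.comap_map_of_surjective' _ Ideal.Quotient.mk_surjective, Ideal.mk_ker,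
      sup_eq_left.mpr hJI] at h2
  intro x hx
  rw [← Ideal.Quotient.eq_zero_iff_mem]
  exact (Ideal.mem_bot).mp (hb ▸ Ideal.mem_map_of_mem _ hx)

theorem finite_zeroPoints [Nontrivial O] [Algebra.IsIntegral O H] [IsNoetherianRing H] :
    {I : Ideal H | IsZeroPoint O I}.Finite :=
  (minimalPrimes.finite_of_isNoetherianRing H).subset fun _ h => mem_minimalPrimes_of_isZeroPoint h

theorem eq_zero_of_forall_zeroPoint [IsReduced H]
    (htf : ∀ (c : O) (z : H), c • z = 0 → c = 0 ∨ z = 0) {x : H}
    (h : ∀ I : Ideal H, IsZeroPoint O I → x ∈ I) : x = 0 := by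
  have hx : x ∈ sInf ((⊥ : Ideal H).minimalPrimes) :=
    Submodule.mem_sInf.mpr fun I hI => h I (isZeroPoint_of_mem_minimalPrimes htf hI)
  rw [Ideal.sInf_minimalPrimes] at hx
  obtain ⟨n, hn⟩ := hx
  exact IsReduced.eq_zero x ⟨n, (Ideal.mem_bot).mp hn⟩

end CharZeroPoints

section Models

open FermatLib.Galois.FlatModel

local notation "Γℚ" => (AlgebraicClosure ℚ ≃ₐ[ℚ] AlgebraicClosure ℚ)

/-- Finite products of modules with models have models. -/
theorem hasModelAt_pi {p : ℕ} {ι : Type} [Fintype ι] {M : ι → Type} [∀ i, AddCommGroup (M i)]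
    (act : ∀ i, Γℚ → M i → M i) (h : ∀ i, HasModelAt p (M i) (act i)) :
    HasModelAt p (∀ i, M i) fun σ x i => act i σ (x i) := by
  classical
  have key : ∀ s : Finset ι, HasModelAt p (∀ i : s, M i.1) fun σ x i => act i.1 σ (x i) := by
    intro s
    induction s using Finset.induction with
    | empty =>
      have : Subsingleton (∀ i : (∅ : Finset ι), M i.1) :=
        ⟨fun x y => funext fun i => absurd i.2 (Finset.notMem_empty _)⟩
      exact HasModel.of_subsingleton
    | insert a s ha ih =>
      refine ((h a).prod ih).of_injective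
        (AddMonoidHom.mk' (fun v => (v ⟨a, Finset.mem_insert_self a s⟩,
          fun i => v ⟨i.1, Finset.mem_insert_of_mem i.2⟩)) fun _ _ => rfl) ?_ fun σ v => rfl
      intro v w hvw
      funext i
      rcases Finset.mem_insert.mp i.2 with hi | hi
      · obtain ⟨i, hi'⟩ := i
        obtain rfl : i = a := hi
        exact congrArg Prod.fst hvw
      · exact congrFun (congrArg Prod.snd hvw) ⟨i.1, hi⟩
  refine (key Finset.univ).of_injective (AddMonoidHom.mk' (fun x i => x i.1) fun _ _ => rfl)
    (fun x y hxy => funext fun i => congrFun hxy ⟨i, Finset.mem_univ i⟩) fun σ x => rfl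

end Models

end FermatLib.MLT.Two

end
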