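import Fermat.Agent.MLT.Two.AuxHecke
import Fermat.Agent.MLT.Two.AuxRingAlgebra
import Fermat.Agent.Galois.FrobeniusDensity
import Fermat.Agent.Galois.LucasTrace

/-!
# Traces and determinants of the points, inside the Hecke algebra

The traces and determinants of the representations at the characteristic zero points of an
auxiliary Hecke algebra are the images of elements of the algebra, by Frobenius density and
closedness; these elements are congruent along finite levels.
-/

set_option autoImplicit false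

noncomputable section

open IsLocalRing Matrix

namespace FermatLib.MLT.Two

local notation "Qbar" => AlgebraicClosure ℚ
local notation "Γℚ" => (AlgebraicClosure ℚ ≃ₐ[ℚ] AlgebraicClosure ℚ)

section congr

variable {R : Type} [CommRing R] (I : Ideal R) {M M' : Matrix (Fin 2) (Fin 2) R}

omit I in
theorem map_trace_fin_two {T : Type} [CommRing T] (f : R →+* T) (M : Matrix (Fin 2) (Fin 2) R) :
    f M.trace = (M.map f).trace := by
  simp [Matrix.trace_fin_two]

theorem trace_sub_mem_of_map_eq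
    (h : M.map (Ideal.Quotient.mk I) = M'.map (Ideal.Quotient.mk I)) : M.trace - M'.trace ∈ I := by
  rw [← Ideal.Quotient.eq, map_trace_fin_two, map_trace_fin_two, h]

theorem det_sub_mem_of_map_eq
    (h : M.map (Ideal.Quotient.mk I) = M'.map (Ideal.Quotient.mk I)) : M.det - M'.det ∈ I := by
  rw [← Ideal.Quotient.eq, RingHom.map_det, RingHom.map_det]
  exact congrArg Matrix.det h

end congr

namespace AuxHecke

variable {O : Type} [CommRing O] {k : Type} [Field k] {S : System O k} {ι : Type} [Fintype ι]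
  [DecidableEq ι] {n : ℕ} {P : ι → AuxPlace} {pol : MvPolynomial ℕ ℤ} (D : AuxHecke S n P pol)

/-- The characteristic zero points. -/
abbrev Point : Type := {I : Ideal D.H // IsZeroPoint O I}

instance point_isPrime (p : D.Point) : p.1.IsPrime := p.2.1

instance point_isLocalRing (p : D.Point) : IsLocalRing (D.H ⧸ p.1) :=
  IsLocalRing.of_surjective' (Ideal.Quotient.mk p.1) Ideal.Quotient.mk_surjective

instance point_finite [IsNoetherianRing O] [Nontrivial O] : Finite D.Point := by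
  have := IsNoetherianRing.of_finite O D.H
  have := Algebra.IsIntegral.of_finite O D.H
  exact (finite_zeroPoints (O := O) (H := D.H)).to_subtype

/-- All evaluations at once. -/
def evalPoints : D.H →ₐ[O] ∀ p : D.Point, D.H ⧸ p.1 :=
  { RingHom.pi fun p : D.Point => Ideal.Quotient.mk p.1 with commutes' := fun _ => rfl }

theorem evalPoints_injective : Function.Injective D.evalPoints :=
  (injective_iff_map_eq_zero _).mpr fun _ hx =>
    eq_zero_of_forall_zeroPoint D.torsionFree fun I hI =>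
      Ideal.Quotient.eq_zero_iff_mem.mp (congrFun hx ⟨I, hI⟩)

theorem eq_of_forall_mk_eq {x y : D.H}
    (h : ∀ p : D.Point, Ideal.Quotient.mk p.1 x = Ideal.Quotient.mk p.1 y) : x = y :=
  D.evalPoints_injective (funext h)

theorem nonempty_point : Nonempty D.Point := by
  obtain ⟨I, hI⟩ := Ideal.nonempty_minimalPrimes (R := D.H) (I := ⊥) bot_ne_top
  exact ⟨⟨I, isZeroPoint_of_mem_minimalPrimes D.torsionFree hI⟩⟩

theorem red_eq_of_mk_eq (p : D.Point) {x y : D.H}
    (h : Ideal.Quotient.mk p.1 x = Ideal.Quotient.mk p.1 y) : D.red x = D.red y := by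
  rw [← sub_eq_zero, ← map_sub, ← RingHom.mem_ker, D.ker_red]
  exact IsLocalRing.le_maximalIdeal p.2.1.ne_top (Ideal.Quotient.eq.mp h)

omit [DecidableEq ι] in
theorem two_mul_level_ne_zero (S : System O k) : 2 * S.anchor.N ≠ 0 :=
  Nat.mul_ne_zero two_ne_zero S.anchor.squarefree.ne_zero

/-- On a finite level the representation at a point is constant on cosets. -/
theorem exists_level_point (p : D.Point) (m : ℕ) :
    ∃ L : IntermediateField ℚ Qbar, FiniteDimensional ℚ L ∧ ∀ g σ : Γℚ, (∀ x ∈ L, σ x = x) →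
      (D.ρP p.1 (g * σ)).map (Ideal.Quotient.mk (Ideal.span {(2 : D.H ⧸ p.1) ^ m})) =
        (D.ρP p.1 g).map (Ideal.Quotient.mk (Ideal.span {(2 : D.H ⧸ p.1) ^ m})) := by
  obtain ⟨L, hL, h⟩ := (D.points p.1 p.2.1 p.2.2).2.1 m
  refine ⟨L, hL, fun g σ hσ => ?_⟩
  show (Ideal.Quotient.mk _).mapMatrix (D.ρP p.1 (g * σ)) =
    (Ideal.Quotient.mk _).mapMatrix (D.ρP p.1 g)
  have h1 : (Ideal.Quotient.mk (Ideal.span {(2 : D.H ⧸ p.1) ^ m})).mapMatrix (D.ρP p.1 σ) = 1 :=
    h σ hσ
  rw [map_mul, map_mul, h1, mul_one]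

variable [IsNoetherianRing O] [IsLocalRing O]

/-- A common finite level for all points. -/
theorem exists_level_points (m : ℕ) :
    ∃ L : IntermediateField ℚ Qbar, FiniteDimensional ℚ L ∧
      ∀ (p : D.Point) (g σ : Γℚ), (∀ x ∈ L, σ x = x) →
      (D.ρP p.1 (g * σ)).map (Ideal.Quotient.mk (Ideal.span {(2 : D.H ⧸ p.1) ^ m})) =
        (D.ρP p.1 g).map (Ideal.Quotient.mk (Ideal.span {(2 : D.H ⧸ p.1) ^ m})) := by
  choose L hL h using fun p => D.exists_level_point p m
  have := hL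
  exact ⟨⨆ p, L p, inferInstance, fun p g σ hσ =>
    h p g σ fun x hx => hσ x (le_iSup L p hx)⟩

/-- Traces and determinants are approximated by polynomials in the operators. -/
theorem exists_approx (g : Γℚ) (m : ℕ) : ∃ t d : D.H, ∀ p : D.Point,
    (D.ρP p.1 g).trace - Ideal.Quotient.mk p.1 t ∈ Ideal.span {(2 : D.H ⧸ p.1) ^ m} ∧
    (D.ρP p.1 g).det - Ideal.Quotient.mk p.1 d ∈ Ideal.span {(2 : D.H ⧸ p.1) ^ m} := by
  classical
  obtain ⟨L, hL, h⟩ := D.exists_level_points m
  obtain ⟨ℓ, hℓ, hℓS, A, hA, σ, hσ, -, b, -, hb⟩ :=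
    FermatLib.Galois.exists_isFrobeniusAt_agreeOn L g
      ((2 * S.anchor.N).primeFactors ∪ Finset.univ.image fun i => (P i).q)
  simp only [Finset.mem_union, Nat.mem_primeFactors, Finset.mem_image, Finset.mem_univ, true_and,
    not_or, not_and, not_exists] at hℓS
  have hℓN : ¬ ℓ ∣ 2 * S.anchor.N := fun hd =>
    hℓS.1 hℓ hd (two_mul_level_ne_zero S)
  refine ⟨FermatLib.Galois.lucasTrace (D.t ℓ) (D.dd ℓ) b, D.dd ℓ ^ b, fun p => ?_⟩
  obtain ⟨htr, hdet⟩ := (D.points p.1 p.2.1 p.2.2).2.2.2.2.2 ℓ hℓ hℓN hℓS.2 A hA σ hσ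
  have hfix : ∀ x ∈ L, (g⁻¹ * σ ^ b) x = x := fun x hx => by
    rw [AlgEquiv.mul_apply, hb x hx, ← AlgEquiv.mul_apply, inv_mul_cancel, AlgEquiv.one_apply]
  have heq := h p g _ hfix
  rw [mul_inv_cancel_left, map_pow] at heq
  constructor
  · have := trace_sub_mem_of_map_eq _ heq.symm
    rwa [FermatLib.Galois.trace_pow_eq_lucasTrace, htr, hdet,
      ← FermatLib.Galois.map_lucasTrace] at this
  · have := det_sub_mem_of_map_eq _ heq.symm
    rwa [Matrix.det_pow, hdet, ← map_pow] at this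

/-- Closedness of the Hecke algebra in the product of the points. -/
theorem exists_forall_mk_eq (x : ∀ p : D.Point, D.H ⧸ p.1)
    (h : ∀ m : ℕ, ∃ w : D.H, ∀ p, x p - Ideal.Quotient.mk p.1 w ∈
      Ideal.span {(2 : D.H ⧸ p.1) ^ m}) :
    ∃ z : D.H, ∀ p : D.Point, Ideal.Quotient.mk p.1 z = x p := by
  have h2 : (2 : O) ∈ maximalIdeal O :=
    IsLocalRing.le_maximalIdeal (RingHom.ker_ne_top S.red)
      (S.ker_red.symm ▸ Ideal.mem_span_singleton_self (2 : O))
  obtain ⟨z, hz⟩ := mem_range_of_forall_approx D.evalPoints.toLinearMap h2 x fun m => by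
    obtain ⟨w, hw⟩ := h m
    choose y hy using fun p => Ideal.mem_span_singleton'.mp (hw p)
    refine ⟨w, y, funext fun p => ?_⟩
    rw [Pi.smul_apply, Algebra.smul_def, map_pow, map_ofNat, mul_comm, hy p]
    rfl
  exact ⟨z, congrFun hz⟩

theorem exists_traceH (g : Γℚ) :
    ∃ z : D.H, ∀ p : D.Point, Ideal.Quotient.mk p.1 z = (D.ρP p.1 g).trace :=
  D.exists_forall_mk_eq _ fun m =>
    let ⟨t, _, h⟩ := D.exists_approx g m
    ⟨t, fun p => (h p).1⟩

theorem exists_detH (g : Γℚ) :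
    ∃ z : D.H, ∀ p : D.Point, Ideal.Quotient.mk p.1 z = (D.ρP p.1 g).det :=
  D.exists_forall_mk_eq _ fun m =>
    let ⟨_, d, h⟩ := D.exists_approx g m
    ⟨d, fun p => (h p).2⟩

/-- The element of `H` giving the traces at all points. -/
def traceH (g : Γℚ) : D.H := Classical.choose (D.exists_traceH g)

/-- The element of `H` giving the determinants at all points. -/
def detH (g : Γℚ) : D.H := Classical.choose (D.exists_detH g)

theorem mk_traceH (g : Γℚ) (p : D.Point) :
    Ideal.Quotient.mk p.1 (D.traceH g) = (D.ρP p.1 g).trace :=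
  Classical.choose_spec (D.exists_traceH g) p

theorem mk_detH (g : Γℚ) (p : D.Point) :
    Ideal.Quotient.mk p.1 (D.detH g) = (D.ρP p.1 g).det :=
  Classical.choose_spec (D.exists_detH g) p

theorem red_traceH (g : Γℚ) : D.red (D.traceH g) = (S.anchor.ρ g).trace := by
  obtain ⟨p⟩ := D.nonempty_point
  obtain ⟨M, hM, hMr⟩ := (D.points p.1 p.2.1 p.2.2).1 g
  rw [D.red_eq_of_mk_eq p (y := M.trace), ← hMr, map_trace_fin_two]
  rw [mk_traceH, ← hM, map_trace_fin_two]

theorem red_detH (g : Γℚ) : D.red (D.detH g) = (S.anchor.ρ g).det := by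
  obtain ⟨p⟩ := D.nonempty_point
  obtain ⟨M, hM, hMr⟩ := (D.points p.1 p.2.1 p.2.2).1 g
  rw [D.red_eq_of_mk_eq p (y := M.det), ← hMr, RingHom.map_det]
  · rfl
  · rw [mk_detH, ← hM, RingHom.map_det]
    rfl

/-- The traces and determinants are congruent along finite levels. -/
theorem exists_level_traceH (m : ℕ) :
    ∃ L : IntermediateField ℚ Qbar, FiniteDimensional ℚ L ∧ ∀ σ : Γℚ, (∀ x ∈ L, σ x = x) →
      ∀ g, (∃ z, D.traceH (g * σ) - D.traceH g = (2 : O) ^ m • z) ∧
        ∃ z, D.detH (g * σ) - D.detH g = (2 : O) ^ m • z := by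
  obtain ⟨c, hc⟩ := exists_dvd_shift D.evalPoints.toLinearMap D.evalPoints_injective (2 : O)
  obtain ⟨L, hL, h⟩ := D.exists_level_points (m + c)
  refine ⟨L, hL, fun σ hσ g => ?_⟩
  have key : ∀ z : D.H, (∀ p : D.Point, Ideal.Quotient.mk p.1 z ∈
      Ideal.span {(2 : D.H ⧸ p.1) ^ (m + c)}) → ∃ w, z = (2 : O) ^ m • w := fun z hz => by
    choose y hy using fun p => Ideal.mem_span_singleton'.mp (hz p)
    refine hc m z ⟨y, funext fun p => ?_⟩
    rw [Pi.smul_apply, Algebra.smul_def, map_pow, map_ofNat, mul_comm, hy p]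
    rfl
  exact ⟨key _ fun p => by
      rw [map_sub, mk_traceH, mk_traceH]; exact trace_sub_mem_of_map_eq _ (h p g σ hσ),
    key _ fun p => by
      rw [map_sub, mk_detH, mk_detH]; exact det_sub_mem_of_map_eq _ (h p g σ hσ)⟩

theorem traceH_tau (i : ι) : D.traceH (D.tau i) = D.xi i 0 + D.xi i 1 :=
  D.eq_of_forall_mk_eq fun p => by rw [mk_traceH, (D.inertia p.1 p.2.1 p.2.2 i).1]

theorem detH_tau (i : ι) : D.detH (D.tau i) = D.xi i 0 * D.xi i 1 :=
  D.eq_of_forall_mk_eq fun p => by rw [mk_detH, (D.inertia p.1 p.2.1 p.2.2 i).2]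

theorem traceH_frob {ℓ : ℕ} (hℓ : ℓ.Prime) (hN : ¬ ℓ ∣ 2 * S.anchor.N)
    (hP : ∀ i, (P i).q ≠ ℓ) {A : ValuationSubring Qbar} (hA : A.LiesOverPrime ℓ) {F : Γℚ}
    (hF : A.IsFrobeniusAt F ℓ) : D.traceH F = D.t ℓ :=
  D.eq_of_forall_mk_eq fun p => by
    rw [mk_traceH, ((D.points p.1 p.2.1 p.2.2).2.2.2.2.2 ℓ hℓ hN hP A hA F hF).1]

end AuxHecke

end FermatLib.MLT.Two

end
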