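import Fermat.Agent.MLT.Two.AuxRingTraces
import Mathlib.RingTheory.Henselian

/-!
# The representation over the algebra of traces

Carayol descent, normalised to the residual representation of the anchor, and its comparison with
the representations at the points and of the curve.
-/

set_option autoImplicit false

noncomputable section

open IsLocalRing Matrix Polynomial
open FermatLib.Galois.Deform (GQ)

namespace FermatLib.MLT.Two

local notation "Qbar" => AlgebraicClosure ℚ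
local notation "Γℚ" => (AlgebraicClosure ℚ ≃ₐ[ℚ] AlgebraicClosure ℚ)
local notation "M₂" R:max => Matrix (Fin 2) (Fin 2) R

section generic

variable {𝒪 : Type} [CommRing 𝒪] [IsLocalRing 𝒪] {R : Type} [CommRing R] [Algebra 𝒪 R]
  [IsLocalRing R] (π : R →ₐ[𝒪] ResidueField 𝒪)

/-- Reduction is a local homomorphism. -/
theorem isLocalHom_residueMap : IsLocalHom (π : R →+* ResidueField 𝒪) :=
  ⟨fun x hx => by
    by_contra hnu
    have hm : x ∈ maximalIdeal R := hnu
    rw [← FermatLib.Galois.Deform.res_eq_zero_iff π] at hm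
    exact hx.ne_zero hm⟩

/-- Carayol descent to a local ring, normalised to a given residual representation. -/
theorem exists_normalisedRep (ρbar : GQ →* M₂ (ResidueField 𝒪))
    (hfull : FermatLib.Galois.HasFullSpan ρbar) (t : GQ → R)
    (hπt : ∀ g, π (t g) = (ρbar g).trace) {B : Type} [CommRing B] (f : R →+* B)
    (hf : Function.Injective f) (ρB : GQ →* M₂ B) (hft : ∀ g, f (t g) = (ρB g).trace)
    {c₀ : GQ} {r₁ r₂ : R} (hsum : (ρB c₀).trace = f (r₁ + r₂))
    (hprod : (ρB c₀).det = f (r₁ * r₂)) (hsep : IsUnit (r₁ - r₂)) :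
    ∃ ρ₀ : GQ →* M₂ R, (∀ g, (ρ₀ g).map π = ρbar g) ∧ (∀ g, (ρ₀ g).trace = t g) ∧
      (∀ g, f (ρ₀ g).det = (ρB g).det) ∧
      ∀ (I : Ideal R) (σ : GQ), (∀ x, t (x * σ) - t x ∈ I) → ∀ i j, (ρ₀ σ - 1) i j ∈ I := by
  classical
  have hlocπ := isLocalHom_residueMap π
  obtain ⟨g, hg⟩ := hfull
  have hg' : IsUnit (Matrix.of fun i j => t (g i * g j)).det := by
    refine isUnit_of_map_unit (π : R →+* ResidueField 𝒪) _ ?_
    rw [RingHom.map_det]
    convert hg using 2
    ext i j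
    simp [FermatLib.Galois.repGram, hπt, ← map_mul]
  obtain ⟨ρ', -, htr, hdet, hI⟩ :=
    FermatLib.Galois.exists_descent_of_split f hf ρB t hft hsum hprod hsep g hg'
  obtain ⟨P, hP⟩ := FermatLib.Galois.exists_conj_of_trace_eq
    (ρ₁ := FermatLib.Galois.repMap (π : R →+* ResidueField 𝒪) ρ') (ρ₂ := ρbar)
    (FermatLib.Galois.HasFullSpan.of_trace_eq ⟨g, hg⟩ fun σ => by
      rw [FermatLib.Galois.trace_repMap, htr]; exact (hπt σ).symm)
    (fun σ => by rw [FermatLib.Galois.trace_repMap, htr]; exact hπt σ)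
  choose Q hQ using fun i j => FermatLib.Galois.Deform.res_surjective π (P.1 i j)
  have hQP : (π : R →+* ResidueField 𝒪).mapMatrix (Matrix.of Q) = P.1 := by
    ext i j; exact hQ i j
  obtain ⟨U, hU⟩ : IsUnit (Matrix.of Q) := by
    rw [Matrix.isUnit_iff_isUnit_det]
    refine isUnit_of_map_unit (π : R →+* ResidueField 𝒪) _ ?_
    rw [RingHom.map_det, hQP]
    exact (Matrix.isUnit_iff_isUnit_det _).mp P.isUnit
  refine ⟨{ toFun := fun σ => U.1 * ρ' σ * (U⁻¹ : (M₂ R)ˣ).1
            map_one' := by simp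
            map_mul' := fun σ σ' => by simp [mul_assoc] }, fun σ => ?_, fun σ => ?_, fun σ => ?_,
    fun I σ hσ => ?_⟩
  · show (π : R →+* ResidueField 𝒪).mapMatrix (U.1 * ρ' σ * _) = _
    have hinv : (π : R →+* ResidueField 𝒪).mapMatrix (U⁻¹ : (M₂ R)ˣ).1 =
        (P⁻¹ : (M₂ (ResidueField 𝒪))ˣ).1 := by
      refine (Units.mul_eq_one_iff_inv_eq (u := P)).mp ?_ |>.symm
      rw [← hQP, ← hU, ← map_mul, Units.mul_inv, map_one]
    rw [map_mul, map_mul, hinv, hU, hQP, hP]
    rfl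
  · show (U.1 * ρ' σ * _).trace = _
    rw [Matrix.trace_mul_cycle, Units.inv_mul, one_mul, htr]
  · show f (U.1 * ρ' σ * _).det = _
    rw [Matrix.det_mul_comm, ← mul_assoc, Units.inv_mul, one_mul, hdet]
  · have hmem : ρ' σ - 1 ∈ Ideal.matrix (Fin 2) I := hI I σ hσ
    intro i j
    show (U.1 * ρ' σ * (U⁻¹ : (M₂ R)ˣ).1 - 1) i j ∈ I
    have e : U.1 * ρ' σ * (U⁻¹ : (M₂ R)ˣ).1 - 1 =
        U.1 * (ρ' σ - 1) * (U⁻¹ : (M₂ R)ˣ).1 := by
      rw [mul_sub, sub_mul, mul_one, Units.mul_inv]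
    rw [e, Matrix.mul_apply]
    refine Ideal.sum_mem _ fun l _ => Ideal.mul_mem_right _ _ ?_
    rw [Matrix.mul_apply]
    exact Ideal.sum_mem _ fun m _ => Ideal.mul_mem_left _ _ (hmem m l)

end generic

namespace AuxHecke

variable {O : Type} [CommRing O] [IsNoetherianRing O] [IsLocalRing O]
  [IsAdicComplete (maximalIdeal O) O] {k : Type} [Field k]
  {S : System O k} {ι : Type} [Fintype ι] [DecidableEq ι] {n : ℕ} {P : ι → AuxPlace}
  {pol : MvPolynomial ℕ ℤ} (D : AuxHecke S n P pol) [IsLocalRing D.traceAlg]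
  (π : D.traceAlg →ₐ[O] ResidueField O) (hπt : ∀ g, π (D.tR g) = (S.resRep g).trace)
  (hπd : ∀ g, π (D.dR g) = (S.resRep g).det)

include hπt hπd in
/-- The roots of the characteristic polynomial at an element of rotation type. -/
theorem exists_roots : ∃ (c₀ : Γℚ) (r₁ r₂ : D.traceAlg),
    r₁ + r₂ = D.tR c₀ ∧ r₁ * r₂ = D.dR c₀ ∧ IsUnit (r₁ - r₂) := by
  obtain ⟨-, -, hc, -⟩ := isAdicComplete_subalgebra D.traceAlg π
  obtain ⟨c₀, hc₀⟩ := S.anchor.exists_rot
  set w : ResidueField O := S.kappa.symm S.anchor.ω with hw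
  have hm : S.resRep c₀ = !![w, 0; 0, w ^ 2] := by
    ext i j
    show S.kappa.symm (S.anchor.ρ c₀ i j) = _
    rw [hc₀]
    fin_cases i <;> fin_cases j <;> simp [rotMat, hw]
  have htc : π (D.tR c₀) = w + w ^ 2 := by simp [hπt, hm, Matrix.trace_fin_two]
  have hdc : π (D.dR c₀) = w * w ^ 2 := by simp [hπd, hm, Matrix.det_fin_two]
  have hsep : w - w ^ 2 ≠ 0 := fun h => by
    have h' := congrArg S.kappa h
    simp only [hw, map_sub, map_pow, RingEquiv.apply_symm_apply, map_zero] at h'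
    have h2 := S.anchor.two_eq_zero
    have hω := S.anchor.omega_rel
    exact one_ne_zero (α := k) (by grind)
  obtain ⟨a₀, ha₀⟩ := FermatLib.Galois.Deform.res_surjective π w
  haveI : IsAdicComplete (maximalIdeal D.traceAlg) D.traceAlg := hc
  haveI : HenselianRing D.traceAlg (maximalIdeal D.traceAlg) :=
    IsAdicComplete.henselianRing D.traceAlg (maximalIdeal D.traceAlg)
  set q : D.traceAlg[X] := X ^ 2 - C (D.tR c₀) * X + C (D.dR c₀) with hq
  obtain ⟨a, ha, haa⟩ := HenselianRing.is_henselian (I := maximalIdeal D.traceAlg) q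
    (by rw [hq]; monicity!) a₀
    ((FermatLib.Galois.Deform.res_eq_zero_iff π _).mp (by
      simp [hq, ha₀, htc, hdc]; ring))
    (IsUnit.map _ (by
      have hloc := isLocalHom_residueMap π
      refine isUnit_of_map_unit (π : D.traceAlg →+* ResidueField O) _ (isUnit_iff_ne_zero.mpr ?_)
      intro h
      refine hsep ?_
      rw [← h, hq]
      simp [derivative_pow, ha₀, htc, map_ofNat]
      ring))
  refine ⟨c₀, a, D.tR c₀ - a, by ring, ?_, ?_⟩
  · have := ha
    simp [hq, Polynomial.IsRoot] at this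
    linear_combination -this
  · have hloc := isLocalHom_residueMap π
    refine isUnit_of_map_unit (π : D.traceAlg →+* ResidueField O) _ (isUnit_iff_ne_zero.mpr ?_)
    intro h
    refine hsep ?_
    have hπa : π a = w := by
      rw [← ha₀, ← sub_eq_zero, ← map_sub]
      exact (FermatLib.Galois.Deform.res_eq_zero_iff π _).mpr haa
    rw [← h]
    simp [hπa, htc]

include hπt hπd in
/-- **The representation over the trace algebra.** -/
theorem exists_traceAlgRep : ∃ ρR : Γℚ →* M₂ D.traceAlg,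
    (∀ g, (ρR g).map π = S.resRep g) ∧ (∀ g, (ρR g).trace = D.tR g) ∧
    (∀ g, (ρR g).det = D.dR g) ∧
    ∀ m : ℕ, ∃ L : IntermediateField ℚ Qbar, FiniteDimensional ℚ L ∧
      ∀ σ : Γℚ, (∀ x ∈ L, σ x = x) → ∀ i j,
        (ρR σ - 1) i j ∈ Ideal.span {(2 : D.traceAlg) ^ m} := by
  obtain ⟨c₀, r₁, r₂, hs, hp, hsep⟩ := D.exists_roots π hπt hπd
  obtain ⟨ρR, h1, h2, h3, h4⟩ := exists_normalisedRep π S.resRep S.hasFullSpan_resRep D.tR hπt
    (D.embComp : D.traceAlg →+* _) D.embComp_injective D.repComp D.embComp_tR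
    (c₀ := c₀) (r₁ := r₁) (r₂ := r₂) (by rw [hs]; exact (D.embComp_tR c₀).symm)
    (by rw [hp]; exact (D.embComp_dR c₀).symm) hsep
  refine ⟨ρR, h1, h2, fun g => D.embComp_injective ((h3 g).trans (D.embComp_dR g).symm),
    fun m => ?_⟩
  obtain ⟨L, hL, h⟩ := D.exists_level_tR m
  exact ⟨L, hL, fun σ hσ => h4 _ σ fun g => h σ hσ g⟩

/-- Evaluation at a point. -/
def compPoint (p : D.Point) : D.traceAlg →+* D.H ⧸ p.1 :=
  ((Pi.evalRingHom (fun p : D.Point => D.H ⧸ p.1) p).comp (RingHom.fst _ O)).comp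
    (D.embComp : D.traceAlg →+* _)

/-- Evaluation at the curve. -/
def compCurve : D.traceAlg →+* O :=
  (RingHom.snd (∀ p : D.Point, D.H ⧸ p.1) O).comp (D.embComp : D.traceAlg →+* _)

omit [IsAdicComplete (maximalIdeal O) O] [IsLocalRing D.traceAlg] in
theorem eq_of_comp {x y : D.traceAlg} (h : ∀ p, D.compPoint p x = D.compPoint p y)
    (h' : D.compCurve x = D.compCurve y) : x = y :=
  D.embComp_injective (Prod.ext (funext h) h')

variable {π} {ρR : Γℚ →* M₂ D.traceAlg} (hres : ∀ g, (ρR g).map π = S.resRep g)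
  (htr : ∀ g, (ρR g).trace = D.tR g)

include hres in
theorem hasFullSpan_traceAlgRep : FermatLib.Galois.HasFullSpan ρR := by
  have := isLocalHom_residueMap π
  refine FermatLib.Galois.HasFullSpan.of_repMap (π : D.traceAlg →+* ResidueField O) ?_
  rw [show FermatLib.Galois.repMap (π : D.traceAlg →+* ResidueField O) ρR = S.resRep from
    MonoidHom.ext hres]
  exact S.hasFullSpan_resRep

include hres htr in
/-- At a point the representation over the trace algebra is conjugate to the given one. -/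
theorem exists_conj_point (p : D.Point) :
    ∃ Q : (M₂ (D.H ⧸ p.1))ˣ, ∀ g, D.ρP p.1 g = Q.1 * (ρR g).map (D.compPoint p) * Q⁻¹.1 := by
  have heq : ∀ g, (FermatLib.Galois.repMap (D.compPoint p) ρR g).trace = (D.ρP p.1 g).trace :=
    fun g => by
      rw [FermatLib.Galois.trace_repMap, htr, ← D.mk_traceH g p]
      rfl
  obtain ⟨Q, hQ⟩ := FermatLib.Galois.exists_conj_of_trace_eq
    (ρ₁ := FermatLib.Galois.repMap (D.compPoint p) ρR) (ρ₂ := D.ρP p.1)
    (FermatLib.Galois.HasFullSpan.repMap (D.hasFullSpan_traceAlgRep hres) (D.compPoint p)) heq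
  exact ⟨Q, fun g => by rw [hQ g, FermatLib.Galois.repMap_apply]⟩

include hres htr in
/-- At the curve as well. -/
theorem exists_conj_curve :
    ∃ Q : (M₂ O)ˣ, ∀ g, S.ρ g = Q.1 * (ρR g).map D.compCurve * Q⁻¹.1 := by
  obtain ⟨Q, hQ⟩ := FermatLib.Galois.exists_conj_of_trace_eq (ρ₂ := S.ρ)
    ((D.hasFullSpan_traceAlgRep hres).repMap D.compCurve) fun g => by
      rw [FermatLib.Galois.trace_repMap, htr]
      rfl
  exact ⟨Q, hQ⟩

omit [IsAdicComplete (maximalIdeal O) O] [IsLocalRing D.traceAlg] in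
/-- A matrix vanishing in all components vanishes. -/
theorem matrix_eq_zero_of_comp {X : M₂ D.traceAlg} (h : ∀ p, X.map (D.compPoint p) = 0)
    (h' : X.map D.compCurve = 0) : X = 0 := by
  ext1 i j
  refine D.eq_of_comp (fun p => ?_) ?_
  · rw [Matrix.zero_apply, map_zero]
    exact congrFun (congrFun (h p) i) j
  · rw [Matrix.zero_apply, map_zero]
    exact congrFun (congrFun h' i) j

/-- Undo a conjugation in an equation between two values. -/
theorem conj_cancel {T : Type} [CommRing T] (Q : (M₂ T)ˣ) {X Y : M₂ T}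
    (h : (Q.1 * X * Q⁻¹.1 - 1) * (Q.1 * Y * Q⁻¹.1 - 1) = 0) : (X - 1) * (Y - 1) = 0 := by
  have e : (Q.1 * X * Q⁻¹.1 - 1) * (Q.1 * Y * Q⁻¹.1 - 1) =
      Q.1 * ((X - 1) * (Y - 1)) * Q⁻¹.1 := by
    simp only [sub_mul, mul_sub, mul_assoc, Units.inv_mul_cancel_left, Units.mul_inv, mul_one,
      one_mul]
  rw [e] at h
  have h' := congrArg (fun Z => Q⁻¹.1 * Z * Q.1) h
  simp only [mul_assoc, Units.inv_mul_cancel_left, Units.inv_mul, mul_one, mul_zero, zero_mul] at h'
  exact h'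

include hres htr in
theorem traceAlgRep_unramified {q : ℕ} (hq : q.Prime) (hq2 : q ≠ 2) (hN : ¬ q ∣ S.anchor.N)
    (hP : ∀ i, (P i).q ≠ q) {A : ValuationSubring Qbar} (hA : A.LiesOverPrime q) {τ : Γℚ}
    (hτ : τ ∈ A.inertiaSubgroupIn ℚ) : ρR τ = 1 := by
  rw [← sub_eq_zero]
  refine D.matrix_eq_zero_of_comp (fun p => ?_) ?_
  · obtain ⟨Q, hQ⟩ := D.exists_conj_point hres htr p
    have h := (D.points p.1 p.2.1 p.2.2).2.2.2.1 q hq hq2 hN hP A hA τ hτ
    rw [hQ] at h
    show (D.compPoint p).mapMatrix (ρR τ - 1) = 0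
    rw [map_sub, map_one, sub_eq_zero]
    simpa [mul_assoc] using congrArg (fun Z => Q⁻¹.1 * Z * Q.1) h
  · obtain ⟨Q, hQ⟩ := D.exists_conj_curve hres htr
    have h := S.unramified q hq hq2 hN A hA τ hτ
    rw [hQ] at h
    show D.compCurve.mapMatrix (ρR τ - 1) = 0
    rw [map_sub, map_one, sub_eq_zero]
    simpa [mul_assoc] using congrArg (fun Z => Q⁻¹.1 * Z * Q.1) h

include hres htr in
theorem traceAlgRep_level {q : ℕ} (hq : q.Prime) (hN : q ∣ S.anchor.N)
    {A : ValuationSubring Qbar} (hA : A.LiesOverPrime q) {τ τ' : Γℚ}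
    (hτ : τ ∈ A.inertiaSubgroupIn ℚ) (hτ' : τ' ∈ A.inertiaSubgroupIn ℚ) :
    (ρR τ - 1) * (ρR τ' - 1) = 0 := by
  refine D.matrix_eq_zero_of_comp (fun p => ?_) ?_
  · obtain ⟨Q, hQ⟩ := D.exists_conj_point hres htr p
    have h := (D.points p.1 p.2.1 p.2.2).2.2.2.2.1 q hq hN A hA τ hτ τ' hτ'
    rw [hQ, hQ] at h
    show (D.compPoint p).mapMatrix ((ρR τ - 1) * (ρR τ' - 1)) = 0
    rw [map_mul, map_sub, map_sub, map_one]
    exact conj_cancel Q h
  · obtain ⟨Q, hQ⟩ := D.exists_conj_curve hres htr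
    have h := (S.level q hq hN A hA).2 τ hτ τ' hτ'
    rw [hQ, hQ] at h
    show D.compCurve.mapMatrix ((ρR τ - 1) * (ρR τ' - 1)) = 0
    rw [map_mul, map_sub, map_sub, map_one]
    exact conj_cancel Q h

end AuxHecke

end FermatLib.MLT.Two

end
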