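import Fermat.Agent.Galois.FlatModelRat
import Fermat.Prelude.Def_EllipticCurve_FrobeniusTrace
import Fermat.Prelude.Def_GaloisRep_Residual
import Fermat.Prelude.Def_CuspForm_Newforms
import Mathlib.Algebra.DualNumber
import Mathlib.NumberTheory.LegendreSymbol.Basic

/-!
# Minimal modularity at 2: common definitions

Coordinates: `k` is a field with four elements, the residual representation is monomial, diagonal
exactly on `Gal(ℚ̄/ℚ(√-N))`.  The conditions on representations and the auxiliary data.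
-/

set_option autoImplicit false

noncomputable section

namespace FermatLib.MLT.Two


local notation "Qbar" => AlgebraicClosure ℚ
local notation "Γℚ" => (AlgebraicClosure ℚ ≃ₐ[ℚ] AlgebraicClosure ℚ)

section matrices

variable {k : Type} [CommRing k]

/-- `diag (ω ^ i, ω ^ (2 i))`. -/
def rotMat (ω : k) (i : ℕ) : Matrix (Fin 2) (Fin 2) k := !![ω ^ i, 0; 0, ω ^ (2 * i)]

/-- `antidiag (ω ^ i, ω ^ (2 i))`. -/
def swapMat (ω : k) (i : ℕ) : Matrix (Fin 2) (Fin 2) k := !![0, ω ^ i; ω ^ (2 * i), 0]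

/-- The antidiagonal part. -/
def offDiag (M : Matrix (Fin 2) (Fin 2) k) : Matrix (Fin 2) (Fin 2) k := !![0, M 0 1; M 1 0, 0]

end matrices

/-- A place of `ℚ̄` with a Frobenius element. -/
structure AuxPlace where
  q : ℕ
  hq : q.Prime
  A : ValuationSubring Qbar
  hA : A.LiesOverPrime q
  F : Γℚ
  hF : A.IsFrobeniusAt F q

/-- The residual representation of an anchor curve at 2, with its ramification properties. -/
structure Anchor (k : Type) [Field k] : Type where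
  N : ℕ
  ω : k
  ρ : Γℚ →* Matrix (Fin 2) (Fin 2) k
  two_eq_zero : (2 : k) = 0
  omega_rel : ω ^ 2 + ω + 1 = 0
  card_eq : Nat.card k = 4
  finiteLevel : GaloisFactorsThroughFiniteLevel ρ
  range_eq : ∀ g, ∃ i : ℕ, ρ g = rotMat ω i ∨ ρ g = swapMat ω i
  exists_rot : ∃ g, ρ g = rotMat ω 1
  exists_swap : ∃ g, ρ g = swapMat ω 0
  squarefree : Squarefree N
  level_mod : N % 8 = 3
  diag_iff : ∀ g, (ρ g 0 1 = 0) ↔ ∀ x : Qbar, x * x = -(N : Qbar) → g x = x
  unramified : ∀ q : ℕ, q.Prime → q ≠ 2 → ¬ q ∣ N → ∀ A : ValuationSubring Qbar,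
    A.LiesOverPrime q → ∀ τ ∈ A.inertiaSubgroupIn ℚ, ρ τ = 1
  level_transvection : ∀ q : ℕ, q.Prime → q ∣ N → ∀ A : ValuationSubring Qbar,
    A.LiesOverPrime q → (∃ τ ∈ A.inertiaSubgroupIn ℚ, ρ τ ≠ 1) ∧
      ∀ τ ∈ A.inertiaSubgroupIn ℚ, ∀ τ' ∈ A.inertiaSubgroupIn ℚ, (ρ τ - 1) * (ρ τ' - 1) = 0
  two_inertia : ∀ A : ValuationSubring Qbar, A.LiesOverPrime 2 →
    (∀ τ ∈ A.inertiaSubgroupIn ℚ, ρ τ 0 1 = 0) ∧ (∃ τ ∈ A.inertiaSubgroupIn ℚ, ρ τ ≠ 1) ∧
      ∃ σ ∈ A.decompositionSubgroup ℚ, ρ σ 0 1 ≠ 0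

variable {k : Type} [Field k] (a : Anchor k)

/-- The number of primes of the level, minus one. -/
def Anchor.r₀ : ℕ := a.N.primeFactors.card - 1

/-- `M ↦ ρ g M ρ g⁻¹ - M`. -/
def adCobdry (M : Matrix (Fin 2) (Fin 2) k) (g : Γℚ) : Matrix (Fin 2) (Fin 2) k :=
  a.ρ g * M * a.ρ g⁻¹ - M

/-- Continuous cocycles with values in the adjoint representation. -/
structure IsAdCocycle (c : Γℚ → Matrix (Fin 2) (Fin 2) k) : Prop where
  map_mul : ∀ g h, c (g * h) = c g + a.ρ g * c h * a.ρ g⁻¹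
  finiteLevel : ∃ L : IntermediateField ℚ Qbar, FiniteDimensional ℚ L ∧
    ∀ g : Γℚ, (∀ x ∈ L, g x = x) → c g = 0

/-- A cocycle is a coboundary. -/
def IsAdCobdry (c : Γℚ → Matrix (Fin 2) (Fin 2) k) : Prop :=
  ∃ M, ∀ g, c g = adCobdry a M g

/-- The matrix `(1 + ε c g) ρ g` over the dual numbers. -/
def liftMat (c : Γℚ → Matrix (Fin 2) (Fin 2) k) (g : Γℚ) :
    Matrix (Fin 2) (Fin 2) (DualNumber k) :=
  (a.ρ g).map TrivSqZeroExt.inl + (c g * a.ρ g).map TrivSqZeroExt.inr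

/-- The lift given by `c` is finite flat at 2. -/
def IsFlatLift (c : Γℚ → Matrix (Fin 2) (Fin 2) k) : Prop :=
  FermatLib.Galois.FlatModel.HasModelAt 2 (Fin 2 → DualNumber k)
    fun g v => (liftMat a c g).mulVec v

/-- An antidiagonal cocycle whose restriction to each decomposition group over 2 comes from
flat lifts. -/
def IsTwoLocal (c : Γℚ → Matrix (Fin 2) (Fin 2) k) : Prop :=
  ∀ A : ValuationSubring Qbar, A.LiesOverPrime 2 →
    ∃ (m : ℕ) (f : Fin m → Γℚ → Matrix (Fin 2) (Fin 2) k) (x : Fin m → k)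
      (M : Matrix (Fin 2) (Fin 2) k),
      (∀ i, IsAdCocycle a (f i) ∧ IsFlatLift a (f i)) ∧
      ∀ g ∈ A.decompositionSubgroup ℚ,
        c g = ∑ i, x i • offDiag (f i g) + offDiag (adCobdry a M g)

/-- Unramified outside `2 N` and the given primes. -/
def IsUnrAway {ι : Type} (P : ι → AuxPlace) (c : Γℚ → Matrix (Fin 2) (Fin 2) k) : Prop :=
  ∀ q : ℕ, q.Prime → q ≠ 2 → ¬ q ∣ a.N → (∀ i, (P i).q ≠ q) →
    ∀ A : ValuationSubring Qbar, A.LiesOverPrime q → ∀ τ ∈ A.inertiaSubgroupIn ℚ, c τ = 0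

/-- At the primes of the level the restriction to inertia is a coboundary. -/
def IsLevelLocal (c : Γℚ → Matrix (Fin 2) (Fin 2) k) : Prop :=
  ∀ q : ℕ, q.Prime → q ∣ a.N → ∀ A : ValuationSubring Qbar, A.LiesOverPrime q →
    ∃ M, ∀ τ ∈ A.inertiaSubgroupIn ℚ, c τ = adCobdry a M τ

/-- The linear conditions satisfied by a first order deformation; the determinant is free and
nothing is required at the auxiliary places. -/
structure IsTangentLift {ι : Type} (P : ι → AuxPlace) (c : Γℚ → Matrix (Fin 2) (Fin 2) k) :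
    Prop where
  cocycle : IsAdCocycle a c
  unramified : IsUnrAway a P c
  level : IsLevelLocal a c
  flat : IsFlatLift a c

/-- The antidiagonal classes met by tangent lifts. -/
structure IsAntiClass {ι : Type} (P : ι → AuxPlace) (c : Γℚ → Matrix (Fin 2) (Fin 2) k) :
    Prop where
  cocycle : IsAdCocycle a c
  anti : ∀ g, c g = offDiag (c g)
  unramified : IsUnrAway a P c
  level : IsLevelLocal a c
  two : IsTwoLocal a c

/-- The diagonal classes met by tangent lifts: unramified at 2. -/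
structure IsDiagClass {ι : Type} (P : ι → AuxPlace) (c : Γℚ → Matrix (Fin 2) (Fin 2) k) :
    Prop where
  cocycle : IsAdCocycle a c
  diag : ∀ g, c g 0 1 = 0 ∧ c g 1 0 = 0
  unramified : IsUnrAway a P c
  level : IsLevelLocal a c
  two : ∀ A : ValuationSubring Qbar, A.LiesOverPrime 2 → ∀ τ ∈ A.inertiaSubgroupIn ℚ, c τ = 0

/-- At most `n` classes with the property `K` are independent modulo coboundaries. -/
def HasBound (K : (Γℚ → Matrix (Fin 2) (Fin 2) k) → Prop) (n : ℕ) : Prop :=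
  ∀ (V : Type) [AddCommGroup V] [Module k V] [FiniteDimensional k V]
    (c : V →ₗ[k] (Γℚ → Matrix (Fin 2) (Fin 2) k)),
    (∀ v, K (c v)) → (∀ v, IsAdCobdry a (c v) → v = 0) → Module.finrank k V ≤ n

/-- Places with swap type Frobenius. -/
structure IsSwapPlace (P : AuxPlace) : Prop where
  prime_to : ¬ P.q ∣ 2 * a.N
  one_mod : 4 ∣ P.q - 1
  frob : a.ρ P.F 0 1 ≠ 0

/-- Places with rotation type Frobenius. -/
structure IsRotPlace (P : AuxPlace) : Prop where
  prime_to : ¬ P.q ∣ 2 * a.N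
  one_mod : 4 ∣ P.q - 1
  frob_diag : a.ρ P.F 0 1 = 0
  frob_ne_one : a.ρ P.F ≠ 1

/-- Rotation places dual, for Legendre symbols, to all primes of the level but one. -/
structure IsLegendreSet (qs : Fin (a.r₀ + 1) → ℕ) (C : Fin a.r₀ → AuxPlace) : Prop where
  qs_range : Set.range qs = ↑a.N.primeFactors
  qs_injective : Function.Injective qs
  rot : ∀ i, IsRotPlace a (C i)
  legendre : ∀ i (j : Fin a.r₀),
    @legendreSym (C i).q ⟨(C i).hq⟩ (qs j.castSucc) = if i = j then -1 else 1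

/-- An antidiagonal class with no condition beyond being unramified outside the level and 2. -/
structure IsBaseClass (d : Γℚ → Matrix (Fin 2) (Fin 2) k) : Prop where
  cocycle : IsAdCocycle a d
  anti : ∀ g, d g = offDiag (d g)
  unramified : IsUnrAway a (Fin.elim0 : Fin 0 → AuxPlace) d

/-- Only coboundaries among the base classes are trivial at all the places `Q`. -/
def KillsDual {ι : Type} (Q : ι → AuxPlace) : Prop :=
  ∀ d, IsBaseClass a d → (∀ j, ∃ M, d (Q j).F = adCobdry a M (Q j).F) → IsAdCobdry a d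

/-- A lift of the anchor to characteristic zero: the 2-adic representation of the curve. -/
structure System (O : Type) [CommRing O] (k : Type) [Field k] : Type where
  anchor : Anchor k
  red : O →+* k
  red_surjective : Function.Surjective red
  ker_red : RingHom.ker red = Ideal.span {(2 : O)}
  ρ : Γℚ →* Matrix (Fin 2) (Fin 2) O
  map_eq : ∀ g, (ρ g).map red = anchor.ρ g
  finiteLevel : ∀ n : ℕ, GaloisFactorsThroughFiniteLevel
    ((Ideal.Quotient.mk (Ideal.span {(2 : O) ^ n})).mapMatrix.toMonoidHom.comp ρ)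
  flat : ∀ n : ℕ, FermatLib.Galois.FlatModel.HasModelAt 2
    (Fin 2 → O ⧸ Ideal.span {(2 : O) ^ n})
    fun g v => ((ρ g).map (Ideal.Quotient.mk (Ideal.span {(2 : O) ^ n}))).mulVec v
  det_eq : ∀ (n : ℕ) (g : Γℚ) (b : ℕ), (∀ ζ : Qbar, ζ ^ 2 ^ n = 1 → g ζ = ζ ^ b) →
    (2 : O) ^ n ∣ (ρ g).det - b
  unramified : ∀ q : ℕ, q.Prime → q ≠ 2 → ¬ q ∣ anchor.N → ∀ A : ValuationSubring Qbar,
    A.LiesOverPrime q → ∀ τ ∈ A.inertiaSubgroupIn ℚ, ρ τ = 1
  level : ∀ q : ℕ, q.Prime → q ∣ anchor.N → ∀ A : ValuationSubring Qbar, A.LiesOverPrime q →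
    (∃ τ ∈ A.inertiaSubgroupIn ℚ, ρ τ ≠ 1) ∧
    ∀ τ ∈ A.inertiaSubgroupIn ℚ, ∀ τ' ∈ A.inertiaSubgroupIn ℚ, (ρ τ - 1) * (ρ τ' - 1) = 0
  ap : ℕ → ℤ
  frobenius : ∀ ℓ : ℕ, ℓ.Prime → ℓ ≠ 2 → ¬ ℓ ∣ anchor.N → ∀ A : ValuationSubring Qbar,
    A.LiesOverPrime ℓ → ∀ F : Γℚ, A.IsFrobeniusAt F ℓ →
    (ρ F).trace = (ap ℓ : O) ∧ (ρ F).det = (ℓ : O)

section system

variable {O : Type} [CommRing O] {k : Type} [Field k] (S : System O k)

/-- Auxiliary places at depth `n`. -/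
structure IsDepth {ι : Type} (n : ℕ) (P : ι → AuxPlace) : Prop where
  injective : Function.Injective fun i => (P i).q
  prime_to : ∀ i, ¬ (P i).q ∣ 2 * S.anchor.N
  one_mod : ∀ i, 2 ^ (n + 1) ∣ (P i).q - 1
  frob_ne_one : ∀ i, S.anchor.ρ (P i).F ≠ 1

/-- The traces of the curve at the places stay away, to depth `c`, from those of forms new
there. -/
def IsNondegenerate {ι : Type} (c : ℕ) (P : ι → AuxPlace) : Prop :=
  ∀ i, ¬ (2 : O) ^ c ∣ (S.ρ (P i).F).trace ^ 2 - (((P i).q + 1 : ℕ) : O) ^ 2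

/-- The residual system occurs in a form of level `N`. -/
def IsResidModular : Prop :=
  ∃ (f : CuspForm (CongruenceSubgroup.Gamma0 S.anchor.N) 2) (𝔪 : Ideal (integralClosure ℤ ℂ)),
    f.IsNormalizedEigenform ∧ 𝔪.IsMaximal ∧ (2 : integralClosure ℤ ℂ) ∈ 𝔪 ∧
      ∀ ℓ : ℕ, ℓ.Prime → ¬ ℓ ∣ 2 * S.anchor.N → ∃ b : integralClosure ℤ ℂ,
        (b : ℂ) = ModularFormClass.qCoeff f ℓ ∧ b - (S.ap ℓ : integralClosure ℤ ℂ) ∈ 𝔪

/-- The system occurs in a form of level `N`, up to finitely many primes. -/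
def HasLevelEigenform : Prop :=
  ∃ (f : CuspForm (CongruenceSubgroup.Gamma0 S.anchor.N) 2) (Ex : Finset ℕ),
    f.IsNormalizedEigenform ∧ ∀ ℓ : ℕ, ℓ.Prime → ¬ ℓ ∣ 2 * S.anchor.N → ℓ ∉ Ex →
      ModularFormClass.qCoeff f ℓ = (S.ap ℓ : ℂ)

/-- An integral polynomial in good Hecke eigenvalues killing every system of level `N`. -/
structure IsLevelPolynomial (B : ℕ) (pol : MvPolynomial ℕ ℤ) : Prop where
  vars_good : ∀ ℓ ∈ pol.vars, ℓ.Prime ∧ ¬ ℓ ∣ 2 * S.anchor.N ∧ ℓ ≤ B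
  eval_ne : MvPolynomial.eval S.ap pol ≠ 0
  kills : ∀ f : CuspForm (CongruenceSubgroup.Gamma0 S.anchor.N) 2, f.IsNormalizedEigenform →
    MvPolynomial.aeval (fun ℓ => ModularFormClass.qCoeff f ℓ) pol = 0

end system

end FermatLib.MLT.Two

end
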