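import Mathlib.Algebra.DualNumber
import Mathlib.LinearAlgebra.Matrix.Determinant.Basic
import Mathlib.LinearAlgebra.Matrix.Trace
import Mathlib.Algebra.CharP.Two
import Mathlib.Tactic

/-!
# `k[ε]`-points of the local conditions at auxiliary primes and at `q ∣ N`

`2 × 2` matrices over `k[ε]`, `k` a field with `2 = 0`, are split into their constant part
`fstM` and their `ε`-part `sndM`. We translate the local conditions at the primes of kind T
(Frobenius a transvection), of kind C (Frobenius with distinct eigenvalues) and at multiplicative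
primes into equations on the `ε`-parts.
-/

set_option autoImplicit false
set_option linter.unusedSectionVars false

noncomputable section

namespace FermatLib.MLT.Two

open TrivSqZeroExt Matrix

variable {k : Type*} [CommRing k]

/-- Constant part of a matrix over `k[ε]`. -/
def fstM (M : Matrix (Fin 2) (Fin 2) (DualNumber k)) : Matrix (Fin 2) (Fin 2) k :=
  Matrix.of fun i j => (M i j).fst

/-- `ε`-part of a matrix over `k[ε]`. -/
def sndM (M : Matrix (Fin 2) (Fin 2) (DualNumber k)) : Matrix (Fin 2) (Fin 2) k :=
  Matrix.of fun i j => (M i j).snd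

variable (A B : Matrix (Fin 2) (Fin 2) (DualNumber k))

lemma fstM_apply (i j : Fin 2) : fstM A i j = (A i j).fst := rfl

lemma sndM_apply (i j : Fin 2) : sndM A i j = (A i j).snd := rfl

lemma fstM_mul : fstM (A * B) = fstM A * fstM B := by
  ext i j
  simp [fstM, Matrix.mul_apply, Fin.sum_univ_two]

lemma sndM_mul : sndM (A * B) = fstM A * sndM B + sndM A * fstM B := by
  ext i j
  simp [fstM, sndM, Matrix.mul_apply, Fin.sum_univ_two]
  ring

@[simp] lemma fstM_one : fstM (1 : Matrix (Fin 2) (Fin 2) (DualNumber k)) = 1 := by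
  ext i j; fin_cases i <;> fin_cases j <;> simp [fstM]

@[simp] lemma sndM_one : sndM (1 : Matrix (Fin 2) (Fin 2) (DualNumber k)) = 0 := by
  ext i j; fin_cases i <;> fin_cases j <;> simp [sndM]

lemma fstM_sub : fstM (A - B) = fstM A - fstM B := by ext i j; simp [fstM]

lemma sndM_sub : sndM (A - B) = sndM A - sndM B := by ext i j; simp [sndM]

lemma eq_of_fstM_sndM {A B : Matrix (Fin 2) (Fin 2) (DualNumber k)} (h₁ : fstM A = fstM B)
    (h₂ : sndM A = sndM B) : A = B := by
  ext i j
  exacts [congrFun (congrFun h₁ i) j, congrFun (congrFun h₂ i) j]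

lemma fstM_pow (n : ℕ) : fstM (A ^ n) = fstM A ^ n := by
  induction n with
  | zero => simp
  | succ n ih => rw [pow_succ, pow_succ, fstM_mul, ih]

/-- Powers of an element reducing to the identity. -/
lemma sndM_pow_of_fst_one {T : Matrix (Fin 2) (Fin 2) (DualNumber k)} (h : fstM T = 1) (n : ℕ) :
    sndM (T ^ n) = n • sndM T := by
  induction n with
  | zero => simp
  | succ n ih => rw [pow_succ, sndM_mul, fstM_pow, h, one_pow, one_mul, mul_one, ih,
      succ_nsmul, add_comm]

section TameRelation

variable [CharP k 2]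

/-- Residually trivial inertia commutes with the residual Frobenius. -/
theorem commute_of_tame {F T : Matrix (Fin 2) (Fin 2) (DualNumber k)} {q : ℕ} (hq : Odd q)
    (hT : fstM T = 1) (h : F * T = T ^ q * F) :
    fstM F * sndM T = sndM T * fstM F := by
  have h' := congrArg sndM h
  rw [sndM_mul, sndM_mul, fstM_pow, hT, one_pow, mul_one, one_mul, sndM_pow_of_fst_one hT] at h'
  obtain ⟨m, rfl⟩ := hq
  have h2 : ∀ X : Matrix (Fin 2) (Fin 2) k, (2 * m + 1) • X = X := fun X => by
    have : (2 * m) • X = 0 := by
      rw [← Nat.cast_smul_eq_nsmul k, Nat.cast_mul, show ((2 : ℕ) : k) = 0 from CharP.cast_eq_zero k 2,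
        zero_mul, zero_smul]
    rw [succ_nsmul, this, zero_add]
  rw [h2, add_comm (sndM F)] at h'
  exact add_right_cancel h'

end TameRelation

end FermatLib.MLT.Two
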