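import Fermat.Agent.MLT.Two.Level
import Fermat.Agent.MLT.Two.AnchorOmega
import Fermat.Agent.MLT.Two.Flat.DualNumber

/-!
# V4-Flat: first order flat lifts at 2

A flat lift has unramified diagonal part, and the antidiagonal parts of flat lifts span at most a
line on a decomposition group.
-/

set_option autoImplicit false

noncomputable section

namespace FermatLib.MLT.Two

open FermatLib.Galois.Flat Matrix

local notation "Qbar" => AlgebraicClosure ℚ
local notation "Γℚ" => (AlgebraicClosure ℚ ≃ₐ[ℚ] AlgebraicClosure ℚ)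

variable {k : Type} [Field k] (a : Anchor k)

/-- Powers of a rotation. -/
theorem rotMat_pow (ω : k) (i m : ℕ) : rotMat ω i ^ m = rotMat ω (i * m) := by
  induction m with
  | zero => ext p q; fin_cases p <;> fin_cases q <;> simp [rotMat]
  | succ m ih =>
    rw [pow_succ, ih]
    ext p q
    fin_cases p <;> fin_cases q <;>
      simp [rotMat, Matrix.mul_apply, Fin.sum_univ_two, ← pow_add] <;> ring

/-- Inertia at 2 acts through rotations. -/
theorem Anchor.exists_rot_of_inertia {A : ValuationSubring Qbar} (hA : A.LiesOverPrime 2) {τ : Γℚ}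
    (hτ : τ ∈ A.inertiaSubgroupIn ℚ) : ∃ i : ℕ, a.ρ τ = rotMat a.ω i := by
  obtain ⟨i, hi | hi⟩ := a.range_eq τ
  · exact ⟨i, hi⟩
  · have h01 := (a.two_inertia A hA).1 τ hτ
    rw [hi] at h01
    exact absurd h01 (by simp [swapMat, a.omega_ne_zero])

/-- Residual inertia at 2 is generated by a rotation of order three. -/
theorem Anchor.exists_cubicResidual [CharP k 2] [Finite k] {A : ValuationSubring Qbar}
    (hA : A.LiesOverPrime 2) : ∃ σ₀ ζ, FlatTwo.IsCubicResidual A a.ρ σ₀ ζ := by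
  obtain ⟨-, ⟨σ₀, hσ₀, hne⟩, -⟩ := a.two_inertia A hA
  obtain ⟨i, hi⟩ := a.exists_rot_of_inertia hA hσ₀
  have hω := a.omega_cube
  have hred : ∀ j : ℕ, a.ω ^ j = a.ω ^ (j % 3) := fun j => by
    conv_lhs => rw [← Nat.div_add_mod j 3, pow_add, pow_mul, hω, one_pow, one_mul]
  have hi3 : i % 3 = 1 ∨ i % 3 = 2 := by
    rcases (by omega : i % 3 = 0 ∨ i % 3 = 1 ∨ i % 3 = 2) with h | h | h
    · exfalso
      apply hne
      rw [hi, rotMat, hred i, h, hred (2 * i), show 2 * i % 3 = 0 by omega]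
      simp [Matrix.one_fin_two]
    · exact Or.inl h
    · exact Or.inr h
  refine ⟨σ₀, a.ω ^ i, ⟨?_, hσ₀, ?_, fun σ hσ => ?_⟩⟩
  · rcases hi3 with h | h
    · rw [hred i, h, pow_one]; exact a.omega_rel
    · rw [hred i, h]
      linear_combination a.omega_rel + a.ω * hω
  · rw [hi, rotMat, ← pow_mul, mul_comm 2 i]
  · obtain ⟨j, hj⟩ := a.exists_rot_of_inertia hA hσ
    refine ⟨i * j, ?_⟩
    rw [hj, hi, rotMat_pow, rotMat, rotMat, hred j, hred (2 * j), hred (i * (i * j)),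
      hred (2 * (i * (i * j)))]
    have hii : i * i % 3 = 1 := by
      rw [Nat.mul_mod]; rcases hi3 with h | h <;> rw [h]
    have h1 : i * (i * j) % 3 = j % 3 := by
      rw [← mul_assoc, Nat.mul_mod, hii, one_mul, Nat.mod_mod]
    have h2 : 2 * (i * (i * j)) % 3 = 2 * j % 3 := by rw [Nat.mul_mod, h1, ← Nat.mul_mod]
    rw [h1, h2]

variable {c : Γℚ → Matrix (Fin 2) (Fin 2) k}

variable {a}

theorem IsAdCocycle.isFlatLift [CharP k 2] [Finite k] (hc : IsAdCocycle a c)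
    (hf : IsFlatLift a c) : FlatTwo.IsFlatLift a.ρ (liftHom a hc) :=
  ⟨fun σ => fstM_liftMat a c σ, exists_open_ker_liftHom a hc, hf⟩

theorem diag_eq_zero_of_isFlatLift [Finite k] (a : Anchor k)
    {c : Γℚ → Matrix (Fin 2) (Fin 2) k} (hc : IsAdCocycle a c)
    (hf : IsFlatLift a c) {A : ValuationSubring Qbar} (hA : A.LiesOverPrime 2) {τ : Γℚ}
    (hτ : τ ∈ A.inertiaSubgroupIn ℚ) : c τ 0 0 = 0 ∧ c τ 1 1 = 0 := by
  have := a.charP
  obtain ⟨σ₀, ζ, hρb⟩ := a.exists_cubicResidual hA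
  have key : ∀ i, c τ i i = 0 := fun i => by
    have h := FlatTwo.flat_diag_inertia_eq_zero hρb (hc.isFlatLift hf) hA i a.card_eq τ hτ
    rw [liftHom_apply, sndM_liftMat, Matrix.mul_apply,
      Finset.sum_eq_single i (fun b _ hb => by rw [hρb.diag hτ hb, mul_zero]) (by simp)] at h
    refine (mul_eq_zero.mp h).resolve_right fun h0 => ?_
    have h1 : (a.ρ τ * a.ρ τ⁻¹) i i = 1 := by
      rw [← _root_.map_mul, mul_inv_cancel, _root_.map_one, Matrix.one_apply_eq]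
    rw [Matrix.mul_apply,
      Finset.sum_eq_single i (fun b _ hb => by rw [hρb.diag hτ hb.symm, zero_mul]) (by simp), h0,
      zero_mul] at h1
    exact zero_ne_one h1
  exact ⟨key 0, key 1⟩

/-- A Frobenius element at 2 exchanges the two lines. -/
theorem Anchor.frobenius_swap [CharP k 2] [Finite k] (a : Anchor k) {A : ValuationSubring Qbar}
    (hA : A.LiesOverPrime 2) {σ₀ : Γℚ} {ζ : k} (hρb : FlatTwo.IsCubicResidual A a.ρ σ₀ ζ) {u : Qbar}
    (hu : A.valuation u = FlatTwo.ev A 2) (hufix : ∀ τ ∈ hρb.cubic.H, τ u = u) {F : Γℚ}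
    (hF : A.IsFrobeniusAt F 2) : a.ρ F 0 1 ≠ 0 := by
  intro h01
  obtain ⟨i, hi | hi⟩ := a.range_eq F
  swap
  · rw [hi] at h01
    exact a.omega_ne_zero (pow_eq_zero_iff'.mp (by simpa [swapMat] using h01)).1
  have hFD := hF.mem_decompositionSubgroup
  have hσI := hρb.σ₀_mem
  have hσD := mem_decomposition_of_mem_inertia hσI
  have hcomm : a.ρ σ₀ * a.ρ F = a.ρ F * a.ρ σ₀ := by
    rw [hi, hρb.rot, rotMat]
    ext p q
    fin_cases p <;> fin_cases q <;> simp [Matrix.mul_apply, Fin.sum_univ_two, mul_comm]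
  set h := σ₀⁻¹ * (F * σ₀ * F⁻¹) with hh
  have hFσ : F * σ₀ * F⁻¹ ∈ A.inertiaSubgroupIn ℚ := by
    simpa using FlatTwo.conj_mem_inertia (inv_mem hFD) hσI
  have hhH : h ∈ hρb.cubic.H := Subgroup.mem_inf.mpr
    ⟨mul_mem (inv_mem hσI) hFσ, MonoidHom.mem_ker.mpr (by
      rw [_root_.map_mul, _root_.map_mul, _root_.map_mul, ← hcomm, Matrix.mul_assoc,
        ← _root_.map_mul, mul_inv_cancel, _root_.map_one, Matrix.mul_one, ← _root_.map_mul,
        inv_mul_cancel, _root_.map_one])⟩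
  have hFH : ∀ τ ∈ hρb.cubic.H, F⁻¹ * τ * F ∈ hρb.cubic.H := fun τ hτ => Subgroup.mem_inf.mpr
    ⟨FlatTwo.conj_mem_inertia hFD hτ.1, MonoidHom.mem_ker.mpr (by
      rw [_root_.map_mul, _root_.map_mul, hρb.apply_H hτ, mul_one, ← _root_.map_mul,
        inv_mul_cancel, _root_.map_one])⟩
  have hFu : ∀ τ ∈ hρb.cubic.H, τ (F u) = F u := fun τ hτ => by
    calc τ (F u) = F ((F⁻¹ * τ * F) u) := by
          simp only [AlgEquiv.mul_apply, AlgEquiv.aut_inv, AlgEquiv.apply_symm_apply]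
      _ = F u := by rw [hufix _ (hFH τ hτ)]
  have heq : σ₀ (F u) = F (σ₀ u) := by
    have e := hFu h hhH
    simp only [hh, AlgEquiv.mul_apply, AlgEquiv.aut_inv, AlgEquiv.symm_apply_apply] at e
    have e2 := congrArg σ₀ e
    rw [AlgEquiv.apply_symm_apply] at e2
    exact e2.symm
  have hu0 : u ≠ 0 := FlatTwo.c_ne_zero hu
  set w := σ₀ u / u with hw
  set μ := F u / u with hμ
  have hv : ∀ g : Γℚ, g ∈ A.decompositionSubgroup ℚ → A.valuation (g u / u) = 1 := fun g hg => by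
    rw [map_div₀, valuation_apply_eq hg, hu]; exact div_self (FlatTwo.ev_ne_zero _)
  have hwv := hv σ₀ hσD
  have hμv := hv F hFD
  rw [← hw] at hwv
  rw [← hμ] at hμv
  have hwA : w ∈ A := (A.valuation_le_one_iff _).mp hwv.le
  have hkey : σ₀ μ * w = F w * μ := by
    have e1 : F u = μ * u := (div_mul_cancel₀ _ hu0).symm
    have e2 : σ₀ u = w * u := (div_mul_cancel₀ _ hu0).symm
    have e3 : σ₀ μ * w * u = F w * μ * u :=
      calc σ₀ μ * w * u = σ₀ (F u) := by rw [e1, _root_.map_mul, e2]; ring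
        _ = F (σ₀ u) := heq
        _ = F w * μ * u := by rw [e2, _root_.map_mul, e1]; ring
    exact mul_right_cancel₀ hu0 e3
  have hμσ : A.valuation (σ₀ μ - μ) < 1 :=
    valuation_apply_sub_lt_one hσI ((A.valuation_le_one_iff _).mp hμv.le)
  have hFw : A.valuation (F w - w) < 1 := by
    have e : A.valuation ((F w - w) * μ) < 1 := by
      rw [show (F w - w) * μ = (σ₀ μ - μ) * w by linear_combination -hkey, _root_.map_mul, hwv,
        mul_one]
      exact hμσ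
    rwa [_root_.map_mul, hμv, mul_one] at e
  have h1 : A.valuation (w - 1) < 1 := by
    have hm : A.valuation (w * (w - 1)) < 1 := by
      rw [show w * (w - 1) = (F w - w) - (F w - w ^ 2) by ring]
      exact (A.valuation.map_sub _ _).trans_lt
        (max_lt hFw (FlatTwo.valuation_frobenius_sub hF hwA))
    rwa [_root_.map_mul, hwv, one_mul] at hm
  have h5 := FlatTwo.valuation_rot_sub_one (C := hρb.cubic) hA hu hufix
  change A.valuation (w ^ 5 - 1) = 1 at h5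
  rw [← geom_sum_mul, _root_.map_mul] at h5
  exact ((mul_le_of_le_one_left' ((A.valuation_le_one_iff _).mpr
    (sum_mem fun l _ => pow_mem hwA l))).trans_lt h1).ne h5

/-- A cocycle whose antidiagonal part dies on residually trivial inertia is a coboundary off the
diagonal on the decomposition group. -/
theorem exists_offDiag_eq_cobdry [CharP k 2] [Finite k] {A : ValuationSubring Qbar} {σ₀ : Γℚ}
    {ζ : k} (hρb : FlatTwo.IsCubicResidual A a.ρ σ₀ ζ) {d : Γℚ → Matrix (Fin 2) (Fin 2) k}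
    (hd : IsAdCocycle a d) (hH : ∀ τ ∈ hρb.cubic.H, offDiag (d τ) = 0) :
    ∃ M : Matrix (Fin 2) (Fin 2) k, ∀ g ∈ A.decompositionSubgroup ℚ,
      offDiag (d g) = offDiag (adCobdry a M g) := by
  -- the ratio of the two eigenvalues of the rotation
  obtain ⟨hr0, hr0'⟩ := hρb.rot_ii 0
  obtain ⟨hr1, hr1'⟩ := hρb.rot_ii 1
  set r₀ := a.ρ σ₀ 0 0 with hr₀
  set r₁ := a.ρ σ₀ 1 1 with hr₁
  have hne : r₀ ≠ r₁ := by
    intro e
    have h := hρb.rot
    have h0 : r₀ = ζ := by rw [hr₀, h]; simp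
    have h1 : r₁ = ζ ^ 2 := by rw [hr₁, h]; simp
    rw [h0, h1, pow_two] at e
    have hz := hρb.zeta
    have hζ0 : ζ ≠ 0 := fun h => by rw [h] at hz; simp at hz
    have : ζ = 1 := (mul_left_cancel₀ hζ0 ((mul_one ζ).trans e)).symm
    rw [this, one_pow, CharTwo.add_self_eq_zero, zero_add] at hz
    exact one_ne_zero hz
  have hdiag : ∀ {g : Γℚ}, g ∈ A.inertiaSubgroupIn ℚ → ∀ (X : Matrix (Fin 2) (Fin 2) k)
      (p q : Fin 2), (a.ρ g * X * a.ρ g⁻¹) p q = a.ρ g p p * X p q * a.ρ g⁻¹ q q :=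
    fun {g} hg X p q => by
      rw [Matrix.mul_apply, Finset.sum_eq_single q
        (fun b _ hb => by rw [hρb.diag (inv_mem hg) hb, mul_zero]) (by simp), Matrix.mul_apply,
        Finset.sum_eq_single p (fun b _ hb => by rw [hρb.diag hg hb.symm, zero_mul]) (by simp)]
  have hinv : ∀ {g : Γℚ}, g ∈ A.inertiaSubgroupIn ℚ → ∀ p, a.ρ g p p * a.ρ g⁻¹ p p = 1 :=
    fun {g} hg p => by
      have h : (a.ρ g * a.ρ g⁻¹) p p = 1 := by
        rw [← _root_.map_mul, mul_inv_cancel, _root_.map_one, Matrix.one_apply_eq]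
      rwa [Matrix.mul_apply, Finset.sum_eq_single p
        (fun b _ hb => by rw [hρb.diag hg hb.symm, zero_mul]) (by simp)] at h
  have hσI := hρb.σ₀_mem
  set M : Matrix (Fin 2) (Fin 2) k :=
    !![0, d σ₀ 0 1 * r₁ / (r₀ - r₁); d σ₀ 1 0 * r₀ / (r₁ - r₀), 0] with hM
  refine ⟨M, ?_⟩
  -- subtract the coboundary
  set e : Γℚ → Matrix (Fin 2) (Fin 2) k := fun g => d g - adCobdry a M g with he
  suffices key : ∀ g ∈ A.decompositionSubgroup ℚ, e g 0 1 = 0 ∧ e g 1 0 = 0 by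
    intro g hg
    obtain ⟨h0, h1⟩ := key g hg
    simp only [he, Matrix.sub_apply, sub_eq_zero] at h0 h1
    simp [offDiag, h0, h1]
  have hemul : ∀ g h, e (g * h) = e g + a.ρ g * e h * a.ρ g⁻¹ := fun g h => by
    simp only [he, hd.map_mul, adCobdry, _root_.map_mul, _root_.mul_inv_rev, Matrix.mul_sub,
      Matrix.sub_mul, Matrix.mul_assoc]
    abel
  have he0 : e σ₀ 0 1 = 0 ∧ e σ₀ 1 0 = 0 := by
    have i0 : a.ρ σ₀⁻¹ 0 0 = r₀⁻¹ := eq_inv_of_mul_eq_one_right (hinv hσI 0)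
    have i1 : a.ρ σ₀⁻¹ 1 1 = r₁⁻¹ := eq_inv_of_mul_eq_one_right (hinv hσI 1)
    have hne' : r₁ - r₀ ≠ 0 := sub_ne_zero.mpr hne.symm
    have hne'' : r₀ - r₁ ≠ 0 := sub_ne_zero.mpr hne
    constructor <;>
    · simp only [he, adCobdry, Matrix.sub_apply, hdiag hσI, i0, i1, ← hr₀, ← hr₁, hM,
        Matrix.of_apply, Matrix.cons_val', Matrix.cons_val_zero, Matrix.cons_val_one,
        Matrix.cons_val_fin_one]
      field_simp
      ring
  have hI : ∀ τ ∈ A.inertiaSubgroupIn ℚ, e τ 0 1 = 0 ∧ e τ 1 0 = 0 := by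
    intro τ hτ
    obtain ⟨n, ν, hν, rfl⟩ := hρb.cubic.gen τ hτ
    have hν1 := hρb.apply_H hν
    have hν1' := hρb.apply_H (inv_mem hν)
    have hν0 : e ν 0 1 = 0 ∧ e ν 1 0 = 0 := by
      have h0 := hH ν hν
      have a0 := congrFun (congrFun h0 0) 1
      have a1 := congrFun (congrFun h0 1) 0
      simp [offDiag] at a0 a1
      simp [he, adCobdry, hν1, hν1', a0, a1]
    clear hτ
    change e (σ₀ ^ n * ν) 0 1 = 0 ∧ e (σ₀ ^ n * ν) 1 0 = 0
    rw [hemul, Matrix.add_apply, Matrix.add_apply, hdiag (pow_mem hσI n),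
      hdiag (pow_mem hσI n), hν0.1, hν0.2]
    simp only [mul_zero, zero_mul, add_zero]
    induction n with
    | zero =>
      have : e 1 = 0 := by
        have h := hemul 1 1
        simp only [_root_.map_one, Matrix.one_mul, mul_one, inv_one] at h
        exact left_eq_add.mp h
      simp [this]
    | succ n ih =>
      rw [pow_succ, hemul, Matrix.add_apply, Matrix.add_apply, hdiag (pow_mem hσI n),
        hdiag (pow_mem hσI n), he0.1, he0.2, ih.1, ih.2]
      simp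
  intro g hg
  set t := g * σ₀ * g⁻¹ with ht
  have htI : t ∈ A.inertiaSubgroupIn ℚ := by
    simpa [ht] using FlatTwo.conj_mem_inertia (inv_mem hg) hσI
  have hmono : ∀ X : Matrix (Fin 2) (Fin 2) k, X 0 1 = 0 → X 1 0 = 0 →
      (a.ρ g * X * a.ρ g⁻¹) 0 1 = 0 ∧ (a.ρ g * X * a.ρ g⁻¹) 1 0 = 0 := by
    intro X x0 x1
    obtain ⟨i, hi⟩ := a.range_eq g
    obtain ⟨j, hj⟩ := a.range_eq g⁻¹
    have h : (a.ρ g * a.ρ g⁻¹) 0 0 = 1 := by
      rw [← _root_.map_mul, mul_inv_cancel, _root_.map_one, Matrix.one_apply_eq]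
    rcases hi with hi | hi <;> rcases hj with hj | hj <;> rw [hi, hj] at h ⊢ <;>
      simp [rotMat, swapMat, Matrix.mul_apply, Matrix.vecMul, dotProduct, Fin.sum_univ_two, x0,
        x1] at h ⊢
  have e1 : e (g * σ₀) 0 1 = e g 0 1 ∧ e (g * σ₀) 1 0 = e g 1 0 := by
    obtain ⟨a0, a1⟩ := hmono _ he0.1 he0.2
    rw [hemul, Matrix.add_apply, Matrix.add_apply, a0, a1]
    simp
  rw [show g * σ₀ = t * g by rw [ht]; group, hemul, Matrix.add_apply, Matrix.add_apply,
    hdiag htI, hdiag htI, (hI t htI).1, (hI t htI).2, zero_add, zero_add] at e1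
  have htne : a.ρ t 0 0 ≠ a.ρ t 1 1 := by
    intro h
    have hsc : a.ρ t = a.ρ t 0 0 • (1 : Matrix (Fin 2) (Fin 2) k) := by
      ext p q
      fin_cases p <;> fin_cases q <;> simp [hρb.diag htI, ← h]
    have hs : a.ρ σ₀ = a.ρ t 0 0 • (1 : Matrix (Fin 2) (Fin 2) k) := by
      rw [show σ₀ = g⁻¹ * t * g by rw [ht]; group, _root_.map_mul, _root_.map_mul, hsc]
      simp only [Matrix.mul_smul, Matrix.smul_mul, Matrix.mul_one, ← _root_.map_mul,
        inv_mul_cancel, _root_.map_one]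
      simp
    exact hne (by rw [hr₀, hr₁, hs]; simp)
  have hzero : ∀ p q : Fin 2, a.ρ t p p ≠ a.ρ t q q →
      a.ρ t p p * e g p q * a.ρ t⁻¹ q q = e g p q → e g p q = 0 := by
    intro p q hpq h
    by_contra h0
    have hq := hinv htI q
    have h2 : a.ρ t p p * a.ρ t⁻¹ q q = 1 := mul_right_cancel₀ h0 (by linear_combination h)
    exact hpq (mul_right_cancel₀ (right_ne_zero_of_mul_eq_one hq) (h2.trans hq.symm))
  exact ⟨hzero 0 1 htne e1.1, hzero 1 0 (Ne.symm htne) e1.2⟩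

theorem isAdCocycle_lin {c c' : Γℚ → Matrix (Fin 2) (Fin 2) k} (hc : IsAdCocycle a c)
    (hc' : IsAdCocycle a c') (x y : k) : IsAdCocycle a fun g => x • c g + y • c' g := by
  refine ⟨fun g h => ?_, ?_⟩
  · simp only [hc.map_mul, hc'.map_mul, smul_add, Matrix.mul_add, Matrix.add_mul, Matrix.mul_smul,
      Matrix.smul_mul]
    abel
  · obtain ⟨L, hL, h⟩ := hc.finiteLevel
    obtain ⟨L', hL', h'⟩ := hc'.finiteLevel
    refine ⟨L ⊔ L', inferInstance, fun g hg => ?_⟩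
    rw [h g fun z hz => hg z (le_sup_left (α := IntermediateField ℚ Qbar) hz),
      h' g fun z hz => hg z (le_sup_right (α := IntermediateField ℚ Qbar) hz)]
    simp

theorem offDiag_dependent_of_isFlatLift [Finite k] (a : Anchor k)
    {c c' : Γℚ → Matrix (Fin 2) (Fin 2) k}
    (hc : IsAdCocycle a c) (hc' : IsAdCocycle a c') (hf : IsFlatLift a c)
    (hf' : IsFlatLift a c') {A : ValuationSubring Qbar} (hA : A.LiesOverPrime 2) :
    ∃ x y : k, (x ≠ 0 ∨ y ≠ 0) ∧ ∃ M : Matrix (Fin 2) (Fin 2) k,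
      ∀ g ∈ A.decompositionSubgroup ℚ,
        x • offDiag (c g) + y • offDiag (c' g) = offDiag (adCobdry a M g) := by
  have := a.charP
  obtain ⟨σ₀, ζ, hρb⟩ := a.exists_cubicResidual hA
  have hsnd : ∀ {f : Γℚ → Matrix (Fin 2) (Fin 2) k} (hfc : IsAdCocycle a f),
      ∀ τ ∈ hρb.cubic.H, sndM (liftHom a hfc τ) = f τ := fun {f} hfc τ hτ => by
    rw [liftHom_apply, sndM_liftMat, hρb.apply_H hτ, Matrix.mul_one]
  have finish : ∀ x y : k, (x ≠ 0 ∨ y ≠ 0) →
      (∀ τ ∈ hρb.cubic.H, offDiag (x • c τ + y • c' τ) = 0) →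
      ∃ x y : k, (x ≠ 0 ∨ y ≠ 0) ∧ ∃ M : Matrix (Fin 2) (Fin 2) k,
        ∀ g ∈ A.decompositionSubgroup ℚ,
          x • offDiag (c g) + y • offDiag (c' g) = offDiag (adCobdry a M g) := by
    intro x y hxy h
    obtain ⟨M, hM⟩ := exists_offDiag_eq_cobdry hρb (isAdCocycle_lin hc hc' x y) h
    refine ⟨x, y, hxy, M, fun g hg => ?_⟩
    rw [← hM g hg]
    ext p q
    fin_cases p <;> fin_cases q <;> simp [offDiag]
  by_cases h0 : ∀ τ ∈ hρb.cubic.H, c τ 0 1 = 0 ∧ c τ 1 0 = 0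
  · refine finish 1 0 (Or.inl one_ne_zero) fun τ hτ => ?_
    ext p q
    fin_cases p <;> fin_cases q <;> simp [offDiag, h0 τ hτ]
  obtain ⟨F, hF⟩ := FermatLib.Basic.exists_isFrobeniusAt Nat.prime_two A hA
  have hlift := hc.isFlatLift hf
  obtain ⟨u, hu, hufix⟩ := hlift.exists_c hρb hA a.card_eq
  obtain ⟨i, hi | hi⟩ := a.range_eq F
  · exact absurd (by rw [hi]; simp [rotMat]) (a.frobenius_swap hA hρb hu hufix hF)
  have hab : a.ω ^ i * a.ω ^ (2 * i) = 1 := by
    rw [← pow_add, show i + 2 * i = 3 * i by ring, pow_mul, a.omega_cube, one_pow]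
  push Not at h0
  obtain ⟨μ, hμ⟩ := FlatTwo.flat_antidiag_span hρb hlift hA a.card_eq hF hab hi
    (hc'.isFlatLift hf') (by
      obtain ⟨τ, hτ, h⟩ := h0
      refine ⟨τ, hτ, ?_⟩
      rw [hsnd hc τ hτ]
      by_cases e : c τ 0 1 = 0
      · exact Or.inr (h e)
      · exact Or.inl e)
  refine finish μ (-1) (Or.inr (neg_ne_zero.mpr one_ne_zero)) fun τ hτ => ?_
  have e01 := hμ τ hτ 0 1 (by decide)
  have e10 := hμ τ hτ 1 0 (by decide)
  rw [hsnd hc τ hτ, hsnd hc' τ hτ] at e01 e10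
  ext p q
  fin_cases p <;> fin_cases q <;> simp [offDiag, e01, e10]

end FermatLib.MLT.Two
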