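import Mathlib.RingTheory.Regular.ProjectiveDimension
import Mathlib.RingTheory.LocalRing.Module
import Mathlib.LinearAlgebra.Matrix.ToLin
import Mathlib.LinearAlgebra.FreeModule.StrongRankCondition
import Mathlib.RingTheory.Nakayama

/-!
# The descent step in Brochard's freeness criterion

Let `g` be a regular element in the maximal ideal of `B`, let `Bb = B/(g)` and let `X` be a finite
`Bb`-module.  A lift of `X` is a finite `B`-module `N` killed by `g²` with `N/gN = X` and in which
every element killed by `g` is a multiple of `g`.  If such a lift exists, the projective dimension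
of `X` over `Bb` is one less than over `B`.
-/

set_option autoImplicit false

namespace FermatLib.MLT

open CategoryTheory IsLocalRing Pointwise

variable {B : Type} [CommRing B] [IsLocalRing B]

/-- Every finite module over a local ring has a minimal presentation. -/
lemma exists_minimal_generators {X : Type} [AddCommGroup X] [Module B X] [Module.Finite B X] :
    ∃ (n : ℕ) (x : Fin n → X), Submodule.span B (Set.range x) = ⊤ ∧
      ∀ c : Fin n → B, ∑ i, c i • x i = 0 → ∀ i, c i ∈ maximalIdeal B := by
  classical
  have h : ∃ n, ∃ x : Fin n → X, Submodule.span B (Set.range x) = ⊤ :=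
    Module.Finite.exists_fin (R := B) (M := X)
  obtain ⟨x, hx⟩ := Nat.find_spec h
  refine ⟨Nat.find h, x, hx, fun c hc i => ?_⟩
  by_contra hci
  rw [mem_maximalIdeal, mem_nonunits_iff, not_not] at hci
  generalize hn : Nat.find h = n at x hx c hc i
  cases n with
  | zero => exact i.elim0
  | succ n =>
    refine Nat.find_min h (m := n) (by omega) ⟨x ∘ i.succAbove, ?_⟩
    rw [eq_top_iff, ← hx, Submodule.span_le]
    rintro _ ⟨j, rfl⟩
    rcases Fin.eq_self_or_eq_succAbove i j with rfl | ⟨k, rfl⟩
    · rw [Fin.sum_univ_succAbove _ j] at hc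
      have hmem : c j • x j ∈ Submodule.span B (Set.range (x ∘ j.succAbove)) := by
        rw [eq_neg_of_add_eq_zero_left hc]
        exact neg_mem (Submodule.sum_mem _ fun k _ =>
          Submodule.smul_mem _ _ (Submodule.subset_span ⟨k, rfl⟩))
      exact (Submodule.smul_mem_iff_of_isUnit _ hci).mp hmem
    · exact Submodule.subset_span ⟨k, rfl⟩

variable {Bb : Type} [CommRing Bb] [Algebra B Bb]

omit [IsLocalRing B] in
lemma projective_moduleCat_of_free {R M : Type} [CommRing R] [AddCommGroup M] [Module R M]
    [Module.Free R M] : Projective (ModuleCat.of R M) :=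
  (IsProjective.iff_projective M).mp inferInstance

/-- The descent step: from projective dimension `≤ j + 1` over `B` to `≤ j` over `B/(g)`. -/
theorem projDimLE_of_lift [IsNoetherianRing B] {g : B} (hg : IsSMulRegular B g)
    (hgm : g ∈ maximalIdeal B) (hsurj : Function.Surjective (algebraMap B Bb))
    (hker : RingHom.ker (algebraMap B Bb) = Ideal.span {g}) (j : ℕ) :
    ∀ {X : Type} [AddCommGroup X] [Module B X] [Module Bb X] [IsScalarTower B Bb X]
      [Module.Finite B X] {N : Type} [AddCommGroup N] [Module B N] [Module.Finite B N]
      (q : N →ₗ[B] X), Function.Surjective q → (∀ y : N, q y = 0 → ∃ w : N, y = g • w) →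
      (∀ y : N, g • g • y = 0) → (∀ y : N, g • y = 0 → ∃ w : N, y = g • w) →
      HasProjectiveDimensionLE (ModuleCat.of B X) (j + 1) →
      HasProjectiveDimensionLE (ModuleCat.of Bb X) j := by
  have hkill : ∀ {X : Type} [AddCommGroup X] [Module B X] [Module Bb X] [IsScalarTower B Bb X]
      (v : X), g • v = 0 := fun v => by
    rw [← algebraMap_smul Bb g v, show algebraMap B Bb g = 0 from
      RingHom.mem_ker.mp (hker ▸ Ideal.mem_span_singleton_self g), zero_smul]
  induction j with
  | zero =>
    intro X _ _ _ _ _ N _ _ _ q hq hqker hg2 hgN hpd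
    obtain ⟨μ, x, hx, hmin⟩ := exists_minimal_generators (B := B) (X := X)
    choose y hy using fun l => hq (x l)
    let φ : (Fin μ → B) →ₗ[B] X := Fintype.linearCombination B x
    let φN : (Fin μ → B) →ₗ[B] N := Fintype.linearCombination B y
    have hqφ : ∀ e, q (φN e) = φ e := fun e => by
      simp [φ, φN, Fintype.linearCombination_apply, hy]
    have hφ : Function.Surjective φ := by
      rw [← LinearMap.range_eq_top, Fintype.range_linearCombination, hx]
    let S := LinearMap.ker φ
    have hSm : ∀ e ∈ S, ∀ l, e l ∈ maximalIdeal B := fun e he l =>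
      hmin e (by simpa [φ, Fintype.linearCombination_apply] using LinearMap.mem_ker.mp he) l
    have hS : Module.Free B S := by
      have hE := LinearMap.shortExact_shortComplexKer hφ
      have h2 : Projective (ModuleCat.of B (Fin μ → B)) := projective_moduleCat_of_free
      have h1 : HasProjectiveDimensionLT φ.shortComplexKer.X₁ 1 :=
        hE.hasProjectiveDimensionLT_X₁ 1
          (projective_iff_hasProjectiveDimensionLT_one.mp h2) hpd
      have : Module.Projective B S :=
        (IsProjective.iff_projective _).mpr
          (projective_iff_hasProjectiveDimensionLT_one.mpr h1)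
      exact Module.free_of_flat_of_isLocalRing
    let h : (Fin μ → B) →ₗ[B] S := LinearMap.codRestrict S (g • LinearMap.id) fun e => by
      show φ (g • e) = 0
      rw [map_smul]
      exact hkill _
    have hinjm : ∀ e, h e ∈ maximalIdeal B • (⊤ : Submodule B S) →
        ∀ l, e l ∈ maximalIdeal B := by
      intro e he l
      have he' : φN (g • e) ∈ maximalIdeal B • (g • (⊤ : Submodule B N)) := by
        have h1 := Submodule.mem_map_of_mem (f := φN.comp S.subtype) he
        rw [Submodule.map_smul''] at h1
        refine Submodule.smul_mono le_rfl ?_ h1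
        rintro _ ⟨⟨s, hs⟩, -, rfl⟩
        obtain ⟨w, hw⟩ := hqker (φN s) (by rw [hqφ]; exact hs)
        exact (Submodule.mem_smul_pointwise_iff_exists _ _ _).mpr ⟨w, trivial, hw.symm⟩
      rw [← Submodule.ideal_span_singleton_smul g, ← Submodule.smul_assoc, smul_eq_mul,
        mul_comm, ← smul_eq_mul, Submodule.smul_assoc,
        Submodule.ideal_span_singleton_smul, Submodule.mem_smul_pointwise_iff_exists] at he'
      obtain ⟨m, hm, hgm'⟩ := he'
      obtain ⟨w, hw⟩ := hgN (φN e - m) (by rw [smul_sub, ← map_smul, hgm', sub_self])
      have hqe : φ e ∈ maximalIdeal B • (⊤ : Submodule B X) := by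
        rw [← hqφ, ← sub_add_cancel (φN e) m, hw, map_add, map_smul, hkill, zero_add]
        have := Submodule.mem_map_of_mem (f := q) hm
        rw [Submodule.map_smul''] at this
        exact Submodule.smul_mono le_rfl le_top this
      obtain ⟨c, hc, hce⟩ : ∃ c : Fin μ → B, (∀ i, c i ∈ maximalIdeal B) ∧ φ c = φ e := by
        have htop : (⊤ : Submodule B X) = Submodule.map φ ⊤ := by
          rw [Submodule.map_top, LinearMap.range_eq_top.mpr hφ]
        rw [htop, ← Submodule.map_smul''] at hqe
        obtain ⟨c, hc, hce⟩ := Submodule.mem_map.mp hqe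
        refine ⟨c, fun i => ?_, hce⟩
        refine Submodule.smul_induction_on (p := fun c => c i ∈ maximalIdeal B) hc
          (fun a ha v _ => Ideal.mul_mem_right _ _ ha) (fun a b ha hb => add_mem ha hb)
      have := hSm (e - c) (by simp [S, hce]) l
      simpa using add_mem this (hc l)
    have hS' : Function.Surjective h := by
      have : Module.Finite B S := Module.Finite.of_fg (IsNoetherian.noetherian S)
      let bS := Module.Free.chooseBasis B S
      set ι := Module.Free.ChooseBasisIndex B S
      let h' : (Fin μ → B) →ₗ[B] (ι → B) := bS.equivFun.toLinearMap.comp h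
      have hνμ : Fintype.card ι ≤ μ := by
        have := card_le_of_injective B (f := S.subtype.comp bS.equivFun.symm.toLinearMap)
          (S.subtype_injective.comp bS.equivFun.symm.injective)
        simpa using this
      classical
      let H : (Fin μ → ResidueField B) →ₗ[ResidueField B] (ι → ResidueField B) :=
        Matrix.toLin' ((LinearMap.toMatrix' h').map (residue B))
      have hH : ∀ e : Fin μ → B, H (residue B ∘ e) = residue B ∘ h' e := fun e => by
        funext i
        simp only [H, Matrix.toLin'_apply, Function.comp_apply]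
        rw [← RingHom.map_mulVec, ← Matrix.toLin'_apply, Matrix.toLin'_toMatrix']
      have hHinj : Function.Injective H := by
        refine (injective_iff_map_eq_zero H).mpr fun v hv => ?_
        obtain ⟨e, rfl⟩ : ∃ e : Fin μ → B, residue B ∘ e = v :=
          ⟨fun l => Function.surjInv residue_surjective (v l),
            funext fun l => Function.surjInv_eq residue_surjective (v l)⟩
        rw [hH] at hv
        refine funext fun l => Ideal.Quotient.eq_zero_iff_mem.mpr (hinjm e ?_ l)
        rw [← bS.sum_equivFun (h e)]
        exact Submodule.sum_mem _ fun i _ => Submodule.smul_mem_smul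
          (Ideal.Quotient.eq_zero_iff_mem.mp (congrFun hv i)) trivial
      have hμν : μ ≤ Fintype.card ι := by
        have := LinearMap.finrank_le_finrank_of_injective hHinj
        simpa using this
      have hHsurj : Function.Surjective H :=
        (LinearMap.injective_iff_surjective_of_finrank_eq_finrank
          (by simp [le_antisymm hμν hνμ])).mp hHinj
      rw [← LinearMap.range_eq_top, eq_top_iff]
      refine Submodule.le_of_le_smul_of_le_jacobson_bot (Module.Finite.fg_top)
        (IsLocalRing.maximalIdeal_le_jacobson _) ?_
      intro s _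
      obtain ⟨v, hv⟩ := hHsurj (residue B ∘ bS.equivFun s)
      obtain ⟨e, rfl⟩ : ∃ e : Fin μ → B, residue B ∘ e = v :=
          ⟨fun l => Function.surjInv residue_surjective (v l),
            funext fun l => Function.surjInv_eq residue_surjective (v l)⟩
      refine Submodule.mem_sup.mpr ⟨h e, LinearMap.mem_range_self h e, s - h e, ?_, by abel⟩
      rw [← bS.sum_equivFun (s - h e)]
      refine Submodule.sum_mem _ fun i _ => Submodule.smul_mem_smul
        (Ideal.Quotient.eq_zero_iff_mem.mp ?_) trivial
      rw [hH] at hv
      have := congrFun hv i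
      simp only [Function.comp_apply, h', LinearMap.comp_apply, LinearEquiv.coe_coe] at this
      show residue B (bS.equivFun (s - h e) i) = 0
      rw [map_sub, Pi.sub_apply, map_sub, sub_eq_zero]
      exact this.symm
    have hX : Module.Free Bb X := by
      let ψ : (Fin μ → Bb) →ₗ[Bb] X := Fintype.linearCombination Bb x
      have hψφ : ∀ e : Fin μ → B, ψ (algebraMap B Bb ∘ e) = φ e := fun e => by
        simp [ψ, φ, Fintype.linearCombination_apply]
      refine Module.Free.of_equiv (LinearEquiv.ofBijective ψ ⟨(injective_iff_map_eq_zero ψ).mpr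
        fun v hv => ?_, fun z => ?_⟩)
      · obtain ⟨e, rfl⟩ : ∃ e : Fin μ → B, algebraMap B Bb ∘ e = v :=
          ⟨fun l => Function.surjInv hsurj (v l), funext fun l => Function.surjInv_eq hsurj (v l)⟩
        rw [hψφ] at hv
        obtain ⟨w, hw⟩ := hS' ⟨e, hv⟩
        have hw' : g • w = e := congrArg Subtype.val hw
        funext l
        rw [← hw', Function.comp_apply, Pi.smul_apply, smul_eq_mul, map_mul,
          show algebraMap B Bb g = 0 from RingHom.mem_ker.mp (hker ▸ Ideal.mem_span_singleton_self g),
          zero_mul, Pi.zero_apply]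
      · obtain ⟨e, he⟩ := hφ z
        exact ⟨_, (hψφ e).trans he⟩
    exact projective_iff_hasProjectiveDimensionLT_one.mp projective_moduleCat_of_free
  | succ j ih =>
    intro X _ _ _ _ _ N _ _ _ q hq hqker hg2 hgN hpd
    obtain ⟨μ, x, hx⟩ := Module.Finite.exists_fin (R := B) (M := X)
    choose y hy using fun l => hq (x l)
    let φN : (Fin μ → B) →ₗ[B] N := Fintype.linearCombination B y
    have hφN : Function.Surjective φN := by
      rw [← LinearMap.range_eq_top, eq_top_iff]
      refine Submodule.le_of_le_smul_of_le_jacobson_bot (Module.Finite.fg_top)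
        (IsLocalRing.maximalIdeal_le_jacobson _) fun z _ => ?_
      obtain ⟨c, hc⟩ : q z ∈ LinearMap.range (Fintype.linearCombination B x) := by
        rw [Fintype.range_linearCombination, hx]; trivial
      obtain ⟨w, hw⟩ := hqker (z - φN c) (by
        rw [map_sub, sub_eq_zero, ← hc]
        simp [φN, Fintype.linearCombination_apply, hy])
      refine Submodule.mem_sup.mpr ⟨φN c, LinearMap.mem_range_self _ c, g • w, ?_,
        by rw [← hw]; abel⟩
      exact Submodule.smul_mem_smul hgm trivial
    have : Module.Finite B Bb := Module.Finite.of_surjective (Algebra.linearMap B Bb) hsurj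
    let ψ : (Fin μ → Bb) →ₗ[Bb] X := Fintype.linearCombination Bb x
    let π : (Fin μ → B) →ₗ[B] (Fin μ → Bb) := LinearMap.compLeft (Algebra.linearMap B Bb) (Fin μ)
    have hψπ : ∀ e, ψ (π e) = q (φN e) := fun e => by
      simp [ψ, π, φN, Fintype.linearCombination_apply, hy]
    have hπsurj : Function.Surjective π := fun v =>
      ⟨fun l => Function.surjInv hsurj (v l), funext fun l => Function.surjInv_eq hsurj (v l)⟩
    have hπker : ∀ e, π e = 0 → ∃ u, e = g • u := fun e he => by
      have : ∀ l, ∃ u, e l = g * u := fun l => by
        have h1 : e l ∈ RingHom.ker (algebraMap B Bb) := congrFun he l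
        rw [hker, Ideal.mem_span_singleton'] at h1
        obtain ⟨u, hu⟩ := h1
        exact ⟨u, by rw [← hu, mul_comm]⟩
      choose u hu using this
      exact ⟨u, funext hu⟩
    have hψ : Function.Surjective ψ := fun z => by
      obtain ⟨w, rfl⟩ := hq z
      obtain ⟨e, rfl⟩ := hφN w
      exact ⟨π e, hψπ e⟩
    let K := LinearMap.ker ψ
    have hX1 : HasProjectiveDimensionLE (ModuleCat.of B (Fin μ → Bb)) 1 := by
      let a : (Fin μ → B) →ₗ[B] LinearMap.ker π := LinearMap.codRestrict _ (g • LinearMap.id)
        fun e => funext fun l => by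
          show algebraMap B Bb (g * e l) = 0
          rw [map_mul, show algebraMap B Bb g = 0 from
            RingHom.mem_ker.mp (hker ▸ Ideal.mem_span_singleton_self g), zero_mul]
      have ha : Function.Bijective a := ⟨fun e e' h => funext fun l =>
          hg (congrFun (congrArg Subtype.val h) l),
        fun ⟨e, he⟩ => by
          obtain ⟨u, rfl⟩ := hπker e he
          exact ⟨u, rfl⟩⟩
      have : Module.Free B (LinearMap.ker π) := Module.Free.of_equiv (LinearEquiv.ofBijective a ha)
      exact (LinearMap.shortExact_shortComplexKer hπsurj).hasProjectiveDimensionLT_X₃ 1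
        (projective_iff_hasProjectiveDimensionLT_one.mp projective_moduleCat_of_free)
        (have := projective_iff_hasProjectiveDimensionLT_one.mp
            (projective_moduleCat_of_free (R := B) (M := Fin μ → B));
          hasProjectiveDimensionLT_of_ge _ 1 2 (by omega))
    have hK : HasProjectiveDimensionLE (ModuleCat.of B K) (j + 1) := by
      have hE := LinearMap.shortExact_shortComplexKer (f := ψ.restrictScalars B) hψ
      have h1 : HasProjectiveDimensionLT (ψ.restrictScalars B).shortComplexKer.X₁ (j + 2) :=
        hE.hasProjectiveDimensionLT_X₁ (j + 2)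
          (have := hX1; hasProjectiveDimensionLT_of_ge _ 2 (j + 2) (by omega)) hpd
      exact h1
    let S1 := LinearMap.ker φN
    let T : Submodule B S1 :=
      ((g * g) • (⊤ : Submodule B (Fin μ → B))).comap S1.subtype
    have hπS : ∀ s : S1, π s ∈ K := fun s => by
      show ψ (π s) = 0
      rw [hψπ, LinearMap.mem_ker.mp s.2, map_zero]
    let q0 : S1 →ₗ[B] K :=
      { toFun := fun s => ⟨π s, hπS s⟩
        map_add' := fun s t => Subtype.ext (map_add π (s : Fin μ → B) t)
        map_smul' := fun c s => Subtype.ext (map_smul π c (s : Fin μ → B)) }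
    have hgT : ∀ s : S1, s ∈ T ↔ ∃ t, (s : Fin μ → B) = (g * g) • t := fun s =>
      ⟨fun h => by
        obtain ⟨t, -, ht⟩ := (Submodule.mem_smul_pointwise_iff_exists _ _ _).mp h
        exact ⟨t, ht.symm⟩,
      fun ⟨t, ht⟩ => (Submodule.mem_smul_pointwise_iff_exists _ _ _).mpr ⟨t, trivial, ht.symm⟩⟩
    have hzero : algebraMap B Bb g = 0 :=
      RingHom.mem_ker.mp (hker ▸ Ideal.mem_span_singleton_self g)
    have hTq0 : T ≤ LinearMap.ker q0 := fun s hs => by
      obtain ⟨t, ht⟩ := (hgT s).mp hs
      refine Subtype.ext (funext fun l => ?_)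
      show algebraMap B Bb ((s : Fin μ → B) l) = 0
      rw [ht, Pi.smul_apply, smul_eq_mul, map_mul, map_mul, hzero, zero_mul, zero_mul]
    -- the key divisibility in `S1`
    have key : ∀ u : Fin μ → B, g • φN u = 0 → ∃ (t : Fin μ → B) (s : S1),
        g • u = (g * g) • t + g • (s : Fin μ → B) := fun u hu => by
      obtain ⟨w, hw⟩ := hgN _ hu
      obtain ⟨t, rfl⟩ := hφN w
      refine ⟨t, ⟨u - g • t, ?_⟩, ?_⟩
      · show φN (u - g • t) = 0
        rw [map_sub, map_smul, hw, sub_self]
      · rw [smul_sub, smul_smul]
        abel
    have : Module.Finite B K := Module.Finite.of_injective (K.subtype.restrictScalars B)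
      Subtype.val_injective
    have hK' : HasProjectiveDimensionLE (ModuleCat.of Bb K) j := by
      refine ih (X := K) (N := S1 ⧸ T) (T.liftQ q0 hTq0) ?_ ?_ ?_ ?_ hK
      · intro ⟨k, hk⟩
        obtain ⟨e, rfl⟩ := hπsurj k
        obtain ⟨w, hw⟩ := hqker (φN e) (by rw [← hψπ]; exact hk)
        obtain ⟨u, rfl⟩ := hφN w
        refine ⟨Submodule.Quotient.mk ⟨e - g • u, ?_⟩, Subtype.ext ?_⟩
        · show φN (e - g • u) = 0
          rw [map_sub, map_smul, hw, sub_self]
        · show π (e - g • u) = π e
          rw [map_sub, sub_eq_self]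
          funext l
          show algebraMap B Bb (g * u l) = 0
          rw [map_mul, hzero, zero_mul]
      · intro y' hy'
        obtain ⟨s, rfl⟩ := Submodule.Quotient.mk_surjective _ y'
        obtain ⟨u, hu⟩ := hπker s (congrArg Subtype.val hy')
        obtain ⟨t, s', hs'⟩ := key u (by
          rw [← map_smul, ← hu]
          exact s.2)
        refine ⟨Submodule.Quotient.mk s', ?_⟩
        rw [← Submodule.Quotient.mk_smul, Submodule.Quotient.eq]
        refine (hgT _).mpr ⟨t, ?_⟩
        simp only [Submodule.coe_sub, Submodule.coe_smul_of_tower]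
        rw [hu, hs']
        abel
      · intro y'
        obtain ⟨s, rfl⟩ := Submodule.Quotient.mk_surjective _ y'
        rw [← Submodule.Quotient.mk_smul, ← Submodule.Quotient.mk_smul,
          Submodule.Quotient.mk_eq_zero]
        exact (hgT _).mpr ⟨s, by simp [smul_smul]⟩
      · intro y' hy'
        obtain ⟨s, rfl⟩ := Submodule.Quotient.mk_surjective _ y'
        rw [← Submodule.Quotient.mk_smul, Submodule.Quotient.mk_eq_zero, hgT] at hy'
        obtain ⟨t, ht⟩ := hy'
        have hst : (s : Fin μ → B) = g • t := funext fun l => by
          have := congrFun ht l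
          simp only [Submodule.coe_smul_of_tower, Pi.smul_apply, smul_eq_mul, mul_assoc] at this
          exact hg this
        obtain ⟨t', s', hs'⟩ := key t (by
          rw [← map_smul, ← hst]
          exact s.2)
        refine ⟨Submodule.Quotient.mk s', ?_⟩
        rw [← Submodule.Quotient.mk_smul, Submodule.Quotient.eq]
        refine (hgT _).mpr ⟨t', ?_⟩
        simp only [Submodule.coe_sub, Submodule.coe_smul_of_tower]
        rw [hst, hs']
        abel
    exact (LinearMap.shortExact_shortComplexKer hψ).hasProjectiveDimensionLT_X₃ (j + 1) hK'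
      (have := projective_iff_hasProjectiveDimensionLT_one.mp
          (projective_moduleCat_of_free (R := Bb) (M := Fin μ → Bb));
        hasProjectiveDimensionLT_of_ge _ 1 (j + 2) (by omega))

end FermatLib.MLT
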