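import Mathlib.RingTheory.Depth.Rees
import Mathlib.RingTheory.Regular.RegularSequence
import Mathlib.RingTheory.Ideal.AssociatedPrime.Finiteness
import Mathlib.RingTheory.LocalRing.Basic
import Mathlib.RingTheory.Ideal.Maps

/-!
# Adjusting elements into a regular sequence

Over a Noetherian local ring whose maximal ideal contains a regular sequence of length `n`, given
`f₁,…,fₙ` and an ideal `A` with `(f) + A` primary to the maximal ideal, there are
`f'ᵢ ∈ fᵢ + A + (f_j : j > i)` forming a regular sequence.
-/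

set_option autoImplicit false

namespace FermatLib.MLT

open CategoryTheory Abelian IsLocalRing RingTheory.Sequence Pointwise

/-- Coset prime avoidance. -/
lemma exists_add_notMem {R : Type*} [CommRing R] (I : Ideal R) (x : R) (s : Finset (Ideal R)) :
    (∀ p ∈ s, p.IsPrime) → (∀ p ∈ s, x ∈ p → ¬ I ≤ p) → ∃ a ∈ I, ∀ p ∈ s, x + a ∉ p := by
  classical
  induction s using Finset.strongInduction with
  | H s ih =>
    intro hs h
    rcases s.eq_empty_or_nonempty with rfl | hne
    · exact ⟨0, I.zero_mem, by simp⟩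
    obtain ⟨p, hp⟩ := s.exists_minimal hne
    have : p.IsPrime := hs p hp.1
    obtain ⟨a, ha, haq⟩ := ih (s.erase p) (Finset.erase_ssubset hp.1)
      (fun q hq => hs q (Finset.mem_of_mem_erase hq)) (fun q hq => h q (Finset.mem_of_mem_erase hq))
    by_cases hxa : x + a ∈ p
    swap
    · exact ⟨a, ha, fun q hq => if hqp : q = p then hqp ▸ hxa else
        haq q (Finset.mem_erase.mpr ⟨hqp, hq⟩)⟩
    have hI : ¬ I ≤ p := fun hle => h p hp.1 ((add_mem_cancel_right (hle ha)).mp hxa) hle
    have hprod : ¬ (∏ q ∈ s.erase p, q) ≤ p := fun hle => by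
      obtain ⟨q, hq, hqp⟩ := (Ideal.IsPrime.prod_le ‹_›).mp hle
      exact (Finset.mem_erase.mp hq).1 (le_antisymm hqp (hp.2 (Finset.mem_of_mem_erase hq) hqp))
    have hIp : ¬ I * ∏ q ∈ s.erase p, q ≤ p := fun hle =>
      ((Ideal.IsPrime.mul_le ‹_›).mp hle).elim hI hprod
    obtain ⟨b, hb, hbp⟩ := SetLike.not_le_iff_exists.mp hIp
    have hbI : b ∈ I := (Ideal.mul_le_inf hb).1
    refine ⟨a + b, I.add_mem ha hbI, fun q hq hxq => ?_⟩
    rw [← add_assoc] at hxq
    by_cases hqp : q = p
    · subst hqp
      exact hbp ((add_mem_cancel_left hxa).mp hxq)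
    · have hbq : b ∈ q := by
        have h1 : b ∈ ∏ q ∈ s.erase p, q := (Ideal.mul_le_inf hb).2
        rw [← Finset.mul_prod_erase _ (fun q => q) (Finset.mem_erase.mpr ⟨hqp, hq⟩)] at h1
        exact (Ideal.mul_le_inf h1).1
      exact haq q (Finset.mem_erase.mpr ⟨hqp, hq⟩) ((add_mem_cancel_right hbq).mp hxq)

variable {P : Type} [CommRing P] [IsLocalRing P] [IsNoetherianRing P]

/-- `Ext^j(k, X) = 0` for `j < n`. -/
def ExtVanishBelow (n : ℕ) (X : Type) [AddCommGroup X] [Module P X] : Prop :=
  ∀ j < n, Subsingleton (Ext (ModuleCat.of P (P ⧸ maximalIdeal P)) (ModuleCat.of P X) j)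

omit [IsNoetherianRing P] in
lemma ExtVanishBelow.quotSMulTop {n : ℕ} {X : Type} [AddCommGroup X] [Module P X]
    (h : ExtVanishBelow (P := P) (n + 1) X) {x : P} (hx : IsSMulRegular X x) :
    ExtVanishBelow (P := P) n (QuotSMulTop x X) := fun i hi => by
  have zero1 := AddCommGrpCat.isZero_of_iff_subsingleton.mpr (h i (by omega))
  have zero2 := AddCommGrpCat.isZero_of_iff_subsingleton.mpr (h (i + 1) (by omega))
  have hx' : IsSMulRegular (ModuleCat.of P X) x := hx
  exact AddCommGrpCat.subsingleton_of_isZero <| ShortComplex.Exact.isZero_of_both_zeros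
    ((Ext.covariant_sequence_exact₃' (ModuleCat.of P (P ⧸ maximalIdeal P))
      hx'.smulShortComplex_shortExact) i (i + 1) rfl)
    (zero1.eq_zero_of_src _) (zero2.eq_zero_of_tgt _)

/-- A regular sequence of length `n` in the maximal ideal kills `Ext` below `n`. -/
lemma extVanishBelow_of_isWeaklyRegular (rs : List P) (hrs : IsWeaklyRegular P rs)
    (hmem : ∀ r ∈ rs, r ∈ maximalIdeal P) : ExtVanishBelow (P := P) rs.length P := by
  have hlt : maximalIdeal P • (⊤ : Submodule P (ModuleCat.of P P)) < ⊤ := by
    show maximalIdeal P • (⊤ : Submodule P P) < ⊤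
    rw [smul_eq_mul, Ideal.mul_top]
    exact lt_top_iff_ne_top.mpr (maximalIdeal.isMaximal P).ne_top
  refine ModuleCat.subsingleton_ext_of_exists_isRegular (maximalIdeal P)
    (ModuleCat.of P (P ⧸ maximalIdeal P)) ?_ (ModuleCat.of P P) hlt rs hmem ⟨hrs, ?_⟩
  · rw [Module.support_eq_zeroLocus, Ideal.annihilator_quotient]
  · refine fun h => (hlt.ne (top_le_iff.mp (h.le.trans ?_)))
    exact Submodule.smul_mono_left (Ideal.span_le.mpr hmem)

/-- Inductive form of the adjustment: the regular sequence is built on `X`. -/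
theorem exists_regular_adjust (A : Ideal P) :
    ∀ (n : ℕ) (X : Type) [AddCommGroup X] [Module P X] [Module.Finite P X] (f : Fin n → P),
      ExtVanishBelow (P := P) n X →
      (∀ q : Ideal P, q.IsPrime → Module.annihilator P X ≤ q → A ≤ q → (∀ i, f i ∈ q) →
        q = maximalIdeal P) →
      ∃ f' : Fin n → P, (∀ i, f' i - f i ∈ A ⊔ Ideal.span (f '' {j | i < j})) ∧
        IsWeaklyRegular X (List.ofFn f') := by
  intro n
  induction n with
  | zero =>
    intro X _ _ _ f _ _
    exact ⟨f, fun i => i.elim0, by simpa using IsWeaklyRegular.nil P X⟩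
  | succ n ih =>
    intro X _ _ _ f hext hq
    have hsub : Subsingleton ((P ⧸ maximalIdeal P) →ₗ[P] X) := by
      have := hext 0 n.zero_lt_succ
      have h0 : Subsingleton (ModuleCat.of P (P ⧸ maximalIdeal P) ⟶ ModuleCat.of P X) :=
        Ext.addEquiv₀.subsingleton_congr.mp this
      exact (ModuleCat.homAddEquiv (M := ModuleCat.of P (P ⧸ maximalIdeal P))
        (N := ModuleCat.of P X)).symm.subsingleton
    obtain ⟨t, ht, htreg⟩ := IsSMulRegular.subsingleton_linearMap_iff.mp hsub
    rw [Ideal.annihilator_quotient] at ht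
    set J := A ⊔ Ideal.span (f '' {j | (0 : Fin (n + 1)) < j}) with hJ
    obtain ⟨a, ha, hav⟩ := exists_add_notMem J (f 0) (associatedPrimes.finite P X).toFinset
      (fun p hp => IsAssociatedPrime.isPrime ((Set.Finite.mem_toFinset _).mp hp))
      (fun p hp hf0 hle => by
        rw [Set.Finite.mem_toFinset] at hp
        have hp' : p.IsPrime := IsAssociatedPrime.isPrime hp
        have hpm := hq p hp' (Submodule.annihilator_top (R := P) (M := X) ▸
          IsAssociatedPrime.annihilator_le hp) (le_sup_left.trans hle)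
          fun i => by
            rcases eq_or_ne i 0 with rfl | hi
            · exact hf0
            · exact hle (Ideal.mem_sup_right
                (Ideal.subset_span ⟨i, Fin.pos_iff_ne_zero.mpr hi, rfl⟩))
        have : t ∈ ⋃ p ∈ associatedPrimes P X, (p : Set P) :=
          Set.mem_biUnion hp (by rw [hpm]; exact ht)
        rw [biUnion_associatedPrimes_eq_compl_regular P X] at this
        exact this htreg)
    have hxreg : IsSMulRegular X (f 0 + a) := by
      by_contra hn
      have h1 : f 0 + a ∈ ⋃ p ∈ associatedPrimes P X, (p : Set P) := by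
        rw [biUnion_associatedPrimes_eq_compl_regular P X]
        exact hn
      obtain ⟨p, hp, hpmem⟩ := Set.mem_iUnion₂.mp h1
      exact hav p ((Set.Finite.mem_toFinset _).mpr hp) hpmem
    obtain ⟨f', hf', hreg⟩ := ih (QuotSMulTop (f 0 + a) X) (fun i => f i.succ)
      (hext.quotSMulTop hxreg) (fun q hq' hann hA hf => by
        have hx : f 0 + a ∈ q := hann (QuotSMulTop.mem_annihilator X _)
        refine hq q hq' (le_trans ?_ hann) hA fun i => ?_
        · intro r hr
          refine Module.mem_annihilator.mpr fun y => ?_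
          obtain ⟨z, rfl⟩ := Submodule.Quotient.mk_surjective _ y
          rw [← Submodule.Quotient.mk_smul, Module.mem_annihilator.mp hr z,
            Submodule.Quotient.mk_zero]
        · refine Fin.cases ?_ hf i
          have haq : a ∈ q := by
            refine sup_le hA (Ideal.span_le.mpr ?_) ha
            rintro _ ⟨j, hj, rfl⟩
            obtain ⟨k, rfl⟩ := Fin.exists_succ_eq.mpr (Fin.pos_iff_ne_zero.mp hj)
            exact hf k
          exact (add_mem_cancel_right haq).mp hx)
    refine ⟨Fin.cons (f 0 + a) f', fun i => ?_, ?_⟩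
    · refine Fin.cases ?_ (fun k => ?_) i
      · simpa using ha
      · rw [Fin.cons_succ]
        refine sup_le_sup_left (Ideal.span_mono ?_) A (hf' k)
        rintro _ ⟨j, hj, rfl⟩
        exact ⟨j.succ, Fin.succ_lt_succ_iff.mpr hj, rfl⟩
    · rw [List.ofFn_succ, Fin.cons_zero]
      simpa using IsWeaklyRegular.cons hxreg hreg

end FermatLib.MLT
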