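import Fermat.Agent.Basic.RegularFree
import Fermat.Agent.MLT.Two.FreeCriterionStep
import Fermat.Agent.MLT.Two.RegularAdjust
import Mathlib.RingTheory.HopkinsLevitzki
import Mathlib.RingTheory.Ideal.Quotient.PowTransition
import Mathlib.RingTheory.Artinian.Module
import Mathlib.RingTheory.Finiteness.Ideal

/-!
# Brochard's freeness criterion

`P` is a Noetherian local ring whose maximal ideal is generated by a regular sequence of length
`g`, `f₁,…,f_g` lie in the maximal ideal, and `M` is a finite nonzero module on which the `fᵢ` are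
independent (a relation `Σ fᵢ zᵢ = 0` forces all `zᵢ ∈ (f)M`); `J ≤ Ann M` is an ideal with
`(f) + J` primary to the maximal ideal.  Then `M/(f)M` is free over `P/((f) + J)`, so its
annihilator is exactly `(f) + J`: this is `R = T` at a single Taylor–Wiles level, without patching.
-/

set_option autoImplicit false

namespace FermatLib.MLT

open CategoryTheory IsLocalRing RingTheory.Sequence Pointwise

variable {P : Type} [CommRing P]

/-- The `fᵢ` are independent on `M` in the sense of Lech. -/
def LechIndependent {g : ℕ} (M : Type) [AddCommGroup M] [Module P M] (f : Fin g → P) : Prop :=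
  ∀ z : Fin g → M, ∑ i, f i • z i = 0 → ∀ i, z i ∈ Ideal.span (Set.range f) • (⊤ : Submodule P M)

/-- The initial segment ideals of a family. -/
noncomputable def prefixIdeal {g : ℕ} (f : Fin g → P) (i : ℕ) : Ideal P :=
  Ideal.span (f '' {j | (j : ℕ) < i})

lemma prefixIdeal_self {g : ℕ} (f : Fin g → P) : prefixIdeal f g = Ideal.span (Set.range f) := by
  rw [prefixIdeal, ← Set.image_univ]
  congr 2
  ext j
  simp

lemma ofList_take_ofFn {g : ℕ} (f : Fin g → P) (i : ℕ) :
    Ideal.ofList ((List.ofFn f).take i) = prefixIdeal f i := by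
  apply le_antisymm <;> refine Ideal.span_le.mpr ?_
  · intro x hx
    obtain ⟨k, hk, rfl⟩ := List.mem_take_iff_getElem.mp hx
    simp only [List.length_ofFn, lt_min_iff] at hk
    rw [List.getElem_ofFn]
    exact Ideal.subset_span ⟨_, hk.1, rfl⟩
  · rintro _ ⟨j, hj, rfl⟩
    refine Ideal.subset_span (List.mem_take_iff_getElem.mpr ⟨j, ?_, ?_⟩)
    · simp only [List.length_ofFn, lt_min_iff]
      exact ⟨hj, j.2⟩
    · simp

variable {M : Type} [AddCommGroup M] [Module P M] {g : ℕ}

/-- Triangular adjustment preserves `(f) + A`. -/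
lemma span_sup_eq_of_adjust {A : Ideal P} {f f' : Fin g → P}
    (h : ∀ i, f' i - f i ∈ A ⊔ Ideal.span (f '' {j | i < j})) :
    Ideal.span (Set.range f') ⊔ A = Ideal.span (Set.range f) ⊔ A := by
  refine le_antisymm (sup_le ?_ le_sup_right) (sup_le ?_ le_sup_right) <;> refine Ideal.span_le.mpr ?_
  · rintro _ ⟨i, rfl⟩
    rw [show f' i = f i + (f' i - f i) by ring]
    have hle : A ⊔ Ideal.span (f '' {j | i < j}) ≤ Ideal.span (Set.range f) ⊔ A :=
      sup_le le_sup_right ((Ideal.span_mono (Set.image_subset_range _ _)).trans le_sup_left)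
    exact add_mem (Ideal.mem_sup_left (Ideal.subset_span ⟨i, rfl⟩)) (hle (h i))
  · rintro _ ⟨i, rfl⟩
    have key : ∀ i : Fin g, f i ∈ Ideal.span (Set.range f') ⊔ A := by
      intro i
      induction i using WellFoundedGT.induction with
      | ind i ih =>
        rw [show f i = f' i - (f' i - f i) by ring]
        have hle : A ⊔ Ideal.span (f '' {j | i < j}) ≤ Ideal.span (Set.range f') ⊔ A := by
          refine sup_le le_sup_right (Ideal.span_le.mpr ?_)
          rintro _ ⟨j, hj, rfl⟩
          exact ih j hj
        exact sub_mem (Ideal.mem_sup_left (Ideal.subset_span ⟨i, rfl⟩)) (hle (h i))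
    exact key i

/-- Independence survives the adjustment by elements of the annihilator and later `f_j`. -/
lemma LechIndependent.adjust {f f' : Fin g → P} (hf : LechIndependent M f)
    (h : ∀ i, f' i - f i ∈ Module.annihilator P M ⊔ Ideal.span (f '' {j | i < j})) :
    LechIndependent M f' := by
  classical
  set A := Module.annihilator P M
  have hsmul : Ideal.span (Set.range f') • (⊤ : Submodule P M) =
      Ideal.span (Set.range f) • ⊤ := by
    have h1 := congrArg (· • (⊤ : Submodule P M)) (span_sup_eq_of_adjust h)
    have hA : A • (⊤ : Submodule P M) = ⊥ := by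
      rw [eq_bot_iff, Submodule.smul_le]
      exact fun r hr x _ => (Submodule.mem_bot P).mpr (Module.mem_annihilator.mp hr x)
    simpa [Submodule.sup_smul, hA] using h1
  have hc : ∀ i, ∃ c : Fin g → P, (∀ j, ¬ i < j → c j = 0) ∧
      ∀ x : M, f' i • x = f i • x + ∑ j, (c j * f j) • x := by
    intro i
    obtain ⟨a, ha, b, hb, hab⟩ := Submodule.mem_sup.mp (h i)
    obtain ⟨c, rfl⟩ : ∃ c : Fin g → P, ∑ j, c j * (if i < j then f j else 0) = b := by
      refine Ideal.mem_span_range_iff_exists_fun.mp (Ideal.span_mono ?_ hb)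
      rintro _ ⟨j, hj, rfl⟩
      exact ⟨j, if_pos hj⟩
    refine ⟨fun j => if i < j then c j else 0, fun j hj => if_neg hj, fun x => ?_⟩
    have : f' i = f i + a + ∑ j, (if i < j then c j else 0) * f j := by
      rw [add_assoc, show (∑ j, (if i < j then c j else 0) * f j) =
        ∑ j, c j * (if i < j then f j else 0) from Finset.sum_congr rfl fun j _ => by
          split_ifs <;> simp, hab]
      ring
    rw [this, add_smul, add_smul, Module.mem_annihilator.mp ha, add_zero, Finset.sum_smul]
  choose c hc0 hc using hc
  intro z hz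
  have hw : ∀ j, z j + ∑ i, c i j • z i ∈ Ideal.span (Set.range f) • (⊤ : Submodule P M) := by
    refine hf _ ?_
    rw [← hz]
    simp only [hc, smul_add, Finset.smul_sum, Finset.sum_add_distrib, smul_smul]
    rw [Finset.sum_comm]
    simp only [mul_comm (f _)]
  intro j
  rw [hsmul]
  induction j using WellFoundedLT.induction with
  | ind j ih =>
    have := sub_mem (hw j) (Submodule.sum_mem (Ideal.span (Set.range f) • (⊤ : Submodule P M))
      (t := Finset.univ) (f := fun i => c i j • z i) fun i _ => by
        by_cases hij : i < j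
        · exact Submodule.smul_mem _ _ (ih i hij)
        · simp [hc0 i j hij])
    simpa using this

variable [IsLocalRing P] [IsNoetherianRing P]

/-- A finite module killed by `I` with `I` primary to the maximal ideal has finite length. -/
lemma isFiniteLength_of_primary [Module.Finite P M] (I : Ideal P) (hI : I ≤ Module.annihilator P M)
    (hprim : ∀ q : Ideal P, q.IsPrime → I ≤ q → q = maximalIdeal P) (hIm : I ≤ maximalIdeal P) :
    IsFiniteLength P M := by
  have : Nontrivial (P ⧸ I) := Ideal.Quotient.nontrivial_iff.mpr fun h =>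
    (maximalIdeal.isMaximal P).ne_top (top_le_iff.mp (h ▸ hIm))
  have : IsLocalRing (P ⧸ I) := .of_surjective' _ Ideal.Quotient.mk_surjective
  have hle : maximalIdeal P ≤ I.radical := by
    rw [Ideal.radical_eq_sInf]
    exact le_sInf fun q hq => (hprim q hq.2 hq.1).ge
  obtain ⟨k, hk⟩ := Ideal.exists_pow_le_of_le_radical_of_fg hle (IsNoetherian.noetherian _)
  have : IsNoetherianRing (P ⧸ I) := isNoetherianRing_of_surjective _ _ _ (Ideal.Quotient.mk_surjective (I := I))
  have : IsArtinianRing (P ⧸ I) := by
    rw [isArtinianRing_iff_isNilpotent_maximalIdeal]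
    refine ⟨k, ?_⟩
    have : maximalIdeal (P ⧸ I) ≤ (maximalIdeal P).map (Ideal.Quotient.mk I) := by
      intro x hx
      obtain ⟨y, rfl⟩ := Ideal.Quotient.mk_surjective x
      exact Ideal.mem_map_of_mem _ ((mem_maximalIdeal y).mpr fun hu => hx (hu.map _))
    rw [Ideal.zero_eq_bot, ← le_bot_iff]
    refine (Ideal.pow_right_mono this k).trans ?_
    rw [← Ideal.map_pow, Ideal.map_le_iff_le_comap]
    exact hk.trans fun x hx => by simpa [Ideal.Quotient.eq_zero_iff_mem] using hx
  obtain ⟨μ, x, hx⟩ := Module.Finite.exists_fin (R := P) (M := M)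
  have hP : IsArtinian P (P ⧸ I) :=
    isArtinian_of_surjective_algebraMap (S := P) (M := P ⧸ I)
      (Ideal.Quotient.mk_surjective (I := I))
  let ψ : (Fin μ → P ⧸ I) →ₗ[P] M := ∑ l, (Submodule.liftQ I (LinearMap.toSpanSingleton P M (x l))
    fun a ha => Module.mem_annihilator.mp (hI ha) (x l)).comp (LinearMap.proj l)
  have hψ : Function.Surjective ψ := by
    rw [← LinearMap.range_eq_top, eq_top_iff, ← hx, Submodule.span_le]
    rintro _ ⟨l, rfl⟩
    classical
    refine ⟨Pi.single l 1, ?_⟩
    simp only [ψ, LinearMap.sum_apply, LinearMap.comp_apply, LinearMap.proj_apply]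
    rw [Finset.sum_eq_single l (fun b _ hb => by simp [Pi.single_eq_of_ne hb]) (by simp),
      Pi.single_eq_same]
    show (LinearMap.toSpanSingleton P M (x l)) 1 = x l
    simp
  have : IsArtinian P M := isArtinian_of_surjective _ ψ hψ
  exact isFiniteLength_iff_isNoetherian_isArtinian.mpr ⟨inferInstance, inferInstance⟩

/-- **Brochard's freeness criterion.** `M/(f)M` is free over `P/I` with `I = (f) + J` for any
`J ≤ Ann M` with `(f) + J` primary, and `I` is generated by a regular sequence. -/
theorem exists_regular_free (rs : List P) (hrs : IsWeaklyRegular P rs)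
    (hrsm : Ideal.ofList rs = maximalIdeal P) (hlen : rs.length = g) [Module.Finite P M]
    [Nontrivial M] (f : Fin g → P) (hfm : ∀ i, f i ∈ maximalIdeal P)
    (hind : LechIndependent M f) {J₀ : Ideal P} (hJ₀ : J₀ ≤ Module.annihilator P M)
    (hprim : ∀ q : Ideal P, q.IsPrime → Ideal.span (Set.range f) ⊔ J₀ ≤ q →
      q = maximalIdeal P) :
    ∃ f' : Fin g → P, IsWeaklyRegular P (List.ofFn f') ∧
      Ideal.span (Set.range f') = Ideal.span (Set.range f) ⊔ J₀ ∧
      Module.annihilator P (M ⧸ (Ideal.span (Set.range f) • ⊤ : Submodule P M)) =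
        Ideal.span (Set.range f) ⊔ J₀ ∧
      ∃ d : ℕ, Nonempty ((M ⧸ (Ideal.span (Set.range f) • ⊤ : Submodule P M)) ≃ₗ[P]
        (Fin d → P ⧸ (Ideal.span (Set.range f) ⊔ J₀))) := by
  classical
  set A := J₀
  set W := (Ideal.span (Set.range f) • ⊤ : Submodule P M) with hW_def
  have hAm : A ≤ maximalIdeal P := hJ₀.trans (IsLocalRing.le_maximalIdeal (by
    rw [ne_eq, Ideal.eq_top_iff_one, Module.mem_annihilator, not_forall]
    obtain ⟨v, hv⟩ := exists_ne (0 : M)
    exact ⟨v, by simpa using hv⟩))
  obtain ⟨f', hf', hreg⟩ := exists_regular_adjust A g P f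
    (hlen ▸ extVanishBelow_of_isWeaklyRegular rs hrs fun r hr => hrsm ▸ Ideal.subset_span hr)
    (fun q hq _ hAq hfq => hprim q hq (sup_le (Ideal.span_le.mpr (by
      rintro _ ⟨i, rfl⟩; exact hfq i)) hAq))
  have hind' := hind.adjust fun i => sup_le_sup_right hJ₀ _ (hf' i)
  have hsup := span_sup_eq_of_adjust hf'
  have hfm' : ∀ i, f' i ∈ maximalIdeal P := fun i => by
    have : f' i ∈ Ideal.span (Set.range f) ⊔ A :=
      hsup ▸ Ideal.mem_sup_left (Ideal.subset_span ⟨i, rfl⟩)
    exact (sup_le (Ideal.span_le.mpr (by rintro _ ⟨j, rfl⟩; exact hfm j)) hAm) this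
  have hAW : A • (⊤ : Submodule P M) = ⊥ := by
    rw [eq_bot_iff, Submodule.smul_le]
    exact fun r hr x _ => (Submodule.mem_bot P).mpr (Module.mem_annihilator.mp (hJ₀ hr) x)
  have hW : (Ideal.span (Set.range f') • ⊤ : Submodule P M) = W := by
    have h1 := congrArg (· • (⊤ : Submodule P M)) hsup
    simpa [Submodule.sup_smul, hAW] using h1
  have hI_ann : Ideal.span (Set.range f) ⊔ A ≤ Module.annihilator P (M ⧸ W) := by
    intro r hr
    refine Module.mem_annihilator.mpr fun y => ?_
    obtain ⟨v, rfl⟩ := Submodule.Quotient.mk_surjective _ y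
    rw [← Submodule.Quotient.mk_smul, Submodule.Quotient.mk_eq_zero]
    have := Submodule.smul_mem_smul hr (Submodule.mem_top (R := P) (x := v))
    rwa [Submodule.sup_smul, hAW, sup_bot_eq] at this
  have hnz : Nontrivial (M ⧸ W) := Submodule.Quotient.nontrivial_iff.mpr
    (Submodule.top_ne_ideal_smul_of_le_jacobson_annihilator
      ((Ideal.span_le.mpr (by rintro _ ⟨j, rfl⟩; exact hfm j)).trans
        (IsLocalRing.maximalIdeal_le_jacobson _))).symm
  let J : ℕ → Ideal P := prefixIdeal f'
  have hJspan : ∀ i, J i ≤ Ideal.span (Set.range f') := fun i =>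
    Ideal.span_mono (Set.image_subset_range _ _)
  have hJtor : ∀ i, Module.IsTorsionBySet P (M ⧸ W) (J i) := fun i y r => by
    exact Module.mem_annihilator.mp (hI_ann (hsup ▸ Ideal.mem_sup_left (hJspan i r.2))) y
  have hchain : ∀ i, i ≤ g →
      letI := (hJtor i).module
      HasProjectiveDimensionLE (ModuleCat.of (P ⧸ J i) (M ⧸ W)) (g - i) := by
    intro i
    induction i with
    | zero =>
      intro _
      let _ := (hJtor 0).module
      have hk : HasProjectiveDimensionLE (ModuleCat.of P (P ⧸ maximalIdeal P)) g := by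
        refine (projectiveDimension_le_iff _ _).mp (le_of_eq ?_)
        have h := ModuleCat.projectiveDimension_quotient_eq_add_length_of_isWeaklyRegular
          (ModuleCat.of P P) rs hrs (fun r hr => by rw [← hrsm]; exact Ideal.subset_span hr)
        have : Projective (ModuleCat.of P P) := (IsProjective.iff_projective P).mp inferInstance
        rw [ModuleCat.projectiveDimension_eq_zero_of_projective (ModuleCat.of P P), zero_add,
          hlen] at h
        rw [← h]
        refine ModuleCat.projectiveDimension_eq_of_linearEquiv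
          (M := ModuleCat.of P (P ⧸ maximalIdeal P))
          (N := ModuleCat.of P (P ⧸ (Ideal.ofList rs • ⊤ : Submodule P P))) ?_
        exact Submodule.quotEquivOfEq _ _ (by rw [smul_eq_mul, Ideal.mul_top, hrsm])
      have hfl : IsFiniteLength P (M ⧸ W) := isFiniteLength_of_primary _ hI_ann hprim
        (sup_le (Ideal.span_le.mpr (by rintro _ ⟨j, rfl⟩; exact hfm j)) hAm)
      have h0 := Basic.projDimLE_of_finiteLength hfl g hk
      let e : P ≃+* P ⧸ J 0 :=
        RingEquiv.ofBijective (Ideal.Quotient.mk (J 0)) ⟨by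
          rw [RingHom.injective_iff_ker_eq_bot, Ideal.mk_ker]
          simp [J, prefixIdeal], Ideal.Quotient.mk_surjective⟩
      have := RingHomInvPair.of_ringEquiv e
      have := RingHomInvPair.of_ringEquiv e.symm
      let e' : (ModuleCat.of P (M ⧸ W)) ≃ₛₗ[RingHomClass.toRingHom e]
          (ModuleCat.of (P ⧸ J 0) (M ⧸ W)) :=
        { toFun := id, map_add' := fun _ _ => rfl, map_smul' := fun _ _ => rfl
          invFun := id, left_inv := fun _ => rfl, right_inv := fun _ => rfl }
      rw [Nat.sub_zero]
      exact ModuleCat.hasProjectiveDimensionLE_of_semiLinearEquiv e e' g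
    | succ i ih =>
      intro hi
      have h := ih (by omega)
      let B := P ⧸ J i
      let Bb := P ⧸ J (i + 1)
      have hJJ : J i ≤ J (i + 1) :=
        Ideal.span_mono (Set.image_mono fun j (hj : (j : ℕ) < i) => Nat.lt_succ_of_lt hj)
      let _ : Algebra B Bb := (Ideal.Quotient.factor hJJ).toAlgebra
      have : IsNoetherianRing B :=
        isNoetherianRing_of_surjective _ _ _ (Ideal.Quotient.mk_surjective (I := J i))
      have hJne : J i ≠ ⊤ := fun h => (maximalIdeal.isMaximal P).ne_top
        (top_le_iff.mp (h ▸ (hJspan i).trans (Ideal.span_le.mpr (by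
          rintro _ ⟨j, rfl⟩; exact hfm' j))))
      have : Nontrivial B := Ideal.Quotient.nontrivial_iff.mpr hJne
      have : IsLocalRing B := .of_surjective' _ Ideal.Quotient.mk_surjective
      set ι : Fin g := ⟨i, by omega⟩
      have hreg_i : IsSMulRegular B (Ideal.Quotient.mk (J i) (f' ι)) := by
        intro a b hab
        obtain ⟨a, rfl⟩ := Ideal.Quotient.mk_surjective a
        obtain ⟨b, rfl⟩ := Ideal.Quotient.mk_surjective b
        have h1 := hreg.regular_mod_prev i (by rw [List.length_ofFn]; omega)
        rw [List.getElem_ofFn, isSMulRegular_quotient_iff_mem_of_smul_mem, smul_eq_mul,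
          Ideal.mul_top, ofList_take_ofFn] at h1
        simp only [smul_eq_mul, ← map_mul] at hab
        rw [Ideal.Quotient.eq, ← mul_sub] at hab
        exact Ideal.Quotient.eq.mpr (h1 _ hab)
      have hmem_i : Ideal.Quotient.mk (J i) (f' ι) ∈ maximalIdeal B := by
        rw [mem_maximalIdeal, mem_nonunits_iff]
        intro hu
        obtain ⟨v, hv⟩ := isUnit_iff_exists_inv.mp hu
        obtain ⟨v, rfl⟩ := Ideal.Quotient.mk_surjective v
        rw [← map_mul, ← map_one (Ideal.Quotient.mk (J i)), Ideal.Quotient.eq] at hv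
        have hJm : J i ≤ maximalIdeal P := (hJspan i).trans (Ideal.span_le.mpr (by
          rintro _ ⟨j, rfl⟩; exact hfm' j))
        have h1 := sub_mem (Ideal.mul_mem_right v _ (hfm' ι)) (hJm hv)
        rw [sub_sub_cancel] at h1
        exact (maximalIdeal.isMaximal P).ne_top ((Ideal.eq_top_iff_one _).mpr h1)
      have hker : RingHom.ker (algebraMap B Bb) = Ideal.span {Ideal.Quotient.mk (J i) (f' ι)} := by
        show RingHom.ker (Ideal.Quotient.factor hJJ) = _
        rw [Ideal.Quotient.factor_ker, show J (i + 1) = J i ⊔ Ideal.span {f' ι} from ?_,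
          Ideal.map_sup, Ideal.map_quotient_self, bot_sup_eq, Ideal.map_span, Set.image_singleton]
        show prefixIdeal f' (i + 1) = prefixIdeal f' i ⊔ _
        rw [prefixIdeal, prefixIdeal, ← Ideal.span_union, Set.union_singleton]
        rw [← Set.image_insert_eq]
        congr 2
        ext j
        simp only [Set.mem_ofPred_eq, Set.mem_insert_iff, ι, Fin.ext_iff]
        omega
      let _ := (hJtor i).module
      let _ := (hJtor (i + 1)).module
      have : IsScalarTower B Bb (M ⧸ W) := ⟨fun b c y => by
        obtain ⟨b, rfl⟩ := Ideal.Quotient.mk_surjective b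
        obtain ⟨c, rfl⟩ := Ideal.Quotient.mk_surjective c
        show (b * c) • y = b • c • y
        rw [mul_smul]⟩
      have : IsScalarTower P B (M ⧸ W) := ⟨fun b c y => by
        obtain ⟨c, rfl⟩ := Ideal.Quotient.mk_surjective c
        show (b * c) • y = b • c • y
        rw [mul_smul]⟩
      have : Module.Finite B (M ⧸ W) := Module.Finite.of_restrictScalars_finite P B _
      let others : Ideal P := Ideal.span (f' '' {j | j ≠ ι}) ⊔ Ideal.span {f' ι * f' ι}
      let U : Submodule P M := others • ⊤
      have hothers : others ≤ Ideal.span (Set.range f') := sup_le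
        (Ideal.span_mono (Set.image_subset_range _ _))
        ((Ideal.span_singleton_le_iff_mem _).mpr
          (Ideal.mul_mem_left _ _ (Ideal.subset_span ⟨ι, rfl⟩)))
      have hUW : U ≤ W := hW ▸ Submodule.smul_mono_left hothers
      have hJU : Module.IsTorsionBySet P (M ⧸ U) (J i) := fun y r => by
        obtain ⟨v, rfl⟩ := Submodule.Quotient.mk_surjective _ y
        rw [← Submodule.Quotient.mk_smul, Submodule.Quotient.mk_eq_zero]
        refine Submodule.smul_mem_smul (Ideal.mem_sup_left (Ideal.span_mono ?_ r.2)) trivial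
        exact Set.image_mono fun j (hj : (j : ℕ) < i) => fun h => by simp [h, ι] at hj
      let _ := hJU.module
      have : IsScalarTower P B (M ⧸ U) := ⟨fun b c y => by
        obtain ⟨c, rfl⟩ := Ideal.Quotient.mk_surjective c
        show (b * c) • y = b • c • y
        rw [mul_smul]⟩
      have : Module.Finite B (M ⧸ U) := Module.Finite.of_restrictScalars_finite P B _
      let q : (M ⧸ U) →ₗ[B] (M ⧸ W) :=
        (Submodule.factor hUW).extendScalarsOfSurjective Ideal.Quotient.mk_surjective
      have hq : ∀ v : M, q (Submodule.Quotient.mk v) = Submodule.Quotient.mk v := fun _ => rfl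
      have hsplit : ∀ v ∈ W, ∃ w : M, v - f' ι • w ∈ U := by
        intro v hv
        rw [← hW] at hv
        refine Submodule.smul_induction_on (p := fun v => ∃ w : M, v - f' ι • w ∈ U) hv ?_ ?_
        · intro a ha n _
          refine Submodule.span_induction (p := fun a _ => ∀ n : M, ∃ w : M, a • n - f' ι • w ∈ U)
            ?_ ?_ ?_ ?_ ha n
          · rintro _ ⟨j, rfl⟩ n
            by_cases hj : j = ι
            · exact ⟨n, by simp [hj]⟩
            · exact ⟨0, by
                rw [smul_zero, sub_zero]
                exact Submodule.smul_mem_smul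
                  (Ideal.mem_sup_left (Ideal.subset_span ⟨j, hj, rfl⟩)) trivial⟩
          · exact fun n => ⟨0, by simp⟩
          · intro a b _ _ ha hb n
            obtain ⟨w, hw⟩ := ha n
            obtain ⟨w', hw'⟩ := hb n
            refine ⟨w + w', ?_⟩
            have := add_mem hw hw'
            rwa [add_smul, smul_add, add_sub_add_comm]
          · intro a b _ hb n
            obtain ⟨w, hw⟩ := hb (a • n)
            exact ⟨w, by rwa [smul_eq_mul, mul_comm, mul_smul]⟩
        · rintro a b ⟨w, hw⟩ ⟨w', hw'⟩
          refine ⟨w + w', ?_⟩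
          have := add_mem hw hw'
          rwa [smul_add, add_sub_add_comm]
      refine projDimLE_of_lift hreg_i hmem_i (Ideal.Quotient.factor_surjective hJJ) hker (g - (i + 1))
        q ?_ ?_ ?_ ?_ ?_
      · intro y
        obtain ⟨v, rfl⟩ := Submodule.Quotient.mk_surjective _ y
        exact ⟨Submodule.Quotient.mk v, hq v⟩
      · intro y hy
        obtain ⟨v, rfl⟩ := Submodule.Quotient.mk_surjective _ y
        rw [hq, Submodule.Quotient.mk_eq_zero] at hy
        obtain ⟨w, hw⟩ := hsplit v hy
        exact ⟨Submodule.Quotient.mk w, (Submodule.Quotient.eq _).mpr hw⟩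
      · intro y
        obtain ⟨v, rfl⟩ := Submodule.Quotient.mk_surjective _ y
        show f' ι • f' ι • (Submodule.Quotient.mk v : M ⧸ U) = 0
        rw [smul_smul, ← Submodule.Quotient.mk_smul, Submodule.Quotient.mk_eq_zero]
        exact Submodule.smul_mem_smul
          (Ideal.mem_sup_right (Ideal.mem_span_singleton_self _)) trivial
      · intro y hy
        obtain ⟨v, rfl⟩ := Submodule.Quotient.mk_surjective _ y
        change f' ι • (Submodule.Quotient.mk v : M ⧸ U) = 0 at hy
        rw [← Submodule.Quotient.mk_smul, Submodule.Quotient.mk_eq_zero] at hy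
        -- write `f'ᵢ v` as a combination and use independence
        obtain ⟨z, t, hzt⟩ : ∃ (z : Fin g → M) (t : M), z ι = 0 ∧
            f' ι • v = ∑ j, f' j • z j + f' ι • f' ι • t := by
          refine Submodule.smul_induction_on (p := fun u => ∃ (z : Fin g → M) (t : M), z ι = 0 ∧
            u = ∑ j, f' j • z j + f' ι • f' ι • t) hy ?_ ?_
          · intro a ha n _
            refine Submodule.span_induction (p := fun a _ => ∀ n : M, ∃ (z : Fin g → M) (t : M),
              z ι = 0 ∧ a • n = ∑ j, f' j • z j + f' ι • f' ι • t) ?_ ?_ ?_ ?_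
              (show a ∈ Ideal.span (f' '' {j | j ≠ ι} ∪ {f' ι * f' ι}) by
                rw [Ideal.span_union]; exact ha) n
            · rintro _ (⟨j, hj, rfl⟩ | rfl) n
              · exact ⟨Pi.single j n, 0, Pi.single_eq_of_ne (Ne.symm hj) _, by
                  simp [Pi.single_apply]⟩
              · exact ⟨0, n, rfl, by simp [mul_smul]⟩
            · exact fun n => ⟨0, 0, rfl, by simp⟩
            · intro a b _ _ ha hb n
              obtain ⟨z, t, h0, h⟩ := ha n
              obtain ⟨z', t', h0', h'⟩ := hb n
              refine ⟨z + z', t + t', by simp [h0, h0'], ?_⟩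
              rw [add_smul, h, h']
              simp [Finset.sum_add_distrib, smul_add]
              abel
            · intro a b _ hb n
              rw [smul_eq_mul, mul_comm, mul_smul]
              exact hb (a • n)
          · rintro a b ⟨z, t, h0, h⟩ ⟨z', t', h0', h'⟩
            refine ⟨z + z', t + t', by simp [h0, h0'], ?_⟩
            rw [h, h']
            simp [Finset.sum_add_distrib, smul_add]
            abel
        obtain ⟨hz0, hzv⟩ := hzt
        have hrel : ∑ j, f' j • (if j = ι then v - f' ι • t else - z j) = 0 := by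
          have : ∀ j, f' j • (if j = ι then v - f' ι • t else - z j) =
              (if j = ι then f' ι • v - f' ι • f' ι • t else 0) - f' j • z j := fun j => by
            split_ifs with hj
            · subst hj
              simp [hz0, smul_sub]
            · simp
          rw [Finset.sum_congr rfl fun j _ => this j, Finset.sum_sub_distrib, Finset.sum_ite_eq',
            if_pos (Finset.mem_univ _), hzv]
          simp
        have hv := hind' _ hrel ι
        rw [if_pos rfl, hW] at hv
        obtain ⟨w, hw⟩ := hsplit _ hv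
        refine ⟨Submodule.Quotient.mk (w + t), ?_⟩
        show _ = f' ι • (Submodule.Quotient.mk (w + t) : M ⧸ U)
        rw [← Submodule.Quotient.mk_smul, Submodule.Quotient.eq]
        convert hw using 1
        rw [smul_add]
        abel
      · rwa [show g - (i + 1) + 1 = g - i by omega]
  have hlast := hchain g le_rfl
  let _ := (hJtor g).module
  rw [Nat.sub_self] at hlast
  have hJg : J g = Ideal.span (Set.range f') := prefixIdeal_self f'
  have hJne : J g ≠ ⊤ := fun h => (maximalIdeal.isMaximal P).ne_top
    (top_le_iff.mp (h ▸ (hJspan g).trans (Ideal.span_le.mpr (by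
      rintro _ ⟨j, rfl⟩; exact hfm' j))))
  have : Nontrivial (P ⧸ J g) := Ideal.Quotient.nontrivial_iff.mpr hJne
  have : IsLocalRing (P ⧸ J g) := .of_surjective' _ Ideal.Quotient.mk_surjective
  have : IsScalarTower P (P ⧸ J g) (M ⧸ W) := ⟨fun b c y => by
    obtain ⟨c, rfl⟩ := Ideal.Quotient.mk_surjective c
    show (b * c) • y = b • c • y
    rw [mul_smul]⟩
  have : Module.Finite (P ⧸ J g) (M ⧸ W) := Module.Finite.of_restrictScalars_finite P _ _
  have : Module.Projective (P ⧸ J g) (M ⧸ W) := (IsProjective.iff_projective _).mpr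
    (projective_iff_hasProjectiveDimensionLT_one.mpr hlast)
  have : Module.Free (P ⧸ J g) (M ⧸ W) := Module.free_of_flat_of_isLocalRing
  have bas := Module.finBasis (P ⧸ J g) (M ⧸ W)
  set d := Module.finrank (P ⧸ J g) (M ⧸ W)
  have hIeq : Ideal.span (Set.range f) ⊔ A = J g := by
    refine le_antisymm (fun r hr => ?_) ((hJspan g).trans (hsup ▸ le_sup_left))
    have hd : 0 < d := Fin.pos_iff_nonempty.mpr bas.index_nonempty
    have h0 : Ideal.Quotient.mk (J g) r • bas ⟨0, hd⟩ = 0 :=
      Module.mem_annihilator.mp (hI_ann hr) (bas ⟨0, hd⟩)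
    have := congrArg (fun y => bas.repr y ⟨0, hd⟩) h0
    simp only [map_smul, Module.Basis.repr_self, Finsupp.smul_single, smul_eq_mul, mul_one,
      Finsupp.single_eq_same, map_zero, Finsupp.coe_zero, Pi.zero_apply] at this
    exact Ideal.Quotient.eq_zero_iff_mem.mp this
  refine ⟨f', hreg, hJg ▸ hIeq.symm, le_antisymm (fun r hr => ?_) hI_ann, d, ⟨?_⟩⟩
  · rw [hIeq]
    have hd : 0 < d := Fin.pos_iff_nonempty.mpr bas.index_nonempty
    have h0 : Ideal.Quotient.mk (J g) r • bas ⟨0, hd⟩ = 0 :=
      Module.mem_annihilator.mp hr (bas ⟨0, hd⟩)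
    have := congrArg (fun y => bas.repr y ⟨0, hd⟩) h0
    simp only [map_smul, Module.Basis.repr_self, Finsupp.smul_single, smul_eq_mul, mul_one,
      Finsupp.single_eq_same, map_zero, Finsupp.coe_zero, Pi.zero_apply] at this
    exact Ideal.Quotient.eq_zero_iff_mem.mp this
  · exact (bas.equivFun.restrictScalars P).trans (LinearEquiv.piCongrRight fun _ =>
      Submodule.quotEquivOfEq (J g) _ hIeq.symm)

end FermatLib.MLT
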