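import Fermat.Agent.MLT.Two.FreeCriterion
import Mathlib.Algebra.MonoidAlgebra.Basic
import Mathlib.Algebra.BigOperators.Fin
import Mathlib.GroupTheory.OrderOfElement
import Mathlib.RingTheory.Filtration
import Mathlib.LinearAlgebra.Quotient.Pi

/-!
# Independence of sequences in products, and the augmentation of a group ring
-/

set_option autoImplicit false

namespace FermatLib.MLT

open IsLocalRing RingTheory.Sequence

variable {P : Type} [CommRing P] {g : ℕ}

/-- It suffices to check independence one index at a time. -/
lemma lechIndependent_of_forall {M : Type} [AddCommGroup M] [Module P M] {f : Fin g → P}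
    (h : ∀ (i : Fin g) (z : M), f i • z ∈ Ideal.span (f '' {j | j ≠ i}) • (⊤ : Submodule P M) →
      z ∈ Ideal.span (Set.range f) • (⊤ : Submodule P M)) : LechIndependent M f := by
  classical
  intro z hz i
  refine h i (z i) ?_
  rw [← Finset.add_sum_erase _ _ (Finset.mem_univ i)] at hz
  rw [eq_neg_of_add_eq_zero_left hz]
  exact neg_mem (Submodule.sum_mem _ fun j hj =>
    Submodule.smul_mem_smul (Ideal.subset_span ⟨j, (Finset.mem_erase.mp hj).1, rfl⟩) trivial)

lemma LechIndependent.pi {A : Type} [AddCommGroup A] [Module P A] {f : Fin g → P}
    (h : LechIndependent A f) (ι : Type) [Fintype ι] : LechIndependent (ι → A) f := by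
  classical
  intro z hz i
  have hk : ∀ k, z i k ∈ Ideal.span (Set.range f) • (⊤ : Submodule P A) := fun k =>
    h (fun i => z i k) (by
      have := congrFun hz k
      simpa [Finset.sum_apply] using this) i
  have : z i = ∑ k, LinearMap.single P (fun _ : ι => A) k (z i k) := by
    simp [Finset.univ_sum_single]
  rw [this]
  refine Submodule.sum_mem _ fun k _ => ?_
  have h1 := Submodule.mem_map_of_mem (f := LinearMap.single P (fun _ : ι => A) k) (hk k)
  rw [Submodule.map_smul''] at h1
  exact Submodule.smul_mono le_rfl le_top h1

section GroupRing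

variable {O : Type} [CommRing O] {G : Type} [CommGroup G]

/-- The augmentation of a group ring. -/
noncomputable def groupAug : MonoidAlgebra O G →ₐ[O] O :=
  MonoidAlgebra.lift O O G 1

lemma groupAug_single (x : G) (a : O) : groupAug (MonoidAlgebra.single x a) = a := by
  simp [groupAug, MonoidAlgebra.lift_single]

end GroupRing

end FermatLib.MLT
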