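import Fermat.Agent.MLT.Two.FreeLiftPoly
import Mathlib.Algebra.Module.Submodule.Pointwise
import Mathlib.Algebra.Algebra.Tower
import Mathlib.Algebra.Ring.GeomSum

/-!
# A module free over `O[(ℤ/2ⁿ)^(ι × 2)]` as a quotient of `O[u_i, v_i]^d`
-/

set_option autoImplicit false

noncomputable section

namespace FermatLib.MLT.Two

open MvPolynomial

variable {O : Type} [CommRing O] {ι : Type} [Fintype ι] [DecidableEq ι]

/-- The monomials in `1 + u`, `1 + v` with small exponents. -/
def boxMon {N : ℕ} (e : ι → Fin 2 → Fin N) : SymRing O ι :=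
  ∏ v : ι × Fin 2, (1 + X v) ^ (e v.1 v.2 : ℕ)

omit [Fintype ι] [DecidableEq ι] in
theorem pow_sub_pow_mod_mem (n : ℕ) (v : ι × Fin 2) (a : ℕ) :
    (1 + X v : SymRing O ι) ^ a - (1 + X v) ^ (a % 2 ^ n) ∈ symRel n := by
  rw [show (1 + X v : SymRing O ι) ^ a =
    (1 + X v) ^ (a % 2 ^ n) * ((1 + X v) ^ 2 ^ n) ^ (a / 2 ^ n) by
      rw [← pow_mul, ← pow_add, Nat.mod_add_div]]
  have h : ((1 + X v : SymRing O ι) ^ 2 ^ n) ^ (a / 2 ^ n) - 1 ∈ symRel n := by
    obtain ⟨w, hw⟩ := sub_dvd_pow_sub_pow ((1 + X v : SymRing O ι) ^ 2 ^ n) 1 (a / 2 ^ n)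
    rw [one_pow] at hw
    rw [hw]
    exact Ideal.mul_mem_right _ _ (Ideal.subset_span ⟨v, rfl⟩)
  have := Ideal.mul_mem_left _ ((1 + X v : SymRing O ι) ^ (a % 2 ^ n)) h
  rwa [mul_sub, mul_one] at this

/-- Being a combination of box monomials modulo the relations. -/
def IsBoxRed (n : ℕ) (p : SymRing O ι) : Prop :=
  ∃ c : (ι → Fin 2 → Fin (2 ^ n)) → O, p - ∑ e, C (c e) * boxMon e ∈ symRel n

theorem IsBoxRed.add {n : ℕ} {p q : SymRing O ι} (hp : IsBoxRed n p) (hq : IsBoxRed n q) :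
    IsBoxRed n (p + q) := by
  obtain ⟨c, hc⟩ := hp
  obtain ⟨c', hc'⟩ := hq
  refine ⟨c + c', ?_⟩
  convert add_mem hc hc' using 1
  simp only [Pi.add_apply, map_add, add_mul, Finset.sum_add_distrib]
  ring

theorem IsBoxRed.C_mul {n : ℕ} {p : SymRing O ι} (a : O) (hp : IsBoxRed n p) :
    IsBoxRed n (C a * p) := by
  obtain ⟨c, hc⟩ := hp
  refine ⟨fun e => a * c e, ?_⟩
  convert Ideal.mul_mem_left _ (C a) hc using 1
  simp only [mul_sub, Finset.mul_sum, map_mul, mul_assoc]

theorem IsBoxRed.of_sub_mem {n : ℕ} {p q : SymRing O ι} (h : p - q ∈ symRel n)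
    (hq : IsBoxRed n q) : IsBoxRed n p := by
  obtain ⟨c, hc⟩ := hq
  refine ⟨c, ?_⟩
  convert add_mem h hc using 1
  ring

theorem isBoxRed_boxMon {n : ℕ} (e : ι → Fin 2 → Fin (2 ^ n)) : IsBoxRed n (boxMon (O := O) e) := by
  classical
  refine ⟨fun e' => if e' = e then 1 else 0, ?_⟩
  rw [Finset.sum_eq_single e]
  · simp
  · intro b _ hb
    simp [hb]
  · simp

theorem isBoxRed_boxMon_mul {n : ℕ} (e : ι → Fin 2 → Fin (2 ^ n)) (v : ι × Fin 2) :
    IsBoxRed n (boxMon (O := O) e * (1 + X v)) := by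
  classical
  let e' : ι → Fin 2 → Fin (2 ^ n) := fun i j =>
    if (i, j) = v then ⟨((e i j : ℕ) + 1) % 2 ^ n, Nat.mod_lt _ (by positivity)⟩ else e i j
  refine IsBoxRed.of_sub_mem ?_ (isBoxRed_boxMon e')
  have hrest : ∀ w ∈ Finset.univ.erase v,
      (1 + X w : SymRing O ι) ^ (e' w.1 w.2 : ℕ) = (1 + X w) ^ (e w.1 w.2 : ℕ) := fun w hw => by
    simp only [e']
    rw [if_neg (Finset.ne_of_mem_erase hw)]
  rw [boxMon, boxMon, ← Finset.mul_prod_erase _ _ (Finset.mem_univ v),
    ← Finset.mul_prod_erase _ _ (Finset.mem_univ v), Finset.prod_congr rfl hrest,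
    mul_right_comm, ← pow_succ, ← sub_mul]
  refine Ideal.mul_mem_right _ _ ?_
  have he : (e' v.1 v.2 : ℕ) = ((e v.1 v.2 : ℕ) + 1) % 2 ^ n := by simp [e']
  rw [he]
  exact pow_sub_pow_mod_mem n v _

/-- Every polynomial is a combination of box monomials modulo the relations. -/
theorem isBoxRed_all (n : ℕ) (p : SymRing O ι) : IsBoxRed n p := by
  classical
  induction p using MvPolynomial.induction_on with
  | C a =>
    have h1 : boxMon (O := O) (fun (_ : ι) (_ : Fin 2) => (⟨0, by positivity⟩ : Fin (2 ^ n))) = 1 :=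
      by simp [boxMon]
    have h2 := (isBoxRed_boxMon (O := O)
      (fun (_ : ι) (_ : Fin 2) => (⟨0, by positivity⟩ : Fin (2 ^ n)))).C_mul a
    rwa [h1, mul_one] at h2
  | add p q hp hq => exact hp.add hq
  | mul_X p v hp =>
    obtain ⟨c, hc⟩ := id hp
    have hsum : ∀ t : Finset (ι → Fin 2 → Fin (2 ^ n)),
        IsBoxRed n (∑ e ∈ t, C (c e) * (boxMon e * (1 + X v))) := by
      intro t
      induction t using Finset.induction_on with
      | empty => exact ⟨0, by simp⟩
      | insert a t hat ih =>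
        rw [Finset.sum_insert hat]
        exact ((isBoxRed_boxMon_mul a v).C_mul _).add ih
    have h1 : IsBoxRed n (p * (1 + X v)) := by
      refine IsBoxRed.of_sub_mem ?_ (hsum Finset.univ)
      convert Ideal.mul_mem_right (1 + X v) _ hc using 1
      simp only [sub_mul, Finset.sum_mul, mul_assoc]
    have h2 := h1.add (hp.C_mul (-1))
    convert h2 using 1
    rw [map_neg, map_one]
    ring

variable {H : Type} [CommRing H] [Algebra O H]
variable {M : Type} [AddCommGroup M] [Module H M] [Module O M] [IsScalarTower O H M]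

/-- `u_i ↦ ξ_{i,0} - 1`, `v_i ↦ ξ_{i,1} - 1`. -/
def relEval (ξ : ι → Fin 2 → H) : SymRing O ι →ₐ[O] H :=
  aeval fun p => ξ p.1 p.2 - 1

omit [Fintype ι] [DecidableEq ι] in
theorem symRel_le_ker {n : ℕ} (ξ : ι → Fin 2 → H) (hξ : ∀ i j, ξ i j ^ 2 ^ n = 1) :
    symRel n ≤ RingHom.ker (relEval (O := O) ξ) := by
  refine Ideal.span_le.mpr ?_
  rintro _ ⟨⟨i, j⟩, rfl⟩
  simp [relEval, hξ]

variable {n d : ℕ} (ξ : ι → Fin 2 → H) (gen : Fin d → M)

/-- The presentation map. -/
def relMap (p : Fin d → SymRing O ι) : M := ∑ l, relEval ξ (p l) • gen l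

omit [Fintype ι] [DecidableEq ι] [Module O M] [IsScalarTower O H M] in
theorem relMap_sub (p q : Fin d → SymRing O ι) :
    relMap ξ gen (p - q) = relMap ξ gen p - relMap ξ gen q := by
  simp only [relMap, Pi.sub_apply, map_sub, sub_smul, Finset.sum_sub_distrib]

omit [Fintype ι] [DecidableEq ι] [Module O M] [IsScalarTower O H M] in
theorem relMap_smul (a : SymRing O ι) (p : Fin d → SymRing O ι) :
    relMap ξ gen (fun l => a * p l) = relEval ξ a • relMap ξ gen p := by
  simp only [relMap, Finset.smul_sum, map_mul, mul_smul]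

theorem relMap_box (c : Fin d → (ι → Fin 2 → Fin (2 ^ n)) → O) :
    relMap ξ gen (fun l => ∑ e, C (c l e) * boxMon e) =
      ∑ l, ∑ e : ι → Fin 2 → Fin (2 ^ n),
        c l e • ((∏ i, ∏ j, ξ i j ^ (e i j : ℕ)) • gen l) := by
  refine Finset.sum_congr rfl fun l _ => ?_
  rw [map_sum, Finset.sum_smul]
  refine Finset.sum_congr rfl fun e _ => ?_
  rw [map_mul, ← algebraMap_eq, AlgHom.commutes, mul_smul, algebraMap_smul, boxMon, map_prod,
    Fintype.prod_prod_type]
  simp [relEval]

variable (hξ : ∀ i j, ξ i j ^ 2 ^ n = 1)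
  (hfree : Function.Bijective fun c : Fin d → (ι → Fin 2 → Fin (2 ^ n)) → O =>
      ∑ l, ∑ e : ι → Fin 2 → Fin (2 ^ n),
        c l e • ((∏ i, ∏ j, ξ i j ^ (e i j : ℕ)) • gen l))

include hfree in
theorem exists_relMap_eq (x : M) : ∃ p : Fin d → SymRing O ι, relMap ξ gen p = x := by
  obtain ⟨c, rfl⟩ := hfree.2 x
  exact ⟨_, relMap_box ξ gen c⟩

include hξ hfree in
theorem relMap_eq_zero_iff (p : Fin d → SymRing O ι) :
    relMap ξ gen p = 0 ↔ ∀ l, p l ∈ symRel n := by
  constructor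
  · intro hp
    choose c hc using fun l => isBoxRed_all n (p l)
    have h0 : relMap ξ gen (fun l => ∑ e, C (c l e) * boxMon e) = 0 := by
      rw [← hp]
      refine Finset.sum_congr rfl fun l _ => ?_
      congr 1
      have := symRel_le_ker ξ hξ (hc l)
      rw [RingHom.mem_ker, map_sub, sub_eq_zero] at this
      exact this.symm
    rw [relMap_box] at h0
    have hc0 : c = 0 := hfree.1 (h0.trans (by simp))
    intro l
    simpa [hc0] using hc l
  · intro h
    refine Finset.sum_eq_zero fun l _ => ?_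
    rw [RingHom.mem_ker.mp (symRel_le_ker ξ hξ (h l)), zero_smul]

include hξ hfree in
/-- Membership in `𝔞 M`, read on coordinates. -/
theorem relMap_mem_smul_iff (I : Ideal (SymRing O ι)) (p : Fin d → SymRing O ι) :
    relMap ξ gen p ∈ I.map (relEval ξ) • (⊤ : Submodule H M) ↔
      ∀ l, p l ∈ I ⊔ symRel n := by
  constructor
  · suffices h : ∀ x ∈ I.map (relEval ξ) • (⊤ : Submodule H M),
        ∃ q : Fin d → SymRing O ι, (∀ l, q l ∈ I) ∧ relMap ξ gen q = x by
      intro hp l
      obtain ⟨q, hq, hqp⟩ := h _ hp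
      have h0 := (relMap_eq_zero_iff ξ gen hξ hfree (p - q)).mp (by
        rw [relMap_sub, hqp, sub_self]) l
      have := add_mem (Ideal.mem_sup_left (T := symRel n) (hq l))
        (Ideal.mem_sup_right (S := I) h0)
      simpa using this
    intro x hx
    induction hx using Submodule.smul_induction_on' with
    | smul a ha y hy =>
      revert y
      induction ha using Submodule.span_induction with
      | mem b hb =>
        obtain ⟨b, hb, rfl⟩ := hb
        intro y _
        obtain ⟨q, rfl⟩ := exists_relMap_eq ξ gen hfree y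
        exact ⟨fun l => b * q l, fun l => I.mul_mem_right _ hb, relMap_smul ξ gen b q⟩
      | zero =>
        intro y _
        exact ⟨0, fun l => I.zero_mem, by simp [relMap]⟩
      | add a b _ _ iha ihb =>
        intro y hy
        obtain ⟨q, hq, hqe⟩ := iha y hy
        obtain ⟨q', hq', hqe'⟩ := ihb y hy
        refine ⟨q + q', fun l => I.add_mem (hq l) (hq' l), ?_⟩
        rw [add_smul, ← hqe, ← hqe']
        simp only [relMap, Pi.add_apply, map_add, add_smul, Finset.sum_add_distrib]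
      | smul c a _ iha =>
        intro y hy
        obtain ⟨q, hq, hqe⟩ := iha (c • y) trivial
        exact ⟨q, hq, by rw [hqe, smul_eq_mul, smul_comm, mul_smul]⟩
    | add x hx y hy ihx ihy =>
      obtain ⟨q, hq, rfl⟩ := ihx
      obtain ⟨q', hq', rfl⟩ := ihy
      refine ⟨q + q', fun l => I.add_mem (hq l) (hq' l), ?_⟩
      simp only [relMap, Pi.add_apply, map_add, add_smul, Finset.sum_add_distrib]
  · intro h
    refine Submodule.sum_mem _ fun l _ => Submodule.smul_mem_smul ?_ trivial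
    obtain ⟨a, ha, b, hb, hab⟩ := Submodule.mem_sup.mp (h l)
    rw [← hab, map_add, RingHom.mem_ker.mp (symRel_le_ker ξ hξ hb), add_zero]
    exact Ideal.mem_map_of_mem _ ha

end FermatLib.MLT.Two

end
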