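import Fermat.Agent.MLT.Two.FreeCriterionGroup
import Fermat.Agent.MLT.Two.FreeLiftModule
import Fermat.Agent.MLT.LocQUniversal
import Fermat.Agent.MLT.PowerSeriesComplete
import Fermat.Prelude.Thm_IsLocalRing_isAdicComplete_of_module_finite
import Mathlib.RingTheory.DiscreteValuationRing.Basic

/-!
# V4-Free: the criterion relative to a chosen ideal, lifted modulo `2 ^ n`
-/

set_option autoImplicit false

noncomputable section

namespace FermatLib.MLT.Two

open IsLocalRing

section Powers

open MvPolynomial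

variable {O : Type} [CommRing O] {ι : Type} [Fintype ι] [DecidableEq ι]

omit [Fintype ι] [DecidableEq ι] in
theorem sup_pow_succ_le {A B : Ideal (SymRing O ι)} (k : ℕ) :
    (A ⊔ B) ^ (k + 1) ≤ A ^ (k + 1) ⊔ A ^ k * B ⊔ B * B := by
  induction k with
  | zero => simp [sup_assoc]
  | succ k ih =>
    rw [pow_succ]
    refine (Ideal.mul_mono ih le_rfl).trans ?_
    rw [Ideal.mul_sup, Ideal.sup_mul, Ideal.sup_mul, Ideal.sup_mul, Ideal.sup_mul]
    have h1 : A ^ k * B * A = A ^ (k + 1) * B := by rw [pow_succ, mul_right_comm]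
    have h2 : A ^ k * B * B ≤ B * B := by rw [mul_assoc]; exact Ideal.mul_le_right
    refine sup_le (sup_le (sup_le ?_ ?_) ?_) (sup_le (sup_le ?_ ?_) ?_)
    · exact (pow_succ A (k + 1)).ge.trans (le_sup_left.trans le_sup_left)
    · exact h1.le.trans (le_sup_right.trans le_sup_left)
    · exact Ideal.mul_le_left.trans le_sup_right
    · exact le_sup_right.trans le_sup_left
    · exact h2.trans le_sup_right
    · exact Ideal.mul_le_left.trans le_sup_right

omit [Fintype ι] in
theorem span_fst_pow_le (t : Finset ι) :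
    Ideal.span ((fun i => (X (i, (0 : Fin 2)) : SymRing O ι)) '' ↑t) ^ (t.card + 1) ≤
      symIdeal O ι := by
  induction t using Finset.induction_on with
  | empty => simp
  | insert a t hat ih =>
    rw [Finset.card_insert_of_notMem hat, Finset.coe_insert, Set.image_insert_eq,
      Ideal.span_insert, sup_comm]
    refine (sup_pow_succ_le _).trans (sup_le (sup_le ?_ (Ideal.mul_le_left.trans ih)) ?_)
    · exact (Ideal.pow_le_pow_right (Nat.le_succ _)).trans ih
    · rw [Ideal.span_singleton_mul_span_singleton, Ideal.span_singleton_le_iff_mem]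
      exact X_sq_mem_symIdeal _

/-- `(u, v) ^ (#ι + 1) ⊆ (u + v, uv)`. -/
theorem span_X_pow_le :
    Ideal.span (Set.range (X : ι × Fin 2 → SymRing O ι)) ^ (Fintype.card ι + 1) ≤
      symIdeal O ι := by
  set A := Ideal.span ((fun i => (X (i, (0 : Fin 2)) : SymRing O ι)) '' ↑(Finset.univ : Finset ι))
  have hle : Ideal.span (Set.range (X : ι × Fin 2 → SymRing O ι)) ≤ A ⊔ symIdeal O ι := by
    refine Ideal.span_le.mpr ?_
    rintro _ ⟨⟨i, j⟩, rfl⟩
    have hA : (X (i, (0 : Fin 2)) : SymRing O ι) ∈ A := Ideal.subset_span ⟨i, by simp, rfl⟩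
    fin_cases j
    · exact Ideal.mem_sup_left hA
    · have h := sub_mem (Ideal.mem_sup_right (S := A) (symCoord_mem (O := O) (i, (0 : Fin 2))))
        (Ideal.mem_sup_left (T := symIdeal O ι) hA)
      rwa [symCoord_zero, add_sub_cancel_left] at h
  refine (Ideal.pow_right_mono hle _).trans ((sup_pow_succ_le _).trans ?_)
  refine sup_le (sup_le ?_ Ideal.mul_le_right) Ideal.mul_le_left
  exact span_fst_pow_le Finset.univ

end Powers

variable {O : Type} [CommRing O] [IsDomain O] [IsDiscreteValuationRing O]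
  [IsAdicComplete (IsLocalRing.maximalIdeal O) O]
variable {R : Type} [CommRing R] [IsLocalRing R] [Algebra O R] [Module.Finite O R]
variable {H : Type} [CommRing H] [Algebra O H]
variable {M : Type} [AddCommGroup M] [Module H M] [Module O M] [IsScalarTower O H M]
variable {ι : Type} [Fintype ι] [DecidableEq ι]

/-- An element of `R` sending `M` into the augmentation of the group generated by the `ξ` has
`2 ^ n` dividing a fixed power of its value at a point killing the symmetric coordinates. -/
theorem dvd_point_pow_of_smul_mem (h2 : IsLocalRing.maximalIdeal O = Ideal.span {(2 : O)})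
    {n : ℕ} (hn : 2 ≤ n) (φ : R →ₐ[O] H) (point : R →ₐ[O] O)
    (hres : ∀ x : R, ∃ c : O, x - algebraMap O R c ∈ IsLocalRing.maximalIdeal R)
    (ξ : ι → Fin 2 → H) (hξ : ∀ i j, ξ i j ^ 2 ^ n = 1) {d : ℕ} (hd : 0 < d) (gen : Fin d → M)
    (hfree : Function.Bijective fun c : Fin d → (ι → Fin 2 → Fin (2 ^ n)) → O =>
      ∑ l, ∑ e : ι → Fin 2 → Fin (2 ^ n),
        c l e • ((∏ i, ∏ j, ξ i j ^ (e i j : ℕ)) • gen l))
    (e : ι → Fin 2 → R) (he₀ : ∀ i, φ (e i 0) = ξ i 0 + ξ i 1 - 2)
    (he₁ : ∀ i, φ (e i 1) = (ξ i 0 - 1) * (ξ i 1 - 1)) (hpoint : ∀ i j, point (e i j) = 0)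
    (y : ι → Fin 2 → R)
    (hy : IsLocalRing.maximalIdeal R =
      Ideal.span (Set.range fun p : ι × Fin 2 => y p.1 p.2) ⊔ Ideal.span {(2 : R)})
    {r : R} (hr : ∀ v : M, φ r • v ∈
      Ideal.span (Set.range fun p : ι × Fin 2 => ξ p.1 p.2 - 1) • (⊤ : Submodule H M)) :
    (2 : O) ^ n ∣ point r ^ (Fintype.card ι + 1) :=
  by
  classical
  have hirr : Irreducible (2 : O) := (IsDiscreteValuationRing.irreducible_iff_uniformizer _).mpr h2
  have h2ne : (2 : O) ≠ 0 := hirr.ne_zero
  -- the coefficient ring of the presentation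
  have hloc : IsLocalHom (algebraMap O R) := ⟨fun a ha => by
    have h := ha.map point
    rwa [AlgHom.commutes] at h⟩
  have : IsNoetherianRing R := IsNoetherianRing.of_finite O R
  have : IsAdicComplete (maximalIdeal R) R :=
    IsLocalRing.isAdicComplete_of_module_finite (𝒪 := O)
  have h2R : (2 : R) ∈ maximalIdeal R := by
    rw [hy]; exact Ideal.mem_sup_right (Ideal.mem_span_singleton_self _)
  let V := ι × Fin 2
  let g := Fintype.card V
  let eV : V ≃ Fin g := Fintype.equivFin V
  let yv : Fin g → R := fun j => y (eV.symm j).1 (eV.symm j).2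
  have hyv : ∀ j, yv j ∈ maximalIdeal R := fun j => by
    rw [hy]; exact Ideal.mem_sup_left (Ideal.subset_span ⟨eV.symm j, rfl⟩)
  let χ : MvPowerSeries (Fin g) O →+* R := LocQ.evalHom yv hyv
  have hχC : ∀ c, χ (MvPowerSeries.C c) = algebraMap O R c := LocQ.evalHom_C hyv
  have hχX : ∀ v : V, χ (MvPowerSeries.X (eV v)) = y v.1 v.2 := fun v => by
    rw [LocQ.evalHom_X]
    simp [yv]
  -- `q` prime containing `2` is maximal
  have hmax : ∀ q : Ideal R, q.IsPrime → (2 : R) ∈ q → q = maximalIdeal R := by
    intro q hq h2q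
    have : Algebra.IsIntegral O R := Algebra.IsIntegral.of_finite O R
    refine IsLocalRing.eq_maximalIdeal
      (Ideal.isMaximal_of_isIntegral_of_isMaximal_comap (R := O) q ?_)
    have hle : maximalIdeal O ≤ q.comap (algebraMap O R) := by
      rw [h2, Ideal.span_singleton_le_iff_mem, Ideal.mem_comap, map_ofNat]
      exact h2q
    rw [← (IsLocalRing.maximalIdeal.isMaximal O).eq_of_le (Ideal.comap_ne_top _ hq.ne_top) hle]
    infer_instance
  have hχsurj : Function.Surjective χ := by
    let N : Submodule O R :=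
      { carrier := Set.range χ
        zero_mem' := ⟨0, map_zero χ⟩
        add_mem' := by rintro _ _ ⟨a, rfl⟩ ⟨b, rfl⟩; exact ⟨a + b, map_add χ a b⟩
        smul_mem' := by
          rintro c _ ⟨a, rfl⟩
          exact ⟨MvPowerSeries.C c * a, by rw [map_mul, hχC, Algebra.smul_def]⟩ }
    let Q : R → ℕ → Prop := fun x k =>
      ∃ a b : R, a ∈ N ∧ b ∈ maximalIdeal R ^ k ∧ ∃ c, x = a + 2 * c + b
    have hQadd : ∀ {x x' : R} {k : ℕ}, Q x k → Q x' k → Q (x + x') k := by
      rintro x x' k ⟨a, b, ha, hb, c, rfl⟩ ⟨a', b', ha', hb', c', rfl⟩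
      exact ⟨a + a', b + b', N.add_mem ha ha', add_mem hb hb', c + c', by ring⟩
    have hQ : ∀ k x, Q x k := by
      intro k
      induction k with
      | zero => exact fun x => ⟨0, x, N.zero_mem, by simp, 0, by ring⟩
      | succ k ih =>
        intro x
        obtain ⟨c₀, hc₀⟩ := hres x
        have hm : ∀ z ∈ maximalIdeal R, Q z (k + 1) := by
          intro z hz
          rw [hy] at hz
          obtain ⟨z₁, hz₁, z₂, hz₂, rfl⟩ := Submodule.mem_sup.mp hz
          obtain ⟨c₂, rfl⟩ := Ideal.mem_span_singleton'.mp hz₂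
          clear hz
          refine hQadd ?_ ⟨0, 0, N.zero_mem, zero_mem _, c₂, by ring⟩
          induction hz₁ using Submodule.span_induction with
          | mem w hw =>
            obtain ⟨v, rfl⟩ := hw
            exact ⟨_, 0, ⟨_, hχX v⟩, zero_mem _, 0, by ring⟩
          | zero => exact ⟨0, 0, N.zero_mem, zero_mem _, 0, by ring⟩
          | add u w _ _ hu hw => exact hQadd hu hw
          | smul a w hw' hw =>
            obtain ⟨a', b, ha', hb, c, rfl⟩ := hw
            obtain ⟨a₁, b₁, ha₁, hb₁, c₁, rfl⟩ := ih a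
            obtain ⟨p₁, rfl⟩ := ha₁
            obtain ⟨p', rfl⟩ := ha'
            have hwm : χ p' + 2 * c + b ∈ maximalIdeal R := by
              rw [hy]; exact Ideal.mem_sup_left hw'
            refine ⟨χ (p₁ * p'), χ p₁ * b + b₁ * (χ p' + 2 * c + b), ⟨_, rfl⟩, ?_,
              χ p₁ * c + c₁ * (χ p' + 2 * c + b), ?_⟩
            · refine add_mem (Ideal.mul_mem_left _ _ hb) ?_
              rw [pow_succ]
              exact Ideal.mul_mem_mul hb₁ hwm
            · rw [smul_eq_mul, map_mul]
              ring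
        obtain ⟨a, b, ha, hb, c, hx⟩ := hm _ hc₀
        refine ⟨algebraMap O R c₀ + a, b, N.add_mem ⟨MvPowerSeries.C c₀, hχC c₀⟩ ha, hb, c, ?_⟩
        linear_combination hx
    obtain ⟨k, hk⟩ : ∃ k, maximalIdeal R ^ k ≤ Ideal.span {(2 : R)} := by
      refine Ideal.exists_pow_le_of_le_radical_of_fg ?_ (IsNoetherian.noetherian _)
      rw [Ideal.radical_eq_sInf]
      exact le_sInf fun q hq => (hmax q hq.2 (hq.1 (Ideal.mem_span_singleton_self _))).ge
    have htop : (⊤ : Submodule O R) ≤ N := by
      refine Submodule.le_of_le_smul_of_le_jacobson_bot Module.Finite.fg_top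
        (IsLocalRing.maximalIdeal_le_jacobson _) fun x _ => ?_
      obtain ⟨a, b, ha, hb, c, rfl⟩ := hQ k x
      obtain ⟨b', rfl⟩ := Ideal.mem_span_singleton'.mp (hk hb)
      rw [add_assoc]
      refine Submodule.add_mem_sup ha ?_
      have : (2 * c + b' * 2 : R) = (2 : O) • (c + b') := by
        rw [Algebra.smul_def, map_ofNat]; ring
      rw [this]
      exact Submodule.smul_mem_smul (h2 ▸ Ideal.mem_span_singleton_self _) trivial
    exact fun x => htop (Submodule.mem_top (x := x))
  -- the module over the power series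
  let ψ : MvPowerSeries (Fin g) O →+* H := φ.toRingHom.comp χ
  let _ : Algebra (MvPowerSeries (Fin g) O) H := ψ.toAlgebra
  let _ : Module (MvPowerSeries (Fin g) O) M := Module.compHom M ψ
  have : IsScalarTower (MvPowerSeries (Fin g) O) H M :=
    IsScalarTower.of_algebraMap_smul fun _ _ => rfl
  have : IsScalarTower O (MvPowerSeries (Fin g) O) M := by
    refine IsScalarTower.of_algebraMap_smul fun c x => ?_
    show φ (χ (MvPowerSeries.C c)) • x = c • x
    rw [hχC, AlgHom.commutes, algebraMap_smul]
  have : Module.Finite O M := by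
    let L : (Fin d × (ι → Fin 2 → Fin (2 ^ n)) → O) →ₗ[O] M := Fintype.linearCombination O
      fun le => (∏ i, ∏ j, ξ i j ^ (le.2 i j : ℕ)) • gen le.1
    refine Module.Finite.of_surjective L fun x => ?_
    obtain ⟨c, hc⟩ := hfree.2 x
    refine ⟨fun le => c le.1 le.2, ?_⟩
    rw [← hc]
    simp only [L, Fintype.linearCombination_apply, Fintype.sum_prod_type]
  have : Module.Finite (MvPowerSeries (Fin g) O) M := Module.Finite.of_restrictScalars_finite O _ _
  have : Nontrivial M := by
    let c : Fin d → (ι → Fin 2 → Fin (2 ^ n)) → O := fun _ _ => 1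
    refine ⟨_, _, hfree.1.ne (a₁ := c) (a₂ := 0) fun h => one_ne_zero
      (congrFun (congrFun h ⟨0, hd⟩) fun _ _ => ⟨0, by positivity⟩)⟩
  -- the family `2, e`
  have he_mem : ∀ v : V, e v.1 v.2 ∈ maximalIdeal R := fun v hu => by
    have := hu.map point
    rw [hpoint] at this
    exact not_isUnit_zero this
  choose el hel using fun v : V => hχsurj (e v.1 v.2)
  let f : Fin (g + 1) → MvPowerSeries (Fin g) O :=
    Fin.cons (MvPowerSeries.C 2) fun j => el (eV.symm j)
  let re : SymRing O ι →ₐ[O] H := relEval ξ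
  have hre : ∀ v, φ (e v.1 v.2) = re (symCoord v) := by
    rintro ⟨i, j⟩
    fin_cases j
    · show φ (e i (0 : Fin 2)) = re (symCoord (i, (0 : Fin 2)))
      rw [he₀, symCoord_zero]
      simp [re, relEval]
      ring
    · show φ (e i (1 : Fin 2)) = re (symCoord (i, (1 : Fin 2)))
      rw [he₁, symCoord_one]
      simp [re, relEval]
  have hψe : ∀ v, ψ (el v) = re (symCoord v) := fun v => by
    show φ (χ (el v)) = _
    rw [hel, hre]
  have hψ2 : ψ (MvPowerSeries.C 2) = re 2 := by
    show φ (χ (MvPowerSeries.C 2)) = _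
    rw [hχC, AlgHom.commutes, map_ofNat, map_ofNat]
  have hfm : ∀ i, f i ∈ maximalIdeal (MvPowerSeries (Fin g) O) := fun i hu => by
    have hu' := hu.map χ
    refine Fin.cases ?_ (fun j => ?_) i hu'
    · simp only [f, Fin.cons_zero, map_ofNat]
      exact h2R
    · simp only [f, Fin.cons_succ, hel]
      exact he_mem _
  have hmemP : ∀ (I : Ideal (MvPowerSeries (Fin g) O)) (x : M),
      x ∈ I • (⊤ : Submodule (MvPowerSeries (Fin g) O) M) ↔
        x ∈ I.map ψ • (⊤ : Submodule H M) := fun I x => by
    rw [← Submodule.restrictScalars_mem (MvPowerSeries (Fin g) O) (I.map ψ • (⊤ : Submodule H M)),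
      show ψ = algebraMap (MvPowerSeries (Fin g) O) H from rfl,
      Submodule.restrictScalars_map_smul_eq, Submodule.restrictScalars_top]
  have hsm : ∀ (a : MvPowerSeries (Fin g) O) (x : M), a • x = ψ a • x := fun _ _ => rfl
  have hmapf : (Ideal.span (Set.range f)).map ψ = (symFull O ι).map re := by
    simp only [symFull, symIdeal, f, Fin.range_cons, Ideal.span_insert, Ideal.map_sup,
      Ideal.map_span, Set.image_singleton, ← Set.range_comp, hψ2]
    rw [sup_comm]
    congr 2
    ext x
    constructor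
    · rintro ⟨j, rfl⟩; exact ⟨eV.symm j, (hψe _).symm⟩
    · rintro ⟨v, rfl⟩; exact ⟨eV v, by simp [hψe]⟩
  have hmap0 : (Ideal.span (f '' {j | j ≠ 0})).map ψ ≤ (symIdeal O ι).map re := by
    rw [Ideal.map_span, Ideal.span_le]
    rintro _ ⟨_, ⟨i, hi, rfl⟩, rfl⟩
    obtain ⟨j, rfl⟩ := Fin.exists_succ_eq.mpr hi
    simp only [f, Fin.cons_succ, hψe]
    exact Ideal.mem_map_of_mem _ (symCoord_mem _)
  have hmapj : ∀ j : Fin g,
      (Ideal.span (f '' {i | i ≠ j.succ})).map ψ ≤ (symOthers (eV.symm j)).map re := by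
    intro j
    rw [Ideal.map_span, Ideal.span_le]
    rintro _ ⟨_, ⟨i, hi, rfl⟩, rfl⟩
    induction i using Fin.cases with
    | zero =>
      simp only [f, Fin.cons_zero, hψ2]
      exact Ideal.mem_map_of_mem _ (Ideal.mem_sup_right (Ideal.mem_span_singleton_self _))
    | succ k =>
      simp only [f, Fin.cons_succ, hψe]
      exact Ideal.mem_map_of_mem _ (Ideal.mem_sup_left (Ideal.subset_span
        ⟨eV.symm k, fun h => hi (by rw [eV.symm.injective h]), rfl⟩))
  have hind : LechIndependent M f := by
    refine lechIndependent_of_forall fun i z hz => ?_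
    obtain ⟨p, rfl⟩ := exists_relMap_eq ξ gen hfree z
    rw [hmemP, hmapf, relMap_mem_smul_iff ξ gen hξ hfree]
    rw [hmemP] at hz
    intro l
    refine Ideal.mem_sup_left ?_
    induction i using Fin.cases with
    | zero =>
      have hz' := Submodule.smul_mono_left hmap0 hz
      rw [show f 0 • relMap ξ gen p = relMap ξ gen fun l => 2 * p l by
        rw [relMap_smul, hsm]; simp only [f, Fin.cons_zero, hψ2]; rfl,
        relMap_mem_smul_iff ξ gen hξ hfree] at hz'
      exact mem_symFull_of_two_mul_mem_sup_rel h2ne hn (hz' l)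
    | succ j =>
      have hz' := Submodule.smul_mono_left (hmapj j) hz
      rw [show f j.succ • relMap ξ gen p = relMap ξ gen fun l => symCoord (eV.symm j) * p l by
        rw [relMap_smul, hsm]; simp only [f, Fin.cons_succ, hψe]; rfl,
        relMap_mem_smul_iff ξ gen hξ hfree] at hz'
      exact mem_symFull_of_mul_mem_sup_rel hn (hz' l)
  have hJ : RingHom.ker χ ≤ Module.annihilator (MvPowerSeries (Fin g) O) M := fun a ha =>
    Module.mem_annihilator.mpr fun x => by
      show φ (χ a) • x = 0
      rw [RingHom.mem_ker.mp ha, map_zero, zero_smul]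
  have hprim : ∀ q : Ideal (MvPowerSeries (Fin g) O), q.IsPrime →
      Ideal.span (Set.range f) ⊔ RingHom.ker χ ≤ q → q = maximalIdeal _ := by
    intro q hq hle
    have hker : RingHom.ker χ ≤ q := le_sup_right.trans hle
    have hprime : (q.map χ).IsPrime := Ideal.map_isPrime_of_surjective hχsurj hker
    have h := hmax _ hprime (by
      have hf0 : f 0 ∈ Ideal.span (Set.range f) := Ideal.subset_span (Set.mem_range_self 0)
      have hm0 := Ideal.mem_map_of_mem χ (le_sup_left.trans hle hf0)
      simp only [f, Fin.cons_zero, map_ofNat] at hm0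
      exact hm0)
    refine IsLocalRing.eq_maximalIdeal ?_
    have hcomap := Ideal.comap_map_of_surjective χ hχsurj q
    rw [h, ← RingHom.ker_eq_comap_bot, sup_eq_left.mpr hker] at hcomap
    rw [← hcomap]
    exact Ideal.comap_isMaximal_of_surjective χ hχsurj
  obtain ⟨-, -, -, hann, -⟩ := exists_regular_free (M := M)
    (List.ofFn (MvPowerSeries.X : Fin g → MvPowerSeries (Fin g) O) ++ [MvPowerSeries.C 2])
    (Basic.isWeaklyRegular_X_append_C h2ne) (Basic.ofList_X_append_C_eq_maximalIdeal hirr)
    (by simp) f hfm hind hJ hprim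
  -- `(*)`
  have hstep : ∀ s : R, (∀ x : M, φ s • x ∈ (symFull O ι).map re • (⊤ : Submodule H M)) →
      ∃ s₁ t, s = 2 * s₁ + t ∧ t ∈ Ideal.span (Set.range fun v : V => e v.1 v.2) := by
    intro s hs
    obtain ⟨z, rfl⟩ := hχsurj s
    have hz : z ∈ Ideal.span (Set.range f) ⊔ RingHom.ker χ := by
      rw [← hann]
      refine Module.mem_annihilator.mpr fun x => ?_
      obtain ⟨x, rfl⟩ := Submodule.mkQ_surjective _ x
      rw [Submodule.mkQ_apply, ← Submodule.Quotient.mk_smul, Submodule.Quotient.mk_eq_zero,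
        hmemP, hmapf]
      exact hs x
    have hχz := Ideal.mem_map_of_mem χ hz
    rw [Ideal.map_sup, (Ideal.map_eq_bot_iff_le_ker χ).mpr le_rfl, sup_bot_eq,
      Ideal.map_span] at hχz
    have hle : Ideal.span (χ '' Set.range f) ≤
        Ideal.span {(2 : R)} ⊔ Ideal.span (Set.range fun v : V => e v.1 v.2) := by
      refine Ideal.span_le.mpr ?_
      rintro _ ⟨_, ⟨i, rfl⟩, rfl⟩
      induction i using Fin.cases with
      | zero =>
        simp only [f, Fin.cons_zero, map_ofNat]
        exact Ideal.mem_sup_left (Ideal.mem_span_singleton_self _)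
      | succ j =>
        simp only [f, Fin.cons_succ, hel]
        exact Ideal.mem_sup_right (Ideal.subset_span ⟨_, rfl⟩)
    obtain ⟨a, ha, t, ht, hat⟩ := Submodule.mem_sup.mp (hle hχz)
    obtain ⟨s₁, rfl⟩ := Ideal.mem_span_singleton'.mp ha
    exact ⟨s₁, t, by rw [← hat, mul_comm], ht⟩
  have hmain : ∀ k, k ≤ n → ∀ s : R, (∀ x : M, φ s • x ∈
      (symIdeal O ι ⊔ Ideal.span {(2 : SymRing O ι) ^ k}).map re • (⊤ : Submodule H M)) →
      (2 : O) ^ k ∣ point s := by
    intro k
    induction k with
    | zero => intro _ s _; simp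
    | succ k ih =>
      intro hk s hs
      obtain ⟨s₁, t, rfl, ht⟩ := hstep s fun x => Submodule.smul_mono_left (Ideal.map_mono
        (sup_le_sup_left (Ideal.span_singleton_le_span_singleton.mpr
          (dvd_pow_self 2 (Nat.succ_ne_zero k))) _)) (hs x)
      have htm : φ t ∈ (symIdeal O ι).map re := by
        refine (Ideal.map_le_of_le_comap (Ideal.span_le.mpr ?_) : _ ≤ (symIdeal O ι).map re)
          (Ideal.mem_map_of_mem φ ht)
        rintro _ ⟨v, rfl⟩
        rw [SetLike.mem_coe, Ideal.mem_comap, hre]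
        exact Ideal.mem_map_of_mem _ (symCoord_mem v)
      have hpt : point t = 0 := by
        have : Ideal.span (Set.range fun v : V => e v.1 v.2) ≤ RingHom.ker point := by
          refine Ideal.span_le.mpr ?_
          rintro _ ⟨v, rfl⟩
          exact hpoint v.1 v.2
        exact this ht
      rw [map_add, map_mul, map_ofNat, hpt, add_zero, pow_succ']
      refine mul_dvd_mul_left 2 (ih (Nat.le_of_succ_le hk) s₁ fun x => ?_)
      obtain ⟨p, hp⟩ := exists_relMap_eq ξ gen hfree (φ s₁ • x)
      have h1 : relMap ξ gen (fun l => 2 * p l) ∈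
          (symIdeal O ι ⊔ Ideal.span {(2 : SymRing O ι) ^ (k + 1)}).map re •
            (⊤ : Submodule H M) := by
        rw [relMap_smul, hp, map_ofNat, ← mul_smul,
          show (2 : H) * φ s₁ = φ (2 * s₁ + t) - φ t by
            rw [map_add, map_mul, map_ofNat, add_sub_cancel_right], sub_smul]
        exact sub_mem (hs x) (Submodule.smul_mem_smul (Ideal.map_mono le_sup_left htm) trivial)
      rw [← hp, relMap_mem_smul_iff ξ gen hξ hfree]
      intro l
      exact Ideal.mem_sup_left (mem_of_two_mul_mem_sup_pow h2ne hk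
        ((relMap_mem_smul_iff ξ gen hξ hfree _ _).mp h1 l))
  rw [← map_pow]
  refine hmain n le_rfl _ fun x => ?_
  set U := Ideal.span (Set.range fun p : ι × Fin 2 => ξ p.1 p.2 - 1) with hU_def
  have hU : U = (Ideal.span (Set.range (MvPolynomial.X : ι × Fin 2 → SymRing O ι))).map re := by
    rw [hU_def, Ideal.map_span, ← Set.range_comp]
    congr 2
    funext v
    simp [re, relEval]
  have hpow : ∀ (k : ℕ) (x : M), φ (r ^ k) • x ∈ U ^ k • (⊤ : Submodule H M) := by
    intro k
    induction k with
    | zero => intro x; simp [Ideal.one_eq_top]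
    | succ k ih =>
      intro x
      rw [pow_succ r k, map_mul, mul_smul, pow_succ' U k, ← smul_eq_mul, Submodule.smul_assoc]
      refine Submodule.smul_induction_on (p := fun z => φ (r ^ k) • z ∈
        U • U ^ k • (⊤ : Submodule H M)) (hr x) ?_ ?_
      · intro a ha z _
        rw [show φ (r ^ k) • a • z = a • φ (r ^ k) • z from smul_comm _ _ _]
        exact Submodule.smul_mem_smul ha (ih z)
      · intro a b ha hb
        rw [smul_add]
        exact add_mem ha hb
  refine Submodule.smul_mono_left ?_ (hpow _ x)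
  rw [hU, ← Ideal.map_pow]
  exact Ideal.map_mono (span_X_pow_le.trans le_sup_left)

end FermatLib.MLT.Two

end
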