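import Mathlib.Algebra.MvPolynomial.Basic
import Mathlib.Algebra.MvPolynomial.Eval
import Mathlib.RingTheory.Ideal.Maps
import Mathlib.RingTheory.Ideal.Operations
import Mathlib.RingTheory.Ideal.Quotient.Operations
import Mathlib.Tactic.Ring
import Mathlib.Tactic.FinCases

/-!
# The symmetric coordinates `u + v`, `uv` in `O[u_i, v_i]`

They and `2` are independent, `2` is regular modulo them, and the relations
`(1 + u) ^ (2 ^ n) = 1` lie in the square of the ideal they generate with `2` and in
`(u + v, uv, 2 ^ n)`.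
-/

set_option autoImplicit false

noncomputable section

namespace FermatLib.MLT.Two

open MvPolynomial

variable {O : Type} [CommRing O] {ι : Type}

/-- The span of the monomials with exponents in `Bad`, and `c`. -/
def coeffIdeal {σ : Type} (Bad : Set (σ →₀ ℕ)) (c : O) : Ideal (MvPolynomial σ O) :=
  Ideal.span ((fun m => monomial m (1 : O)) '' Bad) ⊔ Ideal.span {C c}

theorem mem_coeffIdeal_iff {σ : Type} {Bad : Set (σ →₀ ℕ)}
    (hup : ∀ m m', m ∈ Bad → m ≤ m' → m' ∈ Bad) {c : O} {x : MvPolynomial σ O} :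
    x ∈ coeffIdeal Bad c ↔ ∀ m ∉ Bad, c ∣ coeff m x := by
  classical
  constructor
  · intro hx m hm
    obtain ⟨a, ha, b, hb, rfl⟩ := Submodule.mem_sup.mp hx
    rw [coeff_add]
    refine dvd_add ?_ ?_
    · suffices h : coeff m a = 0 by rw [h]; exact dvd_zero c
      clear hx
      revert m
      induction ha using Submodule.span_induction with
      | mem y hy =>
        obtain ⟨k, hk, rfl⟩ := hy
        intro m hm
        rw [coeff_monomial, if_neg]
        rintro rfl
        exact hm hk
      | zero => simp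
      | add y z _ _ hy hz => intro m hm; rw [coeff_add, hy m hm, hz m hm, add_zero]
      | smul q y _ hy =>
        intro m hm
        rw [smul_eq_mul, coeff_mul]
        refine Finset.sum_eq_zero fun k hk => ?_
        rw [hy k.2, mul_zero]
        exact fun h => hm (hup _ _ h (by
          rw [← Finset.HasAntidiagonal.mem_antidiagonal.mp hk]; exact le_add_self))
    · obtain ⟨w, rfl⟩ := Ideal.mem_span_singleton'.mp hb
      rw [mul_comm, coeff_C_mul]
      exact dvd_mul_right c _
  · intro h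
    rw [as_sum x]
    refine Submodule.sum_mem _ fun m _ => ?_
    by_cases hm : m ∈ Bad
    · refine Ideal.mem_sup_left ?_
      have : monomial m (coeff m x) = C (coeff m x) * monomial m (1 : O) := by
        rw [C_mul_monomial, mul_one]
      rw [this]
      exact Ideal.mul_mem_left _ _ (Ideal.subset_span ⟨m, hm, rfl⟩)
    · obtain ⟨t, ht⟩ := h m hm
      refine Ideal.mem_sup_right (Ideal.mem_span_singleton'.mpr ⟨monomial m t, ?_⟩)
      rw [mul_comm, C_mul_monomial, ← ht]

/-- An algebra endomorphism fixing the variables modulo `I` fixes everything modulo `I`. -/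
theorem sub_mem_of_forall_X {σ : Type} (I : Ideal (MvPolynomial σ O))
    (τ : MvPolynomial σ O →ₐ[O] MvPolynomial σ O) (h : ∀ j, X j - τ (X j) ∈ I)
    (x : MvPolynomial σ O) : x - τ x ∈ I := by
  have : (Ideal.Quotient.mkₐ O I).comp τ = Ideal.Quotient.mkₐ O I :=
    algHom_ext fun j => (Ideal.Quotient.eq.mpr (h j)).symm
  exact Ideal.Quotient.eq.mp (AlgHom.congr_fun this x).symm

variable (O ι) in
/-- The variables: `u_i = (i, 0)`, `v_i = (i, 1)`. -/
abbrev SymRing : Type := MvPolynomial (ι × Fin 2) O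

/-- `u + v` and `uv`. -/
def symCoord (p : ι × Fin 2) : SymRing O ι :=
  if p.2 = 0 then X (p.1, 0) + X (p.1, 1) else X (p.1, 0) * X (p.1, 1)

theorem symCoord_zero (i : ι) : symCoord (O := O) (i, 0) = X (i, 0) + X (i, 1) := if_pos rfl

theorem symCoord_one (i : ι) : symCoord (O := O) (i, 1) = X (i, 0) * X (i, 1) :=
  if_neg (show ¬ ((1 : Fin 2) = 0) by decide)

variable (O ι) in
/-- The ideal of the symmetric coordinates. -/
def symIdeal : Ideal (SymRing O ι) := Ideal.span (Set.range symCoord)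

theorem symCoord_mem (p : ι × Fin 2) : symCoord (O := O) p ∈ symIdeal O ι :=
  Ideal.subset_span ⟨p, rfl⟩

theorem X_sq_mem_symIdeal (p : ι × Fin 2) : X p * X p ∈ symIdeal O ι := by
  obtain ⟨i, j⟩ := p
  have h0 := symCoord_mem (O := O) (i, 0)
  have h1 := symCoord_mem (O := O) (i, 1)
  rw [symCoord_zero] at h0
  rw [symCoord_one] at h1
  fin_cases j
  · convert sub_mem (Ideal.mul_mem_left _ (X (i, (0 : Fin 2))) h0) h1 using 1
    show X (i, (0 : Fin 2)) * X (i, (0 : Fin 2)) = _
    ring
  · convert sub_mem (Ideal.mul_mem_left _ (X (i, (1 : Fin 2))) h0) h1 using 1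
    show X (i, (1 : Fin 2)) * X (i, (1 : Fin 2)) = _
    ring

/-- Exponents with a square. -/
def sqBad (ι : Type) : Set (ι →₀ ℕ) := {m | ∃ i, 2 ≤ m i}

theorem sqBad_up (m m' : ι →₀ ℕ) (hm : m ∈ sqBad ι) (h : m ≤ m') : m' ∈ sqBad ι :=
  hm.imp fun i hi => hi.trans (h i)

variable (O ι) in
/-- `u ↦ U`, `v ↦ -U`. -/
def antiMap : SymRing O ι →ₐ[O] MvPolynomial ι O :=
  aeval fun p => if p.2 = 0 then X p.1 else -X p.1

theorem antiMap_symCoord_zero (i : ι) : antiMap O ι (symCoord (i, 0)) = 0 := by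
  simp [symCoord_zero, antiMap]

theorem antiMap_symCoord_one (i : ι) :
    antiMap O ι (symCoord (i, 1)) = -monomial (Finsupp.single i 2) 1 := by
  rw [symCoord_one, ← X_pow_eq_monomial]
  simp [antiMap, pow_two]

theorem mem_symIdeal_sup_iff {c : O} {x : SymRing O ι} :
    x ∈ symIdeal O ι ⊔ Ideal.span {C c} ↔
      ∀ m ∉ sqBad ι, c ∣ coeff m (antiMap O ι x) := by
  rw [← mem_coeffIdeal_iff sqBad_up]
  constructor
  · intro hx
    have h := Ideal.mem_map_of_mem (antiMap O ι) hx
    rw [Ideal.map_sup, symIdeal, Ideal.map_span, Ideal.map_span, Set.image_singleton] at h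
    refine (sup_le (Ideal.span_le.mpr ?_) (le_of_eq_of_le ?_ le_sup_right) :
      _ ≤ coeffIdeal (sqBad ι) c) h
    · rintro _ ⟨_, ⟨⟨i, j⟩, rfl⟩, rfl⟩
      fin_cases j
      · exact antiMap_symCoord_zero (O := O) i ▸ zero_mem _
      · refine antiMap_symCoord_one (O := O) i ▸ neg_mem (Ideal.mem_sup_left ?_)
        exact Ideal.subset_span ⟨_, ⟨i, by simp⟩, rfl⟩
    · rw [antiMap, algHom_C]
      rfl
  · intro hx
    let s : MvPolynomial ι O →ₐ[O] SymRing O ι := aeval fun i => X (i, 0)
    have h1 : x - s (antiMap O ι x) ∈ symIdeal O ι := by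
      refine sub_mem_of_forall_X _ (s.comp (antiMap O ι)) (fun ⟨i, j⟩ => ?_) x
      fin_cases j
      · simp [s, antiMap]
      · simpa [s, antiMap, symCoord_zero, add_comm] using symCoord_mem (O := O) (i, (0 : Fin 2))
    have h2 : s (antiMap O ι x) ∈ symIdeal O ι ⊔ Ideal.span {C c} := by
      refine Ideal.map_le_of_le_comap (f := s) (sup_le (Ideal.span_le.mpr ?_) ?_)
        (Ideal.mem_map_of_mem s hx)
      · rintro _ ⟨m, ⟨i, hi⟩, rfl⟩
        rw [SetLike.mem_coe, Ideal.mem_comap]
        refine Ideal.mem_sup_left ?_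
        have hm : monomial m (1 : O) =
            (X i * X i) * monomial (m - Finsupp.single i 2) 1 := by
          rw [← pow_two, X_pow_eq_monomial, monomial_mul, one_mul,
            add_tsub_cancel_of_le (Finsupp.single_le_iff.mpr hi)]
        simp only [hm, map_mul]
        refine Ideal.mul_mem_right _ _ ?_
        simpa [s] using X_sq_mem_symIdeal (O := O) (i, (0 : Fin 2))
      · rw [Ideal.span_singleton_le_iff_mem, Ideal.mem_comap]
        refine Ideal.mem_sup_right ?_
        rw [algHom_C]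
        exact Ideal.mem_span_singleton_self _
    simpa using add_mem (Ideal.mem_sup_left (T := Ideal.span {C c}) h1) h2

theorem C_two_eq : (C (2 : O) : SymRing O ι) = 2 := map_ofNat C 2

theorem mem_symIdeal_iff {x : SymRing O ι} :
    x ∈ symIdeal O ι ↔ ∀ m ∉ sqBad ι, coeff m (antiMap O ι x) = 0 := by
  have h := mem_symIdeal_sup_iff (c := (0 : O)) (x := x)
  rw [map_zero, Ideal.span_singleton_zero, sup_bot_eq] at h
  simpa only [zero_dvd_iff] using h

/-- `2` is regular modulo the symmetric coordinates. -/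
theorem mem_symIdeal_of_two_mul [IsDomain O] (h2 : (2 : O) ≠ 0) {x : SymRing O ι}
    (h : 2 * x ∈ symIdeal O ι) : x ∈ symIdeal O ι := by
  rw [mem_symIdeal_iff] at h ⊢
  intro m hm
  have := h m hm
  rw [map_mul, map_ofNat, ← map_ofNat C 2, coeff_C_mul] at this
  exact (mul_eq_zero.mp this).resolve_left h2

/-- The relations `(1 + X) ^ (2 ^ n) - 1`. -/
def symRel (n : ℕ) : Ideal (SymRing O ι) :=
  Ideal.span (Set.range fun p : ι × Fin 2 => (1 + X p) ^ 2 ^ n - 1)

variable (O ι) in
/-- The symmetric coordinates and `2`. -/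
def symFull : Ideal (SymRing O ι) := symIdeal O ι ⊔ Ideal.span {2}

theorem two_pow_sub_one_succ (a : SymRing O ι) (n : ℕ) :
    a ^ 2 ^ (n + 1) - 1 = (a ^ 2 ^ n - 1) * ((a ^ 2 ^ n - 1) + 2) := by
  rw [pow_succ, pow_mul]
  ring

theorem symRel_le_sq {n : ℕ} (hn : 2 ≤ n) :
    symRel n ≤ symFull O ι * symFull O ι := by
  rw [symRel, Ideal.span_le]
  rintro _ ⟨p, rfl⟩
  dsimp only
  have h2 : (2 : SymRing O ι) ∈ symFull O ι :=
    Ideal.mem_sup_right (Ideal.mem_span_singleton_self _)
  have h1 : (1 + X p) ^ 2 ^ 1 - 1 ∈ symFull O ι := by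
    rw [show (1 + X p : SymRing O ι) ^ 2 ^ 1 - 1 = 2 * X p + X p * X p by ring]
    exact add_mem (Ideal.mul_mem_right _ _ h2) (Ideal.mem_sup_left (X_sq_mem_symIdeal p))
  induction n, hn using Nat.le_induction with
  | base =>
    rw [SetLike.mem_coe, two_pow_sub_one_succ]
    exact Ideal.mul_mem_mul h1 (add_mem h1 h2)
  | succ n _ ih =>
    rw [SetLike.mem_coe, two_pow_sub_one_succ]
    exact Ideal.mul_mem_right _ _ ih

theorem symRel_le {n : ℕ} (hn : 1 ≤ n) :
    symRel n ≤ symIdeal O ι ⊔ Ideal.span {(2 : SymRing O ι) ^ n} := by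
  rw [symRel, Ideal.span_le]
  rintro _ ⟨p, rfl⟩
  dsimp only
  induction n, hn using Nat.le_induction with
  | base =>
    rw [SetLike.mem_coe, show (1 + X p : SymRing O ι) ^ 2 ^ 1 - 1 = X p * X p + 2 ^ 1 * X p by ring]
    exact Submodule.add_mem_sup (X_sq_mem_symIdeal p)
      (Ideal.mul_mem_right _ _ (Ideal.mem_span_singleton_self _))
  | succ n hn ih =>
    obtain ⟨a, ha, b, hb, hab⟩ := Submodule.mem_sup.mp ih
    obtain ⟨w, rfl⟩ := Ideal.mem_span_singleton'.mp hb
    rw [SetLike.mem_coe, two_pow_sub_one_succ, ← hab,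
      show (a + w * 2 ^ n) * (a + w * 2 ^ n + 2) =
        (a * (a + 2 * (w * 2 ^ n) + 2)) + (w * (w * 2 ^ n + 2) * 2 ^ n) by ring]
    refine add_mem (Ideal.mem_sup_left (Ideal.mul_mem_right _ _ ha)) (Ideal.mem_sup_right ?_)
    obtain ⟨k, rfl⟩ := Nat.exists_eq_add_of_le hn
    refine Ideal.mem_span_singleton'.mpr ⟨w * (w * 2 ^ k + 1), ?_⟩
    ring

/-- Exponents meeting a square away from `i`. -/
def sqBadOff (i : ι) : Set (ι →₀ ℕ) := {m | ∃ k, k ≠ i ∧ 2 ≤ m k}

/-- Exponents meeting a square away from `i` or `u_i v_i`. -/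
def crossBad (i : ι) : Set (Option ι →₀ ℕ) :=
  {m | (∃ k, k ≠ i ∧ 2 ≤ m (some k)) ∨ (1 ≤ m (some i) ∧ 1 ≤ m none)}

theorem crossBad_up (i : ι) (m m' : Option ι →₀ ℕ) (hm : m ∈ crossBad i) (h : m ≤ m') :
    m' ∈ crossBad i :=
  hm.imp (fun ⟨k, hk, hk'⟩ => ⟨k, hk, hk'.trans (h _)⟩)
    fun ⟨h1, h2⟩ => ⟨h1.trans (h _), h2.trans (h _)⟩

/-- `u ↦ U`, `v ↦ -U` away from `i`. -/
def crossMap [DecidableEq ι] (i : ι) : SymRing O ι →ₐ[O] MvPolynomial (Option ι) O :=
  aeval fun p => if p.2 = 0 then X (some p.1) else if p.1 = i then X none else -X (some p.1)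

/-- `v_i ↦ -U_i`. -/
def collapseMap [DecidableEq ι] (i : ι) : MvPolynomial (Option ι) O →ₐ[O] MvPolynomial ι O :=
  aeval fun o => o.elim (-X i) X

theorem collapseMap_comp_crossMap [DecidableEq ι] (i : ι) :
    (collapseMap (O := O) i).comp (crossMap i) = antiMap O ι := by
  refine algHom_ext fun ⟨k, j⟩ => ?_
  fin_cases j
  · simp [collapseMap, crossMap, antiMap]
  · by_cases h : k = i <;> simp [collapseMap, crossMap, antiMap, h]

variable [DecidableEq ι]

/-- The ideal of the coordinates other than `v`, and `2`. -/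
def symOthers (v : ι × Fin 2) : Ideal (SymRing O ι) :=
  Ideal.span (symCoord '' {w | w ≠ v}) ⊔ Ideal.span {2}

omit [DecidableEq ι] in
theorem symFull_eq (v : ι × Fin 2) :
    symFull O ι = symOthers v ⊔ Ideal.span {symCoord v} := by
  refine le_antisymm (sup_le (Ideal.span_le.mpr ?_) (le_sup_right.trans le_sup_left))
    (sup_le (sup_le ((Ideal.span_mono (Set.image_subset_range _ _)).trans le_sup_left) le_sup_right)
      ((Ideal.span_singleton_le_iff_mem _).mpr (Ideal.mem_sup_left (symCoord_mem v))))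
  rintro _ ⟨w, rfl⟩
  by_cases h : w = v
  · exact Ideal.mem_sup_right (h ▸ Ideal.mem_span_singleton_self _)
  · exact Ideal.mem_sup_left (Ideal.mem_sup_left (Ideal.subset_span ⟨w, h, rfl⟩))

omit [DecidableEq ι] in
theorem mem_symFull_of_mul_one {i : ι} {x : SymRing O ι}
    (h : symCoord (i, 1) * x ∈ symOthers (i, 1)) : x ∈ symFull O ι := by
  have hup : ∀ m m', m ∈ sqBadOff i → m ≤ m' → m' ∈ sqBadOff i :=
    fun m m' ⟨k, hk, hk'⟩ hle => ⟨k, hk, hk'.trans (hle k)⟩
  have h' : antiMap O ι (symCoord (i, 1) * x) ∈ coeffIdeal (sqBadOff i) (2 : O) := by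
    refine Ideal.map_le_of_le_comap (f := antiMap O ι) (sup_le (Ideal.span_le.mpr ?_) ?_)
      (Ideal.mem_map_of_mem _ h)
    · rintro _ ⟨⟨k, j⟩, hne, rfl⟩
      rw [SetLike.mem_coe, Ideal.mem_comap]
      fin_cases j
      · exact antiMap_symCoord_zero (O := O) k ▸ zero_mem _
      · refine antiMap_symCoord_one (O := O) k ▸ neg_mem (Ideal.mem_sup_left ?_)
        exact Ideal.subset_span ⟨_, ⟨k, fun hk => hne (hk ▸ rfl), by simp⟩, rfl⟩
    · rw [Ideal.span_singleton_le_iff_mem, Ideal.mem_comap, map_ofNat]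
      exact Ideal.mem_sup_right (Ideal.subset_span (map_ofNat C 2).symm)
  rw [map_mul, antiMap_symCoord_one, neg_mul, neg_mem_iff, mem_coeffIdeal_iff hup] at h'
  rw [symFull, ← C_two_eq, mem_symIdeal_sup_iff]
  intro m hm
  have := h' (Finsupp.single i 2 + m) fun ⟨k, hk, hk'⟩ => hm ⟨k, by
    simpa [Finsupp.single_eq_of_ne hk] using hk'⟩
  rwa [coeff_monomial_mul, one_mul] at this

theorem mem_symFull_of_mul_zero {i : ι} {x : SymRing O ι}
    (h : symCoord (i, 0) * x ∈ symOthers (i, 0)) : x ∈ symFull O ι := by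
  have hc : crossMap i (symCoord (O := O) (i, 0)) = X (some i) + X none := by
    simp [symCoord_zero, crossMap]
  have h' : (X (some i) + X none) * crossMap i x ∈ coeffIdeal (crossBad i) (2 : O) := by
    rw [← hc, ← map_mul]
    refine Ideal.map_le_of_le_comap (f := crossMap i) (sup_le (Ideal.span_le.mpr ?_) ?_)
      (Ideal.mem_map_of_mem _ h)
    · rintro _ ⟨⟨k, j⟩, hne, rfl⟩
      rw [SetLike.mem_coe, Ideal.mem_comap]
      fin_cases j
      · have hk : k ≠ i := fun hk => hne (hk ▸ rfl)
        simp [symCoord_zero, crossMap, hk]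
      · refine Ideal.mem_sup_left ?_
        by_cases hk : k = i
        · have : crossMap i (symCoord (O := O) (k, 1)) =
              monomial (Finsupp.single (some i) 1 + Finsupp.single none 1) 1 := by
            rw [symCoord_one]
            show crossMap i (X (k, (0 : Fin 2)) * X (k, (1 : Fin 2))) = _
            rw [map_mul, show crossMap i (X (k, (0 : Fin 2))) = (X (some i) : MvPolynomial _ O) by
                simp [crossMap, hk],
              show crossMap i (X (k, (1 : Fin 2))) = (X none : MvPolynomial _ O) by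
                simp [crossMap, hk], X, X, monomial_mul, one_mul]
          exact this ▸ Ideal.subset_span ⟨_, Or.inr ⟨by simp, by simp⟩, rfl⟩
        · have : crossMap i (symCoord (O := O) (k, 1)) = -monomial (Finsupp.single (some k) 2) 1 := by
            rw [symCoord_one, ← X_pow_eq_monomial]
            simp [crossMap, hk, pow_two]
          exact this ▸ neg_mem (Ideal.subset_span ⟨_, Or.inl ⟨k, hk, by simp⟩, rfl⟩)
    · rw [Ideal.span_singleton_le_iff_mem, Ideal.mem_comap, map_ofNat]
      exact Ideal.mem_sup_right (Ideal.subset_span (map_ofNat C 2).symm)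
  rw [mem_coeffIdeal_iff (crossBad_up i)] at h'
  have hw : crossMap i x ∈ coeffIdeal (crossBad i) (2 : O) := by
    rw [mem_coeffIdeal_iff (crossBad_up i)]
    intro m hm
    by_cases hnone : m none = 0
    · have := h' (Finsupp.single (some i) 1 + m) fun hbad => hm (by
        rcases hbad with ⟨k, hk, hk'⟩ | ⟨-, h2⟩
        · exact Or.inl ⟨k, hk, by simpa [Finsupp.single_eq_of_ne, hk] using hk'⟩
        · simp [hnone] at h2)
      rw [add_mul, coeff_add, coeff_X_mul, coeff_X_mul'] at this
      rw [if_neg (by simp [hnone]), add_zero] at this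
      exact this
    · have hsome : m (some i) = 0 := by
        by_contra h0
        exact hm (Or.inr ⟨Nat.one_le_iff_ne_zero.mpr h0, Nat.one_le_iff_ne_zero.mpr hnone⟩)
      have := h' (Finsupp.single none 1 + m) fun hbad => hm (by
        rcases hbad with ⟨k, hk, hk'⟩ | ⟨h1, -⟩
        · exact Or.inl ⟨k, hk, by simpa using hk'⟩
        · simp [hsome] at h1)
      rw [add_mul, coeff_add, coeff_X_mul, coeff_X_mul'] at this
      rw [if_neg (by simp [hsome]), zero_add] at this
      exact this
  have hcol : antiMap O ι x ∈ coeffIdeal (sqBad ι) (2 : O) := by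
    rw [← collapseMap_comp_crossMap i, AlgHom.comp_apply]
    refine Ideal.map_le_of_le_comap (f := collapseMap i) (sup_le (Ideal.span_le.mpr ?_) ?_)
      (Ideal.mem_map_of_mem _ hw)
    · rintro _ ⟨m, hm, rfl⟩
      rw [SetLike.mem_coe, Ideal.mem_comap]
      refine Ideal.mem_sup_left ?_
      have key : ∀ (k : ι), (X k * X k : MvPolynomial ι O) ∈
          Ideal.span ((fun m => monomial m (1 : O)) '' sqBad ι) := fun k => by
        rw [← pow_two, X_pow_eq_monomial]
        exact Ideal.subset_span ⟨_, ⟨k, by simp⟩, rfl⟩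
      dsimp only
      rcases hm with ⟨k, hk, hk'⟩ | ⟨h1, h2⟩
      · rw [show monomial m (1 : O) = (X (some k) * X (some k)) *
            monomial (m - Finsupp.single (some k) 2) 1 by
          rw [← pow_two, X_pow_eq_monomial, monomial_mul, one_mul,
            add_tsub_cancel_of_le (Finsupp.single_le_iff.mpr hk')]]
        simp only [map_mul]
        refine Ideal.mul_mem_right _ _ ?_
        simpa [collapseMap] using key k
      · have hle : Finsupp.single (some i) 1 + Finsupp.single none 1 ≤ m := fun o => by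
          cases o with
          | none => simpa using h2
          | some k =>
            by_cases hk : k = i
            · subst hk; simpa using h1
            · simp [Finsupp.single_eq_of_ne, hk]
        rw [show monomial m (1 : O) = (X (some i) * X none) *
            monomial (m - (Finsupp.single (some i) 1 + Finsupp.single none 1)) 1 by
          rw [X, X, monomial_mul, monomial_mul, one_mul, one_mul, add_tsub_cancel_of_le hle]]
        simp only [map_mul]
        refine Ideal.mul_mem_right _ _ ?_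
        simpa [collapseMap] using key i
    · rw [Ideal.span_singleton_le_iff_mem, Ideal.mem_comap, algHom_C]
      exact Ideal.mem_sup_right (Ideal.mem_span_singleton_self _)
  rw [symFull, ← C_two_eq, mem_symIdeal_sup_iff, ← mem_coeffIdeal_iff sqBad_up]
  exact hcol

theorem mem_symFull_of_mul {v : ι × Fin 2} {x : SymRing O ι}
    (h : symCoord v * x ∈ symOthers v) : x ∈ symFull O ι := by
  obtain ⟨i, j⟩ := v
  fin_cases j
  exacts [mem_symFull_of_mul_zero h, mem_symFull_of_mul_one h]

/-- Independence of the symmetric coordinates modulo the relations. -/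
theorem mem_symFull_of_mul_mem_sup_rel {n : ℕ} (hn : 2 ≤ n) {v : ι × Fin 2} {x : SymRing O ι}
    (h : symCoord v * x ∈ symOthers v ⊔ symRel n) : x ∈ symFull O ι := by
  have hle : symOthers v ⊔ symRel n ≤ symOthers v ⊔ Ideal.span {symCoord v} * symFull O ι := by
    refine sup_le le_sup_left ((symRel_le_sq hn).trans ?_)
    conv_lhs => arg 1; rw [symFull_eq v]
    rw [Ideal.sup_mul]
    exact sup_le_sup_right Ideal.mul_le_left _
  obtain ⟨a, ha, b, hb, hab⟩ := Submodule.mem_sup.mp (hle h)
  obtain ⟨w, hw, rfl⟩ := Ideal.mem_span_singleton_mul.mp hb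
  have : x - w ∈ symFull O ι := mem_symFull_of_mul (v := v) (by
    rw [mul_sub, ← hab, add_sub_cancel_right]
    exact ha)
  simpa using add_mem this hw

omit [DecidableEq ι] in
/-- Independence of `2`. -/
theorem mem_symFull_of_two_mul_mem_sup_rel [IsDomain O] (h2 : (2 : O) ≠ 0) {n : ℕ} (hn : 2 ≤ n)
    {x : SymRing O ι} (h : 2 * x ∈ symIdeal O ι ⊔ symRel n) : x ∈ symFull O ι := by
  have hle : symIdeal O ι ⊔ symRel n ≤ symIdeal O ι ⊔ Ideal.span {2} * symFull O ι := by
    refine sup_le le_sup_left ((symRel_le_sq hn).trans ?_)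
    conv_lhs => arg 1; rw [symFull]
    rw [Ideal.sup_mul]
    exact sup_le_sup_right Ideal.mul_le_left _
  obtain ⟨a, ha, b, hb, hab⟩ := Submodule.mem_sup.mp (hle h)
  obtain ⟨w, hw, rfl⟩ := Ideal.mem_span_singleton_mul.mp hb
  have : x - w ∈ symIdeal O ι := mem_symIdeal_of_two_mul h2 (by
    rw [mul_sub, ← hab, add_sub_cancel_right]
    exact ha)
  have hs := add_mem (show x - w ∈ symFull O ι from Ideal.mem_sup_left this) hw
  rwa [sub_add_cancel] at hs

omit [DecidableEq ι] in
/-- Division by `2` modulo the coordinates, up to level `n`. -/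
theorem mem_of_two_mul_mem_sup_pow [IsDomain O] (h2 : (2 : O) ≠ 0) {n k : ℕ} (hkn : k + 1 ≤ n)
    {x : SymRing O ι}
    (h : 2 * x ∈ symIdeal O ι ⊔ Ideal.span {2 ^ (k + 1)} ⊔ symRel n) :
    x ∈ symIdeal O ι ⊔ Ideal.span {2 ^ k} := by
  have hle : symIdeal O ι ⊔ Ideal.span {2 ^ (k + 1)} ⊔ symRel n ≤
      symIdeal O ι ⊔ Ideal.span {(2 : SymRing O ι) ^ (k + 1)} :=
    sup_le le_rfl ((symRel_le (le_trans (Nat.le_add_left 1 k) hkn)).trans
      (sup_le_sup_left (Ideal.span_singleton_le_span_singleton.mpr (pow_dvd_pow _ hkn)) _))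
  obtain ⟨a, ha, b, hb, hab⟩ := Submodule.mem_sup.mp (hle h)
  obtain ⟨w, rfl⟩ := Ideal.mem_span_singleton'.mp hb
  have : x - w * 2 ^ k ∈ symIdeal O ι := mem_symIdeal_of_two_mul h2 (by
    rw [mul_sub, ← hab, show a + w * 2 ^ (k + 1) - 2 * (w * 2 ^ k) = a by ring]
    exact ha)
  have hs := Submodule.add_mem_sup this
    (Ideal.mul_mem_left (Ideal.span {(2 : SymRing O ι) ^ k}) w (Ideal.mem_span_singleton_self _))
  rwa [sub_add_cancel] at hs

end FermatLib.MLT.Two

end
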