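import Fermat.Agent.MLT.Two.GenusChar
import Fermat.Prelude.Def_GaloisRep_ComplexConjugation
import Mathlib.LinearAlgebra.Dimension.Constructions
import Mathlib.LinearAlgebra.FiniteDimensional.Basic

/-!
# Genus bound for invariant unramified characters of an imaginary quadratic field

For a subgroup `H` of index two not containing complex conjugation, with ramified primes `S`, the
unramified additive characters of `H` with values in a field of characteristic two which are
invariant under complex conjugation form a space of dimension less than `#S`.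
-/

set_option autoImplicit false

namespace FermatLib.MLT.Genus

local notation "Qbar" => AlgebraicClosure ℚ
local notation "Γℚ" => (AlgebraicClosure ℚ ≃ₐ[ℚ] AlgebraicClosure ℚ)
local notation "conj∞" => complexConjugation

/-- An imaginary quadratic subgroup with its set of ramified primes. -/
structure QuadData (H : Subgroup Γℚ) (S : Finset ℕ) : Prop where
  isOpen : IsOpen (H : Set Γℚ)
  conj_notMem : (conj∞ : Γℚ) ∉ H
  mul_mem : ∀ σ τ : Γℚ, σ ∉ H → τ ∉ H → σ * τ ∈ H
  prime : ∀ q ∈ S, q.Prime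
  unramified : ∀ ℓ : ℕ, ℓ.Prime → ℓ ∉ S → ∀ A : ValuationSubring Qbar, A.LiesOverPrime ℓ →
    ∀ σ ∈ A.inertiaSubgroupIn ℚ, σ ∈ H
  ramified : ∀ q ∈ S, ∃ A : ValuationSubring Qbar, A.LiesOverPrime q ∧
    ∃ σ ∈ A.inertiaSubgroupIn ℚ, σ ∉ H

variable {k : Type*} [Field k] {H : Subgroup Γℚ}

/-- Conjugation invariant additive characters of `H`, locally constant and unramified. -/
structure IsGenusChar (H : Subgroup Γℚ) (b : H → k) : Prop where
  map_mul : ∀ g h : H, b (g * h) = b g + b h
  finiteLevel : ∃ F : IntermediateField ℚ Qbar, FiniteDimensional ℚ F ∧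
    ∀ g : H, (g : Γℚ) ∈ F.fixingSubgroup → b g = 0
  invariant : ∀ g h : H, (h : Γℚ) = (conj∞ : Γℚ) * g * conj∞ → b h = b g
  unramified : ∀ ℓ : ℕ, ℓ.Prime → ∀ A : ValuationSubring Qbar, A.LiesOverPrime ℓ →
    ∀ g : H, (g : Γℚ) ∈ A.inertiaSubgroupIn ℚ → b g = 0

/-- The space of genus characters. -/
def genusSpace (k : Type*) [Field k] (H : Subgroup Γℚ) : Submodule k (H → k) where
  carrier := {b | IsGenusChar H b}
  zero_mem' := ⟨fun _ _ => (add_zero 0).symm, ⟨⊥, inferInstance, fun _ _ => rfl⟩,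
    fun _ _ _ => rfl, fun _ _ _ _ _ _ => rfl⟩
  add_mem' {a b} ha hb := by
    obtain ⟨F, hF, hF'⟩ := ha.finiteLevel
    obtain ⟨G, hG, hG'⟩ := hb.finiteLevel
    refine ⟨fun g h => ?_, ⟨F ⊔ G, IntermediateField.finiteDimensional_sup F G, fun g hg => ?_⟩,
      fun g h e => ?_, fun ℓ hℓ A hA g hg => ?_⟩
    · simp only [Pi.add_apply, ha.map_mul, hb.map_mul]; abel
    · simp only [Pi.add_apply, hF' g (IntermediateField.fixingSubgroup_le le_sup_left hg),
        hG' g (IntermediateField.fixingSubgroup_le le_sup_right hg), add_zero]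
    · simp only [Pi.add_apply, ha.invariant g h e, hb.invariant g h e]
    · simp only [Pi.add_apply, ha.unramified ℓ hℓ A hA g hg, hb.unramified ℓ hℓ A hA g hg,
        add_zero]
  smul_mem' c b hb := by
    obtain ⟨F, hF, hF'⟩ := hb.finiteLevel
    refine ⟨fun g h => ?_, ⟨F, hF, fun g hg => ?_⟩, fun g h e => ?_, fun ℓ hℓ A hA g hg => ?_⟩
    · simp only [Pi.smul_apply, hb.map_mul, smul_add]
    · simp only [Pi.smul_apply, hF' g hg, smul_zero]
    · simp only [Pi.smul_apply, hb.invariant g h e]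
    · simp only [Pi.smul_apply, hb.unramified ℓ hℓ A hA g hg, smul_zero]

theorem map_one {b : H → k} (hb : IsGenusChar H b) : b 1 = 0 := by
  have := hb.map_mul 1 1
  rw [one_mul] at this
  exact left_eq_add.mp this

variable {S : Finset ℕ}

open Classical in
/-- The extension to `Γℚ` vanishing at complex conjugation. -/
noncomputable def extendChar (hQ : QuadData H S) (b : H → k) (σ : Γℚ) : k :=
  if h : σ ∈ H then b ⟨σ, h⟩ else b ⟨σ * conj∞, hQ.mul_mem _ _ h hQ.conj_notMem⟩

theorem extendChar_mul (hQ : QuadData H S) {b : H → k} (hb : IsGenusChar H b) (σ τ : Γℚ) :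
    extendChar hQ b (σ * τ) = extendChar hQ b σ + extendChar hQ b τ := by
  have hc : (conj∞ : Γℚ) * conj∞ = 1 := complexConjugation_mul_self
  by_cases hσ : σ ∈ H <;> by_cases hτ : τ ∈ H
  · have h : σ * τ ∈ H := H.mul_mem hσ hτ
    simp only [extendChar, dif_pos hσ, dif_pos hτ, dif_pos h]
    rw [← hb.map_mul]; rfl
  · have h : σ * τ ∉ H := fun hh => hτ ((H.mul_mem_cancel_left hσ).mp hh)
    simp only [extendChar, dif_pos hσ, dif_neg hτ, dif_neg h]
    rw [← hb.map_mul]
    exact congrArg b (Subtype.ext (mul_assoc σ τ conj∞))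
  · have h : σ * τ ∉ H := fun hh => hσ ((H.mul_mem_cancel_right hτ).mp hh)
    have hcc : (conj∞ : Γℚ) * τ * conj∞ ∈ H := hQ.mul_mem _ _
      (fun hh => hQ.conj_notMem ((H.mul_mem_cancel_right hτ).mp hh)) hQ.conj_notMem
    simp only [extendChar, dif_neg hσ, dif_pos hτ, dif_neg h]
    rw [← hb.invariant ⟨τ, hτ⟩ ⟨_, hcc⟩ rfl, ← hb.map_mul]
    refine congrArg b (Subtype.ext ?_)
    show σ * τ * conj∞ = σ * conj∞ * (conj∞ * τ * conj∞)
    calc σ * τ * (conj∞ : Γℚ) = σ * ((conj∞ : Γℚ) * conj∞) * τ * conj∞ := by rw [hc, mul_one]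
      _ = _ := by group
  · have h : σ * τ ∈ H := hQ.mul_mem _ _ hσ hτ
    have hcc : (conj∞ : Γℚ) * τ ∈ H := hQ.mul_mem _ _ hQ.conj_notMem hτ
    simp only [extendChar, dif_neg hσ, dif_neg hτ, dif_pos h]
    rw [hb.invariant ⟨_, hcc⟩ ⟨_, hQ.mul_mem _ _ hτ hQ.conj_notMem⟩
      (by show τ * (conj∞ : Γℚ) = (conj∞ : Γℚ) * (conj∞ * τ) * conj∞
          rw [← mul_assoc (conj∞ : Γℚ), hc, one_mul]), ← hb.map_mul]
    refine congrArg b (Subtype.ext ?_)
    show σ * τ = σ * conj∞ * (conj∞ * τ)
    calc σ * τ = σ * ((conj∞ : Γℚ) * conj∞) * τ := by rw [hc, mul_one]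
      _ = _ := by group

theorem extendChar_conj (hQ : QuadData H S) {b : H → k} (hb : IsGenusChar H b) :
    extendChar hQ b conj∞ = 0 := by
  simp only [extendChar, dif_neg hQ.conj_notMem]
  rw [← map_one hb]
  exact congrArg b (Subtype.ext complexConjugation_mul_self)

/-- The values of the extension at chosen ramified inertia elements. -/
noncomputable def genusEval (hQ : QuadData H S) :
    genusSpace k H × k →ₗ[k] (S → k) where
  toFun x q := x.1.1 ⟨(hQ.ramified q.1 q.2).choose_spec.2.choose * conj∞,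
    hQ.mul_mem _ _ (hQ.ramified q.1 q.2).choose_spec.2.choose_spec.2 hQ.conj_notMem⟩ + x.2
  map_add' x y := by
    funext q
    simp only [Prod.fst_add, Prod.snd_add, Submodule.coe_add, Pi.add_apply]
    abel
  map_smul' c x := by
    funext q
    simp only [Prod.smul_fst, Prod.smul_snd, Submodule.coe_smul, Pi.smul_apply, smul_eq_mul,
      RingHom.id_apply]
    ring

theorem genusEval_injective [CharP k 2] (hQ : QuadData H S) :
    Function.Injective (genusEval (k := k) hQ) := by
  classical
  rw [injective_iff_map_eq_zero]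
  rintro ⟨⟨b, hb⟩, c⟩ hzero
  let u : Γℚ → k := fun σ => extendChar hQ b σ + if σ ∈ H then 0 else c
  have hu : ∀ σ τ, u (σ * τ) = u σ + u τ := by
    intro σ τ
    simp only [u, extendChar_mul hQ hb]
    by_cases hσ : σ ∈ H <;> by_cases hτ : τ ∈ H
    · simp [hσ, hτ, H.mul_mem hσ hτ]
    · have h : σ * τ ∉ H := fun hh => hτ ((H.mul_mem_cancel_left hσ).mp hh)
      simp [hσ, hτ, h]; ring
    · have h : σ * τ ∉ H := fun hh => hσ ((H.mul_mem_cancel_right hτ).mp hh)
      simp [hσ, hτ, h]; ring
    · have h : σ * τ ∈ H := hQ.mul_mem _ _ hσ hτ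
      simp only [hσ, hτ, h, if_true, if_false]
      linear_combination -(CharTwo.add_self_eq_zero c)
  obtain ⟨F, hF, hF'⟩ := hb.finiteLevel
  obtain ⟨E, hE, -, hEH⟩ := FermatLib.Mazur.exists_galois_level_le H hQ.isOpen
  have : FiniteDimensional ℚ (F ⊔ E : IntermediateField ℚ Qbar) :=
    IntermediateField.finiteDimensional_sup F E
  have hu0 : ∀ σ, u σ = 0 := by
    refine addChar_eq_zero_of_unramified hu (F ⊔ E) (fun σ hσ => ?_) (fun ℓ hℓ => ?_)
    · have h := hEH (IntermediateField.fixingSubgroup_le le_sup_right hσ)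
      simp only [u, extendChar, dif_pos h, if_pos h, add_zero]
      exact hF' ⟨σ, h⟩ (IntermediateField.fixingSubgroup_le le_sup_left hσ)
    by_cases hℓS : ℓ ∈ S
    · have hA := (hQ.ramified ℓ hℓS).choose_spec
      refine ⟨_, hA.1, fun σ hσ => ?_⟩
      obtain ⟨hτ, hτH⟩ := hA.2.choose_spec
      have hval : u hA.2.choose = 0 := by
        simp only [u, extendChar, dif_neg hτH, if_neg hτH]
        exact congrFun hzero ⟨ℓ, hℓS⟩
      by_cases hσH : σ ∈ H
      · simp only [u, extendChar, dif_pos hσH, if_pos hσH, add_zero]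
        exact hb.unramified ℓ hℓ _ hA.1 ⟨σ, hσH⟩ hσ
      · have hmem : σ * hA.2.choose⁻¹ ∈ H :=
          hQ.mul_mem _ _ hσH fun h => hτH (inv_mem_iff.mp h)
        have e := hu (σ * hA.2.choose⁻¹) hA.2.choose
        rw [inv_mul_cancel_right, hval, add_zero] at e
        rw [e]
        simp only [u, extendChar, dif_pos hmem, if_pos hmem, add_zero]
        exact hb.unramified ℓ hℓ _ hA.1 ⟨_, hmem⟩ (mul_mem hσ (inv_mem hτ))
    · obtain ⟨A, hA⟩ := FermatLib.Basic.exists_liesOverPrime hℓ
      refine ⟨A, hA, fun σ hσ => ?_⟩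
      have hσH := hQ.unramified ℓ hℓ hℓS A hA σ hσ
      simp only [u, extendChar, dif_pos hσH, if_pos hσH, add_zero]
      exact hb.unramified ℓ hℓ A hA ⟨σ, hσH⟩ hσ
  have hc : c = 0 := by
    have h := hu0 conj∞
    simpa only [u, extendChar_conj hQ hb, if_neg hQ.conj_notMem, zero_add] using h
  subst hc
  refine Prod.ext (Subtype.ext (funext fun g => ?_)) rfl
  have h := hu0 g
  simp only [u, extendChar, dif_pos g.2, if_pos g.2, add_zero] at h
  exact h

/-- Genus bound: the space is finite-dimensional of dimension less than `#S`. -/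
theorem finrank_genusSpace_lt [CharP k 2] (hQ : QuadData H S) :
    FiniteDimensional k (genusSpace k H) ∧ Module.finrank k (genusSpace k H) + 1 ≤ S.card := by
  have hfin : FiniteDimensional k (genusSpace k H × k) :=
    FiniteDimensional.of_injective _ (genusEval_injective hQ)
  have h1 : FiniteDimensional k (genusSpace k H) :=
    FiniteDimensional.of_injective (LinearMap.inl k (genusSpace k H) k) LinearMap.inl_injective
  refine ⟨h1, ?_⟩
  have h := LinearMap.finrank_le_finrank_of_injective (genusEval_injective (k := k) hQ)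
  rwa [Module.finrank_prod, Module.finrank_self, Module.finrank_pi, Fintype.card_coe] at h

end FermatLib.MLT.Genus
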