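import Fermat.Agent.Mazur.GunitChar
import Fermat.Agent.Mazur.LocalTame
import Fermat.Agent.Galois.CyclotomicFrobenius
import Fermat.Agent.EC.InertiaConjugate
import Mathlib.NumberTheory.LegendreSymbol.Basic
import Mathlib.Algebra.CharP.Two

/-!
# Characters of exponent two ramified at auxiliary primes

An additive character of `Gal(ℚ̄/ℚ)` with values in a finite ring of characteristic two which is
unramified outside odd primes `p j` and vanishes at Frobenius elements of primes `q i` with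
`(q i / p j) = -1` exactly when `i = j` is zero.
-/

set_option autoImplicit false

namespace FermatLib.MLT.Genus

local notation "Qbar" => AlgebraicClosure ℚ
local notation "Γℚ" => (AlgebraicClosure ℚ ≃ₐ[ℚ] AlgebraicClosure ℚ)

variable {k : Type*} [Ring k]

/-- An additive character on `Γℚ` as a homomorphism. -/
def addCharHom (t : Γℚ → k) (ht : ∀ σ τ, t (σ * τ) = t σ + t τ) : Γℚ →* Multiplicative k where
  toFun σ := Multiplicative.ofAdd (t σ)
  map_one' := by
    have := ht 1 1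
    rw [one_mul] at this
    simpa using left_eq_add.mp this
  map_mul' σ τ := by rw [ht]; rfl

theorem addChar_one {t : Γℚ → k} (ht : ∀ σ τ, t (σ * τ) = t σ + t τ) : t 1 = 0 := by
  have := ht 1 1
  rw [one_mul] at this
  exact left_eq_add.mp this

theorem addChar_inv {t : Γℚ → k} (ht : ∀ σ τ, t (σ * τ) = t σ + t τ) (σ : Γℚ) :
    t σ⁻¹ = -t σ := by
  rw [eq_neg_iff_add_eq_zero, ← ht, inv_mul_cancel, addChar_one ht]

theorem addChar_conj {t : Γℚ → k} (ht : ∀ σ τ, t (σ * τ) = t σ + t τ) (g σ : Γℚ) :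
    t (g⁻¹ * σ * g) = t σ := by
  rw [ht, ht, addChar_inv ht]
  abel

/-- Vanishing on one inertia group over `ℓ` gives vanishing on all. -/
theorem addChar_inertia_eq_zero {t : Γℚ → k} (ht : ∀ σ τ, t (σ * τ) = t σ + t τ) {ℓ : ℕ}
    (hℓ : ℓ.Prime) {A : ValuationSubring Qbar} (hA : A.LiesOverPrime ℓ)
    (h : ∀ σ ∈ A.inertiaSubgroupIn ℚ, t σ = 0) {A' : ValuationSubring Qbar}
    (hA' : A'.LiesOverPrime ℓ) {σ : Γℚ} (hσ : σ ∈ A'.inertiaSubgroupIn ℚ) : t σ = 0 := by
  obtain ⟨g, hg⟩ := FermatLib.EC.exists_conj_mem_inertia hℓ A A' hA hA'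
  rw [← addChar_conj ht g σ]
  exact h _ (hg σ hσ)

/-- An additive character unramified everywhere vanishes. -/
theorem addChar_eq_zero_of_unramified {t : Γℚ → k} (ht : ∀ σ τ, t (σ * τ) = t σ + t τ)
    (F : IntermediateField ℚ Qbar) [FiniteDimensional ℚ F]
    (hF : ∀ σ ∈ F.fixingSubgroup, t σ = 0)
    (h : ∀ ℓ : ℕ, ℓ.Prime → ∃ A : ValuationSubring Qbar, A.LiesOverPrime ℓ ∧
      ∀ σ ∈ A.inertiaSubgroupIn ℚ, t σ = 0) (σ : Γℚ) : t σ = 0 := by
  have := FermatLib.EC.monoidHom_eq_one_of_forall_inertia (addCharHom t ht) F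
    (fun τ hτ => by show Multiplicative.ofAdd (t τ) = 1; rw [hF τ hτ]; rfl)
    (fun ℓ hℓ A hA τ hτ => by
      obtain ⟨A₀, hA₀, h₀⟩ := h ℓ hℓ
      show Multiplicative.ofAdd (t τ) = 1
      rw [addChar_inertia_eq_zero ht hℓ hA₀ h₀ hA hτ]; rfl)
  exact Multiplicative.ofAdd.injective (DFunLike.congr_fun this σ)

variable (p : ℕ) [Fact p.Prime]

/-- The quadratic character of conductor `p`, with values `0`, `1`. -/
noncomputable def legendreChar (σ : Γℚ) : k :=
  if quadraticChar (ZMod p) ((ExtCitation.cycloChar p σ : (ZMod p)ˣ) : ZMod p) = -1 then 1 else 0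

theorem legendreChar_mul [CharP k 2] (σ τ : Γℚ) :
    (legendreChar p (σ * τ) : k) = legendreChar p σ + legendreChar p τ := by
  simp only [legendreChar, map_mul, Units.val_mul]
  rcases quadraticChar_dichotomy (F := ZMod p) (ExtCitation.cycloChar p σ).ne_zero with h | h <;>
    rcases quadraticChar_dichotomy (F := ZMod p) (ExtCitation.cycloChar p τ).ne_zero with h' | h' <;>
    simp [h, h', CharTwo.add_self_eq_zero]

theorem legendreChar_inertia {ℓ : ℕ} (hℓ : ℓ.Prime) (hℓp : ℓ ≠ p) {A : ValuationSubring Qbar}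
    (hA : A.LiesOverPrime ℓ) {σ : Γℚ} (hσ : σ ∈ A.inertiaSubgroupIn ℚ) :
    (legendreChar p σ : k) = 0 := by
  have : NeZero p := ⟨(Fact.out : p.Prime).ne_zero⟩
  have h : FermatLib.Galois.modCycloChar p σ = 1 := FermatLib.Galois.modCycloChar_inertia hℓ
    (fun h => hℓp ((Nat.prime_dvd_prime_iff_eq hℓ Fact.out).mp h)) hA hσ
  rw [FermatLib.Galois.modCycloChar_eq_cycloChar] at h
  simp [legendreChar, h]

theorem legendreChar_frobenius {q : ℕ} (hq : q.Prime) (hqp : q ≠ p) {A : ValuationSubring Qbar}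
    (hA : A.LiesOverPrime q) {σ : Γℚ} (hσ : A.IsFrobeniusAt σ q) :
    (legendreChar p σ : k) = if legendreSym p q = -1 then 1 else 0 := by
  have : NeZero p := ⟨(Fact.out : p.Prime).ne_zero⟩
  have h : ((FermatLib.Galois.modCycloChar p σ : (ZMod p)ˣ) : ZMod p) = q :=
    FermatLib.Galois.modCycloChar_frobenius hq
      (fun h => hqp ((Nat.prime_dvd_prime_iff_eq hq Fact.out).mp h)) hA hσ
  rw [FermatLib.Galois.modCycloChar_eq_cycloChar] at h
  simp [legendreChar, h, legendreSym]

theorem exists_inertia_legendreChar_eq_one (hp : p ≠ 2) {A : ValuationSubring Qbar}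
    (hA : A.LiesOverPrime p) :
    ∃ σ ∈ A.inertiaSubgroupIn ℚ, (legendreChar p σ : k) = 1 := by
  obtain ⟨a, ha⟩ := quadraticChar_exists_neg_one (F := ZMod p) (by rwa [ringChar.eq (ZMod p) p])
  have ha0 : a ≠ 0 := by rintro rfl; simp at ha
  obtain ⟨σ, hσ, hχ⟩ := FermatLib.Galois.exists_inertia_cycloChar_eq hA (Units.mk0 a ha0)
  exact ⟨σ, hσ, by simp [legendreChar, hχ, ha]⟩

theorem exists_finite_level_legendreChar :
    ∃ F : IntermediateField ℚ Qbar, FiniteDimensional ℚ F ∧
      ∀ σ ∈ F.fixingSubgroup, (legendreChar p σ : k) = 0 := by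
  have : NeZero p := ⟨(Fact.out : p.Prime).ne_zero⟩
  obtain ⟨F, hF, h⟩ := FermatLib.Galois.exists_finite_level_modCycloChar p
  refine ⟨F, hF, fun σ hσ => ?_⟩
  have h' := h σ hσ
  rw [FermatLib.Galois.modCycloChar_eq_cycloChar] at h'
  simp [legendreChar, h']

omit [Ring k] [Fact p.Prime] in
/-- On inertia at an odd prime, a character of exponent two is a multiple of the Legendre one. -/
theorem exists_inertia_eq_mul_legendreChar [Finite k] [Ring k] [CharP k 2] [Fact p.Prime]
    (hp : p ≠ 2) {t : Γℚ → k} (ht : ∀ σ τ, t (σ * τ) = t σ + t τ) (F : IntermediateField ℚ Qbar)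
    [FiniteDimensional ℚ F] (hF : ∀ σ ∈ F.fixingSubgroup, t σ = 0) {A : ValuationSubring Qbar}
    (hA : A.LiesOverPrime p) :
    ∃ l : k, ∀ σ ∈ A.inertiaSubgroupIn ℚ, t σ = l * legendreChar p σ := by
  obtain ⟨F', hF', hL⟩ := exists_finite_level_legendreChar (k := k) p
  have hχ : ∀ σ τ : Γℚ, (legendreChar p (σ * τ) : k) = legendreChar p σ + legendreChar p τ :=
    legendreChar_mul p
  let ψ : A.inertiaSubgroupIn ℚ →* Multiplicative k × Multiplicative k :=
    ((addCharHom t ht).prod (addCharHom _ hχ)).comp (A.inertiaSubgroupIn ℚ).subtype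
  have : FiniteDimensional ℚ (F ⊔ F' : IntermediateField ℚ Qbar) :=
    IntermediateField.finiteDimensional_sup F F'
  obtain ⟨τ, hτ, -⟩ := FermatLib.Mazur.exists_tame_generator Nat.prime_two (Fact.out : p.Prime)
    (Ne.symm hp) hA ψ (fun σ => ⟨1, by
      rw [pow_one, pow_two]
      exact Prod.ext (congrArg Multiplicative.ofAdd (CharTwo.add_self_eq_zero (t σ)))
        (congrArg Multiplicative.ofAdd (CharTwo.add_self_eq_zero (legendreChar p (σ : Γℚ) : k)))⟩)
    (F ⊔ F').fixingSubgroup (IntermediateField.fixingSubgroup_isOpen _)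
    (fun σ hσ => Prod.ext
      (congrArg Multiplicative.ofAdd (hF σ (IntermediateField.fixingSubgroup_le le_sup_left hσ)))
      (congrArg Multiplicative.ofAdd (hL σ (IntermediateField.fixingSubgroup_le le_sup_right hσ))))
  have key : ∀ σ : A.inertiaSubgroupIn ℚ, ∃ n : ℤ, t σ = n • t τ ∧
      (legendreChar p (σ : Γℚ) : k) = n • legendreChar p (τ : Γℚ) := by
    intro σ
    obtain ⟨n, hn⟩ := hτ σ
    exact ⟨n, (congrArg (fun z => Multiplicative.toAdd (Prod.fst z)) hn).symm,
      (congrArg (fun z => Multiplicative.toAdd (Prod.snd z)) hn).symm⟩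
  obtain ⟨σ₁, hσ₁, h1⟩ := exists_inertia_legendreChar_eq_one (k := k) p hp hA
  have : Nontrivial k := CharP.nontrivial_of_char_ne_one (v := 2) (by norm_num)
  have hone : (legendreChar p (τ : Γℚ) : k) = 1 := by
    obtain ⟨n, -, hn⟩ := key ⟨σ₁, hσ₁⟩
    rw [h1] at hn
    by_cases h : quadraticChar (ZMod p)
        ((ExtCitation.cycloChar p (τ : Γℚ) : (ZMod p)ˣ) : ZMod p) = -1
    · simp [legendreChar, h]
    · simp only [legendreChar, if_neg h, zsmul_zero] at hn
      exact absurd hn one_ne_zero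
  refine ⟨t τ, fun σ hσ => ?_⟩
  obtain ⟨n, hn1, hn2⟩ := key ⟨σ, hσ⟩
  rw [hn1, hn2, hone, mul_smul_comm, mul_one]

/-- A character ramified only at `p j` and vanishing at Frobenius elements of `q i`, where
`(q i / p j)` is `-1` exactly for `i = j`, is zero. -/
theorem addChar_eq_zero_of_legendre_dual {k : Type*} [Ring k] [Finite k] [CharP k 2]
    {ι : Type*} [Fintype ι] [DecidableEq ι] (p q : ι → ℕ) (hp : ∀ j, (p j).Prime)
    (hp2 : ∀ j, p j ≠ 2) (hq : ∀ i, (q i).Prime)
    (hpq : ∀ i j, q i ≠ p j)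
    (hdual : ∀ i j, @legendreSym (p j) ⟨hp j⟩ (q i : ℤ) = if i = j then -1 else 1)
    (t : Γℚ → k) (ht : ∀ σ τ, t (σ * τ) = t σ + t τ)
    (F : IntermediateField ℚ Qbar) [FiniteDimensional ℚ F]
    (hF : ∀ σ ∈ F.fixingSubgroup, t σ = 0)
    (hunr : ∀ ℓ : ℕ, ℓ.Prime → (∀ j, ℓ ≠ p j) → ∃ A : ValuationSubring Qbar, A.LiesOverPrime ℓ ∧
      ∀ σ ∈ A.inertiaSubgroupIn ℚ, t σ = 0)
    (hfrob : ∀ i, ∃ A : ValuationSubring Qbar, A.LiesOverPrime (q i) ∧
      ∃ σ : Γℚ, A.IsFrobeniusAt σ (q i) ∧ t σ = 0)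
    (σ : Γℚ) : t σ = 0 := by
  classical
  have hF' : ∀ j, Fact (p j).Prime := fun j => ⟨hp j⟩
  have hinj : Function.Injective p := by
    intro i j hij
    by_contra hne
    have h1 := hdual i i
    have h2 := hdual i j
    simp only [if_true, if_neg hne] at h1 h2
    revert h2
    generalize hF' j = inst
    intro h2
    have e : ∀ (a b : ℕ) (ha : Fact a.Prime) (hb : Fact b.Prime), a = b →
        @legendreSym a ha (q i : ℤ) = @legendreSym b hb (q i : ℤ) := by
      intro a b ha hb hab; subst hab; rfl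
    rw [e (p i) (p j) ⟨hp i⟩ ⟨hp j⟩ hij, h2] at h1
    omega
  have hA : ∀ j, ∃ A : ValuationSubring Qbar, A.LiesOverPrime (p j) :=
    fun j => FermatLib.Basic.exists_liesOverPrime (hp j)
  choose A hA using hA
  choose l hl using fun j =>
    exists_inertia_eq_mul_legendreChar (p j) (hp2 j) ht F hF (hA j)
  let u : Γℚ → k := fun σ => t σ - ∑ j, l j * legendreChar (p j) σ
  have hu : ∀ σ τ, u (σ * τ) = u σ + u τ := by
    intro σ τ
    simp only [u, ht, legendreChar_mul, mul_add, Finset.sum_add_distrib]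
    abel
  choose G hG hGz using fun j => exists_finite_level_legendreChar (k := k) (p j)
  have : ∀ j, FiniteDimensional ℚ (G j) := hG
  have : FiniteDimensional ℚ (F ⊔ ⨆ j, G j : IntermediateField ℚ Qbar) :=
    IntermediateField.finiteDimensional_sup F (⨆ j, G j)
  have hu0 : ∀ σ, u σ = 0 := by
    refine addChar_eq_zero_of_unramified hu (F ⊔ ⨆ j, G j) (fun σ hσ => ?_) (fun ℓ hℓ => ?_)
    · have h1 := hF σ (IntermediateField.fixingSubgroup_le le_sup_left hσ)
      have h2 : ∀ j, (legendreChar (p j) σ : k) = 0 := fun j => hGz j σ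
        (IntermediateField.fixingSubgroup_le ((le_iSup G j).trans le_sup_right) hσ)
      simp [u, h1, h2]
    by_cases h : ∃ j, ℓ = p j
    · obtain ⟨j, rfl⟩ := h
      refine ⟨A j, hA j, fun σ hσ => ?_⟩
      simp only [u]
      rw [Finset.sum_eq_single j, hl j σ hσ, sub_self]
      · intro i _ hij
        rw [legendreChar_inertia (p i) hℓ (fun e => hij (hinj e.symm)) (hA j) hσ, mul_zero]
      · intro hj; exact absurd (Finset.mem_univ j) hj
    · push Not at h
      obtain ⟨A', hA', h'⟩ := hunr ℓ hℓ h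
      refine ⟨A', hA', fun σ hσ => ?_⟩
      simp only [u, h' σ hσ, zero_sub, neg_eq_zero]
      exact Finset.sum_eq_zero fun j _ => by
        rw [legendreChar_inertia (p j) hℓ (h j) hA' hσ, mul_zero]
  have hl0 : ∀ i, l i = 0 := by
    intro i
    obtain ⟨A', hA', τ, hτ, hτ0⟩ := hfrob i
    have h := hu0 τ
    simp only [u, hτ0, zero_sub, neg_eq_zero] at h
    rw [Finset.sum_eq_single i] at h
    · rw [legendreChar_frobenius (p i) (hq i) (hpq i i) hA' hτ, hdual i i] at h
      simpa using h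
    · intro j _ hji
      rw [legendreChar_frobenius (p j) (hq i) (hpq i j) hA' hτ, hdual i j, if_neg (Ne.symm hji)]
      norm_num
    · intro hi; exact absurd (Finset.mem_univ i) hi
  have h := hu0 σ
  simpa [u, hl0] using h

end FermatLib.MLT.Genus
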