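import Fermat.Agent.MLT.BettiLevelIdent
import Fermat.Agent.MLT.Two.ModuleBase
import Fermat.Agent.Modular.HeckeAction
import Fermat.Agent.Modular.HeckeFinite
import Fermat.Agent.Modular.Ihara.Hecke
import Fermat.Agent.Galois.EigenformCharacter
import Fermat.Agent.Galois.TransferFaithful
import Fermat.Prelude.Def_FLTPrelim_ModularRep
import Mathlib.RingTheory.Ideal.AssociatedPrime.Finiteness
import Mathlib.RingTheory.Finiteness.Basic
import Mathlib.LinearAlgebra.Charpoly.Basic

/-!
# The level `L` module is nonzero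

A residual eigen system of level `N ∣ L` gives a cuspidal homomorphism `Γ₀(N) → 𝔽_p` with integer
eigenvalues; its restriction to `Γ₀(L)` is nonzero because the kernel of restriction is
Eisenstein.
-/

set_option autoImplicit false

noncomputable section

open scoped MatrixGroups
open CongruenceSubgroup

namespace FermatLib.MLT.Two

open FermatLib.Modular

local notation "M2Z" => Matrix (Fin 2) (Fin 2) ℤ

section Classes

variable (A : Type) [CommRing A] {L : ℕ} {V : Type} [AddCommGroup V] [Module A V]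

theorem mem_bettiCocycles_of_hom {φ : Additive (Gamma0 L) →+ V} (hφ : IsCuspidalHom φ) :
    (fun γ => φ (Additive.ofMul γ)) ∈
      bettiCocycles (Gamma0 L) (nebenChar (1 : (ZMod L)ˣ →* Aˣ)) V := by
  refine ⟨fun γ δ => ?_, fun γ hγ => hφ γ ?_⟩
  · simp [nebenChar_one, map_add]
  · rw [hγ]; simp

/-- The class of a cuspidal homomorphism. -/
def cuspClass : cuspidalHoms ℤ (Gamma0 L) V →+ BettiMod L (1 : (ZMod L)ˣ →* Aˣ) V where
  toFun φ := BettiMod.mk ⟨fun γ => φ.1 (Additive.ofMul γ), mem_bettiCocycles_of_hom A φ.2⟩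
  map_zero' := map_zero BettiMod.mk
  map_add' φ ψ := map_add BettiMod.mk
    (⟨_, mem_bettiCocycles_of_hom A φ.2⟩ : bettiCocycles (Gamma0 L) (nebenChar 1) V)
    ⟨_, mem_bettiCocycles_of_hom A ψ.2⟩

theorem cuspClass_injective : Function.Injective (cuspClass A (L := L) (V := V)) := by
  rw [injective_iff_map_eq_zero]
  intro φ hφ
  obtain ⟨v, hv⟩ := BettiMod.mk_eq_zero.1 hφ
  refine Subtype.ext (AddMonoidHom.ext fun g => ?_)
  have := hv (Additive.toMul g)
  simpa [nebenChar_one] using this.symm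

theorem cuspClass_heckeCuspOp (l : Nat.Primes) (φ : cuspidalHoms ℤ (Gamma0 L) V) :
    cuspClass A (heckeCuspOp ℤ V L l φ) =
      (MvPolynomial.X l : BettiHeckeAlg A) • cuspClass A φ := by
  show BettiMod.mk _ = (MvPolynomial.X l : BettiHeckeAlg A) • BettiMod.mk _
  rw [BettiMod.X_smul_mk]
  refine congrArg BettiMod.mk (Subtype.ext (funext fun γ => ?_))
  rw [CosetSystem.transferCocycles_apply]
  show heckeHomOp L ℤ V l φ.1 (Additive.ofMul γ) = _
  rw [heckeHomOp_apply]
  refine Finset.sum_congr rfl fun x _ => ?_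
  have he : (bettiHeckeSystem L l).elt γ x = (heckeSystem L l).elt γ x :=
    ((bettiHeckeSystem L l).next_elt_eq_of_eq ((heckeSystem L l).rep_mul γ x)).2
  simp [heckeWeight, he]

end Classes

section Restriction

variable {N L : ℕ} {A : Type} [AddCommGroup A]

/-- Restriction of cuspidal homomorphisms to a deeper level. -/
def cuspRes (h : N ∣ L) : cuspidalHoms ℤ (Gamma0 N) A →+ cuspidalHoms ℤ (Gamma0 L) A where
  toFun φ := ⟨φ.1.comp (MonoidHom.toAdditive (gamma0Incl h)),
    fun γ hγ => φ.2 (gamma0Incl h γ) hγ⟩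
  map_zero' := rfl
  map_add' _ _ := rfl

/-- The indices of `T l` at levels `L` and `N`, `l ∤ L`. -/
def idxDown (h : N ∣ L) {l : Nat.Primes} (hl : ¬ (l : ℕ) ∣ L) : HeckeIdx L l ≃ HeckeIdx N l :=
  Equiv.subtypeEquivRight fun _ => imp_congr_right fun _ =>
    iff_of_true hl fun h' => hl (h'.trans h)

theorem cuspRes_heckeCuspOp (h : N ∣ L) {l : Nat.Primes} (hl : ¬ (l : ℕ) ∣ L)
    (φ : cuspidalHoms ℤ (Gamma0 N) A) :
    heckeCuspOp ℤ A L l (cuspRes h φ) = cuspRes h (heckeCuspOp ℤ A N l φ) := by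
  refine Subtype.ext ?_
  show heckeHomOp L ℤ A l (φ.1.comp _) = (heckeHomOp N ℤ A l φ.1).comp _
  exact (heckeSystem L l).op_comp ℤ (heckeSystem N l) (gamma0Incl h) 1 (by simp)
    (fun γ => by simp) (idxDown h hl) (fun _ => 1)
    (fun x => by simp [heckeSystem_rep, idxDown]) φ.1

/-- Eigenclasses killed by restriction are Eisenstein. -/
theorem eq_smul_of_cuspRes_eq_zero (h : N ∣ L) {l : Nat.Primes} (hlN : ¬ (l : ℕ) ∣ N)
    (hl : ((l : ℕ) : ZMod L) = 1) {φ : cuspidalHoms ℤ (Gamma0 N) A} (hφ : cuspRes h φ = 0) :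
    heckeCuspOp ℤ A N l φ = ((l : ℕ) + 1) • φ := by
  refine Subtype.ext ?_
  show heckeHomOp N ℤ A l φ.1 = ((l : ℕ) + 1) • φ.1
  refine Ihara.heckeHomOp_eq_of_vanishing l hlN hl fun γ hγ => ?_
  have hγ0 : (γ : SL(2, ℤ)) ∈ Gamma0 L := by
    rw [Gamma0_mem]
    exact (Gamma_mem.1 hγ).2.2.1
  have := DFunLike.congr_fun (congrArg Subtype.val hφ) (Additive.ofMul (⟨γ, hγ0⟩ : Gamma0 L))
  exact this

end Restriction

section Residual

variable {N : ℕ} [NeZero N] {p : ℕ} [Fact p.Prime]

/-- A residual character is carried by a cuspidal homomorphism with values in `ZMod p`. -/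
theorem exists_cuspidalHom_zmod {k : Type} [Field k] [CharP k p]
    (ψ : CuspForm.heckeAlgebra N 2 ∅ →+* k) :
    ∃ w : cuspidalHoms ℤ (Gamma0 N) (ZMod p), w ≠ 0 ∧
      ∀ t, ψ t = 0 → heckeCuspAct N ℤ (ZMod p) t w = 0 := by
  let T := ↥(CuspForm.heckeAlgebra N 2 (∅ : Set ℕ))
  have hTfin : Module.Finite ℤ T := heckeAlgebra_moduleFinite N 2 ∅
  have : IsNoetherianRing T := IsNoetherianRing.of_finite ℤ T
  set W := cuspidalHoms ℤ (Gamma0 N) (ZMod p)
  letI : Module T W := Module.compHom W (heckeCuspAct N ℤ (ZMod p))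
  have hsmul : ∀ (t : T) (w : W), t • w = heckeCuspAct N ℤ (ZMod p) t w := fun _ _ => rfl
  have : Finite W := Finite.of_equiv _ (cuspidalHomsEquiv N ℤ (ZMod p)).symm.toEquiv
  have : Module.Finite T W := Module.Finite.of_finite
  -- the annihilator lies in the kernel of `ψ`
  have hann : Module.annihilator T W ≤ RingHom.ker ψ := by
    intro t ht
    have : Module.Finite ℤ (cuspidalHoms ℤ (Gamma0 N) ℤ) := Galois.moduleFinite_cuspidalHoms_int
    let act := heckeCuspAct N ℤ ℤ
    have hdiv : LinearMap.range (act t) ≤ Ideal.span {(p : ℤ)} •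
        (⊤ : Submodule ℤ (cuspidalHoms ℤ (Gamma0 N) ℤ)) := by
      rintro _ ⟨φ, rfl⟩
      obtain ⟨ψ', hψ'⟩ := Galois.exists_eq_nsmul_of_forall_dvd (Fact.out : p.Prime).ne_zero
        (act t φ) fun g => by
        have h0 := Module.mem_annihilator.1 ht
          ⟨(Int.castAddHom (ZMod p)).comp φ.1, φ.2.comp _⟩
        rw [hsmul] at h0
        have h1 := coe_heckeCuspAct_comp (R := ℤ) t (Int.castAddHom (ZMod p)) φ
        rw [h0] at h1
        exact (ZMod.intCast_zmod_eq_zero_iff_dvd _ p).1 (DFunLike.congr_fun h1 g).symm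
      rw [hψ', ← Nat.cast_smul_eq_nsmul ℤ]
      exact Submodule.smul_mem_smul (Ideal.mem_span_singleton_self _) Submodule.mem_top
    obtain ⟨P, hPm, -, hPc, hP⟩ :=
      LinearMap.exists_monic_and_natDegree_eq_and_coeff_mem_pow_and_aeval_eq_zero
        ℤ (act t) (Ideal.span {(p : ℤ)}) hdiv
    have hPt : Polynomial.aeval t P = 0 := heckeCuspAct_injective N ℤ ℤ (by
      rw [map_zero, ← hP, Polynomial.aeval_def, Polynomial.aeval_def, Polynomial.hom_eval₂]
      congr 1
      exact RingHom.ext_int _ _)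
    have hψP : Polynomial.aeval (ψ t) P = 0 := by
      rw [show ψ t = ψ.toIntAlgHom t from rfl, Polynomial.aeval_algHom_apply, hPt, map_zero]
    rw [Polynomial.aeval_eq_sum_range, Finset.sum_eq_single P.natDegree] at hψP
    · rw [hPm.coeff_natDegree, one_smul] at hψP
      exact RingHom.mem_ker.2 (pow_eq_zero_iff' |>.1 hψP).1
    · intro i hi hne
      have hlt : i < P.natDegree := by
        have := Finset.mem_range.1 hi
        omega
      obtain ⟨c, hc⟩ := Ideal.mem_span_singleton.1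
        (Ideal.pow_le_self (Nat.sub_ne_zero_of_lt hlt) (hPc i))
      rw [hc, zsmul_eq_mul]
      simp [CharP.cast_eq_zero]
    · intro h
      simp at h
  -- so the kernel is an associated prime
  have hprime : (RingHom.ker ψ).IsPrime := RingHom.ker_isPrime ψ
  have hpmem : (p : T) ∈ Module.annihilator T W := by
    refine Module.mem_annihilator.2 fun w => ?_
    rw [Nat.cast_smul_eq_nsmul]
    refine Subtype.ext (AddMonoidHom.ext fun g => ?_)
    simp
  have hmin : RingHom.ker ψ ∈ (Module.annihilator T W).minimalPrimes := by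
    refine ⟨⟨hprime, hann⟩, fun P hP hle => ?_⟩
    have := hP.1
    have : Module.Finite ℤ (T ⧸ P) :=
      Module.Finite.of_surjective (Ideal.Quotient.mkₐ ℤ P).toLinearMap Ideal.Quotient.mk_surjective
    have hfin : Finite (T ⧸ P) := by
      refine Module.finite_of_fg_torsion _ fun x => ⟨⟨(p : ℤ), mem_nonZeroDivisors_of_ne_zero
        (by exact_mod_cast (Fact.out : p.Prime).ne_zero)⟩, ?_⟩
      show (p : ℤ) • x = 0
      rw [zsmul_eq_mul, Int.cast_natCast, ← map_natCast (Ideal.Quotient.mk P),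
        (Ideal.Quotient.eq_zero_iff_mem.2 (hP.2 hpmem)), zero_mul]
    have : P.IsMaximal :=
      Ideal.Quotient.maximal_of_isField P (Finite.isField_of_domain (T ⧸ P))
    exact (this.eq_of_le hprime.ne_top hle).ge
  obtain ⟨-, w, hw⟩ := isAssociatedPrime_iff.1
    (Module.associatedPrimes.minimalPrimes_annihilator_subset_associatedPrimes T W hmin)
  refine ⟨w, ?_, fun t ht => ?_⟩
  · rintro rfl
    refine hprime.ne_top ((Ideal.eq_top_iff_one _).2 ?_)
    rw [hw, Submodule.mem_colon_singleton, smul_zero]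
    exact Submodule.zero_mem _
  · have : t ∈ RingHom.ker ψ := RingHom.mem_ker.2 ht
    rwa [hw, Submodule.mem_colon_singleton, Submodule.mem_bot, hsmul] at this

end Residual

end FermatLib.MLT.Two

end
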