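import Fermat.Agent.MLT.Two.Defs
import Fermat.Agent.Galois.EigenformCharacter
import Fermat.Agent.Modular.HeckeFinite
import Mathlib.Algebra.Polynomial.Roots

/-!
# V4-Sys: a polynomial separating the system from level `N`
-/

set_option autoImplicit false

noncomputable section

open CongruenceSubgroup ModularFormClass

namespace FermatLib.MLT.Two

/-- A module-finite ring over `ℤ` has finitely many characters in a domain. -/
theorem finite_ringHom_of_moduleFinite (T C : Type) [CommRing T] [Module.Finite ℤ T] [CommRing C]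
    [IsDomain C] [CharZero C] : Finite (T →+* C) := by
  classical
  obtain ⟨s, hs⟩ := (Module.Finite.fg_top : (⊤ : Submodule ℤ T).FG)
  choose p hmon hroot using fun t : T => Algebra.IsIntegral.isIntegral (R := ℤ) t
  let R : s → Set C := fun t => {z | ((p t).map (Int.castRingHom C)).IsRoot z}
  have hR : ∀ t, (R t).Finite := fun t =>
    Polynomial.finite_setOfPred_isRoot ((hmon t).map (Int.castRingHom C)).ne_zero
  have : ∀ t, Finite (R t) := fun t => (hR t).to_subtype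
  let f : (T →+* C) → ∀ t : s, R t := fun χ t => ⟨χ t, by
    show ((p t).map (Int.castRingHom C)).eval (χ t) = 0
    rw [Polynomial.eval_map, RingHom.ext_int (Int.castRingHom C) (χ.comp (algebraMap ℤ T)),
      ← Polynomial.hom_eval₂, hroot, map_zero]⟩
  refine Finite.of_injective f fun χ ψ h => RingHom.ext fun x => ?_
  have hx : x ∈ Submodule.span ℤ (s : Set T) := hs ▸ Submodule.mem_top
  induction hx using Submodule.span_induction with
  | mem x hx => exact congrArg Subtype.val (congrFun h ⟨x, hx⟩)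
  | zero => simp
  | add x y _ _ hx hy => simp [hx, hy]
  | smul n x _ hx => simp [hx]

variable {O : Type} [CommRing O] {k : Type} [Field k] (S : System O k)

theorem exists_levelPolynomial_aux (hno : ¬ HasLevelEigenform S) :
    ∃ (B : ℕ) (pol : MvPolynomial ℕ ℤ), IsLevelPolynomial S B pol := by
  classical
  set N := S.anchor.N
  have : NeZero N := ⟨S.anchor.squarefree.ne_zero⟩
  let T := ↥(CuspForm.heckeAlgebra N 2 (∅ : Set ℕ))
  have : Module.Finite ℤ T := Modular.heckeAlgebra_moduleFinite N 2 ∅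
  have := finite_ringHom_of_moduleFinite T ℂ
  let good : Set ℕ := {ℓ | ℓ.Prime ∧ ¬ ℓ ∣ 2 * N}
  let val : (T →+* ℂ) → ℕ → ℂ := fun χ ℓ =>
    if h : ℓ.Prime ∧ ¬ ℓ ∣ N then χ (CuspForm.heckeAlgebra.T h.1 h.2 (Set.notMem_empty ℓ)) else 0
  let bad : Set (T →+* ℂ) := {χ | ∃ ℓ ∈ good, val χ ℓ ≠ (S.ap ℓ : ℂ)}
  have hbad : bad.Finite := Set.toFinite _
  have hwit : ∀ χ : bad, ∃ (ℓ : ℕ) (p : Polynomial ℤ), ℓ ∈ good ∧
      p.eval (S.ap ℓ) ≠ 0 ∧ Polynomial.aeval (val χ.1 ℓ) p = 0 := by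
    rintro ⟨χ, ℓ, hℓ, hne⟩
    have hN : ℓ.Prime ∧ ¬ ℓ ∣ N := ⟨hℓ.1, fun h => hℓ.2 (h.mul_left 2)⟩
    have hint : IsIntegral ℤ (val χ ℓ) := by
      simp only [val, dif_pos hN]
      exact (Algebra.IsIntegral.isIntegral (R := ℤ) _).map χ.toIntAlgHom
    refine ⟨ℓ, minpoly ℤ (val χ ℓ), hℓ, fun h0 => hne ?_, minpoly.aeval ℤ _⟩
    have hdvd : Polynomial.X - Polynomial.C (S.ap ℓ) ∣ minpoly ℤ (val χ ℓ) :=
      Polynomial.dvd_iff_isRoot.mpr h0
    have heq := Polynomial.eq_of_monic_of_associated (Polynomial.monic_X_sub_C (S.ap ℓ))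
      (minpoly.monic hint) (associated_of_dvd_dvd hdvd
        (((minpoly.irreducible hint).dvd_iff.mp hdvd).resolve_left
          (Polynomial.not_isUnit_X_sub_C _)).dvd)
    have := minpoly.aeval ℤ (val χ ℓ)
    rw [← heq] at this
    simpa [sub_eq_zero] using this
  choose L P hL hP hP0 using hwit
  have : Fintype bad := hbad.fintype
  let pol : MvPolynomial ℕ ℤ := ∏ χ : bad, Polynomial.aeval (MvPolynomial.X (L χ)) (P χ)
  refine ⟨∑ χ : bad, L χ, pol, ?_, ?_, fun f hf => ?_⟩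
  · intro ℓ hℓ
    obtain ⟨χ, hχ⟩ : ∃ χ : bad, ℓ = L χ := by
      obtain ⟨χ, -, hχ⟩ := Finset.mem_biUnion.mp (MvPolynomial.vars_prod _ hℓ)
      refine ⟨χ, ?_⟩
      have hsub : (Polynomial.aeval (MvPolynomial.X (L χ) : MvPolynomial ℕ ℤ) (P χ)).vars ⊆ {L χ} := by
        rw [Polynomial.aeval_eq_sum_range]
        refine (MvPolynomial.vars_sum_subset _ _).trans (Finset.biUnion_subset.mpr fun i _ => ?_)
        rw [zsmul_eq_mul]
        refine (MvPolynomial.vars_mul _ _).trans (Finset.union_subset (by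
          rw [← map_intCast (MvPolynomial.C : ℤ →+* MvPolynomial ℕ ℤ), MvPolynomial.vars_C]
          exact Finset.empty_subset _) ((MvPolynomial.vars_pow _ i).trans (by
          rw [MvPolynomial.vars_X])))
      simpa using hsub hχ
    refine ⟨hχ ▸ (hL χ).1, hχ ▸ (hL χ).2, ?_⟩
    rw [hχ]
    exact Finset.single_le_sum (f := L) (fun _ _ => Nat.zero_le _) (Finset.mem_univ χ)
  · rw [map_prod]
    refine Finset.prod_ne_zero_iff.mpr fun χ _ => ?_
    have h := hP χ
    rw [← MvPolynomial.coe_aeval_eq_eval]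
    show MvPolynomial.aeval S.ap (Polynomial.aeval (MvPolynomial.X (L χ)) (P χ)) ≠ 0
    rwa [← Polynomial.aeval_algHom_apply, MvPolynomial.aeval_X, Polynomial.coe_aeval_eq_eval]
  · obtain ⟨ξ, -, hξT, -⟩ := Galois.exists_eigenformCharacter (S := (∅ : Set ℕ)) hf
    let χ : T →+* ℂ := (integralClosure ℤ ℂ).val.toRingHom.comp ξ
    have hval : ∀ ℓ, ℓ ∈ good → val χ ℓ = qCoeff f ℓ := fun ℓ hℓ => by
      have hN : ℓ.Prime ∧ ¬ ℓ ∣ N := ⟨hℓ.1, fun h => hℓ.2 (h.mul_left 2)⟩
      simp only [val, dif_pos hN]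
      exact hξT ℓ hN.1 hN.2 _
    have hχ : χ ∈ bad := by
      by_contra hχ
      refine hno ⟨f, ∅, hf, fun ℓ hp hd _ => ?_⟩
      by_contra hne
      exact hχ ⟨ℓ, ⟨hp, hd⟩, by rwa [hval ℓ ⟨hp, hd⟩]⟩
    rw [map_prod]
    refine Finset.prod_eq_zero (Finset.mem_univ ⟨χ, hχ⟩) ?_
    rw [← Polynomial.aeval_algHom_apply, MvPolynomial.aeval_X, ← hval _ (hL _)]
    exact hP0 ⟨χ, hχ⟩

end FermatLib.MLT.Two

end
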