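import Fermat.Agent.MLT.Two.AuxHecke
import Fermat.Agent.MLT.Two.LevelPolynomial
import Fermat.Agent.MLT.Two.Hecke.Assembly

/-!
# V4-Module and V4-Sys: construction of the Hecke module at an auxiliary level
-/

set_option autoImplicit false

namespace FermatLib.MLT.Two

variable {O : Type} [CommRing O] [IsDomain O] [IsDiscreteValuationRing O]
  [IsAdicComplete (IsLocalRing.maximalIdeal O) O] [CharZero O]
  {k : Type} [Field k] [Finite k] (S : System O k)

/-- Without an eigenform of level `N` some polynomial separates the system from level `N`. -/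
theorem exists_levelPolynomial (hno : ¬ HasLevelEigenform S) :
    ∃ (B : ℕ) (pol : MvPolynomial ℕ ℤ), IsLevelPolynomial S B pol := by
  exact exists_levelPolynomial_aux S hno

/-- The Hecke module at every depth. -/
theorem nonempty_auxHecke (hmod : IsResidModular S) {B : ℕ} {pol : MvPolynomial ℕ ℤ}
    (hpol : IsLevelPolynomial S B pol) {ι : Type} [Fintype ι] [DecidableEq ι] {n : ℕ} (hn : 2 ≤ n)
    {P : ι → AuxPlace} (hP : IsDepth S n P) (hB : ∀ i, B < (P i).q) :
    Nonempty (AuxHecke S n P pol) := by
  have _ := hn
  exact AuxSetup.nonempty_auxHecke_aux S hmod hpol hP hB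

end FermatLib.MLT.Two
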