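import Fermat.Agent.MLT.Two.LocalAlg
import Fermat.Agent.Mazur.LocalTame

/-!
# The local conditions for representations of `Gal(ℚ̄/ℚ)` over `k[ε]`

Inertia at an odd prime `q` acts on a `k[ε]`-lift (`k` finite of characteristic two) through one
tame generator, which turns the equations of `LocalCoord` into statements about all of inertia.
-/

set_option autoImplicit false
set_option linter.unusedSectionVars false

noncomputable section

namespace FermatLib.MLT.Two

open TrivSqZeroExt Matrix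

local notation "Qbar" => AlgebraicClosure ℚ
local notation "Γℚ" => (AlgebraicClosure ℚ ≃ₐ[ℚ] AlgebraicClosure ℚ)

variable {k : Type*} [Field k] [CharP k 2] [Finite k] {q : ℕ} {A : ValuationSubring Qbar}
  (ρ : Γℚ →* Matrix (Fin 2) (Fin 2) (DualNumber k)) {H : Subgroup Γℚ}
  (hq : q.Prime) (hq2 : q ≠ 2) (hA : A.LiesOverPrime q) (hH : IsOpen (H : Set Γℚ))
  (hρH : ∀ h ∈ H, ρ h = 1)

omit [Finite k] in
/-- A residually unipotent element has order dividing four. -/
lemma pow_four_eq_one {T : Matrix (Fin 2) (Fin 2) (DualNumber k)}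
    (h : (fstM T - 1) * (fstM T - 1) = 0) : T ^ 4 = 1 := by
  have h2 : fstM (T * T) = 1 := by
    have e : fstM T * fstM T = 1 + (2 : k) • (fstM T - 1) := by
      rw [Matrix.sub_mul, Matrix.mul_sub, Matrix.one_mul, Matrix.mul_one] at h
      rw [two_smul, ← sub_eq_zero, ← h]
      abel
    rw [fstM_mul, e, show (2 : k) = 0 from CharTwo.two_eq_zero, zero_smul, add_zero]
  have h4 : T ^ 4 = (T * T) ^ 2 := by simp only [pow_succ, pow_zero, one_mul, Matrix.mul_assoc]
  rw [h4]
  refine eq_of_fstM_sndM ?_ ?_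
  · rw [fstM_pow, h2, one_pow, fstM_one]
  · rw [sndM_pow_of_fst_one h2, sndM_one, two_nsmul]
    exact Matrix.ext fun i j => CharTwo.add_self_eq_zero _

include hq hq2 hA hH hρH

/-- Residually unipotent inertia at an odd prime has one generator, raised to the `q`-th power by
Frobenius. -/
theorem exists_inertia_generator
    (hunip : ∀ σ ∈ A.inertiaSubgroupIn ℚ,
      (fstM (ρ σ) - 1) * (fstM (ρ σ) - 1) = 0) :
    ∃ τ ∈ A.inertiaSubgroupIn ℚ, (∀ σ ∈ A.inertiaSubgroupIn ℚ, ∃ n : ℕ, ρ σ = ρ τ ^ n) ∧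
      ∀ F : Γℚ, A.IsFrobeniusAt F q → ρ F * ρ τ = ρ τ ^ q * ρ F := by
  classical
  let e : DualNumber k ≃ k × k :=
    { toFun := fun x => (x.fst, x.snd)
      invFun := fun x => TrivSqZeroExt.inl x.1 + TrivSqZeroExt.inr x.2
      left_inv := fun x => TrivSqZeroExt.inl_fst_add_inr_snd_eq x
      right_inv := fun x => by simp }
  haveI : Finite (DualNumber k) := Finite.of_equiv _ e.symm
  let ψ : A.inertiaSubgroupIn ℚ →* (Matrix (Fin 2) (Fin 2) (DualNumber k))ˣ :=
    ρ.toHomUnits.comp (A.inertiaSubgroupIn ℚ).subtype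
  haveI : Finite (Matrix (Fin 2) (Fin 2) (DualNumber k)) :=
    inferInstanceAs (Finite (Fin 2 → Fin 2 → DualNumber k))
  obtain ⟨τ, hgen, hfrob⟩ := FermatLib.Mazur.exists_tame_generator Nat.prime_two hq hq2.symm hA ψ
    (fun σ => ⟨2, Units.ext (by
      rw [Units.val_pow_eq_pow_val]
      exact pow_four_eq_one (hunip σ σ.2))⟩)
    H hH fun σ hσ => Units.ext (hρH σ hσ)
  refine ⟨τ, τ.2, fun σ hσ => ?_, fun F hF => ?_⟩
  · obtain ⟨n, hn⟩ := hgen ⟨σ, hσ⟩
    obtain ⟨m, hm⟩ : ∃ m : ℕ, ψ τ ^ m = ψ ⟨σ, hσ⟩ := by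
      obtain ⟨m, -, hm⟩ := (isOfFinOrder_of_finite (ψ τ)).mem_zpowers_iff_mem_range_orderOf.mp
        ⟨n, hn⟩ |> Finset.mem_image.mp
      exact ⟨m, hm⟩
    refine ⟨m, ?_⟩
    have h := congrArg Units.val hm
    rw [Units.val_pow_eq_pow_val] at h
    exact h.symm
  · obtain ⟨h, he⟩ := hfrob F hF
    have h1 : ρ (F * τ * F⁻¹) = ρ τ ^ q := by
      have := congrArg Units.val he
      rw [Units.val_pow_eq_pow_val] at this
      exact this
    rw [← h1, ← map_mul, ← map_mul, inv_mul_cancel_right]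

end FermatLib.MLT.Two
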