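import Fermat.Agent.MLT.Two.Defs
import Fermat.Agent.MLT.Two.LocalInertia
import Fermat.Agent.Mazur.LocalTame

/-!
# V4-Local: the conditions at the primes of the level and at the auxiliary places
-/

set_option autoImplicit false
set_option linter.unusedSectionVars false
set_option linter.unusedVariables false

noncomputable section

namespace FermatLib.MLT.Two

open Matrix

local notation "Qbar" => AlgebraicClosure ℚ
local notation "Γℚ" => (AlgebraicClosure ℚ ≃ₐ[ℚ] AlgebraicClosure ℚ)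

variable {k : Type} [Field k] (a : Anchor k)

lemma Anchor.charP (a : Anchor k) : CharP k 2 :=
  CharTwo.of_one_ne_zero_of_two_eq_zero one_ne_zero a.two_eq_zero

lemma Anchor.rho_mul_inv (a : Anchor k) (g : Γℚ) : a.ρ g * a.ρ g⁻¹ = 1 := by
  rw [← map_mul, mul_inv_cancel, map_one]

lemma Anchor.rho_inv_mul (a : Anchor k) (g : Γℚ) : a.ρ g⁻¹ * a.ρ g = 1 := by
  rw [← map_mul, inv_mul_cancel, map_one]

lemma fstM_liftMat (c : Γℚ → Matrix (Fin 2) (Fin 2) k) (g : Γℚ) :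
    fstM (liftMat a c g) = a.ρ g := by
  ext i j
  simp [fstM, liftMat]

lemma sndM_liftMat (c : Γℚ → Matrix (Fin 2) (Fin 2) k) (g : Γℚ) :
    sndM (liftMat a c g) = c g * a.ρ g := by
  ext i j
  simp [sndM, liftMat]

lemma IsAdCocycle.map_one {c : Γℚ → Matrix (Fin 2) (Fin 2) k} (hc : IsAdCocycle a c) :
    c 1 = 0 := by
  simpa using hc.map_mul 1 1

lemma adCobdry_map_mul (M : Matrix (Fin 2) (Fin 2) k) (g h : Γℚ) :
    adCobdry a M (g * h) = adCobdry a M g + a.ρ g * adCobdry a M h * a.ρ g⁻¹ := by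
  simp only [adCobdry, _root_.mul_inv_rev, map_mul, Matrix.mul_sub, Matrix.sub_mul, Matrix.mul_assoc]
  abel

/-- The lift given by a cocycle, as a representation over the dual numbers. -/
def liftHom {c : Γℚ → Matrix (Fin 2) (Fin 2) k} (hc : IsAdCocycle a c) :
    Γℚ →* Matrix (Fin 2) (Fin 2) (DualNumber k) where
  toFun := liftMat a c
  map_one' := eq_of_fstM_sndM (by rw [fstM_liftMat, map_one, fstM_one])
    (by rw [sndM_liftMat, hc.map_one a, sndM_one, zero_mul])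
  map_mul' g h := eq_of_fstM_sndM (by rw [fstM_mul, fstM_liftMat, fstM_liftMat, fstM_liftMat,
      map_mul])
    (by
      simp only [sndM_mul, fstM_liftMat, sndM_liftMat, hc.map_mul, map_mul, add_mul,
        Matrix.mul_assoc]
      rw [← Matrix.mul_assoc (a.ρ g⁻¹) (a.ρ g), a.rho_inv_mul, Matrix.one_mul, add_comm])

lemma liftHom_apply {c : Γℚ → Matrix (Fin 2) (Fin 2) k} (hc : IsAdCocycle a c) (g : Γℚ) :
    liftHom a hc g = liftMat a c g := rfl

lemma exists_open_ker_liftHom {c : Γℚ → Matrix (Fin 2) (Fin 2) k} (hc : IsAdCocycle a c) :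
    ∃ H : Subgroup Γℚ, IsOpen (H : Set Γℚ) ∧ ∀ h ∈ H, liftHom a hc h = 1 := by
  obtain ⟨L, hL, hL0⟩ := hc.finiteLevel
  obtain ⟨F, hF, hF1⟩ := a.finiteLevel
  have : FiniteDimensional ℚ (L ⊔ F : IntermediateField ℚ Qbar) :=
    IntermediateField.finiteDimensional_sup L F
  refine ⟨(L ⊔ F).fixingSubgroup, IntermediateField.fixingSubgroup_isOpen _, fun h hh => ?_⟩
  have h1 : c h = 0 := hL0 h fun x hx => hh ⟨x, (le_sup_left : L ≤ L ⊔ F) hx⟩
  have h2 : a.ρ h = 1 := hF1 h fun x hx => hh ⟨x, (le_sup_right : F ≤ L ⊔ F) hx⟩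
  refine eq_of_fstM_sndM ?_ ?_
  · rw [liftHom_apply, fstM_liftMat, h2, fstM_one]
  · rw [liftHom_apply, sndM_liftMat, h1, sndM_one, zero_mul]

lemma cocycle_eq_of_sndM_eq {c : Γℚ → Matrix (Fin 2) (Fin 2) k} {g h : Γℚ}
    (hs : sndM (liftMat a c g) = sndM (liftMat a c h)) (hρ : a.ρ g = a.ρ h) : c g = c h := by
  rw [sndM_liftMat, sndM_liftMat, hρ] at hs
  calc c g = c g * a.ρ h * a.ρ h⁻¹ := by rw [Matrix.mul_assoc, a.rho_mul_inv, Matrix.mul_one]
    _ = c h := by rw [hs, Matrix.mul_assoc, a.rho_mul_inv, Matrix.mul_one]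

/-- An element acting as a transvection is of swap type. -/
lemma exists_swap_of_sq_eq_zero {g : Γℚ} (hne : a.ρ g ≠ 1)
    (hsq : (a.ρ g - 1) * (a.ρ g - 1) = 0) :
    ∃ u v : k, u * v = 1 ∧ a.ρ g = !![0, u; v, 0] := by
  have h3 : a.ω ^ 3 = 1 := by linear_combination (a.ω - 1) * a.omega_rel
  obtain ⟨i, hi | hi⟩ := a.range_eq g
  · exfalso
    apply hne
    rw [hi] at hsq
    have h0 := congrFun (congrFun hsq 0) 0
    simp [rotMat, Matrix.mul_apply, Fin.sum_univ_two, sub_eq_zero] at h0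
    rw [hi]
    ext x y
    fin_cases x <;> fin_cases y <;> simp [rotMat, h0, pow_mul', ]
  · refine ⟨_, _, ?_, hi⟩
    rw [← pow_add, show i + 2 * i = 3 * i by ring, pow_mul, h3, one_pow]

/-- The values on a transvection subject to the unipotency equation are coboundaries. -/
lemma exists_eq_commutator [CharP k 2] {u v : k} (huv : u * v = 1)
    {s : Matrix (Fin 2) (Fin 2) k}
    (hs : (!![0, u; v, 0] - 1) * s + s * (!![0, u; v, 0] - 1) = 0) :
    ∃ M : Matrix (Fin 2) (Fin 2) k, s = !![0, u; v, 0] * M - M * !![0, u; v, 0] := by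
  have h2 : (2 : k) = 0 := CharTwo.two_eq_zero
  have h00 := congrFun (congrFun hs 0) 0
  have h01 := congrFun (congrFun hs 0) 1
  simp [Matrix.mul_apply, Fin.sum_univ_two, Matrix.one_apply] at h00 h01
  have hu : u ≠ 0 := left_ne_zero_of_mul_eq_one huv
  have hd : s 0 0 = s 1 1 := by
    apply mul_left_cancel₀ hu
    linear_combination h01 + s 0 1 * h2 - u * s 1 1 * h2
  refine ⟨!![0, 0; s 0 0 * v, s 0 1 * v], ?_⟩
  ext i j
  fin_cases i <;> fin_cases j <;> simp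
  · linear_combination -(s 0 0) * huv
  · linear_combination -(s 0 1) * huv
  · linear_combination v * h00 + v * s 0 0 * h2 - s 1 0 * huv
  · linear_combination -hd + s 0 0 * huv + s 0 0 * h2

variable [Finite k]

/-- Unipotent inertia gives a coboundary on inertia. -/
theorem isLevelLocal_of_unipotent {c : Γℚ → Matrix (Fin 2) (Fin 2) k} (hc : IsAdCocycle a c)
    (h : ∀ q : ℕ, q.Prime → q ∣ a.N → ∀ A : ValuationSubring Qbar, A.LiesOverPrime q →
      ∀ τ ∈ A.inertiaSubgroupIn ℚ, ∀ τ' ∈ A.inertiaSubgroupIn ℚ,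
        (liftMat a c τ - 1) * (liftMat a c τ' - 1) = 0) :
    IsLevelLocal a c := by
  intro q hq hqN A hA
  have := a.charP
  have hq2 : q ≠ 2 := by
    rintro rfl
    have := a.level_mod
    omega
  obtain ⟨⟨σ, hσ, hσ1⟩, hres⟩ := a.level_transvection q hq hqN A hA
  obtain ⟨H, hH, hρH⟩ := exists_open_ker_liftHom a hc
  obtain ⟨τ, hτ, hgen, -⟩ := exists_inertia_generator (liftHom a hc) hq hq2 hA hH hρH
    fun g hg => by rw [liftHom_apply, fstM_liftMat]; exact hres g hg g hg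
  have hne : a.ρ τ ≠ 1 := by
    intro h1
    obtain ⟨n, hn⟩ := hgen σ hσ
    have := congrArg fstM hn
    rw [fstM_pow, liftHom_apply, liftHom_apply, fstM_liftMat, fstM_liftMat, h1, one_pow] at this
    exact hσ1 this
  obtain ⟨u, v, huv, hf⟩ := exists_swap_of_sq_eq_zero a hne (hres τ hτ τ hτ)
  have hs := congrArg sndM (h q hq hqN A hA τ hτ τ hτ)
  rw [sndM_mul, fstM_sub, sndM_sub, fstM_one, sndM_one, sub_zero, fstM_liftMat, sndM_liftMat,
    hf] at hs
  rw [show sndM (0 : Matrix (Fin 2) (Fin 2) (DualNumber k)) = 0 by ext i j; simp [sndM]] at hs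
  obtain ⟨M, hM⟩ := exists_eq_commutator huv hs
  rw [← hf] at hM
  refine ⟨M, fun g hg => ?_⟩
  have hτM : c τ = adCobdry a M τ := by
    calc c τ = c τ * a.ρ τ * a.ρ τ⁻¹ := by rw [Matrix.mul_assoc, a.rho_mul_inv, Matrix.mul_one]
      _ = _ := by
        rw [hM, adCobdry, Matrix.sub_mul, Matrix.mul_assoc M, a.rho_mul_inv, Matrix.mul_one]
  have hpow : ∀ n : ℕ, c (τ ^ n) = adCobdry a M (τ ^ n) := by
    intro n
    induction n with
    | zero => simp [hc.map_one a, adCobdry]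
    | succ n ih => rw [pow_succ, hc.map_mul, adCobdry_map_mul, ih, hτM]
  obtain ⟨n, hn⟩ := hgen g hg
  rw [← map_pow, liftHom_apply, liftHom_apply] at hn
  have hρ : a.ρ g = a.ρ (τ ^ n) := by
    have := congrArg fstM hn
    rwa [fstM_liftMat, fstM_liftMat] at this
  have hinv : a.ρ g⁻¹ = a.ρ (τ ^ n)⁻¹ := by
    calc a.ρ g⁻¹ = a.ρ g⁻¹ * (a.ρ (τ ^ n) * a.ρ (τ ^ n)⁻¹) := by
          rw [a.rho_mul_inv, Matrix.mul_one]
      _ = _ := by rw [← hρ, ← Matrix.mul_assoc, a.rho_inv_mul, Matrix.one_mul]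
  rw [cocycle_eq_of_sndM_eq a (congrArg sndM hn) hρ, hpow, adCobdry, adCobdry, hρ, hinv]

/-- Restricted to inertia at an auxiliary place a cocycle has values fixed by the residual
Frobenius and is the multiple of one of its values. -/
theorem inertia_values_of_aux {P : AuxPlace} (hP : ¬ P.q ∣ 2 * a.N) (h4 : 4 ∣ P.q - 1)
    {c : Γℚ → Matrix (Fin 2) (Fin 2) k} (hc : IsAdCocycle a c) :
    ∃ τ₀ ∈ P.A.inertiaSubgroupIn ℚ, a.ρ P.F * c τ₀ = c τ₀ * a.ρ P.F ∧
      ∀ τ ∈ P.A.inertiaSubgroupIn ℚ, ∃ m : ℕ, c τ = (m : k) • c τ₀ := by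
  have := a.charP
  have hq2 : P.q ≠ 2 := fun e => hP (e ▸ dvd_mul_right 2 a.N)
  have hres : ∀ τ ∈ P.A.inertiaSubgroupIn ℚ, a.ρ τ = 1 :=
    a.unramified P.q P.hq hq2 (fun e => hP (dvd_mul_of_dvd_right e 2)) P.A P.hA
  obtain ⟨H, hH, hρH⟩ := exists_open_ker_liftHom a hc
  obtain ⟨τ, hτ, hgen, hfrob⟩ := exists_inertia_generator (liftHom a hc) P.hq hq2 P.hA hH hρH
    fun g hg => by rw [liftHom_apply, fstM_liftMat, hres g hg]; simp
  have hT : fstM (liftHom a hc τ) = 1 := by rw [liftHom_apply, fstM_liftMat, hres τ hτ]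
  have hsnd : ∀ g ∈ P.A.inertiaSubgroupIn ℚ, sndM (liftHom a hc g) = c g := fun g hg => by
    rw [liftHom_apply, sndM_liftMat, hres g hg, Matrix.mul_one]
  refine ⟨τ, hτ, ?_, fun g hg => ?_⟩
  · have := commute_of_tame (P.hq.odd_of_ne_two hq2) hT (hfrob P.F P.hF)
    rwa [hsnd τ hτ, liftHom_apply, fstM_liftMat] at this
  · obtain ⟨n, hn⟩ := hgen g hg
    refine ⟨n, ?_⟩
    rw [← hsnd g hg, hn, sndM_pow_of_fst_one hT, hsnd τ hτ, Nat.cast_smul_eq_nsmul]

end FermatLib.MLT.Two
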