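import Fermat.Agent.MLT.Two.SeedsVisible
import Mathlib.RingTheory.DiscreteValuationRing.Basic

/-!
# Seeds with non-degenerate trace
-/

set_option autoImplicit false

noncomputable section

namespace FermatLib.MLT.Two

local notation "Qbar" => AlgebraicClosure ℚ
local notation "Γℚ" => (AlgebraicClosure ℚ ≃ₐ[ℚ] AlgebraicClosure ℚ)

section Disc

variable {R : Type*} [CommRing R]

/-- The discriminant of the characteristic polynomial. -/
def charDisc (X : Matrix (Fin 2) (Fin 2) R) : R := X.trace ^ 2 - 4 * X.det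

lemma exists_pow_eq_smul_add (X : Matrix (Fin 2) (Fin 2) R) :
    ∀ n : ℕ, ∃ u v : R, X ^ n = u • X + v • (1 : Matrix (Fin 2) (Fin 2) R)
  | 0 => ⟨0, 1, by simp⟩
  | n + 1 => by
    obtain ⟨u, v, h⟩ := exists_pow_eq_smul_add X n
    refine ⟨u * X.trace + v, -(u * X.det), ?_⟩
    rw [pow_succ, h, add_mul, smul_mul_assoc, smul_mul_assoc, one_mul]
    ext i j
    fin_cases i <;> fin_cases j <;>
      simp [Matrix.mul_apply, Matrix.trace_fin_two, Matrix.det_fin_two] <;> ring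

lemma charDisc_dvd_pow (X : Matrix (Fin 2) (Fin 2) R) (n : ℕ) :
    charDisc X ∣ charDisc (X ^ n) := by
  obtain ⟨u, v, h⟩ := exists_pow_eq_smul_add X n
  refine ⟨u ^ 2, ?_⟩
  rw [h, charDisc, charDisc, Matrix.trace_fin_two, Matrix.trace_fin_two, Matrix.det_fin_two,
    Matrix.det_fin_two]
  simp
  ring

lemma map_charDisc {S : Type*} [CommRing S] (f : R →+* S) (X : Matrix (Fin 2) (Fin 2) R) :
    f (charDisc X) = charDisc (X.map f) := by
  simp [charDisc, Matrix.trace_fin_two, Matrix.det_fin_two, Matrix.map_apply, map_ofNat]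

lemma one_add_pow_of_sq_eq_zero {Z : Matrix (Fin 2) (Fin 2) R} (hZ : Z * Z = 0) :
    ∀ n : ℕ, (1 + Z) ^ n = 1 + (n : R) • Z
  | 0 => by simp
  | n + 1 => by
    rw [pow_succ, one_add_pow_of_sq_eq_zero hZ n, add_mul, one_mul, smul_mul_assoc, mul_add,
      mul_one, hZ, add_zero, Nat.cast_succ, add_smul, one_smul]
    abel

end Disc

variable {O : Type} [CommRing O] [IsDomain O] [CharZero O] {k : Type} [Field k] (S : System O k)

omit [IsDomain O] [CharZero O] in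
lemma red_two : S.red 2 = 0 := by rw [map_ofNat, S.anchor.two_eq_zero]

omit [IsDomain O] [CharZero O] in
lemma not_two_dvd_of_red_ne_zero {x : O} (hx : S.red x ≠ 0) {c : ℕ} (hc : c ≠ 0) :
    ¬ (2 : O) ^ c ∣ x := fun h => hx <| by
  obtain ⟨y, rfl⟩ := (dvd_pow_self (2 : O) hc).trans h
  rw [map_mul, red_two, zero_mul]

omit [IsDomain O] [CharZero O] in
lemma red_trace (g : Γℚ) : S.red (S.ρ g).trace = (S.anchor.ρ g).trace := by
  rw [← S.map_eq, Matrix.trace_fin_two, Matrix.trace_fin_two, map_add]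
  rfl

omit [IsDomain O] [CharZero O] in
lemma red_trace_mul (g : Γℚ) (X : Matrix (Fin 2) (Fin 2) O) :
    S.red (S.ρ g * X).trace = (S.anchor.ρ g * X.map S.red).trace := by
  rw [← S.map_eq, ← Matrix.map_mul, Matrix.trace_fin_two, Matrix.trace_fin_two, map_add]
  rfl

omit [IsDomain O] [CharZero O] in
lemma exists_level_unipotent : ∃ τ : Γℚ, FixesAllRoots τ ∧ S.anchor.ρ τ 0 1 ≠ 0 ∧
    (S.ρ τ - 1) * (S.ρ τ - 1) = 0 := by
  obtain ⟨q, A, τ, hq, hqN, hA, hτ, hroots, hsw⟩ := exists_inertia_swap S.anchor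
  exact ⟨τ, hroots, hsw, (S.level q hq hqN A hA).2 τ hτ τ hτ⟩

/-- **A seed**: a swap element fixing all 2-power roots of unity, detecting a given class, with
trace away from `±2`. -/
theorem exists_seed {d : Γℚ → Matrix (Fin 2) (Fin 2) k} (hd : IsAdCocycle S.anchor d)
    (hanti : ∀ g, d g = offDiag (d g)) (hne : ¬ IsAdCobdry S.anchor d) :
    ∃ σ, FixesAllRoots σ ∧ S.anchor.ρ σ 0 1 ≠ 0 ∧ frobValue S.anchor d σ ≠ 0 ∧
      (S.ρ σ).trace ^ 2 ≠ 4 := by
  set a := S.anchor with ha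
  obtain ⟨τ, hτr, hτsw, hτu⟩ := exists_level_unipotent S
  obtain ⟨σ, hσr, hσρ, hσv⟩ := exists_frobValue_ne_zero hd hanti hne hτr hτsw
  -- a unipotent with another residual image
  obtain ⟨rot, -, hrot⟩ := exists_rot_fixesAllRoots a
  set τ' := rot * τ * rot⁻¹ with hτ'
  obtain ⟨i, hi⟩ := exists_swap_of_ne a hτsw
  have hconj : a.ρ τ' = !![0, a.ω ^ 2 * a.ω ^ i; a.ω * a.ω ^ (2 * i), 0] := by
    rw [hτ', map_mul, map_mul, hi, swapMat, conj_rot a hrot, mul_one, pow_one]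
  have hu' : (S.ρ τ' - 1) * (S.ρ τ' - 1) = 0 := by
    have hr : S.ρ rot * S.ρ rot⁻¹ = 1 := by rw [← map_mul, mul_inv_cancel, map_one]
    have hr' : S.ρ rot⁻¹ * S.ρ rot = 1 := by rw [← map_mul, inv_mul_cancel, map_one]
    have e : S.ρ τ' - 1 = S.ρ rot * (S.ρ τ - 1) * S.ρ rot⁻¹ := by
      rw [hτ', map_mul, map_mul, Matrix.mul_sub, Matrix.sub_mul, Matrix.mul_one, hr]
    rw [e]
    calc S.ρ rot * (S.ρ τ - 1) * S.ρ rot⁻¹ * (S.ρ rot * (S.ρ τ - 1) * S.ρ rot⁻¹)
        = S.ρ rot * ((S.ρ τ - 1) * (S.ρ rot⁻¹ * S.ρ rot) * (S.ρ τ - 1)) * S.ρ rot⁻¹ := by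
          simp only [Matrix.mul_assoc]
      _ = 0 := by rw [hr', Matrix.mul_one, hτu, Matrix.mul_zero, Matrix.zero_mul]
  have hτ'sw : a.ρ τ' * a.ρ τ' = 1 := by
    rw [hτ', map_mul, map_mul]
    calc a.ρ rot * a.ρ τ * a.ρ rot⁻¹ * (a.ρ rot * a.ρ τ * a.ρ rot⁻¹)
        = a.ρ rot * (a.ρ τ * (a.ρ rot⁻¹ * a.ρ rot) * a.ρ τ) * a.ρ rot⁻¹ := by
          simp only [Matrix.mul_assoc]
      _ = 1 := by
        rw [a.rho_inv_mul, Matrix.mul_one, swap_mul_self a hi, Matrix.mul_one, a.rho_mul_inv]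
  set t := (S.ρ σ * (S.ρ τ' - 1)).trace with ht
  have ht0 : S.red t ≠ 0 := by
    rw [ht, red_trace_mul,
      show (S.ρ τ' - 1).map S.red = a.ρ τ' - 1 by
        rw [Matrix.map_sub _ (map_sub S.red), S.map_eq, Matrix.map_one _ (map_zero _) (map_one _)],
      ← ha, hσρ, hconj, hi, Matrix.trace_fin_two]
    simp [swapMat, Matrix.mul_apply]
    intro h
    have h3 : a.ω ^ i * a.ω ^ (2 * i) = 1 := by
      rw [← pow_add, show i + 2 * i = 3 * i by ring, pow_mul, omega_cube, one_pow]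
    refine one_ne_zero (α := k) ?_
    linear_combination a.omega_rel - h + (a.ω + a.ω ^ 2) * h3
  have hval : ∀ m : ℕ, FixesAllRoots (σ * τ' ^ (4 * m)) ∧
      a.ρ (σ * τ' ^ (4 * m)) = a.ρ σ ∧
      frobValue a d (σ * τ' ^ (4 * m)) = frobValue a d σ ∧
      (S.ρ (σ * τ' ^ (4 * m))).trace = (S.ρ σ).trace + ((4 * m : ℕ) : O) * t := by
    intro m
    have h4 : a.ρ (τ' ^ (4 * m)) = 1 := by
      rw [map_pow, show 4 * m = 2 * (2 * m) by ring, pow_mul, pow_two, hτ'sw, one_pow]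
    have hd4 : d (τ' ^ (4 * m)) = 0 := by
      have h2 : a.ρ (τ' * τ') = 1 := by rw [map_mul, hτ'sw]
      have h2d : ∀ j : ℕ, d ((τ' * τ') ^ j) = (j : k) • d (τ' * τ') := fun j => by
        induction j with
        | zero => rw [pow_zero, hd.map_one a, Nat.cast_zero, zero_smul]
        | succ j ih =>
          rw [pow_succ', cocycle_mul_of_one hd h2, ih, Nat.cast_succ, add_smul, one_smul, add_comm]
      rw [show 4 * m = 2 * (2 * m) by ring, pow_mul, pow_two, h2d, Nat.cast_mul, Nat.cast_ofNat,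
        a.two_eq_zero, zero_mul, zero_smul]
    refine ⟨hσr.mul ((hτr.conj rot).pow _), by rw [map_mul, h4, mul_one], ?_, ?_⟩
    · rw [frobValue_mul_of_one hd σ h4, hd4, Matrix.mul_zero, Matrix.trace_zero, add_zero]
    · rw [map_mul, map_pow, show S.ρ τ' = 1 + (S.ρ τ' - 1) by abel,
        one_add_pow_of_sq_eq_zero hu', Matrix.mul_add, Matrix.mul_one, Matrix.trace_add,
        Matrix.mul_smul, Matrix.trace_smul, smul_eq_mul]
  by_contra hcon
  push Not at hcon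
  have hsq : ∀ m : ℕ, ((S.ρ σ).trace + ((4 * m : ℕ) : O) * t) ^ 2 = 2 ^ 2 := fun m => by
    obtain ⟨h1, h2, h3, h4⟩ := hval m
    have := hcon _ h1 (by rw [h2, hσρ]; exact hτsw) (by rw [h3]; exact hσv)
    rw [h4] at this
    rw [this]; norm_num
  have e0 := sq_eq_sq_iff_eq_or_eq_neg.mp (hsq 0)
  have e1 := sq_eq_sq_iff_eq_or_eq_neg.mp (hsq 1)
  have e2 := sq_eq_sq_iff_eq_or_eq_neg.mp (hsq 2)
  push_cast at e0 e1 e2
  have ht' : t ≠ 0 := fun h => ht0 (by rw [h, map_zero])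
  have hne4 : (4 : O) * t ≠ 0 := mul_ne_zero (by exact_mod_cast (by norm_num : (4 : ℕ) ≠ 0)) ht'
  have hne8 : (8 : O) * t ≠ 0 := mul_ne_zero (by exact_mod_cast (by norm_num : (8 : ℕ) ≠ 0)) ht'
  rcases e0 with e0 | e0 <;> rcases e1 with e1 | e1 <;> rcases e2 with e2 | e2 <;>
    first
      | exact hne4 (by linear_combination e1 - e0)
      | exact hne4 (by linear_combination e2 - e1)
      | exact hne8 (by linear_combination e2 - e0)

end FermatLib.MLT.Two
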