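import Fermat.Agent.MLT.Two.Selmer
import Fermat.Agent.MLT.Two.SeedsTrace

/-!
# V4-Seeds: choice of the auxiliary places, uniformly in the depth

Swap seeds are fixed once, one for each class of a finite set of representatives of the base
classes, with trace away from `±2`; Legendre seeds are chosen for each depth.  Frobenius density
turns seeds into places.
-/

set_option autoImplicit false

noncomputable section

namespace FermatLib.MLT.Two

open IntermediateField

local notation "Qbar" => AlgebraicClosure ℚ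
local notation "Γℚ" => (AlgebraicClosure ℚ ≃ₐ[ℚ] AlgebraicClosure ℚ)

lemma hom_eq_of_agree {M : Type} [Monoid M] (f : Γℚ →* M) {L : IntermediateField ℚ Qbar}
    (h : ∀ g, (∀ x ∈ L, g x = x) → f g = 1) {u v : Γℚ} (huv : ∀ x ∈ L, u x = v x) : f u = f v := by
  have h1 : f (v⁻¹ * u) = 1 := h _ fun x hx => by
    rw [AlgEquiv.mul_apply, huv x hx]; exact v.symm_apply_apply x
  rw [← mul_inv_cancel_left v u, map_mul, h1, mul_one]

/-- Distinct places avoiding a finite set, one of each kind. -/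
lemma exists_injective_places {ι : Type} [Finite ι] (P : ι → AuxPlace → Prop) (S₀ : Finset ℕ)
    (h : ∀ i (S : Finset ℕ), ∃ p, P i p ∧ p.q ∉ S) :
    ∃ f : ι → AuxPlace, (∀ i, P i (f i)) ∧ Function.Injective (fun i => (f i).q) ∧
      ∀ i, (f i).q ∉ S₀ := by
  classical
  have : Fintype ι := Fintype.ofFinite ι
  suffices key : ∀ T : Finset ι, ∃ f : ι → AuxPlace, (∀ i ∈ T, P i (f i) ∧ (f i).q ∉ S₀) ∧
      Set.InjOn (fun i => (f i).q) (T : Set ι) by
    obtain ⟨f, hf, hinj⟩ := key Finset.univ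
    exact ⟨f, fun i => (hf i (Finset.mem_univ i)).1,
      fun i j hij => hinj (Finset.mem_univ i) (Finset.mem_univ j) hij,
      fun i => (hf i (Finset.mem_univ i)).2⟩
  intro T
  induction T using Finset.induction_on with
  | empty => exact ⟨fun i => (h i ∅).choose, by simp, by simp⟩
  | insert i T hi ih =>
    obtain ⟨f, hf, hinj⟩ := ih
    obtain ⟨p, hp, hpS⟩ := h i (S₀ ∪ T.image fun j => (f j).q)
    rw [Finset.mem_union, not_or] at hpS
    have hupd : ∀ j ∈ T, Function.update f i p j = f j := fun j hj =>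
      Function.update_of_ne (fun e : j = i => hi (e ▸ hj)) _ _
    refine ⟨Function.update f i p, ?_, ?_⟩
    · intro j hj
      rcases Finset.mem_insert.mp hj with rfl | hj
      · rw [Function.update_self]; exact ⟨hp, hpS.1⟩
      · rw [hupd j hj]; exact hf j hj
    · intro x hx y hy hxy
      rw [Finset.coe_insert] at hx hy
      have hp' : ∀ j ∈ T, (f j).q ≠ p.q := fun j hj e => hpS.2 (Finset.mem_image.mpr ⟨j, hj, e⟩)
      rcases Set.mem_insert_iff.mp hx with hxi | hxT <;>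
        rcases Set.mem_insert_iff.mp hy with hyi | hyT
      · rw [hxi, hyi]
      · rw [Finset.mem_coe] at hyT
        simp only [hxi, Function.update_self, hupd y hyT] at hxy
        exact absurd hxy.symm (hp' y hyT)
      · rw [Finset.mem_coe] at hxT
        simp only [hyi, Function.update_self, hupd x hxT] at hxy
        exact absurd hxy (hp' x hxT)
      · rw [Finset.mem_coe] at hxT hyT
        simp only [hupd x hxT, hupd y hyT] at hxy
        exact hinj hxT hyT hxy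

lemma frobValue_pow {k : Type} [Field k] {a : Anchor k} {d : Γℚ → Matrix (Fin 2) (Fin 2) k}
    (hd : IsAdCocycle a d) {g : Γℚ} (hg : a.ρ g * a.ρ g = 1) (n : ℕ) :
    (a.ρ g * d (g ^ n)).trace = n * frobValue a d g := by
  induction n with
  | zero => simp [hd.map_one a]
  | succ n ih =>
    have hconj : (a.ρ g * (a.ρ g * d (g ^ n) * a.ρ g⁻¹)).trace = (a.ρ g * d (g ^ n)).trace := by
      rw [rho_inv_of_mul_eq a hg, ← Matrix.mul_assoc, ← Matrix.mul_assoc, hg, Matrix.one_mul,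
        Matrix.trace_mul_comm]
    rw [pow_succ', hd.map_mul, Matrix.mul_add, Matrix.trace_add, hconj, ih, ← frobValue,
      Nat.cast_succ]
    ring

variable {O : Type} [CommRing O] {k : Type} [Field k] (S : System O k)

/-- A place from a swap seed. -/
theorem exists_swapPlace {d : Γℚ → Matrix (Fin 2) (Fin 2) k} (hd : IsAdCocycle S.anchor d)
    {σ : Γℚ} (hσr : FixesAllRoots σ) (hσ : S.anchor.ρ σ 0 1 ≠ 0)
    (hv : frobValue S.anchor d σ ≠ 0) {c : ℕ} (hc : ¬ (2 : O) ^ c ∣ (S.ρ σ).trace ^ 2 - 4)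
    (n : ℕ) (T : Finset ℕ) :
    ∃ P : AuxPlace, P.q ∉ T ∧ IsSwapPlace S.anchor P ∧ 2 ^ (n + 1) ∣ P.q - 1 ∧
      S.anchor.ρ P.F ≠ 1 ∧
      ¬ (2 : O) ^ c ∣ (S.ρ P.F).trace ^ 2 - ((P.q + 1 : ℕ) : O) ^ 2 ∧
      frobValue S.anchor d P.F ≠ 0 := by
  classical
  set a := S.anchor
  set M := n + 1 + c + 2 with hM
  obtain ⟨L₀, hL₀, hρL⟩ := a.finiteLevel
  obtain ⟨L₁, hL₁, hdL⟩ := hd.finiteLevel
  obtain ⟨L₂, hL₂, hcL⟩ := S.finiteLevel c
  have : NeZero (2 ^ M) := ⟨pow_ne_zero M two_ne_zero⟩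
  obtain ⟨ζ, hζ⟩ := HasEnoughRootsOfUnity.exists_primitiveRoot Qbar (2 ^ M)
  have : FiniteDimensional ℚ ℚ⟮ζ⟯ :=
    adjoin.finiteDimensional ((AlgebraicClosure.isAlgebraic ℚ).isAlgebraic ζ).isIntegral
  set L := L₀ ⊔ L₁ ⊔ L₂ ⊔ ℚ⟮ζ⟯
  have hle0 : L₀ ≤ L := le_sup_left.trans (le_sup_left.trans le_sup_left)
  have hle1 : L₁ ≤ L := le_sup_right.trans (le_sup_left.trans le_sup_left)
  have hle2 : L₂ ≤ L := le_sup_right.trans le_sup_left
  have hζL : ζ ∈ L := (le_sup_right : ℚ⟮ζ⟯ ≤ L) (mem_adjoin_simple_self ℚ ζ)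
  obtain ⟨q, hq, hqT, A, hA, F, hF, e, b, he, hb⟩ :=
    FermatLib.Galois.exists_isFrobeniusAt_agreeOn L σ (T ∪ (2 * a.N).primeFactors)
  rw [Finset.mem_union, not_or] at hqT
  have hN0 : 2 * a.N ≠ 0 := by have := a.level_mod; omega
  have hnd : ¬ q ∣ 2 * a.N := fun h => hqT.2 (Nat.mem_primeFactors.mpr ⟨hq, h, hN0⟩)
  have hq2 : q ≠ 2 := fun h => hnd (h ▸ dvd_mul_right 2 a.N)
  -- residual behaviour
  obtain ⟨i, hi⟩ := exists_swap_of_ne a hσ
  have hσσ := swap_mul_self a hi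
  have hρF : a.ρ F = a.ρ σ ^ e := by
    rw [← map_pow]; exact hom_eq_of_agree a.ρ (fun g hg => hρL g hg) fun x hx => he x (hle0 hx)
  have hρσ : a.ρ F ^ b = a.ρ σ := by
    rw [← map_pow]; exact hom_eq_of_agree a.ρ (fun g hg => hρL g hg) fun x hx => hb x (hle0 hx)
  have hσ1 : a.ρ σ ≠ 1 := fun h => hσ (by rw [h]; simp)
  have hFσ : a.ρ F = a.ρ σ := by
    rcases Nat.even_or_odd e with ⟨j, rfl⟩ | ⟨j, rfl⟩
    · rw [← two_mul, pow_mul, pow_two, hσσ, one_pow] at hρF
      exact absurd (by rw [← hρσ, hρF, one_pow]) hσ1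
    · rw [hρF, pow_succ, pow_mul, pow_two, hσσ, one_pow, one_mul]
  -- the prime
  have hdvd : 2 ^ M ∣ q - 1 := by
    refine two_pow_dvd_sub_one hq hq2 hA hF hζ ?_
    rw [he ζ hζL]
    exact (hσr M).pow e ζ hζ.pow_eq_one
  have hle : ∀ j, j ≤ M → 2 ^ j ∣ q - 1 := fun j hj => (pow_dvd_pow 2 hj).trans hdvd
  -- detection
  have hdF : frobValue a d F ≠ 0 := fun h0 => hv <| by
    have hdb : d (F ^ b) = d σ := by
      have h1 : d (σ⁻¹ * F ^ b) = 0 := hdL _ fun x hx => by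
        rw [AlgEquiv.mul_apply, hb x (hle1 hx)]; exact σ.symm_apply_apply x
      rw [← mul_inv_cancel_left σ (F ^ b), hd.map_mul, h1]
      simp
    have h := frobValue_pow hd (g := F) (by rw [hFσ, hσσ]) b
    rw [h0, mul_zero, hdb, hFσ] at h
    exact h
  -- the trace
  have hdeg : ¬ (2 : O) ^ c ∣ (S.ρ F).trace ^ 2 - ((q + 1 : ℕ) : O) ^ 2 := by
    intro hdiv
    apply hc
    set π := Ideal.Quotient.mk (Ideal.span {(2 : O) ^ c}) with hπ
    have hzero : ∀ x : O, π x = 0 ↔ (2 : O) ^ c ∣ x := fun x => by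
      rw [hπ, Ideal.Quotient.eq_zero_iff_mem, Ideal.mem_span_singleton]
    have hdetF : (S.ρ F).det = (q : O) :=
      (S.frobenius q hq hq2 (fun h => hnd (Dvd.dvd.mul_left h 2)) A hA F hF).2
    have hq1 : (2 : O) ^ c ∣ ((q - 1 : ℕ) : O) := by
      have h := Nat.cast_dvd_cast (α := O) (hle c (by omega))
      rwa [Nat.cast_pow, Nat.cast_ofNat] at h
    have hdiscF : π (charDisc (S.ρ F)) = 0 := by
      rw [hzero, charDisc, hdetF]
      have : (S.ρ F).trace ^ 2 - 4 * (q : O) =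
          ((S.ρ F).trace ^ 2 - ((q + 1 : ℕ) : O) ^ 2) + ((q - 1 : ℕ) : O) * ((q - 1 : ℕ) : O) := by
        rw [Nat.cast_sub hq.one_le]; push_cast; ring
      rw [this]
      exact dvd_add hdiv (hq1.mul_right _)
    have hmat : (S.ρ (F ^ b)).map π = (S.ρ σ).map π :=
      hom_eq_of_agree (π.mapMatrix.toMonoidHom.comp S.ρ) (fun g hg => hcL g hg)
        fun x hx => hb x (hle2 hx)
    have hdiscσ : π (charDisc (S.ρ σ)) = 0 := by
      rw [map_charDisc, ← hmat, ← map_charDisc, map_pow S.ρ]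
      obtain ⟨u, hu⟩ := charDisc_dvd_pow (S.ρ F) b
      rw [hu, map_mul, hdiscF, zero_mul]
    rw [hzero, charDisc] at hdiscσ
    have hdetσ : (2 : O) ^ c ∣ (S.ρ σ).det - 1 := by
      simpa using S.det_eq c σ 1 fun z hz => by rw [pow_one]; exact hσr c z hz
    rw [show (S.ρ σ).trace ^ 2 - 4 =
      ((S.ρ σ).trace ^ 2 - 4 * (S.ρ σ).det) + 4 * ((S.ρ σ).det - 1) by ring]
    exact dvd_add hdiscσ (hdetσ.mul_left _)
  refine ⟨⟨q, hq, A, hA, F, hF⟩, hqT.1, ⟨hnd, ?_, ?_⟩, hle _ (by omega),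
    by rwa [hFσ], hdeg, hdF⟩
  · exact hle 2 (by omega)
  · rw [hFσ]; exact hσ

/-- A rotation place with a sign pattern at the primes of the level. -/
theorem exists_rotPlace {p p' : ℕ} (hp : p ∈ S.anchor.N.primeFactors)
    (hp' : p' ∈ S.anchor.N.primeFactors) (hne : p ≠ p') {c : ℕ} (hc : c ≠ 0) (n : ℕ)
    (T : Finset ℕ) :
    ∃ P : AuxPlace, P.q ∉ T ∧ IsRotPlace S.anchor P ∧ 2 ^ (n + 1) ∣ P.q - 1 ∧
      ¬ (2 : O) ^ c ∣ (S.ρ P.F).trace ^ 2 - ((P.q + 1 : ℕ) : O) ^ 2 ∧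
      ∀ l ∈ S.anchor.N.primeFactors,
        @legendreSym P.q ⟨P.hq⟩ (l : ℤ) = if l = p ∨ l = p' then -1 else 1 := by
  classical
  set a := S.anchor with ha
  set M := n + 1 + 2 with hM
  set ps := a.N.primeFactors with hpsdef
  have hN0 : 2 * a.N ≠ 0 := by have := a.level_mod; omega
  have hps : ∀ l ∈ ps, l.Prime ∧ l ≠ 2 := fun l hl => ⟨Nat.prime_of_mem_primeFactors hl, fun h => by
    have h2 : 2 ∣ a.N := h ▸ Nat.dvd_of_mem_primeFactors hl
    have := a.level_mod; omega⟩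
  have hprod : (∏ l ∈ ps, l) = a.N := Nat.prod_primeFactors_of_squarefree a.squarefree
  obtain ⟨g, hgr, hg⟩ := exists_fixesRoots_signs hps {p, p'} (m := M) (by omega)
  choose r hr using fun l : ℕ => IsAlgClosed.exists_pow_nat_eq (l : Qbar) two_pos
  obtain ⟨i, hi⟩ := IsAlgClosed.exists_pow_nat_eq (-1 : Qbar) two_pos
  -- a sign pattern with two minus signs is of rotation type
  have hdiag : ∀ u : Γℚ, FixesI u →
      (∀ l ∈ ps, u (r l) = r l ↔ l ∉ ({p, p'} : Finset ℕ)) → a.ρ u 0 1 = 0 := by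
    intro u huI hu
    refine (a.diag_iff u).mpr fun x hx => ?_
    have hprod' : u (∏ l ∈ ps, r l) = ∏ l ∈ ps, r l := by
      rw [map_prod]
      have h1 : ∀ l ∈ ps,
          u (r l) = (if l ∈ ({p, p'} : Finset ℕ) then -1 else 1) * r l := by
        intro l hl
        split_ifs with h
        · rw [neg_one_mul]
          exact (apply_sqrt_eq_or (d := (l : ℤ)) (by rw [hr]; norm_num) u).resolve_left fun h' =>
            (hu l hl).mp h' h
        · rw [one_mul]; exact (hu l hl).mpr h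
      rw [Finset.prod_congr rfl h1, Finset.prod_mul_distrib, Finset.prod_ite_mem,
        Finset.inter_eq_right.mpr (by simp [Finset.insert_subset_iff, hp, hp']),
        Finset.prod_const, Finset.card_pair hne]
      ring
    have hsq : (i * ∏ l ∈ ps, r l) ^ 2 = x ^ 2 := by
      rw [mul_pow, hi, ← Finset.prod_pow, Finset.prod_congr rfl fun l _ => hr l, ← Nat.cast_prod,
        hprod, pow_two x, hx]
      ring
    rcases sq_eq_sq_iff_eq_or_eq_neg.mp hsq.symm with h | h <;> simp [h, huI i hi, hprod']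
  -- make it nontrivial
  obtain ⟨τ, hτr, hτ⟩ := exists_rot_fixesAllRoots a
  obtain ⟨h, hhr, hh1, hhx⟩ : ∃ h : Γℚ, FixesRoots M h ∧ a.ρ h ≠ 1 ∧
      ∀ l ∈ ps, ∀ x : Qbar, x ^ 2 = (l : Qbar) → h x = g x := by
    by_cases h1 : a.ρ g = 1
    · refine ⟨g * (τ * τ), hgr.mul ((hτr M).mul (hτr M)), ?_, fun l _ x hx => ?_⟩
      · rw [map_mul, h1, one_mul, map_mul, hτ]
        intro h2
        have h00 := congrFun (congrFun h2 0) 0
        simp [rotMat, Matrix.mul_apply] at h00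
        exact omega_ne_one a (by linear_combination omega_cube a - a.ω * h00)
      · rw [AlgEquiv.mul_apply, sq_apply_sqrt (d := (l : ℤ)) (by rw [hx]; norm_num) τ]
    · exact ⟨g, hgr, h1, fun _ _ _ _ => rfl⟩
  obtain ⟨L₀, hL₀, hρL⟩ := a.finiteLevel
  have : NeZero (2 ^ M) := ⟨pow_ne_zero M two_ne_zero⟩
  obtain ⟨ζ, hζ⟩ := HasEnoughRootsOfUnity.exists_primitiveRoot Qbar (2 ^ M)
  set R : IntermediateField ℚ Qbar :=
    adjoin ℚ ((insert ζ (insert i (ps.image r)) : Finset Qbar) : Set Qbar)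
  have : FiniteDimensional ℚ R := finiteDimensional_adjoin fun x _ =>
    ((AlgebraicClosure.isAlgebraic ℚ).isAlgebraic x).isIntegral
  set L := L₀ ⊔ R
  have hle0 : L₀ ≤ L := le_sup_left
  have hRL : ∀ x ∈ insert ζ (insert i (ps.image r)), x ∈ L := fun x hx =>
    (le_sup_right : R ≤ L) (subset_adjoin ℚ _ hx)
  obtain ⟨q, hq, hqT, A, hA, F, hF, e, b, he, hb⟩ :=
    FermatLib.Galois.exists_isFrobeniusAt_agreeOn L h (T ∪ (2 * a.N).primeFactors)
  rw [Finset.mem_union, not_or] at hqT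
  have hnd : ¬ q ∣ 2 * a.N := fun h => hqT.2 (Nat.mem_primeFactors.mpr ⟨hq, h, hN0⟩)
  have hq2 : q ≠ 2 := fun h => hnd (h ▸ dvd_mul_right 2 a.N)
  have hpow : ∀ (u : Γℚ) (x : Qbar) (m : ℕ), u x = x → (u ^ m) x = x := by
    intro u x m hu
    induction m with
    | zero => rfl
    | succ m ih => rw [pow_succ, AlgEquiv.mul_apply, hu, ih]
  have hFI : FixesI F := fun x hx => by
    have hxL : x ∈ L := by
      rcases sq_eq_sq_iff_eq_or_eq_neg.mp (hx.trans hi.symm) with e' | e' <;> rw [e']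
      · exact hRL i (by simp)
      · exact neg_mem (hRL i (by simp))
    rw [he x hxL]
    exact hpow h x e ((hhr.fixesI (by omega)) x hx)
  have hsigns : ∀ l ∈ ps, F (r l) = r l ↔ l ∉ ({p, p'} : Finset ℕ) := fun l hl => by
    have hrL : r l ∈ L := hRL _ (by simp [Finset.mem_image]; exact Or.inr (Or.inr ⟨l, hl, rfl⟩))
    rw [← hg l hl _ (hr l), ← hhx l hl _ (hr l)]
    constructor
    · intro h'; rw [← hb _ hrL]; exact hpow F _ b h'
    · intro h'; rw [he _ hrL]; exact hpow h _ e h'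
  have hFdiag : a.ρ F 0 1 = 0 := hdiag F hFI hsigns
  have hF1 : a.ρ F ≠ 1 := fun h1 => hh1 <| by
    have := hom_eq_of_agree a.ρ (fun g hg => hρL g hg) fun x hx => hb x (hle0 hx)
    rw [map_pow, h1, one_pow] at this
    exact this.symm
  have hdvd : 2 ^ M ∣ q - 1 := by
    refine two_pow_dvd_sub_one hq hq2 hA hF hζ ?_
    rw [he ζ (hRL ζ (by simp))]
    exact hhr.pow e ζ hζ.pow_eq_one
  have hle : ∀ j, j ≤ M → 2 ^ j ∣ q - 1 := fun j hj => (pow_dvd_pow 2 hj).trans hdvd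
  refine ⟨⟨q, hq, A, hA, F, hF⟩, hqT.1, ⟨hnd, hle 2 (by omega), hFdiag, hF1⟩,
    hle _ (by omega), not_two_dvd_of_red_ne_zero S ?_ hc, fun l hl => ?_⟩
  · have htr : (a.ρ F).trace = 1 := by
      obtain ⟨j, hj | hj⟩ := a.range_eq F
      · have hω1 : a.ω ^ j ≠ 1 := fun h1 => hF1 (by
          rw [hj]; ext u v
          fin_cases u <;> fin_cases v <;> simp [rotMat, h1, pow_mul'])
        rw [hj, Matrix.trace_fin_two]
        simp only [rotMat]
        have h3 : (a.ω ^ j) ^ 3 = 1 := by rw [← pow_mul, mul_comm, pow_mul, omega_cube, one_pow]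
        have h0 : a.ω ^ j * a.ω ^ j + a.ω ^ j + 1 = 0 := (mul_eq_zero.mp
          (show (a.ω ^ j - 1) * (a.ω ^ j * a.ω ^ j + a.ω ^ j + 1) = 0 by
            linear_combination h3)).resolve_left (sub_ne_zero.mpr hω1)
        simp [pow_mul']
        linear_combination h0 - a.two_eq_zero
      · rw [hj] at hFdiag
        simp [swapMat] at hFdiag
        exact absurd hFdiag.1 (omega_ne_zero a)
    have hq0 : ((q + 1 : ℕ) : k) = 0 := by
      obtain ⟨j, hj⟩ := hq.odd_of_ne_two hq2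
      rw [show q + 1 = 2 * (j + 1) by omega, Nat.cast_mul, Nat.cast_ofNat, a.two_eq_zero, zero_mul]
    rw [map_sub, map_pow, map_pow, map_natCast, red_trace, ← ha, htr, hq0]
    norm_num
  · have := Fact.mk hq
    have hld : ¬ ((q : ℕ) : ℤ) ∣ (l : ℤ) := fun hd => hnd (Dvd.dvd.mul_left (by
      rw [(Nat.prime_dvd_prime_iff_eq hq (hps l hl).1).mp (Int.natCast_dvd_natCast.mp hd)]
      exact Nat.dvd_of_mem_primeFactors hl) 2)
    have hl0 : ((l : ℤ) : ZMod q) ≠ 0 := fun h0 => hld ((ZMod.intCast_zmod_eq_zero_iff_dvd _ q).mp h0)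
    have hiff : IsSquare ((l : ℤ) : ZMod q) ↔ ¬ (l = p ∨ l = p') := by
      rw [← frobenius_sqrt_iff hq2 hA hF hld (x := r l) (by rw [hr]; norm_num), hsigns l hl]
      simp
    split_ifs with hlp
    · exact (legendreSym.eq_neg_one_iff q).mpr fun hs => hiff.mp hs hlp
    · exact (legendreSym.eq_one_iff q hl0).mpr (hiff.mpr hlp)

variable [IsDomain O] [IsDiscreteValuationRing O] [CharZero O] [Finite k]

/-- For every depth and bound there are swap places killing the dual classes and Legendre places,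
all with traces uniformly away from those of forms new there. -/
theorem exists_auxPlaces :
    ∃ s c : ℕ, ∀ n B : ℕ, ∃ (Q : Fin s → AuxPlace) (qs : Fin (S.anchor.r₀ + 1) → ℕ)
      (C : Fin S.anchor.r₀ → AuxPlace),
      IsDepth S n (Sum.elim Q C) ∧ (∀ i, B < (Sum.elim Q C i).q) ∧
      (∀ j, IsSwapPlace S.anchor (Q j)) ∧ IsLegendreSet S.anchor qs C ∧
      KillsDual S.anchor Q ∧ IsNondegenerate S c (Sum.elim Q C) := by
  classical
  set a := S.anchor with ha
  obtain ⟨m, d, hd, hrep⟩ := finite_baseClasses a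
  set J := {i : Fin m // ¬ IsAdCobdry a (d i)}
  have hseed : ∀ j : J, ∃ σ, FixesAllRoots σ ∧ a.ρ σ 0 1 ≠ 0 ∧ frobValue a (d j.1) σ ≠ 0 ∧
      (S.ρ σ).trace ^ 2 ≠ 4 := fun j => exists_seed S (hd j.1).cocycle (hd j.1).anti j.2
  choose σ hσr hσs hσv hσt using hseed
  -- the uniform bound
  have hunit : ¬ IsUnit (2 : O) := fun h => by simpa [red_two S] using h.map S.red
  have hexp : ∀ j : J, ∃ c, ¬ (2 : O) ^ c ∣ (S.ρ (σ j)).trace ^ 2 - 4 := fun j => by
    by_contra h
    push Not at h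
    refine hσt j (sub_eq_zero.mp ?_)
    have hbot := Ideal.iInf_pow_eq_bot_of_isDomain (Ideal.span {(2 : O)})
      (by rwa [Ne, Ideal.span_singleton_eq_top])
    rw [← Ideal.mem_bot, ← hbot, Ideal.mem_iInf]
    intro c
    rw [Ideal.span_singleton_pow, Ideal.mem_span_singleton]
    exact h c
  choose cj hcj using hexp
  set c := Finset.univ.sup cj + 1 with hc
  have hcc : ∀ j : J, ¬ (2 : O) ^ c ∣ (S.ρ (σ j)).trace ^ 2 - 4 := fun j h => hcj j
    ((pow_dvd_pow _ (by have := Finset.le_sup (f := cj) (Finset.mem_univ j); omega)).trans h)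
  refine ⟨Fintype.card J, c, fun n B => ?_⟩
  let eJ := (Fintype.equivFin J).symm
  -- enumeration of the primes of the level
  have hcard : a.N.primeFactors.card = a.r₀ + 1 := by
    have hne : a.N.primeFactors.Nonempty := Nat.nonempty_primeFactors.mpr (by
      have := a.level_mod; omega)
    have := hne.card_pos
    simp only [Anchor.r₀]; omega
  let ep := (Fintype.equivFinOfCardEq (α := a.N.primeFactors) (by simpa using hcard)).symm
  let qs : Fin (a.r₀ + 1) → ℕ := fun i => (ep i).1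
  have hqinj : Function.Injective qs := Subtype.val_injective.comp ep.injective
  have hqmem : ∀ i, qs i ∈ a.N.primeFactors := fun i => (ep i).2
  -- the places
  let Pr : Fin (Fintype.card J) ⊕ Fin a.r₀ → AuxPlace → Prop := fun x P =>
    2 ^ (n + 1) ∣ P.q - 1 ∧ ¬ P.q ∣ 2 * a.N ∧ a.ρ P.F ≠ 1 ∧
      ¬ (2 : O) ^ c ∣ (S.ρ P.F).trace ^ 2 - ((P.q + 1 : ℕ) : O) ^ 2 ∧
      match x with
      | Sum.inl j => IsSwapPlace a P ∧ frobValue a (d (eJ j).1) P.F ≠ 0
      | Sum.inr i => IsRotPlace a P ∧ ∀ j : Fin a.r₀,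
          @legendreSym P.q ⟨P.hq⟩ (qs j.castSucc) = if i = j then -1 else 1
  obtain ⟨f, hf, hinj, hB⟩ := exists_injective_places Pr (Finset.range (B + 1)) fun x T => by
    rcases x with j | i
    · obtain ⟨P, hT, hsw, h2, h1, hdeg, hv⟩ := exists_swapPlace S (hd (eJ j).1).cocycle
        (hσr (eJ j)) (hσs (eJ j)) (hσv (eJ j)) (hcc (eJ j)) n T
      exact ⟨P, ⟨h2, hsw.prime_to, h1, hdeg, hsw, hv⟩, hT⟩
    · have hne : qs i.castSucc ≠ qs (Fin.last a.r₀) := fun h => (Fin.castSucc_lt_last i).ne (hqinj h)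
      obtain ⟨P, hT, hrot, h2, hdeg, hleg⟩ := exists_rotPlace S (hqmem i.castSucc)
        (hqmem (Fin.last _)) hne (c := c) (by omega) n T
      refine ⟨P, ⟨h2, hrot.prime_to, hrot.frob_ne_one, hdeg, hrot, fun j => ?_⟩, hT⟩
      rw [hleg _ (hqmem j.castSucc)]
      congr 1
      refine propext ⟨fun h => ?_, fun h => Or.inl (by rw [h])⟩
      rcases h with h | h
      · exact (Fin.castSucc_injective _ (hqinj h)).symm
      · exact absurd (hqinj h) (Fin.castSucc_lt_last j).ne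
  refine ⟨fun j => f (Sum.inl j), qs, fun i => f (Sum.inr i), ?_, ?_, fun j => (hf (Sum.inl j)).2.2.2.2.1,
    ⟨?_, hqinj, fun i => (hf (Sum.inr i)).2.2.2.2.1, fun i j => (hf (Sum.inr i)).2.2.2.2.2 j⟩,
    ?_, ?_⟩
  · rw [show Sum.elim (fun j => f (Sum.inl j)) (fun i => f (Sum.inr i)) = f from
      Sum.elim_comp_inl_inr f]
    exact ⟨hinj, fun x => (hf x).2.1, fun x => (hf x).1, fun x => (hf x).2.2.1⟩
  · intro x
    rw [show Sum.elim (fun j => f (Sum.inl j)) (fun i => f (Sum.inr i)) = f from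
      Sum.elim_comp_inl_inr f]
    have := hB x
    rw [Finset.mem_range, not_lt] at this
    omega
  · ext l
    constructor
    · rintro ⟨i, rfl⟩; exact hqmem i
    · intro hl; exact ⟨ep.symm ⟨l, hl⟩, by simp [qs]⟩
  · intro e he hloc
    obtain ⟨i, hi⟩ := hrep e he
    obtain ⟨M', hM'⟩ := hi
    by_cases hcob : IsAdCobdry a (d i)
    · obtain ⟨M, hM⟩ := hcob
      refine ⟨M' + M, fun g => ?_⟩
      have h := hM' g
      rw [Pi.sub_apply, hM g] at h
      rw [show e g = adCobdry a M' g + adCobdry a M g from sub_eq_iff_eq_add.mp h]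
      simp [adCobdry, Matrix.mul_add, Matrix.add_mul]
      abel
    · exfalso
      obtain ⟨M, hM⟩ := hloc (eJ.symm ⟨i, hcob⟩)
      have hv := (hf (Sum.inl (eJ.symm ⟨i, hcob⟩))).2.2.2.2.2
      rw [Equiv.apply_symm_apply] at hv
      set F := (f (Sum.inl (eJ.symm ⟨i, hcob⟩))).F
      apply hv
      have hdi : d i F = adCobdry a M F - adCobdry a M' F := by
        rw [← hM, ← hM' F, Pi.sub_apply, sub_sub_cancel]
      have h1 : (a.ρ F * adCobdry a M F).trace = 0 := frobValue_adCobdry a M F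
      have h2 : (a.ρ F * adCobdry a M' F).trace = 0 := frobValue_adCobdry a M' F
      simp only [frobValue, hdi, Matrix.mul_sub, Matrix.trace_sub, h1, h2, sub_self]
  · rw [show Sum.elim (fun j => f (Sum.inl j)) (fun i => f (Sum.inr i)) = f from
      Sum.elim_comp_inl_inr f]
    exact fun x => (hf x).2.2.2.1

end FermatLib.MLT.Two
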