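import Fermat.Prelude.Thm_IsLocalRing_isAdicComplete_of_module_finite
import Fermat.Agent.Galois.RepDVR
import Mathlib.RingTheory.AdjoinRoot
import Mathlib.RingTheory.DiscreteValuationRing.TFAE
import Mathlib.NumberTheory.Padics.RingHoms
import Mathlib.Algebra.Polynomial.Eval.Irreducible
import Mathlib.Algebra.Polynomial.SpecificDegree

/-!
# The coefficient ring `W(𝔽₄) = ℤ₂[ω]`
-/

set_option autoImplicit false
set_option linter.style.haveILetI false

noncomputable section

open Polynomial

namespace FermatLib.MLT.Two.Point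

/-- `X² + X + 1`. -/
abbrev cubicCyclo : Polynomial ℤ_[2] := X ^ 2 + X + 1

/-- `ℤ₂[ω]`. -/
abbrev Coeff : Type := AdjoinRoot cubicCyclo

/-- The cube root of unity of `Coeff`. -/
abbrev omegaC : Coeff := AdjoinRoot.root cubicCyclo

instance factPrimeTwoCoeff : Fact (Nat.Prime 2) := ⟨Nat.prime_two⟩

theorem cubicCyclo_monic : cubicCyclo.Monic := by unfold cubicCyclo; monicity!

theorem cubicCyclo_irreducible : Irreducible cubicCyclo := by
  refine Polynomial.Monic.irreducible_of_irreducible_map PadicInt.toZMod _ cubicCyclo_monic ?_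
  have hm : (cubicCyclo.map PadicInt.toZMod).Monic := cubicCyclo_monic.map _
  have hd : (cubicCyclo.map PadicInt.toZMod).natDegree = 2 := by
    rw [cubicCyclo_monic.natDegree_map]; unfold cubicCyclo; compute_degree!
  rw [hm.irreducible_iff_roots_eq_zero_of_degree_le_three (by omega) (by omega)]
  refine Multiset.eq_zero_of_forall_notMem fun a ha => ?_
  rw [mem_roots hm.ne_zero] at ha
  simp [cubicCyclo] at ha
  revert a
  decide

instance coeff_isDomain : IsDomain Coeff := by
  haveI : (Ideal.span {cubicCyclo}).IsPrime :=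
    (Ideal.span_singleton_prime cubicCyclo_monic.ne_zero).mpr cubicCyclo_irreducible.prime
  exact Ideal.Quotient.isDomain _

instance coeff_finite : Module.Finite ℤ_[2] Coeff := cubicCyclo_monic.finite_adjoinRoot

theorem omegaC_rel : omegaC ^ 2 + omegaC + 1 = 0 := by
  have h := AdjoinRoot.eval₂_root cubicCyclo
  simpa [cubicCyclo] using h

theorem coeff_algebraMap_injective : Function.Injective (algebraMap ℤ_[2] Coeff) := by
  rw [AdjoinRoot.algebraMap_eq]
  refine AdjoinRoot.of.injective_of_degree_ne_zero ?_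
  rw [degree_eq_natDegree cubicCyclo_monic.ne_zero,
    show cubicCyclo.natDegree = 2 by unfold cubicCyclo; compute_degree!]
  norm_num

instance coeff_charZero : CharZero Coeff :=
  charZero_of_injective_ringHom coeff_algebraMap_injective

theorem exists_eq_add_mul_omega (x : Coeff) :
    ∃ a b : ℤ_[2], x = algebraMap ℤ_[2] Coeff a + algebraMap ℤ_[2] Coeff b * omegaC := by
  obtain ⟨p, rfl⟩ := AdjoinRoot.mk_surjective x
  have hd : (p %ₘ cubicCyclo).natDegree ≤ 1 := by
    have := natDegree_modByMonic_lt p cubicCyclo_monic (fun h => by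
      have := congrArg natDegree h
      rw [show cubicCyclo.natDegree = 2 by unfold cubicCyclo; compute_degree!, natDegree_one] at this
      omega)
    rw [show cubicCyclo.natDegree = 2 by unfold cubicCyclo; compute_degree!] at this
    omega
  refine ⟨(p %ₘ cubicCyclo).coeff 0, (p %ₘ cubicCyclo).coeff 1, ?_⟩
  have e : AdjoinRoot.mk cubicCyclo p = AdjoinRoot.mk cubicCyclo (p %ₘ cubicCyclo) :=
    AdjoinRoot.mk_eq_mk.2 ⟨p /ₘ cubicCyclo, by
      linear_combination (-1 : Polynomial ℤ_[2]) * modByMonic_add_div p cubicCyclo⟩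
  conv_lhs => rw [e, eq_X_add_C_of_natDegree_le_one hd]
  simp [AdjoinRoot.algebraMap_eq, add_comm]

theorem isUnit_or_two_dvd (x : Coeff) : IsUnit x ∨ (2 : Coeff) ∣ x := by
  obtain ⟨a, b, rfl⟩ := exists_eq_add_mul_omega x
  by_cases h : PadicInt.toZMod a = 0 ∧ PadicInt.toZMod b = 0
  · refine Or.inr ?_
    have hd : ∀ c : ℤ_[2], PadicInt.toZMod c = 0 → (2 : Coeff) ∣ algebraMap ℤ_[2] Coeff c := by
      intro c hc
      rw [← RingHom.mem_ker, PadicInt.ker_toZMod, PadicInt.maximalIdeal_eq_span_p,
        Ideal.mem_span_singleton] at hc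
      simpa [map_ofNat] using map_dvd (algebraMap ℤ_[2] Coeff) hc
    exact dvd_add (hd a h.1) (Dvd.dvd.mul_right (hd b h.2) _)
  · refine Or.inl ?_
    have hnorm : IsUnit (a ^ 2 - a * b + b ^ 2) := by
      by_contra hn
      have h0 : PadicInt.toZMod (a ^ 2 - a * b + b ^ 2) = 0 := by
        rw [← RingHom.mem_ker, PadicInt.ker_toZMod]; exact hn
      simp only [map_add, map_sub, map_mul, map_pow] at h0
      revert h h0
      generalize PadicInt.toZMod a = u
      generalize PadicInt.toZMod b = v
      revert u v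
      decide
    refine isUnit_of_mul_isUnit_left (y := algebraMap ℤ_[2] Coeff a +
      algebraMap ℤ_[2] Coeff b * (-1 - omegaC)) ?_
    have e : (algebraMap ℤ_[2] Coeff a + algebraMap ℤ_[2] Coeff b * omegaC) *
        (algebraMap ℤ_[2] Coeff a + algebraMap ℤ_[2] Coeff b * (-1 - omegaC)) =
        algebraMap ℤ_[2] Coeff (a ^ 2 - a * b + b ^ 2) := by
      simp only [map_add, map_sub, map_mul, map_pow]
      linear_combination (-(algebraMap ℤ_[2] Coeff b) ^ 2) * omegaC_rel
    rw [e]
    exact hnorm.map _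

theorem not_isUnit_two : ¬ IsUnit (2 : Coeff) := fun h => by
  obtain ⟨y, hy⟩ := h.exists_right_inv
  obtain ⟨a, b, rfl⟩ := exists_eq_add_mul_omega y
  have hmk : AdjoinRoot.mk cubicCyclo (C (2 * a - 1) + C (2 * b) * X) = 0 := by
    simp only [map_add, map_sub, map_mul, map_one, map_ofNat, AdjoinRoot.mk_X, AdjoinRoot.mk_C]
    rw [AdjoinRoot.algebraMap_eq] at hy
    linear_combination hy
  have hg : C (2 * a - 1) + C (2 * b) * X = 0 := by
    by_contra hne
    refine AdjoinRoot.mk_ne_zero_of_natDegree_lt cubicCyclo_monic hne ?_ hmk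
    rw [show cubicCyclo.natDegree = 2 by unfold cubicCyclo; compute_degree!, add_comm]
    exact lt_of_le_of_lt natDegree_linear_le one_lt_two
  have h0 := congrArg (fun q => PadicInt.toZMod (coeff q 0)) hg
  simp [map_ofNat, show (2 : ZMod 2) = 0 from rfl] at h0

instance coeff_isLocalRing : IsLocalRing Coeff :=
  Galois.isLocalRing_of_module_finite_of_isDomain ℤ_[2] Coeff

theorem maximalIdeal_coeff : IsLocalRing.maximalIdeal Coeff = Ideal.span {(2 : Coeff)} := by
  refine le_antisymm (fun x hx => ?_) ?_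
  · rcases isUnit_or_two_dvd x with h | h
    · exact absurd h hx
    · exact Ideal.mem_span_singleton.2 h
  · rw [Ideal.span_le, Set.singleton_subset_iff]
    exact not_isUnit_two

instance coeff_isDVR : IsDiscreteValuationRing Coeff := by
  haveI : IsNoetherianRing Coeff := IsNoetherianRing.of_finite ℤ_[2] Coeff
  have hnf : ¬ IsField Coeff := fun hf => not_isUnit_two (by
    obtain ⟨y, hy⟩ := hf.mul_inv_cancel (two_ne_zero : (2 : Coeff) ≠ 0)
    exact IsUnit.of_mul_eq_one _ hy)
  exact ((IsDiscreteValuationRing.TFAE Coeff hnf).out 0 4).mpr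
    (⟨⟨2, maximalIdeal_coeff⟩⟩ : (IsLocalRing.maximalIdeal Coeff).IsPrincipal)

instance coeff_isLocalHom : IsLocalHom (algebraMap ℤ_[2] Coeff) :=
  (algebraMap_isIntegral_iff.mpr (Algebra.IsIntegral.of_finite ℤ_[2] Coeff)).isLocalHom
    coeff_algebraMap_injective

instance coeff_isAdicComplete : IsAdicComplete (IsLocalRing.maximalIdeal Coeff) Coeff :=
  IsLocalRing.isAdicComplete_of_module_finite (𝒪 := ℤ_[2])

instance coeff_finite_residue : Finite (IsLocalRing.ResidueField Coeff) :=
  haveI : Finite (IsLocalRing.ResidueField ℤ_[2]) :=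
    Finite.of_equiv _ (PadicInt.residueField (p := 2)).symm.toEquiv
  Module.finite_of_finite (IsLocalRing.ResidueField ℤ_[2])

end FermatLib.MLT.Two.Point

end
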