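import Fermat.Agent.Galois.FrobeniusElement
import Fermat.Agent.Basic.FrobeniusExists
import Fermat.Agent.EC.AtPTame

/-!
# `√(-N)` is moved by Frobenius at 2 when `N ≡ 3 mod 8`
-/

set_option autoImplicit false

noncomputable section

namespace FermatLib.MLT.Two.Point

open FermatLib.AtP

local notation "Qbar" => AlgebraicClosure ℚ
local notation "Γℚ" => (AlgebraicClosure ℚ ≃ₐ[ℚ] AlgebraicClosure ℚ)

/-- A decomposition element at 2 moves `√(-N)` for `N ≡ 3 mod 8`. -/
theorem exists_decomposition_moves_sqrt {N : ℕ} (hN : N % 8 = 3) {A : ValuationSubring Qbar}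
    (hA : A.LiesOverPrime 2) {d : Qbar} (hd : d ^ 2 = -(N : Qbar)) :
    ∃ σ ∈ A.decompositionSubgroup ℚ, σ d ≠ d := by
  obtain ⟨σ, hσ⟩ := FermatLib.Basic.exists_isFrobeniusAt Nat.prime_two A hA
  refine ⟨σ, hσ.mem_decompositionSubgroup, fun hfix => ?_⟩
  obtain ⟨j, hj⟩ : ∃ j, N = 8 * j + 3 := ⟨N / 8, by omega⟩
  obtain ⟨y, hy⟩ : ∃ y, y = (1 + d) / 2 := ⟨_, rfl⟩
  have hyσ : σ y = y := by rw [hy, map_div₀, map_add, map_one, map_ofNat, hfix]
  have hrel : y ^ 2 - y = -((2 * j + 1 : ℕ) : Qbar) := by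
    have hd2 : d ^ 2 = -(8 * (j : Qbar) + 3) := by rw [hd, hj]; push_cast; ring
    rw [hy]
    push_cast
    field_simp
    linear_combination hd2
  have hc1 : A.valuation ((2 * j + 1 : ℕ) : Qbar) = 1 :=
    valuation_natCast_eq_one Nat.prime_two hA (by omega)
  have hyA : A.valuation y ≤ 1 := by
    by_contra hlt
    push Not at hlt
    have h2 : A.valuation y < A.valuation (y ^ 2) := by
      rw [map_pow, pow_two]
      exact lt_mul_of_one_lt_right (zero_lt_one.trans hlt) hlt
    have h := congrArg A.valuation hrel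
    rw [A.valuation.map_sub_eq_of_lt_left h2, A.valuation.map_neg, hc1, map_pow] at h
    exact (one_lt_pow₀ hlt two_ne_zero).ne' h
  have h := FermatLib.Galois.frobenius_sub_pow_mem_nonunits hσ
    ((A.valuation_le_one_iff y).1 hyA)
  rw [hyσ, ValuationSubring.mem_nonunits_iff, show y - y ^ 2 = -(y ^ 2 - y) by ring,
    hrel, neg_neg, hc1] at h
  exact h.false

end FermatLib.MLT.Two.Point

end
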