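import Fermat.Agent.MLT.SwitchChain
import Mathlib.Data.Nat.Squarefree

/-!
# The discriminant of an anchor at 2

`Δ = -N m²` with `N` the product of the bad primes, and `N ≡ 3 mod 8`.
-/

set_option autoImplicit false

open WeierstrassCurve

namespace FermatLib.MLT.Two.Point

/-- Odd discriminant and even `a₁` force `Δ ≡ 5 mod 8`. -/
theorem Δ_emod_eight {W : WeierstrassCurve ℤ} (ha₁ : (2 : ℤ) ∣ W.a₁) (hΔ : ¬ (2 : ℤ) ∣ W.Δ) :
    W.Δ % 8 = 5 := by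
  obtain ⟨c, hc⟩ := ha₁
  obtain ⟨m, hm | hm⟩ := Int.even_or_odd' W.b₆
  · refine absurd ?_ hΔ
    have hb₂ : W.b₂ = 4 * (c ^ 2 + W.a₂) := by rw [b₂, hc]; ring
    rw [Δ, hb₂, hm]
    exact ⟨-(8 * (c ^ 2 + W.a₂) ^ 2) * W.b₈ - 4 * W.b₄ ^ 3 - 54 * m ^ 2 +
      36 * (c ^ 2 + W.a₂) * W.b₄ * m, by ring⟩
  · have hb₂ : W.b₂ = 4 * (c ^ 2 + W.a₂) := by rw [b₂, hc]; ring
    have hb₄ : W.b₄ = 2 * (W.a₄ + c * W.a₃) := by rw [b₄, hc]; ring
    obtain ⟨k, hk⟩ : Even (m * (m + 1)) := Int.even_mul_succ_self m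
    have : W.Δ = 8 * (-(2 * (c ^ 2 + W.a₂) ^ 2) * W.b₈ - W.b₄ ^ 3 - 27 * k +
        9 * (c ^ 2 + W.a₂) * (W.a₄ + c * W.a₃) * W.b₆ - 4) + 5 := by
      rw [Δ, hb₂, hb₄, hm]
      linear_combination -108 * hk
    omega

theorem exists_eq_mul_sq_of_odd_factorization {n N : ℕ} (hn : n ≠ 0) (hN : Squarefree N)
    (hmem : ∀ q : ℕ, q.Prime → (q ∣ N ↔ q ∣ n))
    (hodd : ∀ q : ℕ, q.Prime → q ∣ n → Odd (n.factorization q)) :
    ∃ m : ℕ, n = N * m ^ 2 := by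
  have hN0 : N ≠ 0 := hN.ne_zero
  have hfac : N.primeFactors = n.primeFactors := Finset.ext fun q => by
    simp only [Nat.mem_primeFactors, ne_eq, hN0, hn, not_false_eq_true, and_true]
    exact and_congr_right (hmem q)
  refine ⟨∏ q ∈ n.primeFactors, q ^ (n.factorization q / 2), ?_⟩
  conv_lhs => rw [← Nat.prod_factorization_pow_eq_self hn]
  rw [← Nat.prod_primeFactors_of_squarefree hN, hfac, ← Finset.prod_pow, ← Finset.prod_mul_distrib,
    Finsupp.prod, Nat.support_factorization]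
  refine Finset.prod_congr rfl fun q hq => ?_
  obtain ⟨j, hj⟩ := hodd q (Nat.prime_of_mem_primeFactors hq) (Nat.dvd_of_mem_primeFactors hq)
  rw [← pow_mul, ← pow_succ']
  congr 1
  omega

variable {W : WeierstrassCurve ℤ} (hW : IsTwoAnchor W) {N : ℕ} (hN : Squarefree N)
  (hlev : ∀ q : ℕ, q.Prime → (q ∣ N ↔ (q : ℤ) ∣ W.Δ))
include hW hN hlev

/-- The discriminant of an anchor is `-N` times a square. -/
theorem exists_Δ_eq_neg_mul_sq : ∃ m : ℤ, W.Δ = -(N : ℤ) * m ^ 2 := by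
  have hΔ : W.Δ ≠ 0 := hW.Δ_neg.ne
  obtain ⟨m, hm⟩ := exists_eq_mul_sq_of_odd_factorization (Int.natAbs_ne_zero.2 hΔ) hN
    (fun q hq => (hlev q hq).trans Int.natCast_dvd) (fun q hq hd => by
      have : Fact q.Prime := ⟨hq⟩
      have h := hW.oddOrders q hq (Int.natCast_dvd.2 hd)
      rwa [padicValInt, ← Nat.factorization_def _ hq] at h)
  refine ⟨(m : ℤ), ?_⟩
  have := Int.ofNat_natAbs_of_nonpos hW.Δ_neg.le
  rw [hm] at this
  push_cast at this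
  linarith

/-- The level of an anchor is `3` mod `8`. -/
theorem level_mod_eight : N % 8 = 3 := by
  obtain ⟨m, hm⟩ := exists_Δ_eq_neg_mul_sq hW hN hlev
  have h5 := Δ_emod_eight hW.two_dvd_a₁ hW.good_two
  obtain ⟨j, hj | hj⟩ := Int.even_or_odd' m
  · exact absurd ⟨-(2 * (N : ℤ) * j ^ 2), by rw [hm, hj]; ring⟩ hW.good_two
  · obtain ⟨k, hk⟩ : Even (j * (j + 1)) := Int.even_mul_succ_self j
    have : W.Δ = 8 * (-(N : ℤ) * k) - N := by
      rw [hm, hj]; linear_combination (-4 * (N : ℤ)) * hk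
    omega

end FermatLib.MLT.Two.Point
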