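import Fermat.Agent.EC.AtPIrreducible
import Fermat.Agent.EC.RedMultGalois
import Fermat.Agent.EC.FrobeniusTrace
import Fermat.Agent.MLT.ResidualTW
import Fermat.Agent.Mazur.GunitKummerRam
import Fermat.Agent.MLT.Two.PointDisc

/-!
# The residual representation of an anchor at 2

`E[2]` of an anchor: image `GL₂(𝔽₂)`, sign character cut out by `√(-N)`, inertia at 2 of order
three, transvection inertia at the bad primes, unramified elsewhere, moved by complex conjugation.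
-/

set_option autoImplicit false
set_option linter.style.haveILetI false

noncomputable section

open WeierstrassCurve WeierstrassCurve.Affine Matrix
open scoped WeierstrassCurve.Affine Pointwise

namespace FermatLib.MLT.Two.Point

open FermatLib.AtP FermatLib.Galois

local notation "Qbar" => AlgebraicClosure ℚ
local notation "Γℚ" => (AlgebraicClosure ℚ ≃ₐ[ℚ] AlgebraicClosure ℚ)
local notation "M₂" R:max => Matrix (Fin 2) (Fin 2) R

instance factPrimeTwoPoint : Fact (Nat.Prime 2) := ⟨Nat.prime_two⟩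

variable (W : WeierstrassCurve ℤ) (hΔ : W.Δ ≠ 0)

/-! ### Matrices and points -/

include hΔ in
/-- Two automorphisms have the same matrix exactly when they agree on `E[2]`. -/
theorem curveMat_eq_iff {σ τ : Γℚ} :
    curveMat W hΔ 2 σ = curveMat W hΔ 2 τ ↔ ∀ P : Pts W, 2 • P = 0 → σ • P = τ • P := by
  rw [show curveMat W hΔ 2 σ = curveMat W hΔ 2 τ ↔
      (curveResidualRep W hΔ 2).ρ σ = (curveResidualRep W hΔ 2).ρ τ from
    (LinearMap.toMatrix _ _).injective.eq_iff]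
  refine ⟨fun h P hP => ?_, fun h => LinearMap.ext fun (x : Tors W 2) => Subtype.ext ?_⟩
  · exact congrArg Subtype.val (LinearMap.congr_fun h (⟨P, (mem_tors_iff W).2 hP⟩ : Tors W 2))
  · exact h x ((mem_tors_iff W).1 x.2)

include hΔ in
theorem curveMat_eq_one_iff {σ : Γℚ} :
    curveMat W hΔ 2 σ = 1 ↔ ∀ P : Pts W, 2 • P = 0 → σ • P = P := by
  rw [← map_one (curveMat W hΔ 2), curveMat_eq_iff W hΔ]
  exact forall₂_congr fun P _ => by rw [one_smul]

include hΔ in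
/-- `σ` acts on `E[2]` through an element of order dividing three exactly when its matrix does. -/
theorem curveMat_pow_three_eq_one_iff {σ : Γℚ} :
    curveMat W hΔ 2 σ ^ 3 = 1 ↔ ∀ P : Pts W, 2 • P = 0 → σ • σ • σ • P = P := by
  rw [← map_pow, curveMat_eq_one_iff W hΔ]
  exact forall₂_congr fun P _ => by
    rw [show σ ^ 3 = σ * σ * σ by rw [pow_succ, pow_two], mul_smul, mul_smul]

/-! ### The square root of the discriminant -/

variable [(W.map (Int.castRingHom ℚ)).IsElliptic]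

theorem exists_torsion_triple : ∃ P Q : Pts W, 2 • P = 0 ∧ 2 • Q = 0 ∧ P ≠ 0 ∧ Q ≠ 0 ∧ P ≠ Q ∧
    ∀ X : Pts W, 2 • X = 0 → X ≠ 0 → X = P ∨ X = Q ∨ X = P + Q := by
  obtain ⟨P, hP, hP0⟩ := exists_torsion_ne_zero W (p := 2)
  have hcardT : (Tors W 2 : Set (Pts W)).ncard = 4 := by
    rw [← Nat.card_coe_set_eq]; exact natCard_tors W (p := 2)
  have hfinT : (Tors W 2 : Set (Pts W)).Finite := Set.finite_of_ncard_ne_zero (by omega)
  obtain ⟨Q, hQ, hQ'⟩ := Set.exists_mem_notMem_of_ncard_lt_ncard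
    (s := ({0, P} : Set (Pts W))) (t := (Tors W 2 : Set (Pts W)))
    (lt_of_le_of_lt ((Set.ncard_insert_le _ _).trans (by rw [Set.ncard_singleton]))
      (by rw [hcardT]; norm_num : 2 < (Tors W 2 : Set (Pts W)).ncard))
  simp only [Set.mem_insert_iff, Set.mem_singleton_iff, not_or] at hQ'
  have hQt : 2 • Q = 0 := (mem_tors_iff W).1 hQ
  refine ⟨P, Q, hP, hQt, hP0, hQ'.1, Ne.symm hQ'.2, fun X hX hX0 => ?_⟩
  have hR0 : P + Q ≠ 0 := fun e => hQ'.2 ((neg_eq_of_add_eq_zero_right e).symm.trans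
    (neg_eq_of_add_eq_zero_left (by rw [← two_nsmul]; exact hP)))
  have hsub : ({0, P, Q, P + Q} : Set (Pts W)) ⊆ (Tors W 2 : Set (Pts W)) := by
    rintro Y (rfl | rfl | rfl | rfl)
    · exact zero_mem (Tors W 2)
    · exact (mem_tors_iff W).2 hP
    · exact hQ
    · exact add_mem ((mem_tors_iff W).2 hP) hQ
  have heq : ({0, P, Q, P + Q} : Set (Pts W)) = (Tors W 2 : Set (Pts W)) := by
    refine Set.eq_of_subset_of_ncard_le hsub ?_ hfinT
    rw [hcardT, Set.ncard_insert_of_notMem (by simp [Ne.symm hP0, Ne.symm hQ'.1, Ne.symm hR0]),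
      Set.ncard_insert_of_notMem (by simp [Ne.symm hQ'.2, hQ'.1]),
      Set.ncard_pair (by simpa using hP0)]
  have hXm : X ∈ ({0, P, Q, P + Q} : Set (Pts W)) := heq ▸ (mem_tors_iff W).2 hX
  rcases hXm with e | e | e | e
  · exact absurd e hX0
  · exact Or.inl e
  · exact Or.inr (Or.inl e)
  · exact Or.inr (Or.inr e)

theorem xCoord_root {P : Pts W} (hP : 2 • P = 0) (h0 : P ≠ 0) :
    4 * xCoord P ^ 3 + ((W.b₂ : ℤ) : Qbar) * xCoord P ^ 2 + 2 * ((W.b₄ : ℤ) : Qbar) * xCoord P +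
      ((W.b₆ : ℤ) : Qbar) = 0 := by
  match P with
  | .zero => exact absurd rfl h0
  | .some x y h =>
    have he := (EC.nsmul_some_eq_zero_iff h 2).1 hP
    rw [show ((2 : ℕ) : ℤ) = 2 from rfl, ΨSq_two] at he
    simp [Ψ₂Sq, baseChange_eq_map, map_b₂, map_b₄, map_b₆] at he
    simpa [xCoord] using he

/-- The square root of `Δ` is fixed exactly by the automorphisms of order dividing three on
`E[2]`. -/
theorem exists_sqrt_Δ : ∃ d : Qbar, d ^ 2 = ((W.Δ : ℤ) : Qbar) ∧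
    ∀ σ : Γℚ, (σ d = d ∨ σ d = -d) ∧
      (σ d = d ↔ ∀ P : Pts W, 2 • P = 0 → σ • σ • σ • P = P) := by
  obtain ⟨P, Q, hP, hQ, hP0, hQ0, hPQ, hall⟩ := exists_torsion_triple W
  have hneg : ∀ {X : Pts W}, 2 • X = 0 → -X = X := fun hX =>
    neg_eq_of_add_eq_zero_left (by rw [← two_nsmul]; exact hX)
  obtain ⟨R, hR_def⟩ : ∃ R, R = P + Q := ⟨_, rfl⟩
  have hR : 2 • R = 0 := by rw [hR_def, nsmul_add, hP, hQ, add_zero]
  have hR0 : R ≠ 0 := fun e => hPQ (((neg_eq_of_add_eq_zero_right (hR_def ▸ e)).symm.trans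
    (hneg hP)).symm)
  have hPR : P ≠ R := fun e => hQ0 (add_left_cancel (a := P) (by rw [← hR_def, ← e, add_zero]))
  have hQR : Q ≠ R := fun e => hP0 (add_right_cancel (b := Q) (by rw [← hR_def, ← e, zero_add]))
  have hxinj : ∀ {X Y : Pts W}, 2 • X = 0 → X ≠ 0 → Y ≠ 0 → X ≠ Y → xCoord X ≠ xCoord Y := by
    intro X Y hX hX0 hY0 hXY e
    rcases eq_or_eq_neg_of_xCoord W hX0 hY0 e with h | h
    · exact hXY h
    · exact hXY (by rw [← hneg hX, h, neg_neg])
  obtain ⟨a, ha⟩ : ∃ a, a = xCoord P := ⟨_, rfl⟩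
  obtain ⟨b, hb⟩ : ∃ b, b = xCoord Q := ⟨_, rfl⟩
  obtain ⟨c, hc⟩ : ∃ c, c = xCoord R := ⟨_, rfl⟩
  have hab : a ≠ b := ha ▸ hb ▸ hxinj hP hP0 hQ0 hPQ
  have hac : a ≠ c := ha ▸ hc ▸ hxinj hP hP0 hR0 hPR
  have hbc : b ≠ c := hb ▸ hc ▸ hxinj hQ hQ0 hR0 hQR
  have fa := xCoord_root W hP hP0
  have fb := xCoord_root W hQ hQ0
  have fc := xCoord_root W hR hR0
  rw [← ha] at fa
  rw [← hb] at fb
  rw [← hc] at fc
  obtain ⟨d, hd⟩ : ∃ d, d = 4 * ((a - b) * (a - c) * (b - c)) := ⟨_, rfl⟩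
  have hd0 : d ≠ 0 := hd ▸ mul_ne_zero (by norm_num : (4 : Qbar) ≠ 0) (mul_ne_zero (mul_ne_zero
    (sub_ne_zero.2 hab) (sub_ne_zero.2 hac)) (sub_ne_zero.2 hbc))
  refine ⟨d, ?_, fun σ => ?_⟩
  · obtain ⟨B₂, hB₂⟩ : ∃ B, B = ((W.b₂ : ℤ) : Qbar) := ⟨_, rfl⟩
    obtain ⟨B₄, hB₄⟩ : ∃ B, B = ((W.b₄ : ℤ) : Qbar) := ⟨_, rfl⟩
    obtain ⟨B₆, hB₆⟩ : ∃ B, B = ((W.b₆ : ℤ) : Qbar) := ⟨_, rfl⟩
    rw [← hB₂, ← hB₄, ← hB₆] at fa fb fc
    have g₁ : 4 * (a ^ 2 + a * b + b ^ 2) + B₂ * (a + b) + 2 * B₄ = 0 :=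
      mul_left_cancel₀ (sub_ne_zero.2 hab) (by linear_combination fa - fb)
    have g₂ : 4 * (a ^ 2 + a * c + c ^ 2) + B₂ * (a + c) + 2 * B₄ = 0 :=
      mul_left_cancel₀ (sub_ne_zero.2 hac) (by linear_combination fa - fc)
    have g₃ : 4 * (a + b + c) + B₂ = 0 :=
      mul_left_cancel₀ (sub_ne_zero.2 hbc) (by linear_combination g₁ - g₂)
    have e₂ : B₂ = -4 * (a + b + c) := by linear_combination g₃
    have e₄ : B₄ = 2 * (a * b + a * c + b * c) := by
      subst e₂; linear_combination (1 / 2 : Qbar) * g₁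
    have e₆ : B₆ = -4 * (a * b * c) := by subst e₂ e₄; linear_combination fa
    have hdisc := (W.map (Int.castRingHom Qbar)).twoTorsionPolynomial_discr
    simp only [twoTorsionPolynomial, Cubic.discr, map_b₂, map_b₄, map_b₆, map_Δ, eq_intCast,
      ← hB₂, ← hB₄, ← hB₆] at hdisc
    subst e₂ e₄ e₆
    have h16 : (16 : Qbar) ≠ 0 := by norm_num
    refine mul_left_cancel₀ h16 ?_
    rw [← hdisc, hd]
    ring
  have hσd : σ d = 4 * ((xCoord (σ • P) - xCoord (σ • Q)) * (xCoord (σ • P) - xCoord (σ • R)) *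
      (xCoord (σ • Q) - xCoord (σ • R))) := by
    rw [hd, xCoord_smul, xCoord_smul, xCoord_smul, ha, hb, hc, map_mul, map_mul, map_mul, map_sub,
      map_sub, map_sub, map_ofNat]
  have him : ∀ {X : Pts W}, 2 • X = 0 → X ≠ 0 →
      σ • X = P ∨ σ • X = Q ∨ σ • X = R := fun {X} hX hX0 => hR_def ▸
    hall _ (by rw [← galois_nsmul, hX, galois_zero]) (galois_ne_zero W σ hX0)
  have hcomm3 : (∀ X : Pts W, 2 • X = 0 → σ • σ • σ • X = X) ↔
      σ • σ • σ • P = P ∧ σ • σ • σ • Q = Q ∧ σ • σ • σ • R = R := by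
    refine ⟨fun h => ⟨h P hP, h Q hQ, h R hR⟩, fun h X hX => ?_⟩
    by_cases hX0 : X = 0
    · rw [hX0, galois_zero, galois_zero, galois_zero]
    rcases hall X hX hX0 with e | e | e
    · rw [e]; exact h.1
    · rw [e]; exact h.2.1
    · rw [e, ← hR_def]; exact h.2.2
  rw [hcomm3]
  have hinj : Function.Injective (fun X : Pts W => σ • X) := MulAction.injective σ
  have hne : -d ≠ d := fun e => hd0 (by linear_combination (-1 / 2 : Qbar) * e)
  rcases him hP hP0 with eP | eP | eP <;> rcases him hQ hQ0 with eQ | eQ | eQ <;>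
    rcases him hR hR0 with eR | eR | eR <;>
    first
      | exact absurd (hinj (eP.trans eQ.symm)) hPQ
      | exact absurd (hinj (eP.trans eR.symm)) hPR
      | exact absurd (hinj (eQ.trans eR.symm)) hQR
      | (have e : σ d = d := by
          (rw [hσd, eP, eQ, eR, ← ha, ← hb, ← hc, hd]) <;> ring1
         exact ⟨Or.inl e, iff_of_true e
           ⟨by simp only [eP, eQ, eR], by simp only [eP, eQ, eR], by simp only [eP, eQ, eR]⟩⟩)
      | (have e : σ d = -d := by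
          (rw [hσd, eP, eQ, eR, ← ha, ← hb, ← hc, hd]) <;> ring1
         refine ⟨Or.inr e, iff_of_false (fun h => hne (e.symm.trans h)) ?_⟩
         rintro ⟨h1, h2, h3⟩
         simp only [eP, eQ, eR] at h1 h2 h3
         first
          | exact hPQ h1.symm
          | exact hPR h1.symm
          | exact hPQ h2
          | exact hQR h2.symm)

set_option synthInstance.maxSize 2000 in
set_option maxRecDepth 10000 in
theorem eq_word_of_orders : ∀ a b : M₂ (ZMod 2), a * a * a = 1 → a ≠ 1 → b * b = 1 → b ≠ 1 →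
    ∀ g : M₂ (ZMod 2), g.det = 1 →
      g = 1 ∨ g = a ∨ g = a * a ∨ g = b ∨ g = a * b ∨ g = a * a * b := by
  decide

/-! ### Anchors -/

variable {W} (hW : IsTwoAnchor W)
include hW

/-- Inertia at 2 acts on `E[2]` through the group of order three, and nontrivially. -/
theorem inertia_two {A : ValuationSubring Qbar} (hA : A.LiesOverPrime 2) :
    (∀ σ ∈ A.inertiaSubgroupIn ℚ, curveMat W hΔ 2 σ ^ 3 = 1) ∧
      ∃ τ ∈ A.inertiaSubgroupIn ℚ, curveMat W hΔ 2 τ ^ 3 = 1 ∧ curveMat W hΔ 2 τ ≠ 1 := by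
  have hT : TameLevelTwoAt W A 2 :=
    tameLevelTwoAt_two W hA hW.good_two (not_kernelProper_two_of_even W hA hW.good_two hW.two_dvd_a₁)
  obtain ⟨hall, τ, hτ, hfix⟩ := hT.order_three W
  have h3 : ∀ σ ∈ A.inertiaSubgroupIn ℚ, curveMat W hΔ 2 σ ^ 3 = 1 := fun σ hσ =>
    (curveMat_pow_three_eq_one_iff W hΔ).2 (hall σ hσ)
  refine ⟨h3, τ, hτ, h3 τ hτ, fun h => ?_⟩
  obtain ⟨P, hP, hP0⟩ := exists_torsion_ne_zero W (p := 2)
  exact hP0 (hfix P hP ((curveMat_eq_one_iff W hΔ).1 h P hP))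

omit [(W.map (Int.castRingHom ℚ)).IsElliptic] in
theorem Δ_sqrt_ne_fixed_of_complexConjugation {d : Qbar} (hd : d ^ 2 = ((W.Δ : ℤ) : Qbar)) :
    complexConjugation d ≠ d := fun h => by
  have hci := complexEmbedding_complexConjugation d
  rw [h] at hci
  have him := Complex.conj_eq_iff_im.mp hci.symm
  have h2 : (complexEmbedding d) ^ 2 = ((W.Δ : ℤ) : ℂ) := by rw [← map_pow, hd, map_intCast]
  have := congrArg Complex.re h2
  rw [sq, Complex.mul_re, him, Complex.intCast_re] at this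
  have hneg : ((W.Δ : ℤ) : ℝ) < 0 := Int.cast_lt_zero.2 hW.Δ_neg
  nlinarith [mul_self_nonneg (complexEmbedding d).re]

/-- Complex conjugation is a transposition on `E[2]`. -/
theorem curveMat_complexConjugation :
    curveMat W hΔ 2 complexConjugation ^ 2 = 1 ∧ curveMat W hΔ 2 complexConjugation ≠ 1 := by
  refine ⟨by rw [← map_pow, pow_two, complexConjugation_mul_self, map_one], fun h => ?_⟩
  obtain ⟨d, hd, hσ⟩ := exists_sqrt_Δ W
  exact Δ_sqrt_ne_fixed_of_complexConjugation hW hd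
    ((hσ _).2.2 ((curveMat_pow_three_eq_one_iff W hΔ).1 (by rw [h, one_pow])))

/-- The image of `E[2]` of an anchor is all of `GL₂(𝔽₂)`. -/
theorem exists_curveMat_eq (g : M₂ (ZMod 2)) (hg : g.det = 1) :
    ∃ σ : Γℚ, curveMat W hΔ 2 σ = g := by
  obtain ⟨A, hA⟩ := FermatLib.Basic.exists_liesOverPrime Nat.prime_two
  obtain ⟨-, τ, -, hτ3, hτ1⟩ := inertia_two hΔ hW hA
  obtain ⟨hc2, hc1⟩ := curveMat_complexConjugation hΔ hW
  rw [pow_succ, pow_two] at hτ3
  rw [pow_two] at hc2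
  rcases eq_word_of_orders _ _ hτ3 hτ1 hc2 hc1 g hg with h | h | h | h | h | h
  · exact ⟨1, by rw [map_one, h]⟩
  · exact ⟨τ, h.symm⟩
  · exact ⟨τ * τ, by rw [map_mul, h]⟩
  · exact ⟨complexConjugation, h.symm⟩
  · exact ⟨τ * complexConjugation, by rw [map_mul, h]⟩
  · exact ⟨τ * τ * complexConjugation, by rw [map_mul, map_mul, h]⟩

omit [(W.map (Int.castRingHom ℚ)).IsElliptic] hW in
/-- `E[2]` is unramified at good odd primes. -/
theorem curveMat_eq_one_of_good {q : ℕ} (hq : q.Prime) (hq2 : q ≠ 2) (hgood : ¬ (q : ℤ) ∣ W.Δ)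
    {A : ValuationSubring Qbar} (hA : A.LiesOverPrime q) {σ : Γℚ}
    (hσ : σ ∈ A.inertiaSubgroupIn ℚ) : curveMat W hΔ 2 σ = 1 := by
  refine (curveMat_eq_one_iff W hΔ).2 fun P hP =>
    FermatLib.EC.smul_eq_self_of_good (FermatLib.EC.integralAt_intCurve W A) ?_
      (FermatLib.EC.fixesResidues_of_mem_inertia hσ) ?_ hP
  · rw [FermatLib.EC.res_Δ_intCurve, FermatLib.EC.res_intCast_ne_zero_iff A hq hA]
    exact hgood
  · exact FermatLib.EC.res_natCast_ne_zero A hq hA fun hd =>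
      hq2 ((Nat.prime_dvd_prime_iff_eq hq Nat.prime_two).mp hd)

/-- At a bad prime inertia acts through transvections, and nontrivially. -/
theorem inertia_bad {q : ℕ} (hq : q.Prime) (hbad : (q : ℤ) ∣ W.Δ) {A : ValuationSubring Qbar}
    (hA : A.LiesOverPrime q) :
    (∀ σ ∈ A.inertiaSubgroupIn ℚ, ∀ τ ∈ A.inertiaSubgroupIn ℚ,
      (curveMat W hΔ 2 σ - 1) * (curveMat W hΔ 2 τ - 1) = 0) ∧
      ∃ τ ∈ A.inertiaSubgroupIn ℚ, curveMat W hΔ 2 τ ≠ 1 := by
  have hq2 : q ≠ 2 := fun e => hW.good_two (e ▸ hbad)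
  haveI : Algebra.IsAlgebraic ℚ Qbar := AlgebraicClosure.isAlgebraic ℚ
  refine ⟨fun σ hσ τ hτ => ?_, ?_⟩
  · have key : ∀ X Y : M₂ (ZMod 2), X * Y = Y → (X - 1) * Y = 0 := fun X Y h => by
      rw [sub_mul, one_mul, h, sub_self]
    refine key _ _ ?_
    rw [mul_sub, mul_one, ← map_mul]
    have hp : ∀ P : Pts W, 2 • P = 0 → σ • (τ • P - P) = τ • P - P := fun P hP =>
      FermatLib.EC.smul_smul_sub_eq (FermatLib.EC.integralAt_intCurve W A)
        (by rw [FermatLib.EC.res_c₄_intCurve, FermatLib.EC.res_intCast_ne_zero_iff A hq hA]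
            exact hW.semistable q hq hbad)
        (by
          by_contra h0
          rw [FermatLib.EC.res_Δ_intCurve] at h0
          exact (FermatLib.EC.res_intCast_ne_zero_iff A hq hA _).mp h0 hbad)
        (WeierstrassCurve.isUnit_Δ _).ne_zero (FermatLib.EC.fixesResidues_of_mem_inertia hτ)
        (FermatLib.EC.fixesResidues_of_mem_inertia hσ)
        (FermatLib.EC.res_natCast_ne_zero A hq hA fun hd =>
          hq2 ((Nat.prime_dvd_prime_iff_eq hq Nat.prime_two).mp hd)) hP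
    show LinearMap.toMatrix (residualBasis (curveResidualRep W hΔ 2)) _
      ((curveResidualRep W hΔ 2).ρ (σ * τ)) - LinearMap.toMatrix _ _
        ((curveResidualRep W hΔ 2).ρ σ) = LinearMap.toMatrix _ _
          ((curveResidualRep W hΔ 2).ρ τ) - 1
    rw [← LinearMap.toMatrix_one (residualBasis (curveResidualRep W hΔ 2)),
      ← map_sub (LinearMap.toMatrix _ _), ← map_sub (LinearMap.toMatrix _ _)]
    congr 1
    refine LinearMap.ext fun (x : Tors W 2) => Subtype.ext ?_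
    show (σ * τ) • (x : Pts W) - σ • (x : Pts W) = τ • (x : Pts W) - x
    rw [mul_smul, ← hp x ((mem_tors_iff W).1 x.2)]
    exact (map_sub (DistribSMul.toAddMonoidHom (Pts W) σ) _ _).symm
  obtain ⟨d, hd, hσd⟩ := exists_sqrt_Δ W
  by_contra hcon
  push Not at hcon
  have hfix : ∀ B : ValuationSubring Qbar, B.LiesOverPrime q →
      ∀ σ ∈ B.inertiaSubgroupIn ℚ, σ d = d := by
    intro B hB σ hσ
    obtain ⟨g, hg⟩ := exists_smul_eq_of_liesOverPrime hq hB hA
    have hσ' := conj_mem_inertia_smul hq hB g (hg ▸ hA) hσ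
    rw [hg] at hσ'
    have h := hcon _ hσ'
    rw [map_mul, map_mul] at h
    have h1 : curveMat W hΔ 2 σ = 1 := by
      calc curveMat W hΔ 2 σ = curveMat W hΔ 2 g⁻¹ * (curveMat W hΔ 2 g * curveMat W hΔ 2 σ *
            curveMat W hΔ 2 g⁻¹) * curveMat W hΔ 2 g := by
            simp only [← map_mul]; congr 1; group
        _ = 1 := by rw [h, mul_one, ← map_mul, inv_mul_cancel, map_one]
    exact (hσd σ).2.2 ((curveMat_pow_three_eq_one_iff W hΔ).1 (by rw [h1, one_pow]))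
  have h2 := FermatLib.Mazur.dvd_padicValRat_of_forall_inertia hq Nat.prime_two
    (Int.cast_ne_zero.2 hΔ : ((W.Δ : ℤ) : ℚ) ≠ 0) (α := d) (by rw [hd, map_intCast]) hfix
  rw [padicValRat.of_int, Int.natCast_dvd_natCast] at h2
  exact (Nat.not_even_iff_odd.2 (hW.oddOrders q hq hbad)) (even_iff_two_dvd.2 h2)

/-- The sign character of `E[2]` is cut out by `√(-N)`. -/
theorem exists_sqrt_neg_level {N : ℕ} (hN : Squarefree N)
    (hlev : ∀ q : ℕ, q.Prime → (q ∣ N ↔ (q : ℤ) ∣ W.Δ)) :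
    ∃ d : Qbar, d ^ 2 = -(N : Qbar) ∧ ∀ σ : Γℚ, (σ d = d ∨ σ d = -d) ∧
      (σ d = d ↔ curveMat W hΔ 2 σ ^ 3 = 1) := by
  obtain ⟨d, hd, hσ⟩ := exists_sqrt_Δ W
  obtain ⟨m, hm⟩ := exists_Δ_eq_neg_mul_sq hW hN hlev
  have hm0 : (m : Qbar) ≠ 0 := Int.cast_ne_zero.2 fun e => hΔ (by rw [hm, e]; ring)
  refine ⟨d / m, ?_, fun σ => ?_⟩
  · rw [div_pow, hd, hm]; push_cast; field_simp
  · rw [map_div₀, map_intCast, div_left_inj' hm0, ← neg_div, div_left_inj' hm0,
      curveMat_pow_three_eq_one_iff W hΔ]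
    exact hσ σ

end FermatLib.MLT.Two.Point

end
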