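import Fermat.Agent.MLT.Two.Defs
import Fermat.Agent.MLT.Two.PointResidual

/-!
# Monomial coordinates for `GL₂(𝔽₂)` over a field containing a cube root of unity
-/

set_option autoImplicit false

noncomputable section

open Matrix

namespace FermatLib.MLT.Two.Point

variable {k : Type} [Field k] (ι : ZMod 2 →+* k) {ω : k}

/-- Columns: eigenvectors of the order three element. -/
def frameP {k : Type} [CommRing k] (ω : k) : Matrix (Fin 2) (Fin 2) k := !![1, ω; ω, 1]

/-- Inverse of `frameP`. -/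
def frameQ (ω : k) : Matrix (Fin 2) (Fin 2) k := !![ω ^ 2, 1; 1, ω ^ 2]

/-- Conjugation into monomial coordinates. -/
def monoConj (ω : k) (M : Matrix (Fin 2) (Fin 2) k) : Matrix (Fin 2) (Fin 2) k :=
  frameQ ω * M * frameP ω

theorem det_one_cases : ∀ M : Matrix (Fin 2) (Fin 2) (ZMod 2), M.det = 1 →
    M = !![1, 0; 0, 1] ∨ M = !![0, 1; 1, 1] ∨ M = !![1, 1; 1, 0] ∨
      M = !![0, 1; 1, 0] ∨ M = !![1, 0; 1, 1] ∨ M = !![1, 1; 0, 1] := by
  decide

include ι in
theorem two_eq_zero_of_emb : (2 : k) = 0 := by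
  rw [← map_ofNat ι, show (2 : ZMod 2) = 0 from rfl, map_zero]

theorem omega_ne_zero (hω : ω ^ 2 + ω + 1 = 0) : ω ≠ 0 := fun h => by simp [h] at hω

include ι in
/-- Every element of `GL₂(𝔽₂)` is monomial in the new coordinates, diagonal exactly when its order
divides three. -/
theorem monomial_cases (hω : ω ^ 2 + ω + 1 = 0) (M : Matrix (Fin 2) (Fin 2) (ZMod 2))
    (hM : M.det = 1) :
    ∃ i : ℕ, (monoConj ω (M.map ι) = rotMat ω i ∧ M * M * M = 1) ∨
      (monoConj ω (M.map ι) = swapMat ω i ∧ M * M * M ≠ 1) := by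
  have h2 := two_eq_zero_of_emb ι
  rcases det_one_cases M hM with rfl | rfl | rfl | rfl | rfl | rfl
  · refine ⟨0, Or.inl ⟨?_, by decide⟩⟩
    ext i j
    fin_cases i <;> fin_cases j <;> simp [monoConj, frameP, frameQ, rotMat, Matrix.mul_apply, Matrix.vecMul, dotProduct,
      Fin.sum_univ_two] <;> grind
  · refine ⟨1, Or.inl ⟨?_, by decide⟩⟩
    ext i j
    fin_cases i <;> fin_cases j <;> simp [monoConj, frameP, frameQ, rotMat, Matrix.mul_apply, Matrix.vecMul, dotProduct,
      Fin.sum_univ_two] <;> grind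
  · refine ⟨2, Or.inl ⟨?_, by decide⟩⟩
    ext i j
    fin_cases i <;> fin_cases j <;> simp [monoConj, frameP, frameQ, rotMat, Matrix.mul_apply, Matrix.vecMul, dotProduct,
      Fin.sum_univ_two] <;> grind
  · refine ⟨0, Or.inr ⟨?_, by decide⟩⟩
    ext i j
    fin_cases i <;> fin_cases j <;> simp [monoConj, frameP, frameQ, swapMat, Matrix.mul_apply, Matrix.vecMul, dotProduct,
      Fin.sum_univ_two] <;> grind
  · refine ⟨1, Or.inr ⟨?_, by decide⟩⟩
    ext i j
    fin_cases i <;> fin_cases j <;> simp [monoConj, frameP, frameQ, swapMat, Matrix.mul_apply, Matrix.vecMul, dotProduct,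
      Fin.sum_univ_two] <;> grind
  · refine ⟨2, Or.inr ⟨?_, by decide⟩⟩
    ext i j
    fin_cases i <;> fin_cases j <;> simp [monoConj, frameP, frameQ, swapMat, Matrix.mul_apply, Matrix.vecMul, dotProduct,
      Fin.sum_univ_two] <;> grind

theorem rotMat_apply_zero_one (ω : k) (i : ℕ) : rotMat ω i 0 1 = 0 := by simp [rotMat]

theorem swapMat_apply_zero_one_ne (hω : ω ^ 2 + ω + 1 = 0) (i : ℕ) : swapMat ω i 0 1 ≠ 0 := by
  simp [swapMat, omega_ne_zero hω]

include ι in
theorem monoConj_apply_zero_one_iff (hω : ω ^ 2 + ω + 1 = 0)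
    (M : Matrix (Fin 2) (Fin 2) (ZMod 2)) (hM : M.det = 1) :
    monoConj ω (M.map ι) 0 1 = 0 ↔ M * M * M = 1 := by
  obtain ⟨i, ⟨e, h3⟩ | ⟨e, h3⟩⟩ := monomial_cases ι hω M hM
  · exact iff_of_true (by rw [e, rotMat_apply_zero_one]) h3
  · exact iff_of_false (by rw [e]; exact swapMat_apply_zero_one_ne hω i) h3

include ι in
/-- The order three generator becomes `diag(ω, ω²)`. -/
theorem monoConj_rot (hω : ω ^ 2 + ω + 1 = 0) :
    monoConj ω ((!![0, 1; 1, 1] : Matrix (Fin 2) (Fin 2) (ZMod 2)).map ι) = rotMat ω 1 := by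
  have h2 := two_eq_zero_of_emb ι
  ext i j
  fin_cases i <;> fin_cases j <;> simp [monoConj, frameP, frameQ, rotMat, Matrix.mul_apply,
    Matrix.vecMul, dotProduct, Fin.sum_univ_two] <;> grind

include ι in
/-- The reference transposition becomes the swap. -/
theorem monoConj_swap (hω : ω ^ 2 + ω + 1 = 0) :
    monoConj ω ((!![0, 1; 1, 0] : Matrix (Fin 2) (Fin 2) (ZMod 2)).map ι) = swapMat ω 0 := by
  have h2 := two_eq_zero_of_emb ι
  ext i j
  fin_cases i <;> fin_cases j <;> simp [monoConj, frameP, frameQ, swapMat, Matrix.mul_apply,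
    Matrix.vecMul, dotProduct, Fin.sum_univ_two] <;> grind

include ι in
theorem frameQ_mul_frameP (hω : ω ^ 2 + ω + 1 = 0) : frameQ ω * frameP ω = 1 := by
  have h2 := two_eq_zero_of_emb ι
  ext i j
  fin_cases i <;> fin_cases j <;> simp [frameP, frameQ, Matrix.mul_apply,
    Fin.sum_univ_two] <;> grind

include ι in
theorem monoConj_injective (hω : ω ^ 2 + ω + 1 = 0) : Function.Injective (monoConj ω) := by
  have hQP := frameQ_mul_frameP ι hω
  have hPQ : frameP ω * frameQ ω = 1 := mul_eq_one_comm.1 hQP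
  intro A B h
  have := congrArg (fun X => frameP ω * X * frameQ ω) h
  simp only [monoConj, ← mul_assoc, hPQ, one_mul] at this
  simpa [mul_assoc, hPQ] using this

end FermatLib.MLT.Two.Point

end
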