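import Fermat.Agent.MLT.Two.PointLift
import Fermat.Agent.MLT.Two.PointCoeff
import Fermat.Agent.MLT.Two.PointMonomial
import Fermat.Agent.MLT.Two.PointFrobTwo

/-!
# The system of an anchor curve
-/

set_option autoImplicit false
set_option linter.style.haveILetI false

noncomputable section

open Matrix WeierstrassCurve
open scoped WeierstrassCurve.Affine TensorProduct

namespace FermatLib.MLT.Two.Point

open FermatLib.AtP FermatLib.Galois

local notation "Qbar" => AlgebraicClosure ℚ
local notation "Γℚ" => (AlgebraicClosure ℚ ≃ₐ[ℚ] AlgebraicClosure ℚ)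
local notation "k₄" => IsLocalRing.ResidueField Coeff
local notation "φ₂" => algebraMap ℤ_[2] Coeff

/-- The chosen `ZMod 2 → 𝔽₄`. -/
def residueEmb : ZMod 2 →+* k₄ := (exists_residueEmbedding φ₂ coeff_isLocalHom).some

/-- The cube root of unity in `𝔽₄`. -/
def omegaK : k₄ := IsLocalRing.residue Coeff omegaC

theorem omegaK_rel : omegaK ^ 2 + omegaK + 1 = 0 := by
  rw [omegaK, ← map_pow, ← map_add, ← map_one (IsLocalRing.residue Coeff), ← map_add, omegaC_rel,
    map_zero]

theorem residue_algebraMap_eq (a : ℤ_[2]) :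
    IsLocalRing.residue Coeff (φ₂ a) = residueEmb (PadicInt.toZMod a) := by
  have hmem : a - ((PadicInt.toZMod a).val : ℤ_[2]) ∈ IsLocalRing.maximalIdeal ℤ_[2] := by
    rw [← PadicInt.ker_toZMod, RingHom.mem_ker, map_sub, map_natCast, ZMod.natCast_zmod_val,
      sub_self]
  have h := (IsLocalRing.residue_eq_zero_iff _).mpr (map_nonunit φ₂ _ hmem)
  rw [map_sub, map_sub, sub_eq_zero, map_natCast, map_natCast] at h
  rw [h]
  conv_rhs => rw [← ZMod.natCast_zmod_val (PadicInt.toZMod a), map_natCast]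

/-- The residue field has four elements. -/
theorem natCard_residue : Nat.card k₄ = 4 := by
  let f : ZMod 2 × ZMod 2 → k₄ := fun u => residueEmb u.1 + residueEmb u.2 * omegaK
  have hω := omegaK_rel
  have h2 : (2 : k₄) = 0 := two_eq_zero_of_emb residueEmb
  have hinj : Function.Injective f := by
    have hne1 : omegaK ≠ 1 := fun h => by
      rw [h] at hω
      exact one_ne_zero (α := k₄) (by linear_combination hω - h2)
    have hz : ∀ c : ZMod 2, c = 0 ∨ c = 1 := by decide
    have key : ∀ a b : ZMod 2, residueEmb a + residueEmb b * omegaK = 0 → a = 0 ∧ b = 0 := by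
      intro a b h
      rcases hz b with rfl | rfl
      · rw [map_zero, zero_mul, add_zero, map_eq_zero] at h
        exact ⟨h, rfl⟩
      · rw [map_one, one_mul] at h
        exfalso
        rcases hz a with rfl | rfl
        · rw [map_zero, zero_add] at h
          exact omega_ne_zero hω h
        · rw [map_one] at h
          exact hne1 (by linear_combination h - h2)
    intro u v h
    have := key (u.1 - v.1) (u.2 - v.2) (by
      simp only [f] at h
      rw [map_sub, map_sub]
      linear_combination h)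
    exact Prod.ext (sub_eq_zero.1 this.1) (sub_eq_zero.1 this.2)
  have hsurj : Function.Surjective f := fun z => by
    obtain ⟨x, rfl⟩ := IsLocalRing.residue_surjective z
    obtain ⟨a, b, rfl⟩ := exists_eq_add_mul_omega x
    exact ⟨(PadicInt.toZMod a, PadicInt.toZMod b), by
      rw [map_add, map_mul, residue_algebraMap_eq, residue_algebraMap_eq]; rfl⟩
  rw [← Nat.card_eq_of_bijective f ⟨hinj, hsurj⟩, Nat.card_prod, Nat.card_zmod]

/-- `frameP` over `Coeff`. -/
def frameC : Matrix (Fin 2) (Fin 2) Coeff := frameP omegaC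

theorem frameC_det_unit : IsUnit frameC.det := by
  rcases isUnit_or_two_dvd frameC.det with h | ⟨c, hc⟩
  · exact h
  exfalso
  have h := congrArg (IsLocalRing.residue Coeff) hc
  have h2 : IsLocalRing.residue Coeff (2 : Coeff) = 0 := by
    rw [IsLocalRing.residue_eq_zero_iff, maximalIdeal_coeff]
    exact Ideal.mem_span_singleton_self _
  rw [map_mul, h2, zero_mul] at h
  simp only [frameC, frameP, Matrix.det_fin_two_of, one_mul, map_sub, map_one, map_mul] at h
  have hω := omegaK_rel
  have h2' : (2 : k₄) = 0 := two_eq_zero_of_emb residueEmb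
  rw [omegaK] at hω
  exact omega_ne_zero omegaK_rel (by rw [omegaK]; linear_combination hω + h - h2')

theorem map_residue_frameC_inv :
    (frameC⁻¹).map (IsLocalRing.residue Coeff) = frameQ omegaK := by
  have hP : frameC.map (IsLocalRing.residue Coeff) = frameP omegaK := by
    ext i j; fin_cases i <;> fin_cases j <;> simp [frameC, frameP, omegaK]
  have h := congrArg (fun X => X.map (IsLocalRing.residue Coeff))
    (Matrix.nonsing_inv_mul frameC frameC_det_unit)
  simp only [Matrix.map_mul, hP, Matrix.map_one _ (map_zero _) (map_one _)] at h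
  have hPQ : frameP omegaK * frameQ omegaK = 1 :=
    mul_eq_one_comm.1 (frameQ_mul_frameP residueEmb omegaK_rel)
  calc _ = (frameC⁻¹).map (IsLocalRing.residue Coeff) * (frameP omegaK * frameQ omegaK) := by
        rw [hPQ, mul_one]
    _ = _ := by rw [← mul_assoc, h, one_mul]

variable (W : WeierstrassCurve ℤ) (hΔ : W.Δ ≠ 0) [(W.map (Int.castRingHom ℚ)).IsElliptic]

/-- The residual representation in monomial coordinates. -/
def monoResidual : Γℚ →* Matrix (Fin 2) (Fin 2) k₄ where
  toFun g := monoConj omegaK ((curveMat W hΔ 2 g).map residueEmb)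
  map_one' := by
    rw [map_one, Matrix.map_one _ (map_zero _) (map_one _), monoConj, mul_one,
      frameQ_mul_frameP residueEmb omegaK_rel]
  map_mul' g h := by
    have hPQ : frameP omegaK * frameQ omegaK = 1 :=
      mul_eq_one_comm.1 (frameQ_mul_frameP residueEmb omegaK_rel)
    simp only [monoConj, map_mul, Matrix.map_mul, mul_assoc]
    rw [← mul_assoc (frameP omegaK) (frameQ omegaK), hPQ, one_mul]

/-- The `2`-adic representation in monomial coordinates. -/
def monoLift : Γℚ →* Matrix (Fin 2) (Fin 2) Coeff where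
  toFun g := frameC⁻¹ * pointMat W hΔ φ₂ g * frameC
  map_one' := by rw [map_one, mul_one, Matrix.nonsing_inv_mul _ frameC_det_unit]
  map_mul' g h := by
    simp only [map_mul, mul_assoc]
    rw [← mul_assoc frameC frameC⁻¹, Matrix.mul_nonsing_inv _ frameC_det_unit, one_mul]

omit [(W.map (Int.castRingHom ℚ)).IsElliptic] in
theorem monoResidual_apply (g : Γℚ) :
    monoResidual W hΔ g = monoConj omegaK ((curveMat W hΔ 2 g).map residueEmb) := rfl

theorem monoLift_apply (g : Γℚ) :
    monoLift W hΔ g = frameC⁻¹ * pointMat W hΔ φ₂ g * frameC := rfl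

theorem monoLift_map_residue (g : Γℚ) :
    (monoLift W hΔ g).map (IsLocalRing.residue Coeff) = monoResidual W hΔ g := by
  rw [monoLift_apply, Matrix.map_mul, Matrix.map_mul, map_residue_frameC_inv,
    pointMat_map_residue W hΔ φ₂ coeff_isLocalHom residueEmb, monoResidual_apply, monoConj]
  congr 1
  ext i j; fin_cases i <;> fin_cases j <;> simp [frameC, frameP, omegaK]

omit [(W.map (Int.castRingHom ℚ)).IsElliptic] in
theorem monoResidual_eq_one_iff (g : Γℚ) :
    monoResidual W hΔ g = 1 ↔ curveMat W hΔ 2 g = 1 := by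
  rw [← map_one (monoResidual W hΔ), monoResidual_apply, monoResidual_apply,
    (monoConj_injective residueEmb omegaK_rel).eq_iff, map_one]
  exact ((Matrix.map_injective residueEmb.injective).eq_iff)

omit [(W.map (Int.castRingHom ℚ)).IsElliptic] in
theorem det_curveMat_two (g : Γℚ) : (curveMat W hΔ 2 g).det = 1 := by
  have h : (curveMat W hΔ 2 g).det ≠ 0 := det_map_ne_zero _ g
  revert h
  generalize (curveMat W hΔ 2 g).det = c
  revert c
  decide

omit [(W.map (Int.castRingHom ℚ)).IsElliptic] in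
theorem monoResidual_apply_zero_one_iff (g : Γℚ) :
    monoResidual W hΔ g 0 1 = 0 ↔ curveMat W hΔ 2 g ^ 3 = 1 := by
  rw [monoResidual_apply, monoConj_apply_zero_one_iff residueEmb omegaK_rel _
    (det_curveMat_two W hΔ g), pow_succ, pow_two]

variable {W} (hW : IsTwoAnchor W) {N : ℕ} (hsq : Squarefree N)
  (hlev : ∀ q : ℕ, q.Prime → (q ∣ N ↔ (q : ℤ) ∣ W.Δ))
include hW hsq hlev

/-- The anchor of an anchor curve. -/
def anchorOfCurve : Anchor k₄ where
  N := N
  ω := omegaK
  ρ := monoResidual W hΔ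
  two_eq_zero := two_eq_zero_of_emb residueEmb
  omega_rel := omegaK_rel
  card_eq := natCard_residue
  finiteLevel := by
    obtain ⟨L, hL, hfix⟩ := (curveResidualRep W hΔ 2).factorsThroughFiniteLevel
    refine ⟨L, hL, fun σ hσ => (monoResidual_eq_one_iff W hΔ σ).2 ?_⟩
    show repMatrix _ _ σ = 1
    rw [repMatrix_apply, hfix σ hσ]
    exact LinearMap.toMatrix_one _
  range_eq g := by
    obtain ⟨i, ⟨e, -⟩ | ⟨e, -⟩⟩ := monomial_cases residueEmb omegaK_rel _ (det_curveMat_two W hΔ g)
    · exact ⟨i, Or.inl e⟩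
    · exact ⟨i, Or.inr e⟩
  exists_rot := by
    obtain ⟨g, hg⟩ := exists_curveMat_eq hΔ hW !![0, 1; 1, 1] (by decide)
    exact ⟨g, by rw [monoResidual_apply, hg, monoConj_rot residueEmb omegaK_rel]⟩
  exists_swap := by
    obtain ⟨g, hg⟩ := exists_curveMat_eq hΔ hW !![0, 1; 1, 0] (by decide)
    exact ⟨g, by rw [monoResidual_apply, hg, monoConj_swap residueEmb omegaK_rel]⟩
  squarefree := hsq
  level_mod := level_mod_eight hW hsq hlev
  diag_iff g := by
    obtain ⟨d, hd, hσ⟩ := exists_sqrt_neg_level hΔ hW hsq hlev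
    rw [monoResidual_apply_zero_one_iff W hΔ, ← (hσ g).2]
    refine ⟨fun h x hx => ?_, fun h => h d (by rw [← pow_two, hd])⟩
    have : x ^ 2 = d ^ 2 := by rw [hd, pow_two, hx]
    rcases sq_eq_sq_iff_eq_or_eq_neg.1 this with e | e
    · rw [e, h]
    · rw [e, map_neg, h]
  unramified q hq hq2 hqN A hA τ hτ :=
    (monoResidual_eq_one_iff W hΔ τ).2
      (curveMat_eq_one_of_good hΔ hq hq2 (fun h => hqN ((hlev q hq).2 h)) hA hτ)
  level_transvection q hq hqN A hA := by
    obtain ⟨h2, τ, hτ, hne⟩ := inertia_bad hΔ hW hq ((hlev q hq).1 hqN) hA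
    refine ⟨⟨τ, hτ, fun h => hne ((monoResidual_eq_one_iff W hΔ τ).1 h)⟩, fun σ hσ σ' hσ' => ?_⟩
    have hmap : ∀ g, monoResidual W hΔ g - 1 =
        monoConj omegaK ((curveMat W hΔ 2 g - 1).map residueEmb) := fun g => by
      rw [monoResidual_apply, Matrix.map_sub _ (map_sub residueEmb),
        Matrix.map_one _ (map_zero _) (map_one _), monoConj, monoConj, mul_sub, sub_mul, mul_one,
        frameQ_mul_frameP residueEmb omegaK_rel]
    have hPQ : frameP omegaK * frameQ omegaK = 1 :=
      mul_eq_one_comm.1 (frameQ_mul_frameP residueEmb omegaK_rel)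
    rw [hmap, hmap, monoConj, monoConj]
    simp only [mul_assoc]
    rw [← mul_assoc (frameP omegaK) (frameQ omegaK), hPQ, one_mul, ← mul_assoc
      ((curveMat W hΔ 2 σ - 1).map residueEmb), ← Matrix.map_mul, h2 σ hσ σ' hσ']
    simp
  two_inertia A hA := by
    obtain ⟨h3, τ, hτ, -, hne⟩ := inertia_two hΔ hW hA
    refine ⟨fun σ hσ => (monoResidual_apply_zero_one_iff W hΔ σ).2 (h3 σ hσ),
      ⟨τ, hτ, fun h => hne ((monoResidual_eq_one_iff W hΔ τ).1 h)⟩, ?_⟩
    obtain ⟨d, hd, hσd⟩ := exists_sqrt_neg_level hΔ hW hsq hlev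
    obtain ⟨σ, hσ, hmove⟩ :=
      exists_decomposition_moves_sqrt (level_mod_eight hW hsq hlev) hA hd
    exact ⟨σ, hσ, fun h => hmove ((hσd σ).2.2 ((monoResidual_apply_zero_one_iff W hΔ σ).1 h))⟩

omit hW hsq hlev in
theorem two_pow_dvd_pointMatTwo_sub_one (n : ℕ) :
    ∃ L : IntermediateField ℚ Qbar, FiniteDimensional ℚ L ∧
      ∀ σ : Γℚ, (∀ x ∈ L, σ x = x) →
        ∀ i j, (2 : ℤ_[2]) ^ n ∣ (pointMatTwo W hΔ σ - 1) i j := by
  obtain ⟨L, hL, h⟩ := (pointTate W).isAdicContinuous n
  refine ⟨L, hL, fun σ hσ i j => ?_⟩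
  have hcoord : ∀ x ∈ (IsLocalRing.maximalIdeal ℤ_[2] ^ n) • (⊤ : Submodule ℤ_[2] (pointTate W).V),
      ∀ i, (2 : ℤ_[2]) ^ n ∣ (pointBasis W hΔ).repr x i := fun x hx => by
    refine Submodule.smul_induction_on hx (fun a ha v _ i => ?_) fun x y hx hy i => ?_
    · rw [map_smul, Finsupp.smul_apply, smul_eq_mul]
      rw [PadicInt.maximalIdeal_eq_span_p, Ideal.span_singleton_pow,
        Ideal.mem_span_singleton] at ha
      exact (by simpa using ha : (2 : ℤ_[2]) ^ n ∣ a).mul_right _
    · rw [map_add, Finsupp.add_apply]; exact dvd_add (hx i) (hy i)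
  have hm := hcoord _ (h σ hσ (pointBasis W hΔ j)) i
  rw [map_sub, Finsupp.sub_apply, Module.Basis.repr_self] at hm
  rw [Matrix.sub_apply, pointMatTwo, repMatrix_apply, LinearMap.toMatrix_apply, Matrix.one_apply]
  rw [Finsupp.single_apply] at hm
  simpa [eq_comm] using hm

omit hW hsq hlev in
theorem finite_quotient_two_pow (n : ℕ) : Finite (Coeff ⧸ Ideal.span {(2 : Coeff) ^ n}) := by
  haveI : Finite (Coeff ⧸ IsLocalRing.maximalIdeal Coeff) := coeff_finite_residue
  rw [← Ideal.span_singleton_pow, ← maximalIdeal_coeff]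
  exact Ideal.finite_quotient_pow (IsNoetherian.noetherian _) n

omit hsq hlev in
theorem hasModelAt_monoLift (n : ℕ) :
    FermatLib.Galois.FlatModel.HasModelAt 2 (Fin 2 → Coeff ⧸ Ideal.span {(2 : Coeff) ^ n})
      fun g v => ((monoLift W hΔ g).map (Ideal.Quotient.mk _)).mulVec v := by
  letI := (φ₂).toAlgebra
  have hI := finite_quotient_two_pow n
  have h := ((FlatModel.isFlatAt_iff_hasModelAt _ 2).1
    (isFlatAt_pointRep W φ₂ coeff_isLocalHom hW.good_two)).2 _ hI
  obtain ⟨I, hI_def⟩ : ∃ I, I = Ideal.span {(2 : Coeff) ^ n} := ⟨_, rfl⟩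
  rw [← hI_def] at h ⊢
  let ρ := pointRep W φ₂ coeff_isLocalHom
  let b : Module.Basis (Fin 2) Coeff ρ.V := Algebra.TensorProduct.basis Coeff (pointBasis W hΔ)
  have hb : ∀ g x, b.repr (ρ.ρ g x) = pointMat W hΔ φ₂ g *ᵥ b.repr x := fun g x => by
    rw [← repMatrix_pointRep W hΔ φ₂ coeff_isLocalHom]
    exact (repMatrix_mulVec b ρ.ρ g x).symm
  let F : ρ.V →+ (Fin 2 → Coeff ⧸ I) :=
    { toFun := fun v => (frameC⁻¹.map (Ideal.Quotient.mk I)) *ᵥ fun i => Ideal.Quotient.mk I (b.repr v i)
      map_zero' := by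
        simp only [map_zero, Finsupp.coe_zero, Pi.zero_apply]
        exact Matrix.mulVec_zero _
      map_add' := fun v w => by
        rw [← Matrix.mulVec_add]
        congr 1
        funext i
        simp }
  have hmv : ∀ (M : Matrix (Fin 2) (Fin 2) Coeff) (c : Fin 2 → Coeff),
      (fun i => Ideal.Quotient.mk I ((M *ᵥ c) i)) =
        M.map (Ideal.Quotient.mk I) *ᵥ fun i => Ideal.Quotient.mk I (c i) := fun M c =>
    funext fun i => RingHom.map_mulVec (Ideal.Quotient.mk I) M c i
  have hFker : ∀ v : ρ.V, v ∈ I • (⊤ : Submodule Coeff ρ.V) ↔ F v = 0 := by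
    intro v
    constructor
    · intro hv
      refine Submodule.smul_induction_on hv (fun a ha w _ => ?_) fun x y hx hy => ?_
      · have : (fun i => Ideal.Quotient.mk I (b.repr (a • w) i)) = (0 : Fin 2 → Coeff ⧸ I) := funext fun i => by
          rw [map_smul, Finsupp.smul_apply, smul_eq_mul]
          exact Ideal.Quotient.eq_zero_iff_mem.2 (I.mul_mem_right _ ha)
        show (frameC⁻¹.map (Ideal.Quotient.mk I)) *ᵥ
          (fun i => Ideal.Quotient.mk I (b.repr (a • w) i)) = 0
        rw [this, Matrix.mulVec_zero]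
      · rw [map_add, hx, hy, add_zero]
    · intro hv
      have h0 : (fun i => Ideal.Quotient.mk I (b.repr v i)) = (0 : Fin 2 → Coeff ⧸ I) := by
        have := congrArg (fun z => (frameC.map (Ideal.Quotient.mk I)) *ᵥ z) hv
        simp only [F, AddMonoidHom.coe_mk, ZeroHom.coe_mk, Matrix.mulVec_mulVec,
          ← Matrix.map_mul, Matrix.mul_nonsing_inv _ frameC_det_unit,
          Matrix.map_one _ (map_zero _) (map_one _), Matrix.one_mulVec, Matrix.mulVec_zero] at this
        exact this
      rw [← b.sum_repr v]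
      exact Submodule.sum_mem _ fun i _ => Submodule.smul_mem_smul
        (Ideal.Quotient.eq_zero_iff_mem.1 (congrFun h0 i)) Submodule.mem_top
  let G : (ρ.V ⧸ (I • (⊤ : Submodule Coeff ρ.V))) →+ (Fin 2 → Coeff ⧸ I) :=
    QuotientAddGroup.lift _ F fun v hv => (hFker v).1 hv
  have hG : Function.Bijective G := by
    refine ⟨(injective_iff_map_eq_zero G).2 fun x => ?_, fun y => ?_⟩
    · obtain ⟨v, rfl⟩ := Submodule.Quotient.mk_surjective _ x
      exact fun hx => (Submodule.Quotient.mk_eq_zero _).2 ((hFker v).2 hx)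
    · choose c hc using fun i => Ideal.Quotient.mk_surjective (y i)
      refine ⟨Submodule.Quotient.mk (∑ i, (frameC *ᵥ c) i • b i), ?_⟩
      show F (∑ i, (frameC *ᵥ c) i • b i) = y
      show _ *ᵥ (fun i => Ideal.Quotient.mk I (b.repr (∑ j, (frameC *ᵥ c) j • b j) i)) = y
      simp only [b.repr_sum_self]
      rw [← hmv, Matrix.mulVec_mulVec, Matrix.nonsing_inv_mul _ frameC_det_unit,
        Matrix.one_mulVec]
      exact funext hc
  refine h.congr (AddEquiv.ofBijective G hG) fun g x => ?_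
  obtain ⟨v, rfl⟩ := Submodule.Quotient.mk_surjective _ x
  show frameC⁻¹.map (Ideal.Quotient.mk I) *ᵥ (fun i => Ideal.Quotient.mk I (b.repr (ρ.ρ g v) i)) =
    (monoLift W hΔ g).map (Ideal.Quotient.mk I) *ᵥ
      (frameC⁻¹.map (Ideal.Quotient.mk I) *ᵥ fun i => Ideal.Quotient.mk I (b.repr v i))
  simp only [hb]
  rw [hmv, Matrix.mulVec_mulVec, Matrix.mulVec_mulVec, ← Matrix.map_mul, ← Matrix.map_mul,
    monoLift_apply]
  simp only [mul_assoc]
  rw [Matrix.mul_nonsing_inv _ frameC_det_unit, mul_one]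
  rfl

/-- The system of an anchor curve. -/
def systemOfCurve : System Coeff k₄ where
  anchor := anchorOfCurve hΔ hW hsq hlev
  red := IsLocalRing.residue Coeff
  red_surjective := IsLocalRing.residue_surjective
  ker_red := by rw [IsLocalRing.ker_residue, maximalIdeal_coeff]
  ρ := monoLift W hΔ
  map_eq g := monoLift_map_residue W hΔ g
  finiteLevel n := by
    obtain ⟨L, hL, h⟩ := two_pow_dvd_pointMatTwo_sub_one hΔ n
    refine ⟨L, hL, fun σ hσ => ?_⟩
    show (Ideal.Quotient.mk (Ideal.span {(2 : Coeff) ^ n})).mapMatrix (monoLift W hΔ σ) = 1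
    rw [monoLift_apply, map_mul, map_mul, show (Ideal.Quotient.mk
      (Ideal.span {(2 : Coeff) ^ n})).mapMatrix (pointMat W hΔ φ₂ σ) = 1 from ?_, mul_one,
      ← map_mul, Matrix.nonsing_inv_mul _ frameC_det_unit, map_one]
    rw [← sub_eq_zero, ← map_one (Ideal.Quotient.mk (Ideal.span {(2 : Coeff) ^ n})).mapMatrix,
      ← map_sub, pointMat_def, ← map_one (φ₂).mapMatrix, ← map_sub]
    ext i j
    obtain ⟨c, hc⟩ := h σ hσ i j
    show Ideal.Quotient.mk _ (φ₂ ((pointMatTwo W hΔ σ - 1) i j)) = 0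
    rw [hc, map_mul, map_pow, map_ofNat, Ideal.Quotient.eq_zero_iff_mem]
    exact Ideal.mem_span_singleton.2 (dvd_mul_right _ _)
  flat := hasModelAt_monoLift hΔ hW
  det_eq n g b hb := by
    rw [monoLift_apply, Matrix.det_conj' ((Matrix.isUnit_iff_isUnit_det _).2 frameC_det_unit)]
    rw [det_pointMat]
    have h := (Tate.detIsCyclotomic_curveTate (W.map (Int.castRingHom ℚ)) 2).2 n g b hb
    rw [Tate.det_curveTate, Ideal.mem_span_singleton] at h
    simpa [map_ofNat] using map_dvd φ₂ h
  unramified q hq hq2 hqN A hA τ hτ := by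
    rw [monoLift_apply,
      pointMat_eq_one W hΔ φ₂ hq hq2 (fun h => hqN ((hlev q hq).2 h)) hA hτ, mul_one,
      Matrix.nonsing_inv_mul _ frameC_det_unit]
  level q hq hqN A hA := by
    obtain ⟨-, τ, hτ, hne⟩ := inertia_bad hΔ hW hq ((hlev q hq).1 hqN) hA
    refine ⟨⟨τ, hτ, fun h => hne ((monoResidual_eq_one_iff W hΔ τ).1 ?_)⟩, fun σ hσ σ' hσ' => ?_⟩
    · rw [← monoLift_map_residue, h, Matrix.map_one _ (map_zero _) (map_one _)]
    have hsub : ∀ g, monoLift W hΔ g - 1 = frameC⁻¹ * (pointMat W hΔ φ₂ g - 1) * frameC :=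
      fun g => by
        rw [monoLift_apply, mul_sub, sub_mul, mul_one, Matrix.nonsing_inv_mul _ frameC_det_unit]
    have hbad := (hlev q hq).1 hqN
    rw [hsub, hsub]
    simp only [mul_assoc]
    rw [← mul_assoc frameC frameC⁻¹, Matrix.mul_nonsing_inv _ frameC_det_unit, one_mul,
      ← mul_assoc (pointMat W hΔ φ₂ σ - 1), pointMat_unipotent W hΔ φ₂ hq
      (fun e => hW.good_two (e ▸ hbad)) hbad (hW.semistable q hq hbad) hA hσ hσ']
    simp
  ap := W.apOfModel
  frobenius ℓ hℓ hℓ2 hℓN A hA F hF := by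
    obtain ⟨htr, hdet⟩ := trace_pointMat_frobenius W hΔ φ₂ hℓ hℓ2
      (fun h => hℓN ((hlev ℓ hℓ).2 h)) hA hF
    refine ⟨?_, ?_⟩
    · rw [monoLift_apply, Matrix.trace_mul_cycle, Matrix.mul_nonsing_inv _ frameC_det_unit,
        one_mul, htr]
    · rw [monoLift_apply,
        Matrix.det_conj' ((Matrix.isUnit_iff_isUnit_det _).2 frameC_det_unit), hdet]

end FermatLib.MLT.Two.Point

end
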