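import Fermat.Agent.MLT.SwitchChain
import Fermat.Agent.MLT.Two.Defs
import Fermat.Agent.MLT.Two.PointSystem

/-!
# V4-Point: the system of an anchor curve, and the final step
-/

set_option autoImplicit false

noncomputable section

namespace FermatLib.MLT.Two

/-- Coefficients and system attached to an anchor curve. -/
structure CurveSystem (W : WeierstrassCurve ℤ) (N : ℕ) : Type 1 where
  O : Type
  k : Type
  [instRing : CommRing O]
  [instDomain : IsDomain O]
  [instDVR : IsDiscreteValuationRing O]
  [instComplete : IsAdicComplete (IsLocalRing.maximalIdeal O) O]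
  [instCharZero : CharZero O]
  [instField : Field k]
  [instFinite : Finite k]
  S : System O k
  N_eq : S.anchor.N = N
  ap_eq : ∀ ℓ : ℕ, ℓ.Prime → ¬ ℓ ∣ 2 * N → S.ap ℓ = W.apOfModel ℓ

attribute [instance] CurveSystem.instRing CurveSystem.instDomain CurveSystem.instDVR
  CurveSystem.instComplete CurveSystem.instCharZero CurveSystem.instField CurveSystem.instFinite

/-- An anchor curve gives a system. -/
theorem nonempty_curveSystem {W : WeierstrassCurve ℤ} (hA : IsTwoAnchor W) {N : ℕ}
    (hsq : Squarefree N) (hN : ∀ q : ℕ, q.Prime → (q ∣ N ↔ (q : ℤ) ∣ W.Δ)) :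
    Nonempty (CurveSystem W N) := by
  haveI := isElliptic_map_rat hA.Δ_neg.ne
  exact ⟨{ O := Point.Coeff
           k := IsLocalRing.ResidueField Point.Coeff
           S := Point.systemOfCurve hA.Δ_neg.ne hA hsq hN
           N_eq := rfl
           ap_eq := fun _ _ _ => rfl }⟩

end FermatLib.MLT.Two

end
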