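import Fermat.Agent.MLT.WeaklyModular
import Fermat.Agent.MLT.Two.Setup
import Fermat.Agent.MLT.Two.Seeds
import Fermat.Agent.MLT.Two.AuxRing
import Fermat.Agent.MLT.Two.FreeLift
import Fermat.Agent.MLT.Two.HeckeExists

/-!
# Minimal modularity lifting at 2: assembly
-/

set_option autoImplicit false

namespace FermatLib.MLT.Two

variable {O : Type} [CommRing O] [IsDomain O] [IsDiscreteValuationRing O]
  [IsAdicComplete (IsLocalRing.maximalIdeal O) O] [CharZero O]
  {k : Type} [Field k] [Finite k] (S : System O k)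

omit [IsAdicComplete (IsLocalRing.maximalIdeal O) O] [CharZero O] [Finite k] in
include S in
/-- `2` generates the maximal ideal. -/
theorem maximalIdeal_eq_span_two : IsLocalRing.maximalIdeal O = Ideal.span {(2 : O)} := by
  rw [← S.ker_red]
  exact (IsLocalRing.eq_maximalIdeal
    (RingHom.ker_isMaximal_of_surjective _ S.red_surjective)).symm

/-- A residually modular system occurs at level `N`. -/
theorem hasLevelEigenform_of_isResidModular (hmod : IsResidModular S) : HasLevelEigenform S := by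
  by_contra hno
  obtain ⟨B, pol, hpol⟩ := exists_levelPolynomial S hno
  obtain ⟨s, c, hplaces⟩ := exists_auxPlaces S
  have h2 := maximalIdeal_eq_span_two S
  have hirr : Irreducible (2 : O) :=
    (IsDiscreteValuationRing.irreducible_iff_uniformizer _).mpr h2
  have hz : ((MvPolynomial.eval S.ap pol : ℤ) : O) ≠ 0 := Int.cast_ne_zero.mpr hpol.eval_ne
  obtain ⟨v, u, hu⟩ := IsDiscreteValuationRing.eq_unit_mul_pow_irreducible hz hirr
  set g := s + S.anchor.r₀ with hg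
  obtain ⟨Q, qs, C, hdepth, hB, hQ, hC, hkill, hnd⟩ :=
    hplaces (2 + (g * c + v) * (g + 1) + 1) B
  obtain ⟨D⟩ := nonempty_auxHecke S hmod hpol (by omega) hdepth hB
  obtain ⟨E⟩ := nonempty_auxRing S hdepth (by omega)
    (hasBound_tangentLift S.anchor hdepth.injective hQ hC hkill)
    (fun ℓ hℓ => ⟨(hpol.vars_good ℓ hℓ).1, (hpol.vars_good ℓ hℓ).2.1, fun i h =>
      absurd (h ▸ hB i) (not_lt.mpr (hpol.vars_good ℓ hℓ).2.2)⟩) D
  have hdiv := dvd_point_pow_of_smul_mem h2 (by omega) E.toH E.point E.residue_surjective D.xi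
    D.xi_pow D.d_pos D.gen D.free E.e E.toH_zero E.toH_one E.point_e E.y E.span_y E.toH_r
  rw [E.point_r, Fintype.card_sum, Fintype.card_fin, Fintype.card_fin, ← hg] at hdiv
  have key : ∀ i, ∃ (m : ℕ) (w : Oˣ), m < c ∧
      (S.ρ (Sum.elim Q C i).F).trace ^ 2 - (((Sum.elim Q C i).q + 1 : ℕ) : O) ^ 2 =
        (w : O) * 2 ^ m := fun i => by
    have hne : (S.ρ (Sum.elim Q C i).F).trace ^ 2 -
        (((Sum.elim Q C i).q + 1 : ℕ) : O) ^ 2 ≠ 0 := fun h => hnd i (h ▸ dvd_zero _)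
    obtain ⟨m, w, hw⟩ := IsDiscreteValuationRing.eq_unit_mul_pow_irreducible hne hirr
    refine ⟨m, w, not_le.mp fun hle => hnd i ?_, hw⟩
    rw [hw]; exact Dvd.dvd.mul_left (pow_dvd_pow _ hle) _
  choose m w hm hw using key
  simp only [hw, Finset.prod_mul_distrib, Finset.prod_pow_eq_pow_sum, hu] at hdiv
  have hsum : ∑ i, m i ≤ g * c := by
    refine (Finset.sum_le_card_nsmul _ _ c fun i _ => (hm i).le).trans ?_
    simp [hg]
  have hunit : IsUnit (((∏ i, (w i : O)) * u) ^ (g + 1)) :=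
    ((IsUnit.prod_iff.mpr fun i _ => (w i).isUnit).mul u.isUnit).pow _
  rw [show (∏ i, (w i : O)) * 2 ^ (∑ i, m i) * ((u : O) * 2 ^ v) =
    (∏ i, (w i : O)) * u * 2 ^ (∑ i, m i + v) by ring, mul_pow, hunit.dvd_mul_left, ← pow_mul,
    pow_dvd_pow_iff hirr.ne_zero hirr.not_isUnit] at hdiv
  have := Nat.mul_le_mul_right (g + 1) (Nat.add_le_add_right hsum v)
  omega

/-- An anchor residually modular at 2 at the level of its bad primes is weakly modular. -/
theorem isWeaklyModular_of_isTwoAnchor {W : WeierstrassCurve ℤ} (hA : IsTwoAnchor W) {N : ℕ}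
    [NeZero N] (hsq : Squarefree N) (hN : ∀ q : ℕ, q.Prime → (q ∣ N ↔ (q : ℤ) ∣ W.Δ))
    (hres : W.IsResiduallyModularOfLevel 2 N) : IsWeaklyModular W := by
  obtain ⟨D⟩ := nonempty_curveSystem hA hsq hN
  obtain ⟨O, k, S, hSN, hap⟩ := D
  subst hSN
  have hmod : IsResidModular S := by
    obtain ⟨f, 𝔪, hf, hmax, h2, hl⟩ := hres
    refine ⟨f, 𝔪, hf, hmax, by simpa using h2, fun ℓ hℓ hℓN => ?_⟩
    have hgood : W.IsGoodPrimeFor ℓ := fun hd =>
      hℓN (Dvd.dvd.mul_left ((hN ℓ hℓ).mpr hd) 2)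
    have hne : ℓ ≠ 2 := fun h => hℓN (Dvd.intro _ (by rw [h]))
    obtain ⟨b, hb, hb'⟩ := hl ℓ hℓ hgood (fun hd => hℓN (Dvd.dvd.mul_left hd 2)) hne
    exact ⟨b, hb, by rwa [hap ℓ hℓ hℓN]⟩
  obtain ⟨f, Ex, hf, hfl⟩ := hasLevelEigenform_of_isResidModular S hmod
  refine ⟨_, insert 2 Ex, f, hsq, hf, fun ℓ hℓ _ hℓN hEx => ?_⟩
  rw [Finset.mem_insert, not_or] at hEx
  have hd : ¬ ℓ ∣ 2 * S.anchor.N := fun hd => ((Nat.Prime.dvd_mul hℓ).mp hd).elim
    (fun h => hEx.1 ((Nat.prime_dvd_prime_iff_eq hℓ Nat.prime_two).mp h)) hℓN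
  rw [hfl ℓ hℓ hd hEx.2, hap ℓ hℓ hd]

/-- Minimal modularity lifting at 2, from attachment and Frobenius at bad primes of newforms. -/
theorem minimalLiftingAtTwo (hattach : Galois.PadicAttachment)
    (h35 : NewformFrobeniusAtBadPrime) : MinimalLiftingAtTwo :=
  fun _ hA _ _ hsq hN hres => exactConductor_of_weaklyModular hattach h35 hA.Δ_neg.ne
    (isWeaklyModular_of_isTwoAnchor hA hsq hN hres)

end FermatLib.MLT.Two
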