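import Fermat.Agent.MLT.BettiBaseChange
import Fermat.Agent.MLT.Two.FreeCriterionGroup
import Fermat.Prelude.Thm_IsLocalRing_isAdicComplete_of_module_finite
import Mathlib.GroupTheory.PGroup
import Mathlib.RingTheory.Ideal.GoingUp

/-!
# Group rings of finite `p`-groups over complete local rings

`O[G]` is finite, local, Noetherian and complete when `G` is a finite abelian `p`-group and `p` is
in the maximal ideal of `O`.
-/

set_option autoImplicit false

noncomputable section

namespace FermatLib.MLT.Two

open IsLocalRing

variable (O : Type) [CommRing O] (G : Type) [CommGroup G]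

/-- The character of `G` with values in its group ring. -/
def groupUnit : G →* (MonoidAlgebra O G)ˣ :=
  (MonoidAlgebra.of O G).toHomUnits

@[simp] theorem coe_groupUnit (x : G) :
    (groupUnit O G x : MonoidAlgebra O G) = MonoidAlgebra.single x 1 := rfl

theorem groupAug_surjective : Function.Surjective (groupAug (O := O) (G := G)) :=
  fun a => ⟨algebraMap O _ a, (groupAug (O := O) (G := G)).commutes a⟩

theorem isLocalHom_algebraMap_groupRing :
    IsLocalHom (algebraMap O (MonoidAlgebra O G)) :=
  ⟨fun a ha => by
    have := ha.map (groupAug (O := O) (G := G))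
    rwa [AlgHom.commutes, Algebra.algebraMap_self_apply] at this⟩

instance moduleFinite_groupRing [Finite G] : Module.Finite O (MonoidAlgebra O G) :=
  Module.Finite.of_basis (MonoidAlgebra.basis G O)

instance isNoetherianRing_groupRing [Finite G] [IsNoetherianRing O] :
    IsNoetherianRing (MonoidAlgebra O G) :=
  IsNoetherianRing.of_finite O _

/-- The group ring of a `p`-group is local with the maximal ideal over the augmentation. -/
theorem isLocalRing_groupRing [IsLocalRing O] [Finite G] {p : ℕ} [Fact p.Prime]
    (hp : (p : O) ∈ maximalIdeal O) (hG : IsPGroup p G) : IsLocalRing (MonoidAlgebra O G) := by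
  set f : MonoidAlgebra O G →+* ResidueField O :=
    (residue O).comp (groupAug (O := O) (G := G)).toRingHom
  have hf : Function.Surjective f := residue_surjective.comp (groupAug_surjective O G)
  have hmax : (RingHom.ker f).IsMaximal := RingHom.ker_isMaximal_of_surjective f hf
  refine IsLocalRing.of_unique_max_ideal ⟨RingHom.ker f, hmax, fun P hP => ?_⟩
  refine (hmax.eq_of_le hP.ne_top fun x hx => ?_).symm
  have : Algebra.IsIntegral O (MonoidAlgebra O G) := Algebra.IsIntegral.of_finite O _
  have hPc : P.comap (algebraMap O (MonoidAlgebra O G)) = maximalIdeal O :=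
    eq_maximalIdeal (Ideal.isMaximal_comap_of_isIntegral_of_isMaximal P)
  -- every group element is `1` modulo `P`
  letI := Ideal.Quotient.field P
  have hchar : CharP (MonoidAlgebra O G ⧸ P) p := by
    refine CharP.charP_iff_prime_eq_zero Fact.out |>.2 ?_
    rw [← map_natCast (Ideal.Quotient.mk P), Ideal.Quotient.eq_zero_iff_mem,
      ← map_natCast (algebraMap O (MonoidAlgebra O G))]
    exact Ideal.mem_comap.1 (hPc.symm ▸ hp)
  have hG1 : ∀ g : G, Ideal.Quotient.mk P (MonoidAlgebra.single g 1) = 1 := fun g => by
    obtain ⟨k, hk⟩ := hG g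
    refine (sub_eq_zero.1 (pow_eq_zero_iff (pow_ne_zero k (Fact.out : p.Prime).ne_zero) |>.1 ?_))
    rw [sub_pow_char_pow, one_pow, ← map_pow, MonoidAlgebra.single_pow, hk, one_pow,
      ← MonoidAlgebra.one_def, map_one, sub_self]
  have hkey : ∀ y : MonoidAlgebra O G,
      Ideal.Quotient.mk P y = Ideal.Quotient.mk P (algebraMap O _ (groupAug y)) := by
    intro y
    induction y using MonoidAlgebra.induction_linear with
    | zero => simp
    | add a b ha hb => simp only [map_add, ha, hb]
    | single g a =>
      rw [groupAug_single, ← mul_one a, ← one_mul g, ← MonoidAlgebra.single_mul_single, map_mul,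
        hG1, mul_one, mul_one]
      rfl
  have hx' : groupAug x ∈ maximalIdeal O := (residue_eq_zero_iff _).1 (RingHom.mem_ker.1 hx)
  rw [← Ideal.Quotient.eq_zero_iff_mem, hkey, Ideal.Quotient.eq_zero_iff_mem]
  exact Ideal.mem_comap.1 (hPc.symm ▸ hx')

/-- The group ring of a `p`-group is complete. -/
theorem isAdicComplete_groupRing [IsLocalRing O] [IsNoetherianRing O]
    [IsAdicComplete (maximalIdeal O) O] [Finite G] [IsLocalRing (MonoidAlgebra O G)] :
    IsAdicComplete (maximalIdeal (MonoidAlgebra O G)) (MonoidAlgebra O G) :=
  haveI := isLocalHom_algebraMap_groupRing O G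
  IsLocalRing.isAdicComplete_of_module_finite (𝒪 := O)

/-- A residual character of `O` kills the maximal ideal of the group ring after augmentation. -/
theorem groupAug_mem_maximalIdeal [IsLocalRing O] [IsLocalRing (MonoidAlgebra O G)]
    {x : MonoidAlgebra O G} (hx : x ∈ maximalIdeal (MonoidAlgebra O G)) :
    groupAug x ∈ maximalIdeal O := by
  by_contra h
  rw [mem_maximalIdeal, mem_nonunits_iff, not_not] at h
  have hx' : x - algebraMap O _ (groupAug x) ∈ maximalIdeal (MonoidAlgebra O G) := by
    refine le_maximalIdeal (RingHom.ker_ne_top (groupAug (O := O) (G := G)).toRingHom) ?_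
    show groupAug (x - algebraMap O _ (groupAug x)) = 0
    rw [map_sub, AlgHom.commutes, Algebra.algebraMap_self_apply, sub_self]
  have := sub_mem hx hx'
  rw [sub_sub_cancel, mem_maximalIdeal, mem_nonunits_iff] at this
  exact this (h.map _)

end FermatLib.MLT.Two

end
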