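import Fermat.Agent.MLT.Two.PointResidual
import Fermat.Agent.MLT.Tate.Props
import Fermat.Agent.EC.FlatGood
import Fermat.Agent.Galois.FlatBaseChange
import Fermat.Agent.Galois.RepDVR

/-!
# The point `x`: the `2`-adic representation of an anchor

The representation over a coefficient ring `O`, in a basis which reduces to the chosen basis of
`E[2]`, with its local properties, the Hecke roots at auxiliary primes and the point count.
-/

set_option autoImplicit false
set_option linter.style.haveILetI false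

noncomputable section

open WeierstrassCurve Matrix Polynomial
open scoped WeierstrassCurve.Affine TensorProduct

namespace FermatLib.MLT.Two.Point

open FermatLib.AtP FermatLib.Galois

local notation "Qbar" => AlgebraicClosure ℚ
local notation "Γℚ" => (AlgebraicClosure ℚ ≃ₐ[ℚ] AlgebraicClosure ℚ)
local notation "M₂" R:max => Matrix (Fin 2) (Fin 2) R

/-- Two changes of coefficients compose. -/
theorem baseChangeAlong_comp_isEquiv {A B C : Type} [CommRing A] [IsLocalRing A] [CommRing B]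
    [IsLocalRing B] [CommRing C] [IsLocalRing C] (φ : A →+* B) (hφ : IsLocalHom φ) (ψ : B →+* C)
    (hψ : IsLocalHom ψ) (hc : IsLocalHom (ψ.comp φ)) (ρ : GaloisRepAdic A) :
    (ρ.baseChangeAlong (ψ.comp φ) hc).IsEquiv ((ρ.baseChangeAlong φ hφ).baseChangeAlong ψ hψ) := by
  letI iAB : Algebra A B := φ.toAlgebra
  letI iBC : Algebra B C := ψ.toAlgebra
  letI iAC : Algebra A C := (ψ.comp φ).toAlgebra
  haveI : IsScalarTower A B C := IsScalarTower.of_algebraMap_eq fun _ => rfl
  refine ⟨⟨(TensorProduct.AlgebraTensorModule.cancelBaseChange A B C C ρ.V).symm, fun σ x => ?_⟩⟩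
  show (TensorProduct.AlgebraTensorModule.cancelBaseChange A B C C ρ.V).symm
      ((ρ.ρ σ).baseChange C x) = ((ρ.ρ σ).baseChange B).baseChange C
      ((TensorProduct.AlgebraTensorModule.cancelBaseChange A B C C ρ.V).symm x)
  induction x using TensorProduct.induction_on with
  | zero => simp only [map_zero]
  | add x y hx hy => simp only [map_add, hx, hy]
  | tmul c v => simp [TensorProduct.AlgebraTensorModule.cancelBaseChange_symm_tmul]

/-- Flatness passes along any local map to a ring with finite residue field. -/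
theorem isFlatAt_baseChangeAlong_any {p : ℕ} {A B : Type} [CommRing A] [IsLocalRing A]
    [CommRing B] [IsLocalRing B] [Finite (IsLocalRing.ResidueField B)] (φ : A →+* B)
    (hφ : IsLocalHom φ) {ρ : GaloisRepAdic A} (h : ρ.IsFlatAt p) :
    (ρ.baseChangeAlong φ hφ).IsFlatAt p :=
  FlatModel.isFlatAt_of_forall_quotient _ fun _ _ _ _ hq =>
    haveI := hφ
    haveI := hq
    FlatModel.isFlatAt_of_isEquiv (baseChangeAlong_comp_isEquiv φ hφ _ hq inferInstance ρ)
      (FlatModel.isFlatAt_baseChange _ _ h)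

variable (W : WeierstrassCurve ℤ) (hΔ : W.Δ ≠ 0) [(W.map (Int.castRingHom ℚ)).IsElliptic]

/-- The `2`-adic Tate representation. -/
abbrev pointTate : GaloisRepAdic ℤ_[2] := Tate.curveTate (W.map (Int.castRingHom ℚ)) 2

/-- Reduction to `E[2]`. -/
abbrev toTors : (pointTate W).V →ₛₗ[(PadicInt.toZMod : ℤ_[2] →+* ZMod 2)] Tors W 2 :=
  Tate.curveTateToTorsion (W.map (Int.castRingHom ℚ)) 2

/-- The chosen basis of `E[2]`. -/
abbrev torsBasis : Module.Basis (Fin 2) (ZMod 2) (Tors W 2) :=
  residualBasis (curveResidualRep W hΔ 2)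

/-- The chosen basis of `E[2]` lifts to a basis of the Tate module. -/
theorem exists_pointBasis : ∃ v : Module.Basis (Fin 2) ℤ_[2] (pointTate W).V,
    ∀ i, toTors W (v i) = torsBasis W hΔ i := by
  choose w hw using fun i =>
    Tate.curveTateToTorsion_surjective (W.map (Int.castRingHom ℚ)) 2 (torsBasis W hΔ i)
  let e : Module.Basis (Fin 2) ℤ_[2] (pointTate W).V := Pi.basisFun ℤ_[2] (Fin 2)
  have hunit : IsUnit (e.det w) := by
    rw [Module.Basis.det_apply]
    have hprod : (Matrix.of fun i k => (torsBasis W hΔ).repr (toTors W (e k)) i) *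
        (e.toMatrix w).map PadicInt.toZMod = 1 := by
      ext i j
      rw [Matrix.mul_apply]
      have h1 : toTors W (w j) = ∑ k, PadicInt.toZMod (e.toMatrix w k j) • toTors W (e k) := by
        conv_lhs => rw [← e.sum_repr (w j), map_sum]
        exact Finset.sum_congr rfl fun k _ => LinearMap.map_smulₛₗ _ _ _
      have h2 := congrArg (fun x => (torsBasis W hΔ).repr x i) (h1.symm.trans (hw j))
      simp only [map_sum, map_smul, Finsupp.finsetSum_apply, Finsupp.smul_apply, smul_eq_mul,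
        Module.Basis.repr_self] at h2
      simp only [Matrix.of_apply, Matrix.map_apply]
      rw [Matrix.one_apply, Finset.sum_congr rfl fun k _ => mul_comm _ _, h2, Finsupp.single_apply]
      exact if_congr eq_comm rfl rfl
    by_contra hn
    have h0 : PadicInt.toZMod (e.toMatrix w).det = 0 := by
      rw [← RingHom.mem_ker, PadicInt.ker_toZMod]; exact hn
    have h1 := congrArg Matrix.det hprod
    rw [Matrix.det_mul, ← RingHom.mapMatrix_apply, ← RingHom.map_det, h0, mul_zero,
      Matrix.det_one] at h1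
    exact zero_ne_one h1
  obtain ⟨hli, hsp⟩ := (e.is_basis_iff_det (v := w)).mpr hunit
  exact ⟨Module.Basis.mk hli hsp.ge, fun i => by rw [Module.Basis.mk_apply]; exact hw i⟩

/-- A basis of the Tate module reducing to the chosen basis of `E[2]`. -/
def pointBasis : Module.Basis (Fin 2) ℤ_[2] (pointTate W).V := (exists_pointBasis W hΔ).choose

/-- The matrices of the `2`-adic representation in that basis. -/
def pointMatTwo : Γℚ →* M₂ ℤ_[2] := repMatrix (pointBasis W hΔ) (pointTate W).ρ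

/-- It reduces to the matrices of `E[2]`. -/
theorem pointMatTwo_map_toZMod (σ : Γℚ) :
    (pointMatTwo W hΔ σ).map PadicInt.toZMod = curveMat W hΔ 2 σ := by
  ext i j
  have hv := (exists_pointBasis W hΔ).choose_spec
  have hσ : toTors W ((pointTate W).ρ σ (pointBasis W hΔ j)) = σ • torsBasis W hΔ j := by
    rw [← hv j]; exact Tate.curveTateToTorsion_rho _ 2 σ _
  have hrepr : ∀ x, toTors W x =
      ∑ k, PadicInt.toZMod ((pointBasis W hΔ).repr x k) • torsBasis W hΔ k := fun x => by
    conv_lhs => rw [← (pointBasis W hΔ).sum_repr x, map_sum]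
    exact Finset.sum_congr rfl fun k _ =>
      (LinearMap.map_smulₛₗ _ _ _).trans (congrArg _ (hv k))
  rw [hrepr] at hσ
  have h2 := congrArg (fun x => (torsBasis W hΔ).repr x i) hσ
  simp only [map_sum, map_smul, Finsupp.finsetSum_apply, Finsupp.smul_apply, smul_eq_mul,
    Module.Basis.repr_self, Finsupp.single_apply, mul_ite, mul_one, mul_zero, Finset.sum_ite_eq',
    Finset.mem_univ, if_true] at h2
  show PadicInt.toZMod (LinearMap.toMatrix _ _ ((pointTate W).ρ σ) i j) =
    LinearMap.toMatrix _ _ ((curveResidualRep W hΔ 2).ρ σ) i j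
  rw [LinearMap.toMatrix_apply, LinearMap.toMatrix_apply]
  exact h2

theorem det_pointMatTwo (σ : Γℚ) :
    (pointMatTwo W hΔ σ).det = FermatLib.Galois.Attach.cycloChar 2 σ :=
  (det_repMatrix _ _ σ).trans (Tate.det_curveTate _ 2 σ)

/-- Good odd primes: inertia acts trivially. -/
theorem pointMatTwo_eq_one {q : ℕ} (hq : q.Prime) (hq2 : q ≠ 2) (hgood : W.IsGoodPrimeFor q)
    {A : ValuationSubring Qbar} (hA : A.LiesOverPrime q) {σ : Γℚ}
    (hσ : σ ∈ A.inertiaSubgroupIn ℚ) : pointMatTwo W hΔ σ = 1 := by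
  rw [pointMatTwo, repMatrix_apply, Tate.isUnramifiedAt_curveTate W 2 hq hq2 hgood A hA σ hσ]
  exact LinearMap.toMatrix_one _

/-- Bad primes: products of two moves vanish. -/
theorem pointMatTwo_unipotent {q : ℕ} (hq : q.Prime) (hq2 : q ≠ 2) (hbad : (q : ℤ) ∣ W.Δ)
    (hc₄ : ¬ (q : ℤ) ∣ W.c₄) {A : ValuationSubring Qbar} (hA : A.LiesOverPrime q) {σ τ : Γℚ}
    (hσ : σ ∈ A.inertiaSubgroupIn ℚ) (hτ : τ ∈ A.inertiaSubgroupIn ℚ) :
    (pointMatTwo W hΔ σ - 1) * (pointMatTwo W hΔ τ - 1) = 0 := by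
  haveI : Algebra.IsAlgebraic ℚ Qbar := AlgebraicClosure.isAlgebraic ℚ
  rw [pointMatTwo, repMatrix_apply, repMatrix_apply,
    ← LinearMap.toMatrix_one (pointBasis W hΔ), ← map_sub (LinearMap.toMatrix _ _),
    ← map_sub (LinearMap.toMatrix _ _), ← LinearMap.toMatrix_mul,
    show ((pointTate W).ρ σ - 1) * ((pointTate W).ρ τ - 1) = 0 from ?_, map_zero]
  refine Tate.curveTate_end_ext _ 2 fun n v => ?_
  rw [LinearMap.zero_apply, map_zero, Module.End.mul_apply]
  simp only [LinearMap.sub_apply, Module.End.one_apply, map_sub, Tate.curveTateProj_rho]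
  rw [sub_eq_zero, sub_eq_sub_iff_sub_eq_sub]
  refine (map_sub (DistribSMul.toAddMonoidHom (Pts W) σ) _ _).symm.trans ?_
  exact FermatLib.EC.smul_smul_sub_eq (FermatLib.EC.integralAt_intCurve W A)
    (by rw [FermatLib.EC.res_c₄_intCurve, FermatLib.EC.res_intCast_ne_zero_iff A hq hA]; exact hc₄)
    (by
      by_contra h0
      rw [FermatLib.EC.res_Δ_intCurve] at h0
      exact (FermatLib.EC.res_intCast_ne_zero_iff A hq hA _).mp h0 hbad)
    (WeierstrassCurve.isUnit_Δ _).ne_zero (FermatLib.EC.fixesResidues_of_mem_inertia hτ)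
    (FermatLib.EC.fixesResidues_of_mem_inertia hσ)
    (FermatLib.EC.res_natCast_ne_zero A hq hA fun hd =>
      hq2 ((Nat.prime_dvd_prime_iff_eq hq Nat.prime_two).mp (hq.dvd_of_dvd_pow hd)))
    (Tate.pow_smul_curveTateProj (W.map (Int.castRingHom ℚ)) 2 n v)

theorem trace_pointMatTwo_frobenius {q : ℕ} (hq : q.Prime) (hq2 : q ≠ 2)
    (hgood : W.IsGoodPrimeFor q) {A : ValuationSubring Qbar} (hA : A.LiesOverPrime q) {σ : Γℚ}
    (hσ : A.IsFrobeniusAt σ q) :
    (pointMatTwo W hΔ σ).trace = ((W.apOfModel q : ℤ) : ℤ_[2]) :=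
  (trace_repMatrix _ _ σ).trans (Tate.trace_curveTate_frobenius W 2 hq hq2 hgood hA hσ)

/-! ### Over a coefficient ring -/

variable {O : Type} [CommRing O] (φ : ℤ_[2] →+* O)

/-- The matrices of `x` over `O`. -/
def pointMat : Γℚ →* M₂ O := repMap φ (pointMatTwo W hΔ)

theorem pointMat_def (σ : Γℚ) : pointMat W hΔ φ σ = φ.mapMatrix (pointMatTwo W hΔ σ) := rfl

theorem det_pointMat (σ : Γℚ) :
    (pointMat W hΔ φ σ).det = φ (FermatLib.Galois.Attach.cycloChar 2 σ) := by
  rw [pointMat_def, ← RingHom.map_det, det_pointMatTwo]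

theorem pointMat_eq_one {q : ℕ} (hq : q.Prime) (hq2 : q ≠ 2) (hgood : W.IsGoodPrimeFor q)
    {A : ValuationSubring Qbar} (hA : A.LiesOverPrime q) {σ : Γℚ}
    (hσ : σ ∈ A.inertiaSubgroupIn ℚ) : pointMat W hΔ φ σ = 1 := by
  rw [pointMat_def, pointMatTwo_eq_one W hΔ hq hq2 hgood hA hσ, map_one]

theorem pointMat_unipotent {q : ℕ} (hq : q.Prime) (hq2 : q ≠ 2) (hbad : (q : ℤ) ∣ W.Δ)
    (hc₄ : ¬ (q : ℤ) ∣ W.c₄) {A : ValuationSubring Qbar} (hA : A.LiesOverPrime q) {σ τ : Γℚ}
    (hσ : σ ∈ A.inertiaSubgroupIn ℚ) (hτ : τ ∈ A.inertiaSubgroupIn ℚ) :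
    (pointMat W hΔ φ σ - 1) * (pointMat W hΔ φ τ - 1) = 0 := by
  rw [pointMat_def, pointMat_def, ← map_one φ.mapMatrix, ← map_sub, ← map_sub, ← map_mul,
    pointMatTwo_unipotent W hΔ hq hq2 hbad hc₄ hA hσ hτ, map_zero]

theorem trace_pointMat_frobenius {q : ℕ} (hq : q.Prime) (hq2 : q ≠ 2)
    (hgood : W.IsGoodPrimeFor q) {A : ValuationSubring Qbar} (hA : A.LiesOverPrime q) {σ : Γℚ}
    (hσ : A.IsFrobeniusAt σ q) :
    (pointMat W hΔ φ σ).trace = ((W.apOfModel q : ℤ) : O) ∧
      (pointMat W hΔ φ σ).det = (q : O) := by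
  refine ⟨?_, ?_⟩
  · rw [pointMat, trace_repMap, trace_pointMatTwo_frobenius W hΔ hq hq2 hgood hA hσ, map_intCast]
  · rw [det_pointMat, FermatLib.Galois.Attach.cycloChar_frobenius 2 hq hq2 hA hσ, map_natCast]

variable [IsLocalRing O] (hφ : IsLocalHom φ)

/-- `x` as an adic representation over `O`. -/
def pointRep : GaloisRepAdic O := (pointTate W).baseChangeAlong φ hφ

theorem repMatrix_pointRep :
    letI := φ.toAlgebra
    repMatrix (Algebra.TensorProduct.basis O (pointBasis W hΔ)) (pointRep W φ hφ).ρ =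
      pointMat W hΔ φ := by
  letI := φ.toAlgebra
  exact repMatrix_eq_repMap (pointBasis W hΔ) (pointTate W).ρ _ fun _ => rfl

/-- The residual matrices of `x` are those of `E[2]`. -/
theorem pointMat_map_residue (hφ : IsLocalHom φ) (ι : ZMod 2 →+* IsLocalRing.ResidueField O)
    (σ : Γℚ) :
    (pointMat W hΔ φ σ).map (IsLocalRing.residue O) = (curveMat W hΔ 2 σ).map ι := by
  rw [← pointMatTwo_map_toZMod W hΔ σ]
  ext i j
  simp only [Matrix.map_apply]
  obtain ⟨x, hx⟩ : ∃ x, x = pointMatTwo W hΔ σ i j := ⟨_, rfl⟩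
  show IsLocalRing.residue O (φ (pointMatTwo W hΔ σ i j)) = _
  rw [← hx]
  have hmem : x - ((PadicInt.toZMod x).val : ℤ_[2]) ∈ IsLocalRing.maximalIdeal ℤ_[2] := by
    rw [← PadicInt.ker_toZMod, RingHom.mem_ker, map_sub, map_natCast, ZMod.natCast_zmod_val,
      sub_self]
  have h := (IsLocalRing.residue_eq_zero_iff _).mpr (haveI := hφ; map_nonunit φ _ hmem)
  rw [map_sub, map_sub, sub_eq_zero, map_natCast, map_natCast] at h
  rw [h]
  conv_rhs => rw [← ZMod.natCast_zmod_val (PadicInt.toZMod x), map_natCast]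

include hφ in
theorem exists_residueEmbedding : Nonempty (ZMod 2 →+* IsLocalRing.ResidueField O) := by
  haveI := hφ
  exact ⟨(IsLocalRing.ResidueField.map φ).comp (PadicInt.residueField (p := 2)).symm.toRingHom⟩

theorem isFlatAt_pointRep (hgood : W.IsGoodPrimeFor 2)
    [Finite (IsLocalRing.ResidueField O)] : (pointRep W φ hφ).IsFlatAt 2 :=
  isFlatAt_baseChangeAlong_any φ hφ (EC.Flat.isFlatAt_curveTate_intCurve hgood)

/-! ### Point count and the coefficient ring -/

end FermatLib.MLT.Two.Point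

end
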