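import Fermat.Prelude.Def_GroupCohomology_ContinuousH1
import Fermat.Prelude.Def_FLTPrelim_Ramification
import Fermat.Prelude.Def_EllipticCurve_FrobeniusTrace
import Mathlib.RepresentationTheory.Homological.GroupCohomology.LowDegree

/-!
# Auxiliary primes for lifting at 2: definitions

`evalAt M σ` evaluates a class at a Galois element, with values in the coinvariants of that
element.  A `T`-prime has Frobenius a transvection on `M`, a `C`-prime one of order three; both
are `1` mod 4.
-/

set_option autoImplicit false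

noncomputable section

namespace FermatLib.MLT.Two

open groupCohomology CategoryTheory

section Eval

universe u

variable {k G : Type u} [CommRing k] [Group G] (M : Rep k G)

/-- The moved vectors `(σ - 1) M`. -/
def moved (σ : G) : Submodule k M :=
  LinearMap.range (M.ρ σ - 1)

/-- Evaluation of cocycles at `σ`, modulo `(σ - 1) M`. -/
def evalCocycle (σ : G) : cocycles₁ M →ₗ[k] (M ⧸ moved M σ) where
  toFun c := (moved M σ).mkQ (c σ)
  map_add' _ _ := map_add (moved M σ).mkQ _ _
  map_smul' a c := map_smul (moved M σ).mkQ a (c σ)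

lemma H1π_surjective : Function.Surjective (H1π M).hom :=
  (ModuleCat.epi_iff_surjective _).mp inferInstance

lemma ker_H1π_le_ker_evalCocycle (σ : G) :
    LinearMap.ker (H1π M).hom ≤ LinearMap.ker (evalCocycle M σ) := by
  intro c hc
  obtain ⟨x, hx⟩ := (H1π_eq_zero_iff c).mp hc
  refine (Submodule.Quotient.mk_eq_zero _).mpr ⟨x, ?_⟩
  rw [← congrFun hx σ]
  rfl

/-- Evaluation of classes at `σ`, modulo `(σ - 1) M`. -/
def evalAt (σ : G) : H1 M →ₗ[k] (M ⧸ moved M σ) :=
  ((LinearMap.ker (H1π M).hom).liftQ _ (ker_H1π_le_ker_evalCocycle M σ)).comp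
    (LinearMap.quotKerEquivOfSurjective _ (H1π_surjective M)).symm.toLinearMap

lemma evalAt_H1π (σ : G) (c : cocycles₁ M) :
    evalAt M σ ((H1π M).hom c) = (moved M σ).mkQ (c σ) := by
  have h : (LinearMap.quotKerEquivOfSurjective _ (H1π_surjective M)).symm ((H1π M).hom c) =
      Submodule.Quotient.mk c := by
    rw [LinearEquiv.symm_apply_eq]
    rfl
  simp only [evalAt, LinearMap.comp_apply, LinearEquiv.coe_coe, h]
  rfl

end Eval

local notation "Qbar" => AlgebraicClosure ℚ
local notation "Γℚ" => (AlgebraicClosure ℚ ≃ₐ[ℚ] AlgebraicClosure ℚ)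

/-- `σ` fixes the square roots of `-1`. -/
def FixesI (σ : Γℚ) : Prop :=
  ∀ x : Qbar, x ^ 2 = -1 → σ x = x

variable (M : Rep (ZMod 2) Γℚ)

/-- A smooth two-dimensional mod 2 representation with image `S₃` whose kernel field does not
contain `i`. -/
structure IsFullModTwo : Prop where
  finrank_eq : Module.finrank (ZMod 2) M = 2
  smooth : ∀ m : M, ∃ F : IntermediateField ℚ Qbar, FiniteDimensional ℚ F ∧
    ∀ s ∈ F.fixingSubgroup, M.ρ s m = m
  exists_three : ∃ τ : Γℚ, FixesI τ ∧ ∀ m : M, M.ρ τ m = m → m = 0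
  exists_two : ∃ σ : Γℚ, FixesI σ ∧ M.ρ σ ≠ 1 ∧ M.ρ σ * M.ρ σ = 1

/-- A `T`-prime: Frobenius is a transvection on `M`. -/
structure IsTPrime (q : ℕ) (A : ValuationSubring Qbar) (σ : Γℚ) : Prop where
  prime : q.Prime
  mod_four : q % 4 = 1
  liesOver : A.LiesOverPrime q
  frobenius : A.IsFrobeniusAt σ q
  ne_one : M.ρ σ ≠ 1
  sq_eq_one : M.ρ σ * M.ρ σ = 1

/-- A `C`-prime: Frobenius has order three on `M`. -/
structure IsCPrime (q : ℕ) (A : ValuationSubring Qbar) (σ : Γℚ) : Prop where
  prime : q.Prime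
  mod_four : q % 4 = 1
  liesOver : A.LiesOverPrime q
  frobenius : A.IsFrobeniusAt σ q
  ne_one : M.ρ σ ≠ 1
  cube_eq_one : M.ρ σ ^ 3 = 1

end FermatLib.MLT.Two
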