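import Fermat.Agent.MLT.Two.PrimesFull
import Fermat.Agent.EC.RedBridge
import Fermat.Agent.Basic.FrobeniusExists
import Fermat.Agent.Galois.FrobeniusDensity
import Mathlib.NumberTheory.LSeries.PrimesInAP
import Mathlib.NumberTheory.LegendreSymbol.QuadraticReciprocity
import Mathlib.Data.Nat.ChineseRemainder

/-!
# Frobenius elements on square roots of integers
-/

set_option autoImplicit false

noncomputable section

namespace FermatLib.MLT.Two

open FermatLib.EC

local notation "Qbar" => AlgebraicClosure ℚ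
local notation "Γℚ" => (AlgebraicClosure ℚ ≃ₐ[ℚ] AlgebraicClosure ℚ)

/-- A square root of an integer lies in every place. -/
lemma mem_of_sq_eq_intCast {A : ValuationSubring Qbar} {d : ℤ} {x : Qbar} (hx : x ^ 2 = d) :
    x ∈ A := by
  rcases A.mem_or_inv_mem x with h | h
  · exact h
  · by_cases h0 : x = 0
    · exact h0 ▸ A.zero_mem
    · have := A.mul_mem _ _ (intCast_mem_place (A := A) d) h
      rwa [← hx, pow_two, mul_assoc, mul_inv_cancel₀ h0, mul_one] at this

/-- Frobenius on the residue of an element. -/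
lemma res_apply_frobenius {A : ValuationSubring Qbar} {σ : Γℚ} {ℓ : ℕ}
    (hσ : A.IsFrobeniusAt σ ℓ) {x : Qbar} (hx : x ∈ A) : res A (σ x) = res A x ^ ℓ := by
  have hmem : σ x ∈ A := ((⟨σ, hσ.mem_decompositionSubgroup⟩ : A.decompositionSubgroup ℚ) • (⟨x, hx⟩ : A)).2
  rw [res_of_mem hmem, res_of_mem hx, ← hσ.smul_residue_eq]
  rfl

/-- Frobenius fixes a square root of `d` exactly when `d` is a square mod `ℓ`. -/
theorem frobenius_sqrt_iff {ℓ : ℕ} [Fact ℓ.Prime] (hℓ2 : ℓ ≠ 2) {A : ValuationSubring Qbar}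
    (hA : A.LiesOverPrime ℓ) {σ : Γℚ} (hσ : A.IsFrobeniusAt σ ℓ) {d : ℤ} (hd : ¬ (ℓ : ℤ) ∣ d)
    {x : Qbar} (hx : x ^ 2 = d) : σ x = x ↔ IsSquare (d : ZMod ℓ) := by
  have hℓ : ℓ.Prime := Fact.out
  have hd0 : (d : ZMod ℓ) ≠ 0 := fun h => hd ((ZMod.intCast_zmod_eq_zero_iff_dvd d ℓ).mp h)
  have hxA : x ∈ A := mem_of_sq_eq_intCast hx
  have hr2 : res A x ^ 2 = (d : IsLocalRing.ResidueField A) := by
    rw [← res_pow hxA, hx, res_intCast]
  have hr0 : res A x ≠ 0 := fun h => by
    rw [h, zero_pow two_ne_zero] at hr2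
    exact (res_intCast_ne_zero_iff A hℓ hA d).mpr hd (by rw [res_intCast]; exact hr2.symm)
  have hdvd : (ℓ : ℤ) ∣ d ^ (ℓ / 2) - legendreSym ℓ d := by
    rw [← ZMod.intCast_zmod_eq_zero_iff_dvd]
    push_cast
    rw [← legendreSym.eq_pow, sub_self]
  have hcast : (d : IsLocalRing.ResidueField A) ^ (ℓ / 2) =
      (legendreSym ℓ d : IsLocalRing.ResidueField A) := by
    by_contra hne
    refine (res_intCast_ne_zero_iff A hℓ hA _).mp ?_ hdvd
    rw [res_intCast]
    push_cast
    exact sub_ne_zero.mpr hne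
  have key : res A (σ x) = (legendreSym ℓ d : IsLocalRing.ResidueField A) * res A x := by
    have hodd := Nat.two_mul_div_two_add_one_of_odd (hℓ.odd_of_ne_two hℓ2)
    rw [res_apply_frobenius hσ hxA, ← hcast, ← hr2, ← pow_mul, ← pow_succ, hodd]
  have h2 : (1 : IsLocalRing.ResidueField A) ≠ -1 := by
    intro h
    refine (res_intCast_ne_zero_iff A hℓ hA 2).mpr ?_ ?_
    · intro h2
      have h2' : ℓ ∣ 2 := by exact_mod_cast h2
      exact hℓ2 ((Nat.prime_dvd_prime_iff_eq hℓ Nat.prime_two).mp h2')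
    · rw [res_intCast]
      push_cast
      linear_combination h
  constructor
  · intro hfix
    rw [hfix] at key
    by_contra hns
    rw [(legendreSym.eq_neg_one_iff ℓ).mpr hns] at key
    exact h2 (mul_right_cancel₀ hr0 (by rw [one_mul]; exact_mod_cast key))
  · intro hsq
    rw [(legendreSym.eq_one_iff ℓ hd0).mpr hsq] at key
    rcases apply_sqrt_eq_or hx σ with h | h
    · exact h
    · exfalso
      rw [h, res_neg hxA] at key
      exact h2 (mul_right_cancel₀ hr0 (by
        rw [neg_one_mul, key, Int.cast_one]))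

end FermatLib.MLT.Two
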