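import Fermat.Agent.MLT.Two.PrimesDefs
import Mathlib.LinearAlgebra.Matrix.ToLin
import Mathlib.LinearAlgebra.FiniteDimensional.Lemmas

/-!
# Full mod 2 representations: visibility and joint evaluation
-/

set_option autoImplicit false

noncomputable section

namespace FermatLib.MLT.Two

open groupCohomology CategoryTheory

local notation "Qbar" => AlgebraicClosure ℚ
local notation "Γℚ" => (AlgebraicClosure ℚ ≃ₐ[ℚ] AlgebraicClosure ℚ)

section Signs

/-- An automorphism sends a square root of an integer to itself or to its negative. -/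
lemma apply_sqrt_eq_or {d : ℤ} {x : Qbar} (hx : x ^ 2 = d) (σ : Γℚ) : σ x = x ∨ σ x = -x := by
  refine sq_eq_sq_iff_eq_or_eq_neg.mp ?_
  rw [← map_pow, hx, map_intCast]

/-- A commutator fixes square roots of integers. -/
lemma commutator_apply_sqrt {d : ℤ} {x : Qbar} (hx : x ^ 2 = d) (σ τ : Γℚ) :
    (σ * τ * σ⁻¹ * τ⁻¹) x = x := by
  have hsign : ∀ u : Γℚ, ∃ e : ℤ, (e : Qbar) * e = 1 ∧ u⁻¹ x = e * x ∧ u x = e * x := fun u => by
    obtain ⟨e, he, hu⟩ : ∃ e : ℤ, (e : Qbar) * e = 1 ∧ u⁻¹ x = e * x := by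
      rcases apply_sqrt_eq_or hx u⁻¹ with h | h
      · exact ⟨1, by simp, by simp [h]⟩
      · exact ⟨-1, by simp, by simp [h]⟩
    refine ⟨e, he, hu, ?_⟩
    have h' : x = e * u x := by
      conv_lhs => rw [← u.apply_symm_apply x, show u.symm x = _ from hu, map_mul, map_intCast]
    linear_combination -(e : Qbar) * h' - (u x) * he
  obtain ⟨a, ha, hσ', hσ⟩ := hsign σ
  obtain ⟨b, hb, hτ', hτ⟩ := hsign τ
  simp only [AlgEquiv.mul_apply, hτ', hσ', hτ, hσ, map_mul, map_intCast]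
  linear_combination (b : Qbar) * b * x * ha + x * hb

lemma sq_apply_sqrt {d : ℤ} {x : Qbar} (hx : x ^ 2 = d) (σ : Γℚ) : (σ * σ) x = x := by
  rcases apply_sqrt_eq_or hx σ with h | h <;> simp [h]

lemma fixesI_one : FixesI 1 := fun _ _ => rfl

lemma FixesI.mul {σ τ : Γℚ} (hσ : FixesI σ) (hτ : FixesI τ) : FixesI (σ * τ) := fun x hx => by
  rw [AlgEquiv.mul_apply, hτ x hx, hσ x hx]

lemma FixesI.pow {σ : Γℚ} (hσ : FixesI σ) : ∀ n : ℕ, FixesI (σ ^ n)
  | 0 => fixesI_one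
  | n + 1 => by rw [pow_succ]; exact (hσ.pow n).mul hσ

lemma fixesI_commutator (σ τ : Γℚ) : FixesI (σ * τ * σ⁻¹ * τ⁻¹) := fun x hx =>
  commutator_apply_sqrt (d := -1) (by rw [hx]; norm_num) σ τ

lemma FixesI.conj {σ : Γℚ} (hσ : FixesI σ) (g : Γℚ) : FixesI (g * σ * g⁻¹) := by
  simpa using (fixesI_commutator g σ).mul hσ

end Signs

section Visible

variable {M : Rep (ZMod 2) Γℚ}

lemma rho_mul_inv (σ : Γℚ) : M.ρ σ * M.ρ σ⁻¹ = 1 := by
  rw [← map_mul, mul_inv_cancel, map_one]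

end Visible

end FermatLib.MLT.Two
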