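import Fermat.Agent.MLT.DualCriterion
import Fermat.Agent.MLT.PowerSeriesComplete
import Mathlib.LinearAlgebra.Matrix.Adjugate

/-!
# Tangent vectors of a deformation ring as cocycles with equations

A point of a local algebra `R` in the dual numbers turns a matrix representation over `R` into a
cocycle with values in `M₂(k)` and turns polynomial identities over `R` into linear ones.  When
`R` is generated by traces and finitely many further elements, a linear map on these data whose
kernel consists of coboundaries bounds the number of generators of `R`.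
-/

set_option autoImplicit false

noncomputable section

open IsLocalRing Matrix

namespace FermatLib.MLT.Two

attribute [local instance] FermatLib.Galois.Deform.dualAlgebra

variable {𝒪 : Type} [CommRing 𝒪] [IsLocalRing 𝒪] {R : Type} [CommRing R] [Algebra 𝒪 R]
  [IsLocalRing R] (π : R →ₐ[𝒪] ResidueField 𝒪)

local notation "k" => ResidueField 𝒪
local notation "M₂" S:max => Matrix (Fin 2) (Fin 2) S

/-- All tangent vectors of `R` over the coefficient ring. -/
abbrev fullTangent : Submodule k (R → k) := tangentSpace π (Fin.elim0 : Fin 0 → R)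

variable {π} {l : R → ResidueField 𝒪} (hl : l ∈ fullTangent π)
include hl

lemma tangent_add (a b : R) : l (a + b) = l a + l b := by
  obtain ⟨φ, -, rfl⟩ := hl
  simp [dualSnd]

lemma tangent_zero : l 0 = 0 := by
  obtain ⟨φ, -, rfl⟩ := hl
  simp [dualSnd]

lemma tangent_sub (a b : R) : l (a - b) = l a - l b := by
  obtain ⟨φ, -, rfl⟩ := hl
  simp [dualSnd]

lemma tangent_mul (a b : R) : l (a * b) = π a * l b + l a * π b := by
  obtain ⟨φ, -, rfl⟩ := hl
  simp [dualSnd, fst_dualPoint π, mul_comm]

lemma tangent_algebraMap (c : 𝒪) : l (algebraMap 𝒪 R c) = 0 := by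
  obtain ⟨φ, -, rfl⟩ := hl
  exact dualSnd_algebraMap φ c

lemma tangent_one : l 1 = 0 := by
  simpa using tangent_algebraMap hl 1

lemma tangent_eq_zero_of_mem_sq {a : R} (ha : a ∈ maximalIdeal R ^ 2) : l a = 0 := by
  rw [pow_two] at ha
  refine Submodule.mul_induction_on ha (fun x hx y hy => ?_) (fun x y hx hy => ?_)
  · rw [tangent_mul hl, (FermatLib.Galois.Deform.res_eq_zero_iff π x).mpr hx,
      (FermatLib.Galois.Deform.res_eq_zero_iff π y).mpr hy]
    simp
  · rw [tangent_add hl, hx, hy, add_zero]

lemma tangent_map_mul (X Y : M₂ R) :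
    (X * Y).map l = X.map π * Y.map l + X.map l * Y.map π := by
  ext i j
  simp only [Matrix.map_apply, Matrix.mul_apply, Fin.sum_univ_two, Matrix.add_apply, tangent_add hl,
    tangent_mul hl]
  ring

lemma tangent_map_sub (X Y : M₂ R) : (X - Y).map l = X.map l - Y.map l := by
  ext i j
  simp [tangent_sub hl]

lemma tangent_map_one : (1 : M₂ R).map l = 0 := by
  ext i j
  fin_cases i <;> fin_cases j <;> simp [tangent_zero hl, tangent_one hl]

lemma tangent_trace (X : M₂ R) : l X.trace = (X.map l).trace := by
  simp [Matrix.trace_fin_two, tangent_add hl]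

lemma tangent_det (X : M₂ R) : l X.det = ((X.map π).adjugate * X.map l).trace := by
  simp [Matrix.det_fin_two, Matrix.trace_fin_two, Matrix.adjugate_fin_two,
    Fin.sum_univ_two, tangent_sub hl, tangent_mul hl, Matrix.vecMul, dotProduct]
  ring

omit hl

section Cocycle

variable {G : Type*} [Group G]

/-- The cocycle of a representation along a tangent vector. -/
def tangentCocycle (l : R → k) (ρ : G →* M₂ R) (ρbar : G →* M₂ k) : G → M₂ k :=
  fun σ => (ρ σ).map l * ρbar σ⁻¹

variable {ρ : G →* M₂ R} {ρbar : G →* Matrix (Fin 2) (Fin 2) (ResidueField 𝒪)}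

lemma map_eq_tangentCocycle_mul (l : R → k) (σ : G) :
    (ρ σ).map l = tangentCocycle l ρ ρbar σ * ρbar σ := by
  rw [tangentCocycle, mul_assoc, ← map_mul, inv_mul_cancel, map_one, mul_one]

variable (hρ : ∀ σ, (ρ σ).map π = ρbar σ)
include hρ hl

lemma tangentCocycle_mul (σ τ : G) :
    tangentCocycle l ρ ρbar (σ * τ) =
      tangentCocycle l ρ ρbar σ + ρbar σ * tangentCocycle l ρ ρbar τ * ρbar σ⁻¹ := by
  have h1 : ∀ X : M₂ k, X * (ρbar τ * ρbar τ⁻¹) = X := fun X => by
    rw [← map_mul, mul_inv_cancel, map_one, mul_one]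
  simp only [tangentCocycle, map_mul ρ, tangent_map_mul hl, hρ, _root_.mul_inv_rev, map_mul ρbar, add_mul,
    mul_assoc]
  rw [add_comm]
  congr 1
  rw [← mul_assoc (ρbar τ), ← mul_assoc ((ρ σ).map l), h1]

lemma tangentCocycle_eq_zero_of_congr {σ : G}
    (h : ∀ i j, (ρ σ - 1) i j ∈ maximalIdeal R ^ 2) : tangentCocycle l ρ ρbar σ = 0 := by
  have h0 : (ρ σ - 1).map l = 0 := by
    ext i j
    simpa using tangent_eq_zero_of_mem_sq hl (h i j)
  rw [tangent_map_sub hl, tangent_map_one hl, sub_zero] at h0
  rw [tangentCocycle, h0, zero_mul]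

/-- The derivative of the determinant is the trace of the cocycle. -/
lemma tangent_det_rep (σ : G) :
    l (ρ σ).det = (ρbar σ).det * (tangentCocycle l ρ ρbar σ).trace := by
  rw [tangent_det hl, hρ, map_eq_tangentCocycle_mul (ρbar := ρbar) l σ, ← mul_assoc,
    Matrix.trace_mul_comm, ← mul_assoc, Matrix.mul_adjugate, smul_mul_assoc, one_mul,
    Matrix.trace_smul, smul_eq_mul]

omit hl hρ

/-- Coboundaries, paired with zero on the auxiliary elements. -/
def tangentBoundary (ρbar : G →* M₂ k) (ι : Type*) : M₂ k →ₗ[k] (G → M₂ k) × (ι → k) where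
  toFun X := (fun σ => ρbar σ * X * ρbar σ⁻¹ - X, 0)
  map_add' X Y := by
    refine Prod.ext (funext fun σ => ?_) (by simp)
    simp [mul_add, add_mul]; abel
  map_smul' c X := by
    refine Prod.ext (funext fun σ => ?_) (by simp)
    simp [smul_sub]

/-- The cocycle and the derivatives of the auxiliary elements attached to a tangent vector. -/
def tangentData (π : R →ₐ[𝒪] k) (ρ : G →* M₂ R) (ρbar : G →* M₂ k) {ι : Type*} (u : ι → R) :
    fullTangent π →ₗ[k] (G → M₂ k) × (ι → k) where
  toFun l := (tangentCocycle (l : R → k) ρ ρbar, fun i => (l : R → k) (u i))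
  map_add' l l' := by
    refine Prod.ext (funext fun σ => ?_) (funext fun i => rfl)
    simp [tangentCocycle, ← add_mul]
    congr 1
  map_smul' c l := by
    refine Prod.ext (funext fun σ => ?_) (funext fun i => rfl)
    show (ρ σ).map (c • (l : R → k)) * _ = c • ((ρ σ).map (l : R → k) * _)
    rw [← smul_mul_assoc]
    rfl

include hρ in
/-- Only the zero tangent vector has coboundary data, if `R` is generated by traces and the
auxiliary elements. -/
theorem eq_zero_of_tangentData_mem_range {ι : Type*} {u : ι → R}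
    (hgen : Algebra.adjoin 𝒪 (Set.range (fun σ => (ρ σ).trace) ∪ Set.range u) = ⊤)
    (l : fullTangent π)
    (h : tangentData π ρ ρbar u l ∈ LinearMap.range (tangentBoundary ρbar ι)) : l = 0 := by
  obtain ⟨X, hX⟩ := h
  have hl := l.2
  have hu : ∀ i, (l : R → k) (u i) = 0 := fun i => (congrFun (congrArg Prod.snd hX) i).symm
  have htr : ∀ σ, (l : R → k) (ρ σ).trace = 0 := fun σ => by
    have hc : tangentCocycle (l : R → k) ρ ρbar σ = ρbar σ * X * ρbar σ⁻¹ - X :=
      (congrFun (congrArg Prod.fst hX) σ).symm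
    rw [tangent_trace hl, map_eq_tangentCocycle_mul (ρbar := ρbar) (l : R → k) σ, hc, sub_mul,
      mul_assoc, ← map_mul, inv_mul_cancel, map_one, mul_one, Matrix.trace_sub,
      Matrix.trace_mul_comm, sub_self]
  refine Subtype.ext (funext fun r => ?_)
  have hr : r ∈ Algebra.adjoin 𝒪 (Set.range (fun σ => (ρ σ).trace) ∪ Set.range u) :=
    hgen ▸ Algebra.mem_top
  induction hr using Algebra.adjoin_induction with
  | mem x hx =>
    rcases hx with ⟨σ, rfl⟩ | ⟨i, rfl⟩
    · exact htr σ
    · exact hu i
  | algebraMap c => exact tangent_algebraMap hl c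
  | add x y _ _ hx hy =>
    rw [tangent_add hl, hx, hy]
    exact add_zero _
  | mul x y _ _ hx hy =>
    rw [tangent_mul hl, hx, hy]
    simp

end Cocycle

end FermatLib.MLT.Two

end
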