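import Fermat.Agent.MLT.Two.PrimesFrob
import Fermat.Agent.Galois.TransferCyclo
import Mathlib.RingTheory.RootsOfUnity.PrimitiveRoots

/-!
# Galois elements fixing roots of unity of 2-power order
-/

set_option autoImplicit false

noncomputable section

namespace FermatLib.MLT.Two

local notation "Qbar" => AlgebraicClosure ℚ
local notation "Γℚ" => (AlgebraicClosure ℚ ≃ₐ[ℚ] AlgebraicClosure ℚ)

/-- `σ` fixes the `2 ^ m`-th roots of unity. -/
def FixesRoots (m : ℕ) (σ : Γℚ) : Prop :=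
  ∀ ζ : Qbar, ζ ^ 2 ^ m = 1 → σ ζ = ζ

lemma FixesRoots.mul {m : ℕ} {σ τ : Γℚ} (hσ : FixesRoots m σ) (hτ : FixesRoots m τ) :
    FixesRoots m (σ * τ) := fun ζ hζ => by rw [AlgEquiv.mul_apply, hτ ζ hζ, hσ ζ hζ]

lemma fixesRoots_one (m : ℕ) : FixesRoots m 1 := fun _ _ => rfl

lemma FixesRoots.pow {m : ℕ} {σ : Γℚ} (hσ : FixesRoots m σ) : ∀ n : ℕ, FixesRoots m (σ ^ n)
  | 0 => fixesRoots_one m
  | n + 1 => by rw [pow_succ]; exact (hσ.pow n).mul hσ

lemma FixesRoots.fixesI {m : ℕ} {σ : Γℚ} (hσ : FixesRoots m σ) (hm : 2 ≤ m) : FixesI σ :=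
  fun x hx => hσ x (by
    rw [show 2 ^ m = 2 * (2 * 2 ^ (m - 2)) by
      rw [← mul_assoc, ← pow_two, ← pow_add]; congr 1; omega]
    rw [pow_mul, hx, pow_mul]
    norm_num)

/-- The image of a root of unity is one of its powers. -/
lemma apply_root_eq_pow {n : ℕ} (hn : 0 < n) {ζ : Qbar} (hζ : ζ ^ n = 1) (σ : Γℚ) :
    ∃ e : ℕ, σ ζ = ζ ^ e := by
  have hfin : IsOfFinOrder ζ := isOfFinOrder_iff_pow_eq_one.mpr ⟨n, hn, hζ⟩
  have : NeZero (orderOf ζ) := ⟨hfin.orderOf_pos.ne'⟩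
  obtain ⟨e, -, he⟩ := (IsPrimitiveRoot.orderOf ζ).eq_pow_of_pow_eq_one
    (show σ ζ ^ orderOf ζ = 1 by rw [← map_pow, pow_orderOf_eq_one, map_one])
  exact ⟨e, he.symm⟩

/-- Commutators fix roots of unity. -/
lemma fixesRoots_commutator (m : ℕ) (σ τ : Γℚ) : FixesRoots m (σ * τ * σ⁻¹ * τ⁻¹) := by
  have key : ∀ ζ : Qbar, ζ ^ 2 ^ m = 1 → (σ * τ) ζ = (τ * σ) ζ := fun ζ hζ => by
    obtain ⟨e, he⟩ := apply_root_eq_pow (pow_pos two_pos m) hζ σ
    obtain ⟨f, hf⟩ := apply_root_eq_pow (pow_pos two_pos m) hζ τ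
    rw [AlgEquiv.mul_apply, AlgEquiv.mul_apply, hf, he, map_pow, map_pow, he, hf, ← pow_mul,
      ← pow_mul, mul_comm]
  intro ζ hζ
  rw [show σ * τ * σ⁻¹ * τ⁻¹ = (σ * τ) * (τ * σ)⁻¹ by group, AlgEquiv.mul_apply,
    key _ (by rw [← map_pow, hζ, map_one])]
  exact (τ * σ).apply_symm_apply ζ

lemma FixesRoots.conj {m : ℕ} {σ : Γℚ} (hσ : FixesRoots m σ) (g : Γℚ) :
    FixesRoots m (g * σ * g⁻¹) := by
  simpa using (fixesRoots_commutator m g σ).mul hσ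

/-- Inertia away from 2 fixes roots of unity of 2-power order. -/
lemma fixesRoots_of_mem_inertia (m : ℕ) {q : ℕ} (hq : q.Prime) (hq2 : q ≠ 2)
    {A : ValuationSubring Qbar} (hA : A.LiesOverPrime q) {τ : Γℚ}
    (hτ : τ ∈ A.inertiaSubgroupIn ℚ) : FixesRoots m τ := fun ζ hζ => by
  obtain ⟨j, hj, hjo⟩ := (Nat.dvd_prime_pow Nat.prime_two).mp (orderOf_dvd_of_pow_eq_one hζ)
  exact FermatLib.Galois.apply_eq_self_of_mem_inertia A hq hA
    (fun hd => hq2 ((Nat.prime_dvd_prime_iff_eq hq Nat.prime_two).mp (hq.dvd_of_dvd_pow hd)))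
    hτ (hjo ▸ IsPrimitiveRoot.orderOf ζ)

/-- A Frobenius fixing a primitive `2 ^ m`-th root of unity sits at a prime `1` mod `2 ^ m`. -/
lemma two_pow_dvd_sub_one {q m : ℕ} (hq : q.Prime) (hq2 : q ≠ 2) {A : ValuationSubring Qbar}
    (hA : A.LiesOverPrime q) {F : Γℚ} (hF : A.IsFrobeniusAt F q) {ζ : Qbar}
    (hζ : IsPrimitiveRoot ζ (2 ^ m)) (hFζ : F ζ = ζ) : 2 ^ m ∣ q - 1 := by
  have h := FermatLib.Galois.apply_eq_pow_of_isFrobeniusAt A hq hA
    (fun hd => hq2 ((Nat.prime_dvd_prime_iff_eq hq Nat.prime_two).mp (hq.dvd_of_dvd_pow hd))) hF hζ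
  rw [hFζ] at h
  refine (hζ.pow_eq_one_iff_dvd _).mp ?_
  have h0 : ζ ≠ 0 := hζ.ne_zero (pow_ne_zero m two_ne_zero)
  apply mul_left_cancel₀ h0
  rw [← pow_succ', Nat.sub_add_cancel hq.one_le, ← h, mul_one]

/-- Prescribed signs on the square roots of odd primes, fixing `2 ^ m`-th roots of unity. -/
theorem exists_fixesRoots_signs {ps : Finset ℕ} (hps : ∀ p ∈ ps, p.Prime ∧ p ≠ 2) (T : Finset ℕ)
    {m : ℕ} (hm : 2 ≤ m) :
    ∃ g : Γℚ, FixesRoots m g ∧ ∀ p ∈ ps, ∀ x : Qbar, x ^ 2 = (p : Qbar) → (g x = x ↔ p ∉ T) := by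
  classical
  have hres : ∀ p ∈ ps, ∃ a : ℕ, ¬ p ∣ a ∧ (IsSquare (a : ZMod p) ↔ p ∉ T) := fun p hp => by
    have := Fact.mk (hps p hp).1
    by_cases hT : p ∈ T
    · obtain ⟨a, ha⟩ := FiniteField.exists_nonsquare (F := ZMod p) (by
        rw [ZMod.ringChar_zmod_n]; exact (hps p hp).2)
      refine ⟨a.val, fun hd => ?_, ?_⟩
      · rw [← ZMod.natCast_eq_zero_iff, ZMod.natCast_zmod_val] at hd
        exact ha (hd ▸ IsSquare.zero)
      · rw [ZMod.natCast_zmod_val]; exact ⟨fun h => absurd h ha, fun h => absurd hT h⟩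
    · exact ⟨1, fun h => (hps p hp).1.ne_one (Nat.dvd_one.mp h), by simp [hT]⟩
  choose! a ha ha' using hres
  let s : ℕ → ℕ := fun p => if p = 2 then 2 ^ m else p
  let t : ℕ → ℕ := fun p => if p = 2 then 1 else a p
  have hs : ∀ i ∈ insert 2 ps, s i ≠ 0 := by
    intro i hi
    simp only [s]
    split_ifs with h
    · exact pow_ne_zero m two_ne_zero
    · exact (hps i ((Finset.mem_insert.mp hi).resolve_left h)).1.ne_zero
  have hco : Set.Pairwise (↑(insert 2 ps) : Set ℕ) (Function.onFun Nat.Coprime s) := by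
    intro i hi j hj hij
    rw [Finset.coe_insert, Set.mem_insert_iff, Finset.mem_coe] at hi hj
    show Nat.Coprime (s i) (s j)
    have key : ∀ l, (l = 2 ∨ l ∈ ps) → ∃ e, s l = l ^ e ∧ l.Prime := by
      intro l hl
      by_cases h : l = 2
      · exact ⟨m, by simp [s, h], h ▸ Nat.prime_two⟩
      · exact ⟨1, by simp [s, h], (hps l (hl.resolve_left h)).1⟩
    obtain ⟨e, he, hpi⟩ := key i hi
    obtain ⟨e', he', hpj⟩ := key j hj
    rw [he, he']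
    exact Nat.Coprime.pow e e' ((Nat.coprime_primes hpi hpj).mpr hij)
  obtain ⟨k, hk⟩ := Nat.chineseRemainderOfFinset t s (insert 2 ps) hs hco
  have hk2 : k ≡ 1 [MOD 2 ^ m] := by simpa [s, t] using hk 2 (Finset.mem_insert_self _ _)
  have hkp : ∀ p ∈ ps, (k : ZMod p) = a p := fun p hp => by
    have := hk p (Finset.mem_insert_of_mem hp)
    simp only [s, t, if_neg (hps p hp).2] at this
    exact (ZMod.natCast_eq_natCast_iff _ _ _).mpr this
  set M := 2 ^ m * ∏ p ∈ ps, p with hM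
  have hM0 : M ≠ 0 := mul_ne_zero (pow_ne_zero m two_ne_zero)
    (Finset.prod_ne_zero_iff.mpr fun p hp => (hps p hp).1.ne_zero)
  have : NeZero M := ⟨hM0⟩
  have hkM : k.Coprime M := by
    refine Nat.Coprime.mul_right ?_ (Nat.Coprime.prod_right fun p hp => ?_)
    · refine Nat.Coprime.pow_right m
        (Nat.coprime_comm.mp (Nat.prime_two.coprime_iff_not_dvd.mpr ?_))
      have h2 := hk2.of_dvd (dvd_pow_self 2 (show m ≠ 0 by omega))
      rw [Nat.ModEq] at h2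
      omega
    · refine Nat.coprime_comm.mp ((hps p hp).1.coprime_iff_not_dvd.mpr fun hd => ha p hp ?_)
      rw [← ZMod.natCast_eq_zero_iff, ← hkp p hp, ZMod.natCast_eq_zero_iff]
      exact hd
  obtain ⟨c, hc, hcp, hck⟩ := Nat.forall_exists_prime_gt_and_eq_mod
    ((ZMod.isUnit_iff_coprime k M).mpr hkM) M
  have := Fact.mk hcp
  have hck' : c ≡ k [MOD M] := (ZMod.natCast_eq_natCast_iff _ _ _).mp hck
  have hc2m : c ≡ 1 [MOD 2 ^ m] := (hck'.of_dvd (dvd_mul_right (2 ^ m) _)).trans hk2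
  have hc4 : c % 4 = 1 := hc2m.of_dvd (show 2 ^ 2 ∣ 2 ^ m from pow_dvd_pow 2 hm)
  have hcps : ∀ p ∈ ps, (c : ZMod p) = a p ∧ p < c := fun p hp => by
    have hd : p ∣ M := dvd_mul_of_dvd_right (Finset.dvd_prod_of_mem _ hp) _
    exact ⟨((ZMod.natCast_eq_natCast_iff _ _ _).mpr (hck'.of_dvd hd)).trans (hkp p hp),
      lt_of_le_of_lt (Nat.le_of_dvd (Nat.pos_of_ne_zero hM0) hd) hc⟩
  have hc2 : c ≠ 2 := fun h => by rw [h] at hc4; norm_num at hc4
  obtain ⟨A, hA⟩ := FermatLib.Basic.exists_liesOverPrime hcp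
  obtain ⟨σ, hσ⟩ := FermatLib.Basic.exists_isFrobeniusAt hcp A hA
  refine ⟨σ, fun ζ hζ => ?_, fun p hp x hx => ?_⟩
  · obtain ⟨j, hj, hjo⟩ := (Nat.dvd_prime_pow Nat.prime_two).mp (orderOf_dvd_of_pow_eq_one hζ)
    rw [FermatLib.Galois.apply_eq_pow_of_isFrobeniusAt A hcp hA
      (fun hd => hc2 ((Nat.prime_dvd_prime_iff_eq hcp Nat.prime_two).mp (hcp.dvd_of_dvd_pow hd)))
      hσ (hjo ▸ IsPrimitiveRoot.orderOf ζ : IsPrimitiveRoot ζ (2 ^ j))]
    have hc1 : c % 2 ^ m = 1 := by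
      rw [hc2m, Nat.mod_eq_of_lt (Nat.one_lt_two_pow (show m ≠ 0 by omega))]
    rw [← Nat.mod_add_div c (2 ^ m), hc1, pow_add, pow_one, pow_mul, hζ, one_pow, mul_one]
  · have := Fact.mk (hps p hp).1
    rw [frobenius_sqrt_iff hc2 hA hσ (d := (p : ℤ)) ?_ (by rw [hx]; norm_num), Int.cast_natCast,
      ZMod.exists_sq_eq_prime_iff_of_mod_four_eq_one hc4 (hps p hp).2, (hcps p hp).1]
    · exact ha' p hp
    · intro h
      have := (Nat.prime_dvd_prime_iff_eq hcp (hps p hp).1).mp (Int.natCast_dvd_natCast.mp h)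
      exact (hcps p hp).2.ne' this

end FermatLib.MLT.Two
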