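import Fermat.Agent.MLT.Two.SeedsRoots
import Fermat.Agent.MLT.Two.Level

/-!
# Visibility of antidiagonal classes

`frobValue a d g = tr (ρ g * d g)` kills coboundaries; for every antidiagonal class that is not a
coboundary some swap element fixing all 2-power roots of unity has nonzero value.
-/

set_option autoImplicit false

noncomputable section

namespace FermatLib.MLT.Two

local notation "Qbar" => AlgebraicClosure ℚ
local notation "Γℚ" => (AlgebraicClosure ℚ ≃ₐ[ℚ] AlgebraicClosure ℚ)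

variable {k : Type} [Field k] (a : Anchor k)

/-- `σ` fixes all roots of unity of 2-power order. -/
def FixesAllRoots (σ : Γℚ) : Prop := ∀ m, FixesRoots m σ

lemma FixesAllRoots.mul {σ τ : Γℚ} (hσ : FixesAllRoots σ) (hτ : FixesAllRoots τ) :
    FixesAllRoots (σ * τ) := fun m => (hσ m).mul (hτ m)

lemma FixesAllRoots.pow {σ : Γℚ} (hσ : FixesAllRoots σ) (n : ℕ) : FixesAllRoots (σ ^ n) :=
  fun m => (hσ m).pow n

lemma FixesAllRoots.conj {σ : Γℚ} (hσ : FixesAllRoots σ) (g : Γℚ) :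
    FixesAllRoots (g * σ * g⁻¹) := fun m => (hσ m).conj g

/-- The value of a cocycle at `g`, killing coboundaries. -/
def frobValue (d : Γℚ → Matrix (Fin 2) (Fin 2) k) (g : Γℚ) : k :=
  (a.ρ g * d g).trace

lemma frobValue_adCobdry (M : Matrix (Fin 2) (Fin 2) k) (g : Γℚ) :
    frobValue a (adCobdry a M) g = 0 := by
  simp only [frobValue, adCobdry, Matrix.mul_sub, Matrix.trace_sub]
  rw [← Matrix.mul_assoc, Matrix.trace_mul_comm, ← Matrix.mul_assoc, ← Matrix.mul_assoc,
    a.rho_inv_mul, Matrix.one_mul, sub_self]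

lemma omega_cube : a.ω ^ 3 = 1 := by linear_combination (a.ω - 1) * a.omega_rel

lemma omega_ne_one : a.ω ≠ 1 := fun h => by
  refine one_ne_zero (α := k) ?_
  linear_combination a.omega_rel - (a.ω + 2) * h - a.two_eq_zero

lemma omega_ne_zero : a.ω ≠ 0 := fun h => by
  simpa [h] using omega_cube a

lemma rho_inv_of_mul_eq {g : Γℚ} {X : Matrix (Fin 2) (Fin 2) k} (h : X * a.ρ g = 1) :
    a.ρ g⁻¹ = X := by
  calc a.ρ g⁻¹ = X * a.ρ g * a.ρ g⁻¹ := by rw [h, Matrix.one_mul]
    _ = X := by rw [Matrix.mul_assoc, a.rho_mul_inv, Matrix.mul_one]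

/-- Rotations act on antidiagonal matrices by `(ω ^ 2 i, ω ^ i)`. -/
lemma conj_rot {g : Γℚ} {i : ℕ} (hg : a.ρ g = rotMat a.ω i) (x y : k) :
    a.ρ g * !![0, x; y, 0] * a.ρ g⁻¹ = !![0, a.ω ^ (2 * i) * x; a.ω ^ i * y, 0] := by
  have h3 : ∀ j : ℕ, a.ω ^ (3 * j) = 1 := fun j => by rw [pow_mul, omega_cube, one_pow]
  have hinv : a.ρ g⁻¹ = rotMat a.ω (2 * i) := rho_inv_of_mul_eq a (by
    rw [hg]
    ext u v
    fin_cases u <;> fin_cases v <;> simp [rotMat, Matrix.mul_apply, ← pow_add]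
    · rw [show 2 * i + i = 3 * i by ring, h3]
    · rw [show 2 * (2 * i) + 2 * i = 3 * (2 * i) by ring, h3])
  rw [hg, hinv]
  ext u v
  fin_cases u <;> fin_cases v <;> simp [rotMat, Matrix.mul_apply]
  · rw [show a.ω ^ i * x * a.ω ^ (2 * (2 * i)) = a.ω ^ (3 * i) * (a.ω ^ (2 * i) * x) by ring, h3,
      one_mul]
  · rw [show a.ω ^ (2 * i) * y * a.ω ^ (2 * i) = a.ω ^ (3 * i) * (a.ω ^ i * y) by ring, h3, one_mul]

/-- A swap element squares to one. -/
lemma swap_mul_self {g : Γℚ} {i : ℕ} (hg : a.ρ g = swapMat a.ω i) : a.ρ g * a.ρ g = 1 := by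
  have h : a.ω ^ i * a.ω ^ (2 * i) = 1 := by
    rw [← pow_add, show i + 2 * i = 3 * i by ring, pow_mul, omega_cube, one_pow]
  rw [hg]
  ext u v
  fin_cases u <;> fin_cases v <;> simp [swapMat, Matrix.mul_apply, h]
  rwa [mul_comm]

/-- An off-diagonal image is a swap. -/
lemma exists_swap_of_ne {g : Γℚ} (hg : a.ρ g 0 1 ≠ 0) : ∃ i, a.ρ g = swapMat a.ω i := by
  obtain ⟨i, hi | hi⟩ := a.range_eq g
  · exact absurd (by simp [hi, rotMat]) hg
  · exact ⟨i, hi⟩

/-- An element of rotation type in the fixer of all 2-power roots of unity. -/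
lemma exists_rot_fixesAllRoots : ∃ τ, FixesAllRoots τ ∧ a.ρ τ = rotMat a.ω 1 := by
  obtain ⟨r, hr⟩ := a.exists_rot
  obtain ⟨w, hw⟩ := a.exists_swap
  refine ⟨w * r * w⁻¹ * r⁻¹, fun m => fixesRoots_commutator m w r, ?_⟩
  have h3 := omega_cube a
  have hwi : a.ρ w⁻¹ = swapMat a.ω 0 := rho_inv_of_mul_eq a (by
    have := swap_mul_self a hw; rwa [hw] at this ⊢)
  have hri : a.ρ r⁻¹ = rotMat a.ω 2 := rho_inv_of_mul_eq a (by
    rw [hr]
    ext u v
    fin_cases u <;> fin_cases v <;> simp [rotMat, Matrix.mul_apply] <;> ring_nf <;>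
      simp [show a.ω ^ 6 = (a.ω ^ 3) ^ 2 by ring, h3])
  rw [map_mul, map_mul, map_mul, hwi, hri, hw, hr]
  ext u v
  fin_cases u <;> fin_cases v <;> simp [rotMat, swapMat, Matrix.mul_apply]
  · linear_combination a.ω * h3
  · linear_combination a.ω ^ 2 * h3

/-- A swap element in the fixer of all 2-power roots of unity, from inertia at the level. -/
lemma exists_inertia_swap : ∃ (q : ℕ) (A : ValuationSubring Qbar) (τ : Γℚ), q.Prime ∧ q ∣ a.N ∧
    A.LiesOverPrime q ∧ τ ∈ A.inertiaSubgroupIn ℚ ∧ FixesAllRoots τ ∧ a.ρ τ 0 1 ≠ 0 := by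
  have hN1 : a.N ≠ 1 := fun h => by have := a.level_mod; rw [h] at this; omega
  obtain ⟨q, hq, hqN⟩ := Nat.exists_prime_and_dvd hN1
  have hq2 : q ≠ 2 := fun h => by
    have h2 : 2 ∣ a.N := h ▸ hqN
    have := a.level_mod; omega
  obtain ⟨A, hA⟩ := FermatLib.Basic.exists_liesOverPrime hq
  obtain ⟨⟨τ, hτ, hne⟩, hsq⟩ := a.level_transvection q hq hqN A hA
  obtain ⟨u, v, huv, hτ'⟩ := exists_swap_of_sq_eq_zero a hne (hsq τ hτ τ hτ)
  exact ⟨q, A, τ, hq, hqN, hA, hτ, fun m => fixesRoots_of_mem_inertia m hq hq2 hA hτ,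
    by simp [hτ', left_ne_zero_of_mul_eq_one huv]⟩

variable {a}

lemma cocycle_mul_of_one {d : Γℚ → Matrix (Fin 2) (Fin 2) k} (hd : IsAdCocycle a d) {g : Γℚ}
    (hg : a.ρ g = 1) (h : Γℚ) : d (g * h) = d g + d h := by
  have hi : a.ρ g⁻¹ = 1 := rho_inv_of_mul_eq a (by rw [hg, one_mul])
  rw [hd.map_mul, hg, hi, one_mul, mul_one]

lemma frobValue_mul_of_one {d : Γℚ → Matrix (Fin 2) (Fin 2) k} (hd : IsAdCocycle a d) (g : Γℚ)
    {h : Γℚ} (hh : a.ρ h = 1) :
    frobValue a d (g * h) = frobValue a d g + (a.ρ g * d h).trace := by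
  rw [frobValue, frobValue, hd.map_mul, map_mul, hh, mul_one, Matrix.mul_add, Matrix.trace_add]
  congr 1
  rw [← Matrix.mul_assoc, Matrix.trace_mul_comm, ← Matrix.mul_assoc, ← Matrix.mul_assoc,
    a.rho_inv_mul, Matrix.one_mul]

/-- **Visibility**: a class killed on the elements fixing the residual field and all 2-power roots
of unity is a coboundary. -/
theorem isAdCobdry_of_forall_fixesAllRoots {d : Γℚ → Matrix (Fin 2) (Fin 2) k}
    (hd : IsAdCocycle a d) (hanti : ∀ g, d g = offDiag (d g))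
    (h0 : ∀ g, a.ρ g = 1 → FixesAllRoots g → d g = 0) : IsAdCobdry a d := by
  obtain ⟨τ, -, hρτ⟩ := exists_rot_fixesAllRoots a
  have hω : a.ω ^ 2 ≠ 1 ∧ a.ω ≠ 1 := ⟨fun h => omega_ne_one a (by
    linear_combination omega_cube a - a.ω * h), omega_ne_one a⟩
  -- vanishing on the kernel
  have hker : ∀ x, a.ρ x = 1 → d x = 0 := fun x hx => by
    set g := τ⁻¹ * x * τ * x⁻¹ with hg
    have hg1 : a.ρ g = 1 := by
      rw [hg, map_mul, map_mul, map_mul, hx, mul_one, a.rho_inv_mul, one_mul]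
      exact rho_inv_of_mul_eq a (by rw [hx, one_mul])
    have hgr : FixesAllRoots g := fun m => by
      have := fixesRoots_commutator m τ⁻¹ x
      rwa [inv_inv] at this
    have e : x * τ = τ * (g * x) := by rw [hg]; group
    have h := congrArg d e
    rw [cocycle_mul_of_one hd hx, hd.map_mul, cocycle_mul_of_one hd hg1, h0 g hg1 hgr, zero_add,
      add_comm] at h
    have h' := add_left_cancel h
    rw [hanti x, offDiag, conj_rot a hρτ] at h'
    have e01 := congrFun (congrFun h' 0) 1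
    have e10 := congrFun (congrFun h' 1) 0
    simp at e01 e10
    rw [hanti x, offDiag]
    ext u v
    fin_cases u <;> fin_cases v <;> simp
    · exact (mul_eq_zero.mp (show (a.ω ^ 2 - 1) * d x 0 1 = 0 by linear_combination -e01))
        |>.resolve_left (sub_ne_zero.mpr hω.1)
    · exact (mul_eq_zero.mp (show (a.ω - 1) * d x 1 0 = 0 by linear_combination -e10))
        |>.resolve_left (sub_ne_zero.mpr hω.2)
  -- kill the value at `τ`
  set M : Matrix (Fin 2) (Fin 2) k :=
    !![0, d τ 0 1 / (a.ω ^ 2 - 1); d τ 1 0 / (a.ω - 1), 0] with hM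
  refine ⟨M, fun x => sub_eq_zero.mp ?_⟩
  have hτ : d τ - adCobdry a M τ = 0 := by
    rw [adCobdry, hM, conj_rot a hρτ, hanti τ, offDiag]
    ext u v
    fin_cases u <;> fin_cases v <;> simp
    · field_simp [sub_ne_zero.mpr hω.1]
      ring
    · field_simp [sub_ne_zero.mpr hω.2]
      ring
  set e : Γℚ → Matrix (Fin 2) (Fin 2) k := fun g => d g - adCobdry a M g with he
  have emul : ∀ g h, e (g * h) = e g + a.ρ g * e h * a.ρ g⁻¹ := fun g h => by
    simp only [he, hd.map_mul, adCobdry_map_mul, Matrix.mul_sub, Matrix.sub_mul]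
    abel
  have eker : ∀ g, a.ρ g = 1 → e g = 0 := fun g hg => by
    simp only [he, hker g hg, adCobdry, hg, rho_inv_of_mul_eq a (show 1 * a.ρ g = 1 by rw [hg, one_mul]),
      one_mul, mul_one, sub_self]
  show e x = 0
  have eanti : ∃ p r : k, e x = !![0, p; r, 0] := by
    refine ⟨e x 0 1, e x 1 0, ?_⟩
    have hx00 : ∀ g, adCobdry a M g 0 0 = 0 ∧ adCobdry a M g 1 1 = 0 := fun g => by
      obtain ⟨i, hi | hi⟩ := a.range_eq g
      · rw [adCobdry, hM, conj_rot a hi]
        simp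
      · have hinv : a.ρ g⁻¹ = swapMat a.ω i := rho_inv_of_mul_eq a (by
          have := swap_mul_self a hi; rwa [hi] at this ⊢)
        constructor <;> simp [adCobdry, hi, hinv, hM, swapMat]
    have hd00 : d x 0 0 = 0 := by rw [hanti x]; simp [offDiag]
    have hd11 : d x 1 1 = 0 := by rw [hanti x]; simp [offDiag]
    ext u v
    fin_cases u <;> fin_cases v <;> simp [he, (hx00 x).1, (hx00 x).2, hd00, hd11]
  obtain ⟨p, r, hpr⟩ := eanti
  have hpow : ∀ j, a.ρ (τ ^ j) = rotMat a.ω j := fun j => by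
    induction j with
    | zero => rw [pow_zero, map_one]; ext u v; fin_cases u <;> fin_cases v <;> simp [rotMat]
    | succ j ih =>
      rw [pow_succ, map_mul, ih, hρτ]
      ext u v
      fin_cases u <;> fin_cases v <;> simp [rotMat, Matrix.mul_apply, pow_succ, mul_add] <;> ring
  have key : ∀ j, a.ρ x * a.ρ τ = a.ρ (τ ^ j) * a.ρ x →
      a.ω ^ (2 * j) * p = p ∧ a.ω ^ j * r = r := fun j hj => by
    have hτj : e (τ ^ j) = 0 := by
      clear hj
      induction j with
      | zero => exact eker _ (by rw [pow_zero, map_one])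
      | succ j ih =>
        rw [pow_succ, emul, ih, show e τ = 0 from hτ]
        simp
    set t := (τ ^ j * x)⁻¹ * (x * τ) with ht
    have ht1 : a.ρ t = 1 := by
      rw [ht, map_mul, map_mul, hj, ← map_mul, ← map_mul, inv_mul_cancel, map_one]
    have h := congrArg e (show x * τ = τ ^ j * x * t by rw [ht]; group)
    rw [emul, emul (τ ^ j * x), emul (τ ^ j) x, hτj, eker t ht1, show e τ = 0 from hτ] at h
    simp only [mul_zero, zero_mul, add_zero, zero_add] at h
    have hρj := hpow j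
    rw [hpr, conj_rot a hρj] at h
    have e01 := congrFun (congrFun h 0) 1
    have e10 := congrFun (congrFun h 1) 0
    simp at e01 e10
    exact ⟨e01.symm, e10.symm⟩
  have hzero : ∀ c z : k, c ≠ 1 → c * z = z → z = 0 := fun c z hc h =>
    (mul_eq_zero.mp (show (c - 1) * z = 0 by linear_combination h)).resolve_left (sub_ne_zero.mpr hc)
  have h4 : a.ω ^ 4 = a.ω := by linear_combination a.ω * omega_cube a
  have hpr0 : p = 0 ∧ r = 0 := by
    obtain ⟨i, hi | hi⟩ := a.range_eq x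
    · obtain ⟨hp, hr⟩ := key 1 (by
        rw [hi, pow_one, hρτ]
        ext u v
        fin_cases u <;> fin_cases v <;> simp [rotMat, Matrix.mul_apply, mul_comm])
      rw [mul_one] at hp
      rw [pow_one] at hr
      exact ⟨hzero _ _ hω.1 hp, hzero _ _ hω.2 hr⟩
    · obtain ⟨hp, hr⟩ := key 2 (by
        rw [map_pow, hi, hρτ, pow_two]
        ext u v
        fin_cases u <;> fin_cases v <;> simp [rotMat, swapMat, Matrix.mul_apply]
        · ring
        · linear_combination -(a.ω ^ (2 * i) * a.ω) * omega_cube a)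
      rw [show 2 * 2 = 4 from rfl, h4] at hp
      exact ⟨hzero _ _ hω.2 hp, hzero _ _ hω.1 hr⟩
  rw [hpr, hpr0.1, hpr0.2]
  ext u v
  fin_cases u <;> fin_cases v <;> simp

/-- A class that is not a coboundary has nonzero value at some element acting as a given swap and
fixing all 2-power roots of unity. -/
theorem exists_frobValue_ne_zero {d : Γℚ → Matrix (Fin 2) (Fin 2) k} (hd : IsAdCocycle a d)
    (hanti : ∀ g, d g = offDiag (d g)) (hne : ¬ IsAdCobdry a d) {s : Γℚ} (hs : FixesAllRoots s)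
    (hsw : a.ρ s 0 1 ≠ 0) :
    ∃ σ, FixesAllRoots σ ∧ a.ρ σ = a.ρ s ∧ frobValue a d σ ≠ 0 := by
  by_cases h0 : frobValue a d s ≠ 0
  · exact ⟨s, hs, rfl, h0⟩
  push Not at h0
  by_contra hcon
  push Not at hcon
  obtain ⟨i, hi⟩ := exists_swap_of_ne a hsw
  obtain ⟨τ, hτr, hρτ⟩ := exists_rot_fixesAllRoots a
  have hval : ∀ g, a.ρ g = 1 → FixesAllRoots g →
      a.ω ^ (2 * i) * d g 0 1 + a.ω ^ i * d g 1 0 = 0 := fun g hg hgr => by
    have h := hcon (s * g) (hs.mul hgr) (by rw [map_mul, hg, mul_one])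
    rw [frobValue_mul_of_one hd s hg, h0, zero_add, hi, Matrix.trace_fin_two] at h
    simp [swapMat, Matrix.mul_apply] at h
    linear_combination h
  refine hne (isAdCobdry_of_forall_fixesAllRoots hd hanti fun g hg hgr => ?_)
  have h1 := hval g hg hgr
  have h2 := hval (τ * g * τ⁻¹)
    (by rw [map_mul, map_mul, hg, mul_one, a.rho_mul_inv]) (hgr.conj τ)
  have hconj : d (τ * g * τ⁻¹) = a.ρ τ * d g * a.ρ τ⁻¹ := by
    have hτ1 := hd.map_mul τ τ⁻¹
    rw [mul_inv_cancel, hd.map_one a] at hτ1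
    rw [hd.map_mul, hd.map_mul, map_mul, hg, mul_one, _root_.mul_inv_rev, map_mul,
      rho_inv_of_mul_eq a (show 1 * a.ρ g = 1 by rw [hg, one_mul]), one_mul, add_right_comm,
      ← hτ1, zero_add]
  rw [hconj, hanti g, offDiag, conj_rot a hρτ] at h2
  simp at h2
  have hx : d g 0 1 = 0 := by
    have h := show a.ω ^ (2 * i) * d g 0 1 * (a.ω ^ 2 - a.ω) = 0 by linear_combination h2 - a.ω * h1
    refine ((mul_eq_zero.mp h).resolve_right ?_) |> fun h' =>
      (mul_eq_zero.mp h').resolve_left (pow_ne_zero _ (omega_ne_zero a))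
    intro hh
    exact omega_ne_one a (mul_left_cancel₀ (omega_ne_zero a)
      (by linear_combination hh))
  have hy : d g 1 0 = 0 := by
    rw [hx, mul_zero, zero_add] at h1
    exact (mul_eq_zero.mp h1).resolve_left (pow_ne_zero _ (omega_ne_zero a))
  rw [hanti g, offDiag, hx, hy]
  ext u v
  fin_cases u <;> fin_cases v <;> simp

end FermatLib.MLT.Two
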