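import Fermat.Agent.MLT.Two.Flat
import Fermat.Agent.MLT.Two.Level
import Fermat.Agent.MLT.Two.Selmer.Facts

/-!
# V4-Sel: the antidiagonal bound from the Greenberg-Wiles formula
-/

set_option autoImplicit false

open CategoryTheory Module groupCohomology ExtCitation

namespace FermatLib.MLT.Two

local notation "Qbar" => AlgebraicClosure ℚ
local notation "Γℚ" => (AlgebraicClosure ℚ ≃ₐ[ℚ] AlgebraicClosure ℚ)

variable {k : Type} [Field k] (a : Anchor k)

lemma selCocycle_smul {c : Γℚ → Matrix (Fin 2) (Fin 2) k} (hc : IsAdCocycle a c) (z : k) :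
    IsAdCocycle a (z • c) := by
  refine ⟨fun g h => ?_, ?_⟩
  · simp only [Pi.smul_apply, hc.map_mul, smul_add, Matrix.mul_smul, Matrix.smul_mul]
  · obtain ⟨L, hL, h⟩ := hc.finiteLevel
    exact ⟨L, hL, fun g hg => by rw [Pi.smul_apply, h g hg, smul_zero]⟩

lemma selCocycle_add {c d : Γℚ → Matrix (Fin 2) (Fin 2) k} (hc : IsAdCocycle a c)
    (hd : IsAdCocycle a d) : IsAdCocycle a (c + d) := by
  refine ⟨fun g h => ?_, ?_⟩
  · simp only [Pi.add_apply, hc.map_mul, hd.map_mul, mul_add, add_mul]
    abel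
  · obtain ⟨L, hL, h⟩ := hc.finiteLevel
    obtain ⟨L', hL', h'⟩ := hd.finiteLevel
    refine ⟨L ⊔ L', IntermediateField.finiteDimensional_sup L L', fun g hg => ?_⟩
    rw [Pi.add_apply, h g fun x hx => hg x ((le_sup_left : L ≤ L ⊔ L') hx),
      h' g fun x hx => hg x ((le_sup_right : L' ≤ L ⊔ L') hx), add_zero]

lemma selCocycle_sub {c d : Γℚ → Matrix (Fin 2) (Fin 2) k} (hc : IsAdCocycle a c)
    (hd : IsAdCocycle a d) : IsAdCocycle a (c - d) := by
  rw [sub_eq_add_neg, ← neg_one_smul k d]
  exact selCocycle_add a hc (selCocycle_smul a hd (-1))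

section Classes

variable [Algebra (ZMod 2) k]

lemma antiClass_congr {c d : Γℚ → Matrix (Fin 2) (Fin 2) k} (hc : IsAdCocycle a c)
    (hd : IsAdCocycle a d) (h : ∀ g, antiVec (c g) = antiVec (d g)) :
    antiClass a hc = antiClass a hd :=
  congrArg (H1π (antiRep a)).hom (cocycles₁_ext h)

lemma antiClass_add {c d : Γℚ → Matrix (Fin 2) (Fin 2) k} (hc : IsAdCocycle a c)
    (hd : IsAdCocycle a d) :
    antiClass a (selCocycle_add a hc hd) = antiClass a hc + antiClass a hd := by
  refine Eq.trans (congrArg (H1π (antiRep a)).hom ?_) (map_add _ _ _)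
  exact cocycles₁_ext fun g => rfl

lemma antiClass_sub {c d : Γℚ → Matrix (Fin 2) (Fin 2) k} (hc : IsAdCocycle a c)
    (hd : IsAdCocycle a d) :
    antiClass a (selCocycle_sub a hc hd) = antiClass a hc - antiClass a hd := by
  refine Eq.trans (congrArg (H1π (antiRep a)).hom ?_) (map_sub _ _ _)
  exact cocycles₁_ext fun g => rfl

/-- A cocycle which is an antidiagonal coboundary on the decomposition group restricts to zero. -/
lemma resAt_antiClass_eq_zero (q : Nat.Primes) {c : Γℚ → Matrix (Fin 2) (Fin 2) k}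
    (hc : IsAdCocycle a c) (M : Matrix (Fin 2) (Fin 2) k)
    (h : ∀ g ∈ (padicPlace (q : ℕ)).decompositionSubgroup ℚ,
      antiVec (c g) = antiVec (adCobdry a M g)) :
    CFT.resAt q (antiRep a) (antiClass a hc) = 0 := by
  rw [antiClass, CFT.resAt_H1π, H1π_eq_zero_iff]
  refine ⟨antiVec M, funext fun g => ?_⟩
  rw [d₀₁_hom_apply]
  refine Eq.trans ?_ (h (primeLocalToGlobal q g) ?_).symm
  · rw [antiVec_adCobdry]
    rfl
  · rw [CFT.decompositionSubgroup_padicPlace]
    exact ⟨g, rfl⟩

lemma resAt_antiClass_mem_continuousH1 (q : Nat.Primes) {c : Γℚ → Matrix (Fin 2) (Fin 2) k}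
    (hc : IsAdCocycle a c) :
    CFT.resAt q (antiRep a) (antiClass a hc) ∈
      continuousH1 (primeLocalToGlobal q) (Rep.res (primeLocalToGlobal q) (antiRep a)) := by
  obtain ⟨F, hF, h⟩ := isLevelConstant_antiCocycle a hc
  rw [antiClass, CFT.resAt_H1π]
  refine H1π_mem_continuousH1 _ _ ⟨F, hF, fun g s hs => ?_⟩
  show antiCocycle a hc (primeLocalToGlobal q (g * s)) = antiCocycle a hc (primeLocalToGlobal q g)
  rw [map_mul]
  exact h _ _ hs

/-- The span of the flat classes at 2. -/
noncomputable def flatTwo :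
    Submodule (ZMod 2) (H1 (Rep.res (primeLocalToGlobal (pPrime 2)) (antiRep a))) :=
  Submodule.span (ZMod 2) {x | ∃ (f : Γℚ → Matrix (Fin 2) (Fin 2) k) (hf : IsAdCocycle a f)
    (_ : IsFlatLift a f) (z : k),
    x = CFT.resAt (pPrime 2) (antiRep a) (antiClass a (selCocycle_smul a hf z))}

lemma flatTwo_le : flatTwo a ≤ continuousH1 (primeLocalToGlobal (pPrime 2))
    (Rep.res (primeLocalToGlobal (pPrime 2)) (antiRep a)) := by
  refine Submodule.span_le.mpr ?_
  rintro _ ⟨f, hf, -, z, rfl⟩
  exact resAt_antiClass_mem_continuousH1 a _ _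

variable [Finite k]

lemma finrank_flatTwo_le : finrank (ZMod 2) (flatTwo a) ≤ finrank (ZMod 2) k := by
  haveI := a.charP
  by_cases h : ∀ (f : Γℚ → Matrix (Fin 2) (Fin 2) k) (hf : IsAdCocycle a f), IsFlatLift a f →
      ∀ z : k, CFT.resAt (pPrime 2) (antiRep a) (antiClass a (selCocycle_smul a hf z)) = 0
  · have : flatTwo a = ⊥ := Submodule.span_eq_bot.mpr (by
      rintro _ ⟨f, hf, hflat, z, rfl⟩
      exact h f hf hflat z)
    rw [this, finrank_bot]
    exact Nat.zero_le _
  push Not at h
  obtain ⟨f₀, hf₀, hflat₀, z₀, hz₀⟩ := h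
  let r : k →+ H1 (Rep.res (primeLocalToGlobal (pPrime 2)) (antiRep a)) :=
    AddMonoidHom.mk'
      (fun z => CFT.resAt (pPrime 2) (antiRep a) (antiClass a (selCocycle_smul a hf₀ z)))
      fun z z' => by
        rw [← map_add, ← antiClass_add]
        exact congrArg _ (antiClass_congr a _ _ fun g => by
          simp only [Pi.smul_apply, Pi.add_apply, add_smul])
  have key : flatTwo a ≤ LinearMap.range (r.toZModLinearMap 2) := by
    refine Submodule.span_le.mpr ?_
    rintro _ ⟨f, hf, hflat, z, rfl⟩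
    obtain ⟨x, y, hxy, M, hM⟩ := offDiag_dependent_of_isFlatLift a hf hf₀ hflat hflat₀
      (CFT.padicPlace_liesOverPrime (pPrime 2))
    have hv : ∀ t : k, CFT.resAt (pPrime 2) (antiRep a) (antiClass a (selCocycle_add a
        (selCocycle_smul a hf (t * x)) (selCocycle_smul a hf₀ (t * y)))) = 0 := fun t => by
      refine resAt_antiClass_eq_zero a _ _ (t • M) fun g hg => ?_
      have h1 := congrArg (fun X => antiVec (t • X)) (hM g hg)
      simp only [antiVec, offDiag, adCobdry, Matrix.mul_smul, Matrix.smul_mul, ← smul_sub,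
        Pi.add_apply, Pi.smul_apply, Matrix.add_apply, Matrix.smul_apply, Matrix.of_apply,
        Matrix.cons_val', Matrix.cons_val_zero, Matrix.cons_val_one, Matrix.cons_val_fin_one,
        Matrix.empty_val', smul_eq_mul] at h1 ⊢
      simpa [mul_add, mul_assoc] using h1
    rcases eq_or_ne x 0 with rfl | hx
    · exfalso
      have hy : y ≠ 0 := hxy.resolve_left fun h => h rfl
      refine hz₀ ?_
      rw [← hv (z₀ / y)]
      exact congrArg _ (antiClass_congr a _ _ fun g => by
        simp [mul_zero, div_mul_cancel₀ _ hy])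
    · refine ⟨z * y / x, ?_⟩
      show CFT.resAt _ _ _ = CFT.resAt _ _ _
      have h := hv (z / x)
      rw [antiClass_add a (selCocycle_smul a hf (z / x * x)) (selCocycle_smul a hf₀ (z / x * y)),
        map_add] at h
      rw [show antiClass a (selCocycle_smul a hf z) =
          antiClass a (selCocycle_smul a hf (z / x * x)) from
        antiClass_congr a _ _ fun g => by rw [div_mul_cancel₀ _ hx],
        eq_neg_of_add_eq_zero_left h, ← map_neg]
      refine congrArg _ ?_
      rw [show antiClass a (selCocycle_smul a hf₀ (z * y / x)) =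
          antiClass a (selCocycle_smul a hf₀ (z / x * y)) from
        antiClass_congr a _ _ fun g => by rw [div_mul_eq_mul_div]]
      refine eq_neg_of_add_eq_zero_left ?_
      rw [← two_smul (ZMod 2), show (2 : ZMod 2) = 0 from rfl, zero_smul]
  exact (Submodule.finrank_mono key).trans (LinearMap.finrank_range_le _)

/-- A class which is locally flat at 2 restricts into `flatTwo`. -/
lemma resAt_two_mem {c : Γℚ → Matrix (Fin 2) (Fin 2) k} (hc : IsAdCocycle a c)
    (h2 : IsTwoLocal a c) :
    CFT.resAt (pPrime 2) (antiRep a) (antiClass a hc) ∈ flatTwo a := by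
  obtain ⟨m, f, x, M, hf, hM⟩ := h2 _ (CFT.padicPlace_liesOverPrime (pPrime 2))
  have hsum : ∀ s : Finset (Fin m), ∃ hs : IsAdCocycle a (∑ i ∈ s, x i • f i),
      CFT.resAt (pPrime 2) (antiRep a) (antiClass a hs) ∈ flatTwo a := by
    intro s
    induction s using Finset.induction_on with
    | empty =>
      have h0 : IsAdCocycle a (∑ i ∈ (∅ : Finset (Fin m)), x i • f i) := by
        rw [Finset.sum_empty, ← zero_smul k c]
        exact selCocycle_smul a hc 0
      refine ⟨h0, ?_⟩
      rw [resAt_antiClass_eq_zero a _ h0 0 fun g _ => by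
        simp [antiVec, adCobdry]]
      exact zero_mem _
    | insert i t hi ih =>
      obtain ⟨ht, ih⟩ := ih
      have h' := selCocycle_add a (selCocycle_smul a (hf i).1 (x i)) ht
      refine ⟨(by rw [Finset.sum_insert hi]; exact h'), ?_⟩
      rw [antiClass_congr a _ h' fun g => by rw [Finset.sum_insert hi],
        antiClass_add a (selCocycle_smul a (hf i).1 (x i)) ht, map_add]
      exact add_mem (Submodule.subset_span ⟨f i, (hf i).1, (hf i).2, x i, rfl⟩) ih
  obtain ⟨hs, hmem⟩ := hsum Finset.univ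
  have hz := resAt_antiClass_eq_zero a (pPrime 2) (selCocycle_sub a hc hs) M fun g hg => by
    have := congrArg antiVec (hM g hg)
    simp only [antiVec, offDiag, Matrix.add_apply, Matrix.sum_apply, Matrix.smul_apply,
      Matrix.of_apply, Matrix.cons_val', Matrix.cons_val_zero, Matrix.cons_val_one,
      Matrix.cons_val_fin_one, Matrix.empty_val', Prod.mk.injEq] at this
    simp only [antiVec, Pi.sub_apply, Finset.sum_apply, Pi.smul_apply, Matrix.sub_apply,
      Matrix.sum_apply, Matrix.smul_apply, this.1, this.2]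
    exact Prod.ext (by ring) (by ring)
  rw [antiClass_sub a hc hs, map_sub, sub_eq_zero] at hz
  rwa [hz]

end Classes

/-- The primes of the level. -/
def levelPrimes : Finset Nat.Primes := a.N.primeFactors.subtype Nat.Prime

lemma mem_levelPrimes {q : Nat.Primes} : q ∈ levelPrimes a ↔ (q : ℕ) ∣ a.N := by
  have := a.level_mod
  have hN : a.N ≠ 0 := by omega
  exact (Finset.mem_subtype).trans ((Nat.mem_primeFactors_of_ne_zero hN).trans
    ⟨fun h => h.2, fun h => ⟨q.2, h⟩⟩)

/-- `{2}` and the primes of the level. -/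
def baseSet : Finset Nat.Primes := insert (pPrime 2) (levelPrimes a)

lemma not_mem_baseSet {q : Nat.Primes} :
    q ∉ baseSet a ↔ (q : ℕ) ≠ 2 ∧ ¬ (q : ℕ) ∣ a.N := by
  rw [baseSet, Finset.mem_insert, not_or, mem_levelPrimes]
  exact and_congr_left' ⟨fun h e => h (Subtype.ext e), fun h e => h (congrArg Subtype.val e)⟩

lemma isBaseClass_mem [Algebra (ZMod 2) k] {d : Γℚ → Matrix (Fin 2) (Fin 2) k}
    (hd : IsBaseClass a d) :
    antiClass a hd.cocycle ∈ continuousH1S (baseSet a) (antiRep a) :=
  antiClass_mem_continuousH1S a _ _ fun q hq A hA τ hτ => by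
    obtain ⟨h2, hN⟩ := (not_mem_baseSet a).mp hq
    exact ⟨hd.unramified q q.2 h2 hN (fun i => i.elim0) A hA τ hτ,
      a.unramified q q.2 h2 hN A hA τ hτ⟩

variable [Finite k]

/-- The base classes form a finite set modulo coboundaries. -/
theorem finite_baseClasses :
    ∃ (m : ℕ) (d : Fin m → Γℚ → Matrix (Fin 2) (Fin 2) k), (∀ i, IsBaseClass a (d i)) ∧
      ∀ c, IsBaseClass a c → ∃ i, IsAdCobdry a (c - d i) := by
  have := a.charP
  letI : Algebra (ZMod 2) k := ZMod.algebra k 2
  have hur := antiRep_unramifiedOutside a (baseSet a) fun q hq => (not_mem_baseSet a).mp hq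
  obtain ⟨hfin, -⟩ := CFT.greenbergWiles_tate (antiRep a) (antiRep_smooth a) (baseSet a)
    (Finset.mem_insert_self _ _) hur
    (fun v => continuousH1 (extArithLoc (baseSet a) v)
      (Rep.res (extArithLoc (baseSet a) v) (antiRep a))) (fun _ => le_rfl)
  have hsel : selmerAdm (extArithLoc (baseSet a)) (antiRep a)
      (fun v => continuousH1 (extArithLoc (baseSet a) v)
        (Rep.res (extArithLoc (baseSet a) v) (antiRep a)))
      (continuousH1S (baseSet a) (antiRep a)) = continuousH1S (baseSet a) (antiRep a) :=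
    le_antisymm (selmerAdm_le_adm _ _ _ _) fun x hx => (mem_selmerAdm_iff _ _ _ _ x).2
      ⟨fun v => CFT.locRes_mem_continuousH1 _ _ v hx, hx⟩
  rw [hsel] at hfin
  have : Finite (continuousH1S (baseSet a) (antiRep a)) := Module.finite_of_finite (ZMod 2)
  let I := {x : continuousH1S (baseSet a) (antiRep a) //
    ∃ d, ∃ hd : IsBaseClass a d, antiClass a hd.cocycle = x.1}
  obtain ⟨m, ⟨e⟩⟩ := Finite.exists_equiv_fin I
  refine ⟨m, fun i => (e.symm i).2.choose, fun i => (e.symm i).2.choose_spec.choose,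
    fun c hc => ?_⟩
  let x : I := ⟨⟨_, isBaseClass_mem a hc⟩, c, hc, rfl⟩
  refine ⟨e x, ?_⟩
  have hd := (e.symm (e x)).2.choose_spec
  obtain ⟨hd₁, hd₂⟩ := hd
  refine isAdCobdry_of_antiClass_eq_zero a (selCocycle_sub a hc.cocycle hd₁.cocycle) (fun g => ?_)
    ?_
  · have e1 := hc.anti g
    have e2 := hd₁.anti g
    show c g - (e.symm (e x)).2.choose g = offDiag (c g - (e.symm (e x)).2.choose g)
    rw [e1, e2]
    ext r s; fin_cases r <;> fin_cases s <;> simp [offDiag]
  · rw [antiClass_sub a hc.cocycle hd₁.cocycle, hd₂, Equiv.symm_apply_apply, sub_self]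

/-- Antidiagonal classes are at most as many as the swap places. -/
theorem hasBound_antiClass {s r : ℕ} {Q : Fin s → AuxPlace} {C : Fin r → AuxPlace}
    (hinj : Function.Injective fun i => (Sum.elim Q C i).q) (hQ : ∀ j, IsSwapPlace a (Q j))
    (hC : ∀ i, IsRotPlace a (C i)) (hkill : KillsDual a Q) :
    HasBound a (IsAntiClass a (Sum.elim Q C)) s := by
  classical
  intro V _ _ _ c hK hc0
  have := a.charP
  letI : Algebra (ZMod 2) k := ZMod.algebra k 2
  let P : Fin s ⊕ Fin r → AuxPlace := Sum.elim Q C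
  let pr : Fin s ⊕ Fin r → Nat.Primes := fun i => ⟨(P i).q, (P i).hq⟩
  have hpr : Function.Injective pr := fun i j h => hinj (congrArg Subtype.val h)
  let Ps : Finset Nat.Primes := Finset.univ.image fun j => pr (Sum.inl j)
  let Pr : Finset Nat.Primes := Finset.univ.image fun i => pr (Sum.inr i)
  have hmemP : ∀ q ∈ Ps ∪ Pr, ∃ i, pr i = q := fun q hq => by
    rcases Finset.mem_union.mp hq with h | h <;> obtain ⟨j, -, rfl⟩ := Finset.mem_image.mp h <;>
      exact ⟨_, rfl⟩
  have hmem : ∀ i, pr i ∈ Ps ∪ Pr := by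
    rintro (j | i)
    · exact Finset.mem_union_left _ (Finset.mem_image_of_mem _ (Finset.mem_univ j))
    · exact Finset.mem_union_right _ (Finset.mem_image_of_mem _ (Finset.mem_univ i))
  let F : Nat.Primes → Γℚ := fun q => if h : ∃ i, pr i = q then (P h.choose).F else 1
  have hFi : ∀ i, F (pr i) = (P i).F := fun i => by
    have h : ∃ j, pr j = pr i := ⟨i, rfl⟩
    show dite _ _ _ = _
    rw [dif_pos h, hpr h.choose_spec]
  have hprime : ∀ i, ¬ (P i).q ∣ 2 * a.N := by
    rintro (j | i)
    · exact (hQ j).prime_to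
    · exact (hC i).prime_to
  have hdisj : Disjoint (baseSet a) (Ps ∪ Pr) := by
    refine Finset.disjoint_right.mpr fun q hq => ?_
    obtain ⟨i, rfl⟩ := hmemP q hq
    refine (not_mem_baseSet a).mpr ⟨fun h => hprime i (Dvd.dvd.mul_right ?_ _),
      fun h => hprime i (dvd_mul_of_dvd_right h _)⟩
    exact dvd_of_eq h
  have hdet : ∀ y ∈ MLT2.dualSel (antiRep a) (baseSet a)
      (MLT2.twoConditions (antiRep a) (flatTwo a) (levelPrimes a)),
      (∀ q ∈ Ps, evalAt ((antiRep a).dualTwist (cycloChar 2)) (F q) y = 0) → y = 0 := by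
    -- the seeds detect the dual classes
    intro y hy hy0
    rw [MLT2.dualSel, mem_selmerAdm_iff] at hy
    obtain ⟨c', hlev, rfl⟩ := (mem_continuousH1S_iff _ _ y).1 hy.2
    obtain ⟨L, hL, hlev⟩ := hlev
    have hc'1 : ∀ g ∈ L.fixingSubgroup, c' g = 0 := fun g hg => by
      have := hlev 1 g hg
      rwa [one_mul, cocycles₁_map_one] at this
    let d : Γℚ → Matrix (Fin 2) (Fin 2) k := fun g => antiMat (antiDual.symm (c' g))
    have hd0 : ∀ g, c' g = 0 → d g = 0 := fun g hg => by
      show antiMat (antiDual.symm (c' g)) = 0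
      rw [hg]
      erw [map_zero]
      ext i j; fin_cases i <;> fin_cases j <;> simp [antiMat]
    have hdb : IsBaseClass a d := by
      refine ⟨⟨fun g h => ?_, L, hL.1, fun g hg => hd0 g (hc'1 g
        ((IntermediateField.mem_fixingSubgroup_iff L g).mpr hg))⟩,
        fun g => (offDiag_antiMat _).symm, fun q hq h2 hN _ A hA τ hτ => hd0 τ (hc'1 τ
          (hL.2 ⟨q, hq⟩ ((not_mem_baseSet a).mpr ⟨h2, hN⟩) A hA hτ))⟩
      have hcoc := (mem_cocycles₁_iff c').1 c'.2 g h
      show antiMat (antiDual.symm (c' (g * h))) =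
        antiMat (antiDual.symm (c' g)) + a.ρ g * antiMat (antiDual.symm (c' h)) * a.ρ g⁻¹
      rw [← antiMat_antiAct, ← antiMat_add]
      refine congrArg antiMat (antiDual.injective ?_)
      rw [LinearEquiv.apply_symm_apply, map_add, LinearEquiv.apply_symm_apply]
      erw [antiDual_equivariant a g, LinearEquiv.apply_symm_apply]
      rw [hcoc, add_comm]
    obtain ⟨M, hM⟩ := hkill d hdb fun j => by
      have h := hy0 (pr (Sum.inl j)) (Finset.mem_image_of_mem _ (Finset.mem_univ j))
      rw [hFi, evalAt_H1π] at h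
      obtain ⟨b, hb⟩ := (Submodule.Quotient.mk_eq_zero _).mp h
      refine ⟨antiMat (antiDual.symm b), ?_⟩
      show antiMat (antiDual.symm (c' (Q j).F)) = _
      have hb' : ((antiRep a).dualTwist (cycloChar 2)).ρ (Q j).F b - b = c' (Q j).F := hb
      rw [← hb']
      unfold adCobdry
      rw [← antiMat_antiAct]
      have hsub : ∀ v w : k × k, antiMat (v - w) = antiMat v - antiMat w := fun v w => by
        ext i j; fin_cases i <;> fin_cases j <;> simp [antiMat]
      rw [← hsub]
      refine congrArg antiMat (antiDual.injective ?_)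
      rw [LinearEquiv.apply_symm_apply, map_sub, LinearEquiv.apply_symm_apply]
      erw [antiDual_equivariant a (Q j).F, LinearEquiv.apply_symm_apply]
    rw [H1π_eq_zero_iff]
    refine ⟨antiDual (antiVec M), funext fun g => ?_⟩
    rw [d₀₁_hom_apply]
    have h := congrArg (fun X => antiDual (antiVec X)) (hM g)
    simp only [d] at h
    rw [antiVec_antiMat, LinearEquiv.apply_symm_apply, antiVec_adCobdry, map_sub] at h
    erw [antiDual_equivariant a g] at h
    exact h.symm
  obtain ⟨hfin, hle⟩ := MLT2.finrank_selRelaxed_twoConditions_le (M := antiRep a)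
    (finrank (ZMod 2) k) (antiRep_smooth a) (antiRep_invariants_eq_zero a)
    (swap_moved a (complexConjugation_swap a)).2 (swap_moved a (complexConjugation_swap a)).1
    (levelPrimes a) (fun q hq v hv g => level_fix a q ((mem_levelPrimes a).mp hq) v hv g)
    (antiRep_unramifiedOutside a (baseSet a) fun q hq => (not_mem_baseSet a).mp hq)
    (flatTwo a) (flatTwo_le a) (finrank_flatTwo_le a) Ps Pr hdisj F
    (fun q hq => by
      obtain ⟨i, rfl⟩ := hmemP q hq
      exact ⟨(P i).A, (P i).hA, by rw [hFi]; exact (P i).hF⟩)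
    (fun q hq => by
      obtain ⟨j, -, rfl⟩ := Finset.mem_image.mp hq
      rw [hFi, finrank_antiRep]
      exact Nat.add_le_add_right (swap_moved a (hQ j).frob).1 _)
    (fun q hq => by
      obtain ⟨i, -, rfl⟩ := Finset.mem_image.mp hq
      rw [hFi]
      exact moved_eq_top_of_rot a (hC i).frob_diag (hC i).frob_ne_one)
    hdet
  -- the classes of `V` lie in the relaxed Selmer group
  have hVmem : ∀ v, antiClass a (hK v).cocycle ∈ MLT2.selRelaxed (antiRep a) (baseSet a)
      (MLT2.twoConditions (antiRep a) (flatTwo a) (levelPrimes a))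
      (baseSet a ∪ (Ps ∪ Pr)) := fun v => by
    refine MLT2.mem_selRelaxed_twoConditions (swap_moved a (complexConjugation_swap a)).2 _ _ _
      (antiClass_mem_continuousH1S a _ _ fun q hq A hA τ hτ => ?_)
      (resAt_two_mem a _ (hK v).two) fun q hq _ => ?_
    · obtain ⟨h2, hN⟩ := (not_mem_baseSet a).mp fun h => hq (Finset.mem_union_left _ h)
      refine ⟨(hK v).unramified q q.2 h2 hN (fun i h => hq ?_) A hA τ hτ,
        a.unramified q q.2 h2 hN A hA τ hτ⟩
      refine Finset.mem_union_right _ ?_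
      rw [show q = pr i from Subtype.ext h.symm]
      exact hmem i
    · have hA := CFT.padicPlace_liesOverPrime q
      obtain ⟨M, hM⟩ := (hK v).level q q.2 ((mem_levelPrimes a).mp hq) _ hA
      refine MLT2.resAt_mem_unramifiedSub q _ (isLevelConstant_antiCocycle a _) (antiRep_smooth a)
        hA (a := antiVec M) fun τ hτ => ?_
      rw [antiCocycle_apply, hM τ hτ, antiVec_adCobdry]
  letI : Module (ZMod 2) V := Module.compHom V (algebraMap (ZMod 2) k)
  haveI : IsScalarTower (ZMod 2) k V := ⟨fun x y z => by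
    show (x • y) • z = algebraMap (ZMod 2) k x • y • z
    rw [Algebra.smul_def, mul_smul]⟩
  let Φ : V →+ MLT2.selRelaxed (antiRep a) (baseSet a)
      (MLT2.twoConditions (antiRep a) (flatTwo a) (levelPrimes a)) (baseSet a ∪ (Ps ∪ Pr)) :=
    AddMonoidHom.mk' (fun v => ⟨_, hVmem v⟩) fun v w => Subtype.ext (by
      show antiClass a _ = antiClass a _ + antiClass a _
      rw [← antiClass_add]
      exact antiClass_congr a _ _ fun g => by rw [map_add])
  have hΦ : Function.Injective (Φ.toZModLinearMap 2) := by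
    rw [← LinearMap.ker_eq_bot, Submodule.eq_bot_iff]
    exact fun v hv => hc0 v (isAdCobdry_of_antiClass_eq_zero a _ (hK v).anti
      (congrArg Subtype.val (LinearMap.mem_ker.mp hv)))
  haveI : FiniteDimensional (ZMod 2) (MLT2.selRelaxed (antiRep a) (baseSet a)
    (MLT2.twoConditions (antiRep a) (flatTwo a) (levelPrimes a)) (baseSet a ∪ (Ps ∪ Pr))) := hfin
  have h1 := LinearMap.finrank_le_finrank_of_injective hΦ
  rw [← Module.finrank_mul_finrank (ZMod 2) k V] at h1
  have h2 : Ps.card = s := by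
    refine (Finset.card_image_of_injective _ (hpr.comp Sum.inl_injective)).trans ?_
    rw [Finset.card_univ, Fintype.card_fin]
  have h3 : 0 < finrank (ZMod 2) k := Module.finrank_pos
  change finrank (ZMod 2) (MLT2.selRelaxed (antiRep a) (baseSet a) _ _) ≤ _ at hle
  rw [h2] at hle
  exact Nat.le_of_mul_le_mul_left (h1.trans hle) h3

end FermatLib.MLT.Two
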