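import Fermat.Agent.MLT.Two.SelmerLocal

/-!
MLT2 Selmer step: the antidiagonal tangent bound.

`M` is a mod 2 representation, `B` the odd primes where inertia acts nontrivially, `L₂` at most
`d` local classes at `2` (`d = 1` for a standard representation of `S₃`).  If the swap primes `Ps`
detect the dual Selmer group, the classes with these conditions and none at `Ps ∪ Pr` (`Pr`
rotation primes) span at most `d * #Ps` dimensions.
-/

set_option autoImplicit false

open CategoryTheory Module groupCohomology ExtCitation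
open scoped Pointwise

namespace FermatLib.MLT2

local notation "Γℚ" => AlgebraicClosure ℚ ≃ₐ[ℚ] AlgebraicClosure ℚ

local notation "Qbar" => AlgebraicClosure ℚ

variable (M : Rep (ZMod 2) Γℚ)

/-- Conditions on `B ∪ {2}`: zero at infinity, `L₂` at two, unramified classes at `B`. -/
noncomputable def twoConditions
    (L₂ : Submodule (ZMod 2) (H1 (Rep.res (primeLocalToGlobal (pPrime 2)) M)))
    (B : Finset Nat.Primes) :
    ∀ v : extArithIndex (insert (pPrime 2) B),
      Submodule (ZMod 2) (H1 (Rep.res (extArithLoc (insert (pPrime 2) B) v) M))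
  | Sum.inl _ => ⊥
  | Sum.inr ⟨q, _⟩ => by
    classical
    exact if h : q = pPrime 2 then
      (h.symm ▸ L₂ : Submodule (ZMod 2) (H1 (Rep.res (primeLocalToGlobal q) M)))
    else CFT.unramifiedSub q M

variable {M}

theorem twoConditions_two
    (L₂ : Submodule (ZMod 2) (H1 (Rep.res (primeLocalToGlobal (pPrime 2)) M)))
    (B : Finset Nat.Primes) (h : pPrime 2 ∈ insert (pPrime 2) B) :
    twoConditions M L₂ B (Sum.inr ⟨pPrime 2, h⟩) = L₂ := by
  simp only [twoConditions]
  exact dif_pos trivial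

theorem twoConditions_ne
    (L₂ : Submodule (ZMod 2) (H1 (Rep.res (primeLocalToGlobal (pPrime 2)) M)))
    (B : Finset Nat.Primes) (q : Nat.Primes) (h : q ∈ insert (pPrime 2) B) (hq : q ≠ pPrime 2) :
    twoConditions M L₂ B (Sum.inr ⟨q, h⟩) = CFT.unramifiedSub q M := by
  simp only [twoConditions]
  rw [dif_neg hq]

/-- A class whose restriction to inertia at one place over `q` is a coboundary is unramified at
`q`. -/
theorem resAt_mem_unramifiedSub {p : ℕ} [Fact p.Prime] {N : Rep (ZMod p) Γℚ} (q : Nat.Primes)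
    (c : cocycles₁ N) (hc : IsLevelConstant₁ (MonoidHom.id Γℚ) c) (hsm : ∀ m : N,
      ∃ F : IntermediateField ℚ Qbar, FiniteDimensional ℚ F ∧
        ∀ s ∈ F.fixingSubgroup, N.ρ s m = m)
    {A : ValuationSubring Qbar} (hA : A.LiesOverPrime (q : ℕ)) {a : N}
    (ha : ∀ τ ∈ A.inertiaSubgroupIn ℚ, c τ = N.ρ τ a - a) :
    CFT.resAt q N ((H1π N).hom c) ∈ CFT.unramifiedSub q N := by
  obtain ⟨h, rfl⟩ := CFT.exists_smul_padicPlace_eq A hA
  let b : N := N.ρ h⁻¹ (a + c h)
  obtain ⟨F, hF, hlev⟩ := hc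
  obtain ⟨F', hF', hfix⟩ := hsm b
  let d : cocycles₁ (Rep.res (primeLocalToGlobal q) N) :=
    mapCocycles₁ (primeLocalToGlobal q) (𝟙 (Rep.res (primeLocalToGlobal q) N)) c -
      ⟨(d₀₁ (Rep.res (primeLocalToGlobal q) N)).hom b,
        coboundaries₁_le_cocycles₁ _ ⟨b, rfl⟩⟩
  have hd : ∀ g, d g = c (primeLocalToGlobal q g) - (N.ρ (primeLocalToGlobal q g) b - b) :=
    fun g => rfl
  rw [CFT.mem_unramifiedSub_iff]
  refine ⟨d, ⟨F ⊔ F', IntermediateField.finiteDimensional_sup F F', fun g s hs => ?_⟩,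
    fun g hg => ?_, ?_⟩
  · have hsF := IntermediateField.fixingSubgroup_antitone le_sup_left hs
    have hsF' := IntermediateField.fixingSubgroup_antitone le_sup_right hs
    have hcs := hlev (primeLocalToGlobal q g) (primeLocalToGlobal q s) hsF
    rw [hd, hd, map_mul (primeLocalToGlobal q), hcs, map_mul, Module.End.mul_apply, hfix _ hsF']
  · rw [hd]
    have hτ : h * primeLocalToGlobal q g * h⁻¹ ∈ (h • padicPlace (q : ℕ)).inertiaSubgroupIn ℚ :=
      Galois.inertia_conj_mem h hg
    have h1 := ha _ hτ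
    rw [cocycle_conj] at h1
    have h2 : N.ρ h (c (primeLocalToGlobal q g)) =
        N.ρ (h * primeLocalToGlobal q g * h⁻¹) (a + c h) - (a + c h) := by
      rw [map_add]
      linear_combination (norm := abel) h1
    have h3 : c (primeLocalToGlobal q g) = N.ρ (primeLocalToGlobal q g) b - b := by
      have := congrArg (N.ρ h⁻¹) h2
      simpa only [Representation.inv_self_apply, map_mul, Module.End.mul_apply, map_sub] using this
    rw [h3, sub_self]
  · rw [CFT.resAt_H1π, H1π_eq_iff]
    exact ⟨-b, by rw [map_neg]; funext g; show -(N.ρ (primeLocalToGlobal q g) b - b) = d g - c (primeLocalToGlobal q g); rw [hd]; abel⟩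

variable [FiniteDimensional (ZMod 2) M]

/-- Membership in the relaxed Selmer group from the three local conditions. -/
theorem mem_selRelaxed_twoConditions
    (hinf : ∀ x : M, M.ρ complexConjugation x = x → x ∈ MLT.Two.moved M complexConjugation)
    (L₂ : Submodule (ZMod 2) (H1 (Rep.res (primeLocalToGlobal (pPrime 2)) M)))
    (B P : Finset Nat.Primes) {x : H1 M}
    (hx : x ∈ continuousH1S (insert (pPrime 2) B ∪ P) M)
    (h2 : CFT.resAt (pPrime 2) M x ∈ L₂)
    (hB : ∀ q ∈ B, q ≠ pPrime 2 → CFT.resAt q M x ∈ CFT.unramifiedSub q M) :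
    x ∈ selRelaxed M (insert (pPrime 2) B) (twoConditions M L₂ B) (insert (pPrime 2) B ∪ P) := by
  refine (mem_selRelaxed_iff M Finset.subset_union_left x).2 ⟨hx, ?_⟩
  rintro (u | ⟨q, hq⟩)
  · exact (Submodule.mem_bot _).2 ((archimedean_facts hinf).1 _)
  · by_cases h : q = pPrime 2
    · subst h
      rw [twoConditions_two]
      exact h2
    · rw [twoConditions_ne L₂ B q hq h]
      exact hB q ((Finset.mem_insert.1 hq).resolve_left h) h

/-- **The antidiagonal bound.** -/
theorem finrank_selRelaxed_twoConditions_le (d : ℕ)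
    (hsm : ∀ m : M, ∃ F : IntermediateField ℚ Qbar, FiniteDimensional ℚ F ∧
      ∀ s ∈ F.fixingSubgroup, M.ρ s m = m)
    (hglob : ∀ m : M, (∀ g, M.ρ g m = m) → m = 0)
    (hinf : ∀ x : M, M.ρ complexConjugation x = x → x ∈ MLT.Two.moved M complexConjugation)
    (hinf' : d ≤ finrank (ZMod 2) (MLT.Two.moved M complexConjugation))
    (B : Finset Nat.Primes)
    (hBfix : ∀ q ∈ B, ∀ v : M,
      (∀ g, primeLocalToGlobal q g ∈ (primeLocalPlace q).inertiaSubgroupIn ℚ →
        M.ρ (primeLocalToGlobal q g) v = v) → ∀ g, M.ρ (primeLocalToGlobal q g) v = v)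
    (hur : CFT.GWUnramifiedOutside M (insert (pPrime 2) B))
    (L₂ : Submodule (ZMod 2) (H1 (Rep.res (primeLocalToGlobal (pPrime 2)) M)))
    (hL₂ : L₂ ≤ continuousH1 (primeLocalToGlobal (pPrime 2))
      (Rep.res (primeLocalToGlobal (pPrime 2)) M))
    (hL₂1 : finrank (ZMod 2) L₂ ≤ d)
    (Ps Pr : Finset Nat.Primes) (hP : Disjoint (insert (pPrime 2) B) (Ps ∪ Pr))
    (F : Nat.Primes → Γℚ)
    (hF : ∀ q ∈ Ps ∪ Pr,
      ∃ A : ValuationSubring Qbar, A.LiesOverPrime (q : ℕ) ∧ A.IsFrobeniusAt (F q) (q : ℕ))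
    (hswap : ∀ q ∈ Ps, finrank (ZMod 2) M ≤ finrank (ZMod 2) (MLT.Two.moved M (F q)) + d)
    (hrot : ∀ q ∈ Pr, MLT.Two.moved M (F q) = ⊤)
    (hdet : ∀ y ∈ dualSel M (insert (pPrime 2) B) (twoConditions M L₂ B),
      (∀ q ∈ Ps, MLT.Two.evalAt (M.dualTwist (cycloChar 2)) (F q) y = 0) → y = 0) :
    FiniteDimensional (ZMod 2)
      (selRelaxed M (insert (pPrime 2) B) (twoConditions M L₂ B)
        (insert (pPrime 2) B ∪ (Ps ∪ Pr))) ∧
    finrank (ZMod 2)
      (selRelaxed M (insert (pPrime 2) B) (twoConditions M L₂ B)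
        (insert (pPrime 2) B ∪ (Ps ∪ Pr))) ≤ d * Ps.card := by
  classical
  set L := twoConditions M L₂ B
  have hL : ∀ v, L v ≤ continuousH1 (extArithLoc (insert (pPrime 2) B) v) (Rep.res (extArithLoc (insert (pPrime 2) B) v) M) := by
    rintro (u | ⟨q, hq⟩)
    · exact bot_le
    · by_cases h : q = pPrime 2
      · subst h
        rw [show L (Sum.inr ⟨_, hq⟩) = L₂ from twoConditions_two L₂ B hq]
        exact hL₂
      · rw [show L (Sum.inr ⟨q, hq⟩) = CFT.unramifiedSub q M from twoConditions_ne L₂ B q hq h]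
        exact CFT.unramifiedSub_le_continuousH1 q M
  obtain ⟨hfin, hGW⟩ := finrank_selRelaxed_add M hsm (Finset.mem_insert_self _ _) hur L hL
    (T := Ps ∪ Pr) hP fun y hy hy0 => hdet y hy fun q hq => by
      obtain ⟨A, hA, hσ⟩ := hF q (Finset.mem_union_left _ hq)
      exact evalAt_eq_zero_of_resAt_eq_zero (hy0 q (Finset.mem_union_left _ hq)) hA hσ
  refine ⟨hfin, ?_⟩
  have hglob : finrank (ZMod 2) M.ρ.invariants = 0 := by
    rw [Submodule.finrank_eq_zero, Submodule.eq_bot_iff]
    exact fun m hm => hglob m hm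
  have hsum : ∑ v, finrank (ZMod 2) (L v) ≤
      ∑ v, finrank (ZMod 2) (Rep.res (extArithLoc (insert (pPrime 2) B) v) M).ρ.invariants := by
    have hBle : ∀ q ∈ B, finrank (ZMod 2) (CFT.unramifiedSub q M) ≤
        finrank (ZMod 2) (Rep.res (primeLocalToGlobal q) M).ρ.invariants := fun q hq => by
      exact finrank_unramifiedSub_le q (hBfix q hq)
    show ∑ v : Unit ⊕ ↥(insert (pPrime 2) B), finrank (ZMod 2) (L v) ≤
      ∑ v : Unit ⊕ ↥(insert (pPrime 2) B), finrank (ZMod 2) (Rep.res (extArithLoc (insert (pPrime 2) B) v) M).ρ.invariants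
    have hu : ∀ f : Unit → ℕ, ∑ u, f u = f () := fun f => Fintype.sum_unique f
    rw [Fintype.sum_sum_type, Fintype.sum_sum_type, hu, hu]
    have e1 : finrank (ZMod 2) (L (Sum.inl ())) = 0 := finrank_bot _ _
    have e2 : d ≤ finrank (ZMod 2)
        (Rep.res (extArithLoc (insert (pPrime 2) B) (Sum.inl ())) M).ρ.invariants :=
      hinf'.trans (archimedean_facts hinf).2
    let two : ↥(insert (pPrime 2) B) := ⟨pPrime 2, Finset.mem_insert_self _ _⟩
    have e3 : ∑ q : ↥(insert (pPrime 2) B), finrank (ZMod 2) (L (Sum.inr q)) ≤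
        d + ∑ q : ↥(insert (pPrime 2) B), finrank (ZMod 2) (Rep.res (extArithLoc (insert (pPrime 2) B) (Sum.inr q)) M).ρ.invariants := by
      rw [← Finset.add_sum_erase Finset.univ _ (Finset.mem_univ two),
        ← Finset.add_sum_erase Finset.univ
          (fun q : ↥(insert (pPrime 2) B) => finrank (ZMod 2) (Rep.res (extArithLoc (insert (pPrime 2) B) (Sum.inr q)) M).ρ.invariants)
          (Finset.mem_univ two)]
      have h2 : finrank (ZMod 2) (L (Sum.inr two)) ≤ d := by
        rw [show L (Sum.inr two) = L₂ from twoConditions_two L₂ B two.2]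
        exact hL₂1
      have hrest : ∑ q ∈ Finset.univ.erase two, finrank (ZMod 2) (L (Sum.inr q)) ≤
          ∑ q ∈ Finset.univ.erase two,
            finrank (ZMod 2) (Rep.res (extArithLoc (insert (pPrime 2) B) (Sum.inr q)) M).ρ.invariants := by
        refine Finset.sum_le_sum fun q hq => ?_
        have hne : q.1 ≠ pPrime 2 := fun h => (Finset.mem_erase.1 hq).1 (Subtype.ext h)
        rw [show L (Sum.inr q) = CFT.unramifiedSub q.1 M from twoConditions_ne L₂ B q.1 q.2 hne]
        exact hBle q.1 ((Finset.mem_insert.1 q.2).resolve_left hne)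
      omega
    omega
  have hPbound : ∑ q ∈ Ps ∪ Pr, finrank (ZMod 2)
      (Rep.res (primeLocalToGlobal q) (M.dualTwist (cycloChar 2))).ρ.invariants ≤ d * Ps.card := by
    calc _ ≤ ∑ q ∈ Ps ∪ Pr, (if q ∈ Ps then d else 0) := by
          refine Finset.sum_le_sum fun q hq => ?_
          obtain ⟨A, hA, hσ⟩ := hF q hq
          have h := finrank_invariants_dualTwist_frobenius (N := M) q hA hσ
          split_ifs with hqs
          · have := hswap q hqs
            omega
          · rw [hrot q ((Finset.mem_union.1 hq).resolve_left hqs), finrank_top] at h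
            omega
      _ = d * Ps.card := by
          rw [Finset.sum_ite_mem, Finset.union_inter_cancel_left, Finset.sum_const, smul_eq_mul,
            mul_comm]
  omega

end FermatLib.MLT2
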