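import Fermat.Agent.CFT.GWDescent
import Fermat.Agent.MLT.Two.PrimesDefs

/-!
MLT2 Selmer step: definitions.

`sel S L` is the Selmer group of `M` for conditions `L` over `S`, `dualSel S L` the dual one for the
Tate pairings, `selRelaxed S L T` drops every condition at `T \ S`.
-/

set_option autoImplicit false

open CategoryTheory Module groupCohomology ExtCitation

namespace FermatLib.MLT2

variable {p : ℕ} [Fact p.Prime]

local notation "Γℚ" => AlgebraicClosure ℚ ≃ₐ[ℚ] AlgebraicClosure ℚ

variable (M : Rep (ZMod p) Γℚ) (S : Finset Nat.Primes)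
  (L : ∀ v : extArithIndex S, Submodule (ZMod p) (H1 (Rep.res (extArithLoc S v) M)))

/-- The dual Selmer group for the Tate pairings. -/
noncomputable def dualSel : Submodule (ZMod p) (H1 (M.dualTwist (cycloChar p))) :=
  selmerAdm (extArithLoc S) (M.dualTwist (cycloChar p))
    (dualConditions (extArithLoc S) M (M.dualTwist (cycloChar p))
      (CFT.gwPairing M (CFT.tateFin M) (CFT.tateInf M) S) L)
    (continuousH1S S (M.dualTwist (cycloChar p)))

/-- The conditions `L` at `S`, no condition (all continuous classes) at the other places of `T`. -/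
noncomputable def relaxConditions (T : Finset Nat.Primes) :
    ∀ v : extArithIndex T, Submodule (ZMod p) (H1 (Rep.res (extArithLoc T v) M))
  | Sum.inl u => L (Sum.inl u)
  | Sum.inr q => if h : q.1 ∈ S then L (Sum.inr ⟨q.1, h⟩)
      else continuousH1 (primeLocalToGlobal q.1) (Rep.res (primeLocalToGlobal q.1) M)

/-- The relaxed Selmer group: conditions `L` at `S` and nothing at `T \ S`. -/
noncomputable def selRelaxed (T : Finset Nat.Primes) : Submodule (ZMod p) (H1 M) :=
  selmerAdm (extArithLoc T) M (relaxConditions M S L T) (continuousH1S T M)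

theorem relaxConditions_inr_mem {T : Finset Nat.Primes} (q : ↥T) (h : q.1 ∈ S) :
    relaxConditions M S L T (Sum.inr q) = L (Sum.inr ⟨q.1, h⟩) :=
  dif_pos h

theorem relaxConditions_inr_not_mem {T : Finset Nat.Primes} (q : ↥T) (h : q.1 ∉ S) :
    relaxConditions M S L T (Sum.inr q) =
      continuousH1 (primeLocalToGlobal q.1) (Rep.res (primeLocalToGlobal q.1) M) :=
  dif_neg h

theorem mem_selRelaxed_iff {S : Finset Nat.Primes}
    {L : ∀ v : extArithIndex S, Submodule (ZMod p) (H1 (Rep.res (extArithLoc S v) M))}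
    {T : Finset Nat.Primes} (hST : S ⊆ T) (x : H1 M) :
    x ∈ selRelaxed M S L T ↔
      x ∈ continuousH1S T M ∧ ∀ v, (locRes (extArithLoc S) M v).hom x ∈ L v := by
  rw [selRelaxed, mem_selmerAdm_iff]
  constructor
  · rintro ⟨hloc, hx⟩
    refine ⟨hx, ?_⟩
    rintro (u | q)
    · exact hloc (Sum.inl u)
    · have := hloc (Sum.inr ⟨q.1, hST q.2⟩)
      dsimp only [relaxConditions] at this
      rw [dif_pos q.2] at this
      exact this
  · rintro ⟨hx, hloc⟩
    refine ⟨?_, hx⟩
    rintro (u | q)
    · exact hloc (Sum.inl u)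
    · dsimp only [relaxConditions]
      by_cases h : q.1 ∈ S
      · rw [dif_pos h]
        exact hloc (Sum.inr ⟨q.1, h⟩)
      · rw [dif_neg h]
        exact CFT.locRes_mem_continuousH1 M T (Sum.inr q) hx

end FermatLib.MLT2
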