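import Fermat.Agent.MLT.Two.SelmerRelax

/-!
MLT2 Selmer step: local dimensions for mod 2 representations.
-/

set_option autoImplicit false

open CategoryTheory Module groupCohomology ExtCitation
open scoped Pointwise

namespace FermatLib.MLT2

local notation "Γℚ" => AlgebraicClosure ℚ ≃ₐ[ℚ] AlgebraicClosure ℚ

local notation "Qbar" => AlgebraicClosure ℚ

variable {p : ℕ} [Fact p.Prime] {M : Rep (ZMod p) Γℚ}

/-- A character to `(ℤ/2)ˣ` is trivial. -/
theorem cycloChar_two_eq_one (g : Γℚ) : cycloChar 2 g = 1 := Subsingleton.elim _ _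

/-- Local invariants of the dual twist at `2` kill what any element of the local group moves. -/
theorem finrank_invariants_dualTwist_le {N : Rep (ZMod 2) Γℚ} [FiniteDimensional (ZMod 2) N]
    {H : Type} [Group H] (f : H →* Γℚ) (g : H) :
    finrank (ZMod 2) (Rep.res f (N.dualTwist (cycloChar 2))).ρ.invariants +
        finrank (ZMod 2) (MLT.Two.moved N (f g)) ≤ finrank (ZMod 2) N := by
  rw [← Subspace.finrank_add_finrank_dualAnnihilator_eq (MLT.Two.moved N (f g)), add_comm]
  gcongr
  refine LinearMap.finrank_le_finrank_of_injective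
    (f := ((Rep.res f (N.dualTwist (cycloChar 2))).ρ.invariants.subtype.codRestrict
      (MLT.Two.moved N (f g)).dualAnnihilator fun φ => ?_)) fun a b hab => ?_
  · rw [Submodule.mem_dualAnnihilator]
    rintro _ ⟨x, rfl⟩
    have h := φ.2 g
    have h1 : (N.dualTwist (cycloChar 2)).ρ (f g) φ.1 = φ.1 := h
    rw [Rep.dualTwist_ρ_apply, cycloChar_two_eq_one, Units.val_one, one_smul] at h1
    have h2 := LinearMap.congr_fun h1 (N.ρ (f g) x)
    change φ.1 ((N.ρ (f g) - 1) x) = 0
    rw [LinearMap.sub_apply, map_sub, Module.End.one_apply]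
    simp only [LinearMap.comp_apply, Representation.inv_self_apply] at h2
    exact sub_eq_zero.mpr h2.symm
  · exact Subtype.ext (congrArg (fun z : (MLT.Two.moved N (f g)).dualAnnihilator => z.1) hab)

/-- A local element giving the conjugacy class of any Frobenius over `q`. -/
theorem exists_local_frobenius (q : Nat.Primes) {A : ValuationSubring Qbar}
    (hA : A.LiesOverPrime (q : ℕ)) {σ : Γℚ} (hσ : A.IsFrobeniusAt σ (q : ℕ)) :
    ∃ (h : Γℚ) (g : primeLocalGaloisGroup q),
      (padicPlace (q : ℕ)).IsFrobeniusAt (primeLocalToGlobal q g) (q : ℕ) ∧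
        σ = h * primeLocalToGlobal q g * h⁻¹ := by
  obtain ⟨h, rfl⟩ := CFT.exists_smul_padicPlace_eq A hA
  have h0 := (Galois.isFrobeniusAt_smul_iff (σ := σ)).1 hσ
  have hd := h0.mem_decompositionSubgroup
  rw [CFT.decompositionSubgroup_padicPlace] at hd
  obtain ⟨g, hg⟩ : ∃ g : primeLocalGaloisGroup q, primeLocalToGlobal q g = h⁻¹ * σ * h := hd
  exact ⟨h, g, by rw [hg]; exact h0, by rw [hg]; group⟩

/-- Conjugation does not change the number of moved vectors. -/
theorem finrank_moved_conj {N : Rep (ZMod p) Γℚ} [FiniteDimensional (ZMod p) N] (h x : Γℚ) :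
    finrank (ZMod p) (MLT.Two.moved N (h * x * h⁻¹)) = finrank (ZMod p) (MLT.Two.moved N x) := by
  have key : MLT.Two.moved N (h * x * h⁻¹) = (MLT.Two.moved N x).map (N.ρ h) := by
    ext v
    constructor
    · rintro ⟨w, rfl⟩
      refine ⟨(N.ρ x - 1) (N.ρ h⁻¹ w), ⟨_, rfl⟩, ?_⟩
      simp only [LinearMap.sub_apply, Module.End.one_apply, map_sub, map_mul, Module.End.mul_apply,
        Representation.self_inv_apply]
    · rintro ⟨_, ⟨w, rfl⟩, rfl⟩
      refine ⟨N.ρ h w, ?_⟩
      simp only [LinearMap.sub_apply, Module.End.one_apply, map_sub, map_mul, Module.End.mul_apply,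
        Representation.inv_self_apply]
  rw [key]
  exact ((Submodule.equivMapOfInjective (N.ρ h) (fun u v huv => by
    have := congrArg (N.ρ h⁻¹) huv
    simpa only [Representation.inv_self_apply] using this) _).finrank_eq).symm

section CharTwoLocal

variable {N : Rep (ZMod 2) Γℚ} [FiniteDimensional (ZMod 2) N]

/-- Dual invariants at `q` against what a Frobenius over `q` moves. -/
theorem finrank_invariants_dualTwist_frobenius (q : Nat.Primes)
    {A : ValuationSubring Qbar} (hA : A.LiesOverPrime (q : ℕ)) {σ : Γℚ}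
    (hσ : A.IsFrobeniusAt σ (q : ℕ)) :
    finrank (ZMod 2) (Rep.res (primeLocalToGlobal q) (N.dualTwist (cycloChar 2))).ρ.invariants +
        finrank (ZMod 2) (MLT.Two.moved N σ) ≤ finrank (ZMod 2) N := by
  obtain ⟨γ, g, -, rfl⟩ := exists_local_frobenius q hA hσ
  rw [finrank_moved_conj]
  exact finrank_invariants_dualTwist_le (primeLocalToGlobal q) g

/-- If complex conjugation fixes only what it moves, classes at infinity vanish. -/
theorem archimedean_facts
    (hc : ∀ x : N, N.ρ complexConjugation x = x → x ∈ MLT.Two.moved N complexConjugation) :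
    (∀ x : H1 (Rep.res archimedeanLoc N), x = 0) ∧
      finrank (ZMod 2) (MLT.Two.moved N complexConjugation) ≤
        finrank (ZMod 2) (Rep.res archimedeanLoc N).ρ.invariants := by
  have e : ∀ y : N, y + y = 0 := fun y => by
    rw [← two_smul (ZMod 2) y, show (2 : ZMod 2) = 0 from rfl, zero_smul]
  have h2 : ∀ x : N, N.ρ complexConjugation (N.ρ complexConjugation x) = x := fun x => by
    rw [← Module.End.mul_apply, ← map_mul, complexConjugation_mul_self, map_one,
      Module.End.one_apply]
  have hgen : ∀ g : archimedeanDecomposition, g = 1 ∨ g = archimedeanGen := by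
    intro g
    obtain ⟨k, hk⟩ := Subgroup.mem_zpowers_iff.mp g.2
    rcases Int.even_or_odd' k with ⟨j, rfl | rfl⟩
    · refine Or.inl (Subtype.ext ?_)
      rw [← hk, zpow_mul, zpow_two, complexConjugation_mul_self, one_zpow]
      rfl
    · refine Or.inr (Subtype.ext ?_)
      rw [← hk, zpow_add, zpow_mul, zpow_two, complexConjugation_mul_self, one_zpow, one_mul,
        zpow_one]
      rfl
  constructor
  · intro x
    induction x using H1_induction_on with
    | h c =>
      rw [H1π_eq_zero_iff]
      have hfix : N.ρ complexConjugation (c archimedeanGen) = c archimedeanGen := by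
        have h := (mem_cocycles₁_iff c).1 c.2 archimedeanGen archimedeanGen
        rw [show archimedeanGen * archimedeanGen = 1 from Subtype.ext complexConjugation_mul_self,
          cocycles₁_map_one] at h
        have h' : N.ρ complexConjugation (c archimedeanGen) + c archimedeanGen = 0 := h.symm
        exact (eq_neg_of_add_eq_zero_left h').trans
          (neg_eq_of_add_eq_zero_left (e (c archimedeanGen)))
      obtain ⟨a, ha⟩ := hc _ hfix
      refine ⟨a, ?_⟩
      funext g
      rw [d₀₁_hom_apply]
      rcases hgen g with rfl | rfl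
      · rw [cocycles₁_map_one, map_one, Module.End.one_apply, sub_self]
      · exact ha
  · refine Submodule.finrank_mono ?_
    rintro _ ⟨x, rfl⟩ g
    rcases hgen g with rfl | rfl
    · rw [map_one, Module.End.one_apply]
    · show N.ρ complexConjugation ((N.ρ complexConjugation - 1) x) = (N.ρ complexConjugation - 1) x
      simp only [LinearMap.sub_apply, Module.End.one_apply, map_sub, h2]
      exact sub_eq_zero.mp (by
        calc x - N.ρ complexConjugation x - (N.ρ complexConjugation x - x)
            = (x + x) - (N.ρ complexConjugation x + N.ρ complexConjugation x) := by abel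
          _ = 0 := by rw [e, e, sub_zero])

end CharTwoLocal

/-- If inertia-fixed vectors are fixed, unramified classes are no more than the invariants. -/
theorem finrank_unramifiedSub_le [FiniteDimensional (ZMod p) M] (q : Nat.Primes)
    (hinv : ∀ v : M, (∀ g, primeLocalToGlobal q g ∈ (primeLocalPlace q).inertiaSubgroupIn ℚ →
      M.ρ (primeLocalToGlobal q g) v = v) → ∀ g, M.ρ (primeLocalToGlobal q g) v = v) :
    finrank (ZMod p) (CFT.unramifiedSub q M) ≤
      finrank (ZMod p) (Rep.res (primeLocalToGlobal q) M).ρ.invariants := by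
  have hA := CFT.padicPlace_liesOverPrime q
  obtain ⟨σ, hσ⟩ := FermatLib.Basic.exists_isFrobeniusAt q.2 _ hA
  obtain ⟨_, φ, hφ, -⟩ := exists_local_frobenius q hA hσ
  -- the cocycles behind the unramified classes
  let Z : Submodule (ZMod p) (cocycles₁ (Rep.res (primeLocalToGlobal q) M)) :=
    { carrier := {c | IsLevelConstant₁ (primeLocalToGlobal q) c ∧
        ∀ g, primeLocalToGlobal q g ∈ (primeLocalPlace q).inertiaSubgroupIn ℚ → c g = 0}
      zero_mem' := ⟨isLevelConstant₁_const (r := primeLocalToGlobal q) (0 : M), fun _ _ => rfl⟩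
      add_mem' := fun {a b} ha hb => ⟨ha.1.add hb.1, fun g hg => by
        show a g + b g = 0
        rw [ha.2 g hg, hb.2 g hg, add_zero]⟩
      smul_mem' := fun r a ha => ⟨ha.1.comp (r • ·), fun g hg => by
        show r • a g = 0
        rw [ha.2 g hg, smul_zero]⟩ }
  have hmap : CFT.unramifiedSub q M ≤ Z.map (H1π (Rep.res (primeLocalToGlobal q) M)).hom := by
    intro x hx
    obtain ⟨c, hc, hc0, rfl⟩ := (CFT.mem_unramifiedSub_iff q x).1 hx
    exact ⟨c, ⟨hc, hc0⟩, rfl⟩
  have hval : ∀ c : Z, c.1 φ ∈ (Rep.res (primeLocalToGlobal q) M).ρ.invariants := by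
    intro c
    refine fun g => hinv _ (fun g' hg' => ?_) g
    have hd : primeLocalToGlobal q φ⁻¹ ∈ (padicPlace (q : ℕ)).decompositionSubgroup ℚ := by
      rw [CFT.decompositionSubgroup_padicPlace]
      exact ⟨φ⁻¹, rfl⟩
    have hτ : primeLocalToGlobal q (φ⁻¹ * g' * φ) ∈
        (primeLocalPlace q).inertiaSubgroupIn ℚ := by
      rw [show primeLocalToGlobal q (φ⁻¹ * g' * φ) = primeLocalToGlobal q φ⁻¹ *
        primeLocalToGlobal q g' * (primeLocalToGlobal q φ⁻¹)⁻¹ by
        rw [← map_inv, inv_inv, ← map_mul, ← map_mul]]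
      exact Galois.conj_mem_inertia_of_mem_decomposition hd hg'
    have h1 := (mem_cocycles₁_iff c.1).1 c.1.2 g' φ
    have h2 := (mem_cocycles₁_iff c.1).1 c.1.2 φ (φ⁻¹ * g' * φ)
    rw [c.2.2 g' hg', add_zero] at h1
    rw [c.2.2 _ hτ, map_zero, zero_add, show φ * (φ⁻¹ * g' * φ) = g' * φ by group] at h2
    exact h1.symm.trans h2
  let E : Z →ₗ[ZMod p] (Rep.res (primeLocalToGlobal q) M).ρ.invariants :=
    { toFun := fun c => ⟨c.1 φ, hval c⟩
      map_add' := fun _ _ => Subtype.ext rfl
      map_smul' := fun _ _ => Subtype.ext rfl }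
  have hE : Function.Injective E := by
    rw [← LinearMap.ker_eq_bot, Submodule.eq_bot_iff]
    intro c hc
    have hcφ : c.1 φ = 0 := congrArg Subtype.val (LinearMap.mem_ker.mp hc)
    obtain ⟨⟨F, hF, hlev⟩, hine⟩ := c.2
    refine Subtype.ext (cocycles₁_ext fun g => ?_)
    have hg : primeLocalToGlobal q g ∈ (padicPlace (q : ℕ)).decompositionSubgroup ℚ := by
      rw [CFT.decompositionSubgroup_padicPlace]
      exact ⟨g, rfl⟩
    obtain ⟨k, τ, hτ, hk⟩ := Galois.exists_frobenius_pow_mul_inertia q.2 hA F hφ hg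
    obtain ⟨gτ, rfl⟩ := CFT.exists_local_of_mem_inertia q hτ
    have hpow : ∀ n : ℕ, c.1 (φ ^ n * gτ) = 0 := by
      intro n
      induction n with
      | zero => rw [pow_zero, one_mul]; exact hine _ hτ
      | succ n ih =>
        rw [pow_succ', mul_assoc, (mem_cocycles₁_iff c.1).1 c.1.2, ih, hcφ, map_zero, add_zero]
    have hs : primeLocalToGlobal q ((φ ^ k * gτ)⁻¹ * g) ∈ F.fixingSubgroup := by
      rw [IntermediateField.mem_fixingSubgroup_iff]
      intro x hx
      rw [map_mul, map_inv, map_mul, map_pow, AlgEquiv.mul_apply, hk x hx]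
      exact AlgEquiv.symm_apply_apply _ x
    have := hlev (φ ^ k * gτ) _ hs
    rw [mul_inv_cancel_left, hpow] at this
    exact this
  have : FiniteDimensional (ZMod p) Z := FiniteDimensional.of_injective E hE
  calc finrank (ZMod p) (CFT.unramifiedSub q M)
      ≤ finrank (ZMod p) (Z.map (H1π (Rep.res (primeLocalToGlobal q) M)).hom) :=
        Submodule.finrank_mono hmap
    _ ≤ finrank (ZMod p) Z := Submodule.finrank_map_le _ _
    _ ≤ _ := LinearMap.finrank_le_finrank_of_injective hE

end FermatLib.MLT2
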