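import Fermat.Agent.MLT.Two.SelmerDefs

/-!
MLT2 Selmer step: relaxing at auxiliary primes which detect the dual Selmer group
does not enlarge the Selmer group (Greenberg-Wiles).
-/

set_option autoImplicit false

open CategoryTheory Module groupCohomology ExtCitation

namespace FermatLib.MLT2

variable {p : ℕ} [Fact p.Prime]

local notation "Γℚ" => AlgebraicClosure ℚ ≃ₐ[ℚ] AlgebraicClosure ℚ

/-- Value of a cocycle at a conjugate. -/
theorem cocycle_conj {N : Rep (ZMod p) Γℚ} (c : cocycles₁ N) (h σ : Γℚ) :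
    c (h * σ * h⁻¹) = N.ρ h (c σ) + c h - N.ρ (h * σ * h⁻¹) (c h) := by
  have hinv : c h⁻¹ = -(N.ρ h⁻¹ (c h)) := by
    have h3 := (mem_cocycles₁_iff c).1 c.2 h⁻¹ h
    rw [inv_mul_cancel, cocycles₁_map_one] at h3
    exact eq_neg_of_add_eq_zero_right h3.symm
  rw [(mem_cocycles₁_iff c).1 c.2 (h * σ) h⁻¹, (mem_cocycles₁_iff c).1 c.2 h σ, hinv,
    map_mul (N.ρ) (h * σ) h⁻¹, Module.End.mul_apply, map_neg]
  abel

/-- If the localisation at `q` vanishes, the class dies at every Frobenius over `q`. -/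
theorem evalAt_eq_zero_of_resAt_eq_zero {N : Rep (ZMod p) Γℚ} {q : Nat.Primes} {x : H1 N}
    (hx : CFT.resAt q N x = 0) {A : ValuationSubring (AlgebraicClosure ℚ)}
    (hA : A.LiesOverPrime (q : ℕ)) {σ : Γℚ} (hσ : A.IsFrobeniusAt σ (q : ℕ)) :
    MLT.Two.evalAt N σ x = 0 := by
  induction x using H1_induction_on with
  | h c =>
    rw [MLT.Two.evalAt_H1π]
    refine (Submodule.Quotient.mk_eq_zero _).2 ?_
    rw [CFT.resAt_H1π, H1π_eq_zero_iff] at hx
    obtain ⟨a, ha⟩ := hx
    obtain ⟨h, rfl⟩ := CFT.exists_smul_padicPlace_eq A hA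
    have hd := ((Galois.isFrobeniusAt_smul_iff (σ := σ)).1 hσ).mem_decompositionSubgroup
    rw [CFT.decompositionSubgroup_padicPlace] at hd
    obtain ⟨g, hg⟩ : ∃ g : primeLocalGaloisGroup q, primeLocalToGlobal q g = h⁻¹ * σ * h := hd
    have hσ' : σ = h * primeLocalToGlobal q g * h⁻¹ := by rw [hg]; group
    have hga : c (primeLocalToGlobal q g) = N.ρ (primeLocalToGlobal q g) a - a := by
      have := congrFun ha g
      rw [d₀₁_hom_apply] at this
      exact this.symm
    refine ⟨N.ρ h a - c h, ?_⟩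
    rw [hσ', cocycle_conj, hga]
    simp only [LinearMap.sub_apply, Module.End.one_apply, map_sub, map_mul, Module.End.mul_apply,
      Representation.inv_self_apply]
    abel

variable (M : Rep (ZMod p) Γℚ) [FiniteDimensional (ZMod p) M]
  (hsm : ∀ m : M, ∃ F : IntermediateField ℚ (AlgebraicClosure ℚ), FiniteDimensional ℚ F ∧
    ∀ s ∈ F.fixingSubgroup, M.ρ s m = m)
  {S : Finset Nat.Primes} (hpS : pPrime p ∈ S) (hur : CFT.GWUnramifiedOutside M S)
  (L : ∀ v : extArithIndex S, Submodule (ZMod p) (H1 (Rep.res (extArithLoc S v) M)))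
  (hL : ∀ v, L v ≤ continuousH1 (extArithLoc S v) (Rep.res (extArithLoc S v) M))
  (hbal : finrank (ZMod p) (M.dualTwist (cycloChar p)).ρ.invariants
      + ∑ v, finrank (ZMod p) (Rep.res (extArithLoc S v) M).ρ.invariants
    = finrank (ZMod p) M.ρ.invariants + ∑ v, finrank (ZMod p) (L v))

include hsm hpS hur hL in
/-- Greenberg-Wiles after relaxing at primes `T`, disjoint from `S`, detecting the dual Selmer
group. -/
theorem finrank_selRelaxed_add {T : Finset Nat.Primes} (hdisj : Disjoint S T)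
    (hinj : ∀ y ∈ dualSel M S L,
      (∀ q ∈ T, CFT.resAt q (M.dualTwist (cycloChar p)) y = 0) → y = 0) :
    FiniteDimensional (ZMod p) (selRelaxed M S L (S ∪ T)) ∧
    finrank (ZMod p) (selRelaxed M S L (S ∪ T))
        + finrank (ZMod p) (M.dualTwist (cycloChar p)).ρ.invariants
        + ∑ v, finrank (ZMod p) (Rep.res (extArithLoc S v) M).ρ.invariants
      = finrank (ZMod p) M.ρ.invariants + ∑ v, finrank (ZMod p) (L v)
        + ∑ q ∈ T, finrank (ZMod p)
          (Rep.res (primeLocalToGlobal q) (M.dualTwist (cycloChar p))).ρ.invariants := by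
  classical
  have hST : S ⊆ S ∪ T := Finset.subset_union_left
  have hpT : pPrime p ∈ S ∪ T := hST hpS
  have hurT : CFT.GWUnramifiedOutside M (S ∪ T) := hur.mono hST
  have hcont : ∀ v, relaxConditions M S L (S ∪ T) v ≤
      continuousH1 (extArithLoc (S ∪ T) v) (Rep.res (extArithLoc (S ∪ T) v) M) := by
    rintro (u | q)
    · exact hL (Sum.inl u)
    · dsimp only [relaxConditions]
      by_cases h : q.1 ∈ S
      · rw [dif_pos h]
        exact hL (Sum.inr ⟨q.1, h⟩)
      · rw [dif_neg h]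
        exact le_refl _
  obtain ⟨h1, -, -, h4⟩ := CFT.greenbergWiles_tate M hsm (S ∪ T) hpT hurT
    (relaxConditions M S L (S ∪ T)) hcont
  have hdual : dualSel M (S ∪ T) (relaxConditions M S L (S ∪ T)) = ⊥ := by
    rw [eq_bot_iff]
    intro y hy
    rw [dualSel, mem_selmerAdm_iff] at hy
    obtain ⟨hloc, hy⟩ := hy
    simp only [dualConditions, mem_orthogonal_iff] at hloc
    have hzero : ∀ q ∈ T, CFT.resAt q (M.dualTwist (cycloChar p)) y = 0 := by
      intro q hq
      have hqS : q ∉ S := fun h => Finset.disjoint_left.1 hdisj h hq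
      refine (CFT.tateFin_perfect M hsm q).right _
        (CFT.locRes_mem_continuousH1 _ (S ∪ T)
          (Sum.inr ⟨q, Finset.mem_union_right S hq⟩) hy) fun z hz => ?_
      exact hloc (Sum.inr ⟨q, Finset.mem_union_right S hq⟩) z (by
        dsimp only [relaxConditions]
        rw [dif_neg hqS]
        exact hz)
    refine (Submodule.mem_bot _).2 (hinj y ?_ hzero)
    rw [dualSel, mem_selmerAdm_iff]
    simp only [dualConditions, mem_orthogonal_iff]
    refine ⟨?_, CFT.mem_continuousH1S_of_unramified (CFT.dualTwist_unramified hur hpS) hy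
      fun r hr hrS => ?_⟩
    · rintro (u | q) z hz
      · exact hloc (Sum.inl u) z hz
      · exact hloc (Sum.inr ⟨q.1, hST q.2⟩) z (by
          dsimp only [relaxConditions]
          rw [dif_pos q.2]
          exact hz)
    · rw [hzero r ((Finset.mem_union.1 hr).resolve_left hrS)]
      exact zero_mem _
  rw [← dualSel, ← selRelaxed, hdual, finrank_bot] at h4
  -- local terms: `L` at `S`, everything at `T`
  let d : Nat.Primes → ℕ := fun q =>
    finrank (ZMod p) (Rep.res (primeLocalToGlobal q) M).ρ.invariants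
  let d' : Nat.Primes → ℕ := fun q => finrank (ZMod p)
    (Rep.res (primeLocalToGlobal q) (M.dualTwist (cycloChar p))).ρ.invariants
  let e : Nat.Primes → ℕ := fun q => finrank (ZMod p)
    (continuousH1 (primeLocalToGlobal q) (Rep.res (primeLocalToGlobal q) M))
  have hdiff : (S ∪ T) \ S = T := Finset.union_sdiff_cancel_left hdisj
  have s1 : ∑ v, finrank (ZMod p) (Rep.res (extArithLoc (S ∪ T) v) M).ρ.invariants =
      ∑ v, finrank (ZMod p) (Rep.res (extArithLoc S v) M).ρ.invariants + ∑ q ∈ T, d q := by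
    conv_rhs => rw [← hdiff]
    exact CFT.sum_extArithIndex hST _ _ d (fun _ => rfl) (fun _ _ _ => rfl) (fun _ _ _ => rfl)
  have s2 : ∑ v, finrank (ZMod p) (relaxConditions M S L (S ∪ T) v) =
      ∑ v, finrank (ZMod p) (L v) + ∑ q ∈ T, e q := by
    conv_rhs => rw [← hdiff]
    refine CFT.sum_extArithIndex hST _ _ e (fun _ => rfl) (fun q hqT hqS => ?_)
      (fun q hqT hqS => ?_)
    · rw [relaxConditions_inr_mem M S L ⟨q, hqT⟩ hqS]
      rfl
    · rw [relaxConditions_inr_not_mem M S L ⟨q, hqT⟩ hqS]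
      rfl
  have s3 : ∑ q ∈ T, e q = ∑ q ∈ T, d q + ∑ q ∈ T, d' q := by
    have a := CFT.sum_finrank_continuousH1 M hsm S hpS
    have b := CFT.sum_finrank_continuousH1 M hsm (S ∪ T) hpT
    have t1 : ∑ v, finrank (ZMod p) (continuousH1 (extArithLoc (S ∪ T) v)
          (Rep.res (extArithLoc (S ∪ T) v) M)) =
        ∑ v, finrank (ZMod p) (continuousH1 (extArithLoc S v) (Rep.res (extArithLoc S v) M))
          + ∑ q ∈ T, e q := by
      conv_rhs => rw [← hdiff]
      exact CFT.sum_extArithIndex hST _ _ e (fun _ => rfl) (fun _ _ _ => rfl) (fun _ _ _ => rfl)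
    have t2 : ∑ v, finrank (ZMod p)
          (Rep.res (extArithLoc (S ∪ T) v) (M.dualTwist (cycloChar p))).ρ.invariants =
        ∑ v, finrank (ZMod p)
          (Rep.res (extArithLoc S v) (M.dualTwist (cycloChar p))).ρ.invariants
          + ∑ q ∈ T, d' q := by
      conv_rhs => rw [← hdiff]
      exact CFT.sum_extArithIndex hST _ _ d' (fun _ => rfl) (fun _ _ _ => rfl) (fun _ _ _ => rfl)
    omega
  refine ⟨h1, ?_⟩
  show _ = _ + ∑ q ∈ T, d' q
  omega

end FermatLib.MLT2
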