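import Fermat.Agent.MLT.Two.Sys.Semisimple
import Fermat.Agent.MLT.Two.Sys.PointSystem
import Fermat.Agent.MLT.Two.Sys.PointRep
import Fermat.Agent.MLT.Two.Sys.Kills

/-!
# V4-Sys: properties of the eigen systems at an auxiliary level

* `exists_pointRep`: the representation at a point of the twisted module;
* `aeval_eq_zero_or_trace_sq`: the factors killing the untwisted systems.
-/

set_option autoImplicit false

noncomputable section

open CongruenceSubgroup

namespace FermatLib.MLT.Two

local notation "Qbar" => AlgebraicClosure ℚ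
local notation "Γℚ" => (AlgebraicClosure ℚ ≃ₐ[ℚ] AlgebraicClosure ℚ)

variable {O : Type} [CommRing O] [IsDomain O] [IsDiscreteValuationRing O]
  [IsAdicComplete (IsLocalRing.maximalIdeal O) O] [CharZero O]
  {k : Type} [Field k] [Finite k] (S : System O k)
  {ι : Type} [Fintype ι] [DecidableEq ι] {n : ℕ} {P : ι → AuxPlace}
  {K : Type} [Field K] [IsAlgClosed K] [CharZero K] [Algebra O K]
  {χ μ : (ZMod (auxLevel S P))ˣ →* Kˣ} {lam : ℕ → K}

variable {A : Type} [CommRing A] [IsDomain A] [IsLocalRing A] [Algebra O A] [Module.Finite O A]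
  {j : A →+* K} {redA : A →+* k}

/-- The representation at a point of the twisted module: `A ⊆ K` contains the twisted eigenvalues
and they reduce to those of the curve. -/
theorem exists_pointRep (hP : IsDepth S n P) (hO : Function.Injective (algebraMap O K))
    (hχ : IsAuxChar S P n χ) (hμ : IsAuxChar S P n μ)
    (hj : Function.Injective j) (hjO : j.comp (algebraMap O A) = algebraMap O K)
    (hred : redA.comp (algebraMap O A) = S.red)
    (hdiam : ∀ u, (χ u : K) ∈ j.range ∧ (μ u : K) ∈ j.range)
    (ht : ∀ l : ℕ, l.Prime → ¬ l ∣ 2 * auxLevel S P →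
      ∃ a : A, j a = charVal μ l * lam l ∧ redA a = S.red (S.ap l : O))
    (hne : goodEigen (auxLevel S P) χ lam ≠ ⊥) :
    ∃ ρ : Γℚ →* Matrix (Fin 2) (Fin 2) A, IsPointRep S P j redA χ μ lam ρ :=
  exists_pointRep_aux S hP hO hχ hμ hj hjO hred hdiam ht hne

/-- An untwisted system comes from level `N`, where the polynomial vanishes, or is new at some
auxiliary prime. -/
theorem aeval_eq_zero_or_trace_sq (hP : IsDepth S n P) (hO : Function.Injective (algebraMap O K))
    {B : ℕ} {pol : MvPolynomial ℕ ℤ} (hpol : IsLevelPolynomial S B pol)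
    (hB : ∀ i, B < (P i).q) (hj : Function.Injective j)
    (hjO : j.comp (algebraMap O A) = algebraMap O K)
    {ρ : Γℚ →* Matrix (Fin 2) (Fin 2) A} (hρ : IsPointRep S P j redA 1 1 lam ρ)
    (hne : goodEigen (auxLevel S P) (1 : (ZMod (auxLevel S P))ˣ →* Kˣ) lam ≠ ⊥) :
    MvPolynomial.aeval lam pol = 0 ∨
      ∃ i, j (ρ (P i).F).trace ^ 2 = (((P i).q + 1 : ℕ) : K) ^ 2 := by
  have : IsNoetherianRing A := IsNoetherianRing.of_finite O A
  have _ := hO
  have _ := hjO
  exact Kills.aeval_eq_zero_or_trace_sq_aux S sysSqFrobeniusOnNewPart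
    (fun M _ => sysSpecializationInput M 2 Nat.prime_two) hP hpol hB hj hρ hne

end FermatLib.MLT.Two

end
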